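import Mathlib
import Fermat.Prelude.Def_FLTPrelim_Modularity

/-!
# S16: common definitions (helper1)

* `S16_sigmaStar p k = ∑_{d ∣ k, p ∤ d} d`: the `k`-th coefficient (`k ≥ 1`) of the weight 2
  Eisenstein series of level `p`.
* `S16_HasCong p M`: there is a weight 2 cusp form on `Γ₀(p)` with integral `q`-expansion which is
  congruent to `∑_{k ≥ 1} σ*(k) q^k` modulo `M`.
-/

set_option autoImplicit false

namespace Fermat.Agent.S16

/-- `σ*(k) = ∑_{d ∣ k, p ∤ d} d`. -/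
def S16_sigmaStar (p k : ℕ) : ℕ := ∑ d ∈ k.divisors with ¬ p ∣ d, d

/-- there is a weight 2 cusp form on `Γ₀(p)` with integral `q`-expansion congruent to
`∑_{k ≥ 1} σ*(k) q^k` modulo `M`. -/
def S16_HasCong (p M : ℕ) : Prop :=
  ∃ f : CuspForm (CongruenceSubgroup.Gamma0 p) 2, ∃ a : ℕ → ℤ,
    (∀ k, ModularFormClass.qCoeff f k = (a k : ℂ)) ∧
      ∀ k, 1 ≤ k → (M : ℤ) ∣ a k - S16_sigmaStar p k

end Fermat.Agent.S16
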