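import Mathlib
import Fermat.Agent.S16.Defs

/-!
# S16: arithmetic of `σ*` (helper1)

`S16_sigmaStar_one`, `S16_sigmaStar_mul_self` (`σ*(kp) = σ*(k)`), `S16_sigmaStar_hecke`
(`σ*(kℓ) + [ℓ ∣ k] ℓ σ*(k/ℓ) = (1 + ℓ) σ*(k)` for primes `ℓ ≠ p`),
`S16_sigmaStar_pow_mul` (`σ*(p^e u) = σ₁(u)` for `p ∤ u`).
-/
set_option autoImplicit false

open ArithmeticFunction
open scoped ArithmeticFunction.sigma

namespace Fermat.Agent.S16

theorem S16_sigmaStar_zero (p : ℕ) : S16_sigmaStar p 0 = 0 := by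
  simp [S16_sigmaStar]

theorem S16_sigmaStar_pow_mul {p : ℕ} (hp : p.Prime) (e : ℕ) {u : ℕ} (hu : u ≠ 0) (hpu : ¬ p ∣ u) :
    S16_sigmaStar p (p ^ e * u) = σ 1 u := by
  rw [sigma_one_apply, S16_sigmaStar]
  congr 1
  ext d
  simp only [Finset.mem_filter, Nat.mem_divisors]
  constructor
  · rintro ⟨⟨hd, -⟩, hpd⟩
    refine ⟨?_, hu⟩
    have hcop : Nat.Coprime d (p ^ e) :=
      Nat.Coprime.pow_right e ((Nat.Prime.coprime_iff_not_dvd hp).mpr hpd).symm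
    exact hcop.dvd_of_dvd_mul_left hd
  · rintro ⟨hd, -⟩
    refine ⟨⟨Dvd.dvd.mul_left hd _, mul_ne_zero (pow_ne_zero _ hp.ne_zero) hu⟩, ?_⟩
    exact fun hpd => hpu (hpd.trans hd)

theorem S16_sigmaStar_one {p : ℕ} (hp : p.Prime) : S16_sigmaStar p 1 = 1 := by
  have := S16_sigmaStar_pow_mul hp 0 one_ne_zero (by simpa using hp.one_lt.ne')
  simpa using this

/-- the Hecke relation for `σ = σ₁`. -/
theorem S16_sigma_hecke {ℓ : ℕ} (hℓ : ℓ.Prime) {u : ℕ} (hu : u ≠ 0) :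
    σ 1 (u * ℓ) + (if ℓ ∣ u then ℓ * σ 1 (u / ℓ) else 0) = (1 + ℓ) * σ 1 u := by
  obtain ⟨a, v, hv, rfl⟩ := Nat.exists_eq_pow_mul_and_not_dvd hu ℓ hℓ.ne_one
  have hcop : ∀ b : ℕ, Nat.Coprime (ℓ ^ b) v := fun b =>
    Nat.Coprime.pow_left b ((Nat.Prime.coprime_iff_not_dvd hℓ).mpr hv)
  have hs : ∀ b : ℕ, σ 1 (ℓ ^ b * v) = (∑ i ∈ Finset.range (b + 1), ℓ ^ i) * σ 1 v := by
    intro b
    rw [isMultiplicative_sigma.map_mul_of_coprime (hcop b), sigma_one_apply_prime_pow hℓ]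
  have h1 : ℓ ^ a * v * ℓ = ℓ ^ (a + 1) * v := by ring
  rw [h1, hs, hs]
  rcases Nat.eq_zero_or_pos a with rfl | ha
  · have : ¬ ℓ ∣ ℓ ^ 0 * v := by simpa using hv
    rw [if_neg this]
    simp [Finset.sum_range_succ]
  · have : ℓ ∣ ℓ ^ a * v := Dvd.dvd.mul_right (dvd_pow_self ℓ ha.ne') v
    rw [if_pos this]
    obtain ⟨b, rfl⟩ : ∃ b, a = b + 1 := ⟨a - 1, by omega⟩
    have h2 : ℓ ^ (b + 1) * v / ℓ = ℓ ^ b * v := by
      rw [pow_succ, mul_assoc, mul_comm ℓ v, ← mul_assoc]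
      exact Nat.mul_div_cancel _ hℓ.pos
    rw [h2, hs]
    simp only [Finset.sum_range_succ]
    ring

theorem S16_sigmaStar_mul_self {p : ℕ} (hp : p.Prime) (k : ℕ) :
    S16_sigmaStar p (k * p) = S16_sigmaStar p k := by
  rcases Nat.eq_zero_or_pos k with rfl | hk
  · simp
  obtain ⟨e, u, hu, rfl⟩ := Nat.exists_eq_pow_mul_and_not_dvd hk.ne' p hp.ne_one
  have hu0 : u ≠ 0 := by rintro rfl; simp at hu
  have h1 : p ^ e * u * p = p ^ (e + 1) * u := by ring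
  rw [h1, S16_sigmaStar_pow_mul hp _ hu0 hu, S16_sigmaStar_pow_mul hp _ hu0 hu]

theorem S16_sigmaStar_hecke {p ℓ : ℕ} (hp : p.Prime) (hℓ : ℓ.Prime) (hℓp : ℓ ≠ p) {k : ℕ}
    (hk : k ≠ 0) :
    S16_sigmaStar p (k * ℓ) + (if ℓ ∣ k then ℓ * S16_sigmaStar p (k / ℓ) else 0) =
      (1 + ℓ) * S16_sigmaStar p k := by
  obtain ⟨e, u, hu, rfl⟩ := Nat.exists_eq_pow_mul_and_not_dvd hk p hp.ne_one
  have hu0 : u ≠ 0 := by rintro rfl; simp at hu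
  have hpℓ : ¬ p ∣ ℓ := fun h => hℓp ((Nat.prime_dvd_prime_iff_eq hp hℓ).mp h).symm
  have hpuℓ : ¬ p ∣ u * ℓ := fun h => (hp.dvd_mul.mp h).elim hu hpℓ
  have hcop : Nat.Coprime ℓ (p ^ e) :=
    Nat.Coprime.pow_right e ((Nat.coprime_primes hℓ hp).mpr hℓp)
  have hdvd : ℓ ∣ p ^ e * u ↔ ℓ ∣ u :=
    ⟨fun h => hcop.dvd_of_dvd_mul_left h, fun h => Dvd.dvd.mul_left h _⟩
  have h1 : p ^ e * u * ℓ = p ^ e * (u * ℓ) := by ring
  rw [h1, S16_sigmaStar_pow_mul hp _ (mul_ne_zero hu0 hℓ.ne_zero) hpuℓ,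
    S16_sigmaStar_pow_mul hp _ hu0 hu, ← S16_sigma_hecke hℓ hu0]
  congr 1
  by_cases hℓu : ℓ ∣ u
  · rw [if_pos (hdvd.mpr hℓu), if_pos hℓu]
    obtain ⟨w, rfl⟩ := hℓu
    have hw0 : w ≠ 0 := by rintro rfl; simp at hu0
    have hpw : ¬ p ∣ w := fun h => hu (Dvd.dvd.mul_left h _)
    have h2 : p ^ e * (ℓ * w) / ℓ = p ^ e * w := by
      rw [mul_left_comm]
      exact Nat.mul_div_cancel_left _ hℓ.pos
    rw [h2, S16_sigmaStar_pow_mul hp _ hw0 hpw, Nat.mul_div_cancel_left _ hℓ.pos]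
  · rw [if_neg (fun h => hℓu (hdvd.mp h)), if_neg hℓu]

end Fermat.Agent.S16
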