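import Mathlib
import Fermat.Prelude.Def_CuspForm_HeckeLocal
import Fermat.Prelude.Def_CuspForm_HeckeEvalForms
import Fermat.Prelude.Def_HeckeGalois_EichlerShimura
import Fermat.Agent.S49.Lattice
import Fermat.Agent.S16.SigmaStar

/-! # S16 DUAL (helper1), part 1: the action of Hecke polynomials on the lattice and its q-coefficients. -/

set_option autoImplicit false

open CuspForm ModularCurve CongruenceSubgroup ModularFormClass Fermat.Agent.S49

namespace Fermat.Agent.S16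

variable (p : ℕ) [Fact p.Prime]

/-- the structure map `ℤ[X_ℓ] → T`. -/
noncomputable def S16_rho : HeckeAlg →+* ↥(heckeLatticeAlgebra p ∅) :=
  (latticeRestrictHom p ∅).toRingHom.comp (heckeEvalForms p 2)

/-- the evaluation `ℤ[X_ℓ] → ℤ` at the Eisenstein system. -/
noncomputable def S16_ev : HeckeAlg →ₐ[ℤ] ℤ := MvPolynomial.aeval (eisensteinSystem p)

omit [Fact p.Prime] in
theorem S16_mem_eisensteinIdeal (P : HeckeAlg) : P ∈ eisensteinIdeal p ↔ S16_ev p P = 0 :=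
  mem_eigenIdeal_iff _ _

/-- the action of `P` on the lattice. -/
noncomputable def S16_act (P : HeckeAlg) : Module.End ℤ ↥(intLattice p 2) := (S16_rho p P).1

theorem S16_act_apply_coe (P : HeckeAlg) (f : ↥(intLattice p 2)) :
    ((S16_act p P f : ↥(intLattice p 2)) : CuspForm (Gamma0 p) 2) =
      (heckeEvalForms p 2 P).1 (f : CuspForm (Gamma0 p) 2) := rfl

theorem S16_act_mul (P Q : HeckeAlg) (f : ↥(intLattice p 2)) :
    S16_act p (P * Q) f = S16_act p P (S16_act p Q f) := by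
  unfold S16_act
  rw [map_mul]
  rfl

theorem S16_act_add (P Q : HeckeAlg) (f : ↥(intLattice p 2)) :
    S16_act p (P + Q) f = S16_act p P f + S16_act p Q f := by
  unfold S16_act
  rw [map_add]
  rfl

theorem S16_act_C (z : ℤ) (f : ↥(intLattice p 2)) :
    S16_act p (MvPolynomial.C z) f = z • f := by
  apply Subtype.ext
  rw [S16_act_apply_coe, heckeEvalForms_C]
  simp

theorem S16_act_one (f : ↥(intLattice p 2)) : S16_act p 1 f = f := by
  unfold S16_act
  rw [map_one]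
  rfl

theorem S16_act_comm (P Q : HeckeAlg) (f : ↥(intLattice p 2)) :
    S16_act p P (S16_act p Q f) = S16_act p Q (S16_act p P f) := by
  rw [← S16_act_mul, ← S16_act_mul, mul_comm]

/-- coefficients of `T_ℓ f`, `ℓ ≠ p`. -/
theorem S16_intCoeff_act_X {ℓ : Nat.Primes} (hℓ : (ℓ : ℕ) ≠ p) (f : ↥(intLattice p 2)) (k : ℕ) :
    S49_intCoeff k (S16_act p (MvPolynomial.X ℓ) f) =
      S49_intCoeff (k * ℓ) f + if (ℓ : ℕ) ∣ k then (ℓ : ℤ) * S49_intCoeff (k / ℓ) f else 0 := by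
  have hℓp : ¬ (ℓ : ℕ) ∣ p := fun h =>
    hℓ ((Nat.prime_dvd_prime_iff_eq ℓ.2 (Fact.out : p.Prime)).mp h)
  apply S49_intCoeff_eq
  rw [S16_act_apply_coe]
  have h1 : heckeEvalForms p 2 (MvPolynomial.X ℓ) = heckeAlgebra.T ℓ.2 hℓp (Set.notMem_empty _) :=
    heckeEvalForms_heckeGen_of_not_dvd hℓp
  rw [h1, heckeAlgebra.coe_T, S49_qCoeff_heckeTLin, S49_intCoeff_spec]
  split_ifs with h
  · rw [S49_intCoeff_spec]; push_cast; rfl
  · push_cast; rfl

/-- coefficients of `U_p f`. -/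
theorem S16_intCoeff_act_X_self {ℓ : Nat.Primes} (hℓ : (ℓ : ℕ) = p) (f : ↥(intLattice p 2))
    (k : ℕ) :
    S49_intCoeff k (S16_act p (MvPolynomial.X ℓ) f) = S49_intCoeff (k * p) f := by
  have hℓp : (ℓ : ℕ) ∣ p := hℓ ▸ dvd_rfl
  apply S49_intCoeff_eq
  rw [S16_act_apply_coe]
  have h1 : heckeEvalForms p 2 (MvPolynomial.X ℓ) = heckeAlgebra.U ℓ.2 hℓp (Set.notMem_empty _) :=
    heckeEvalForms_heckeGen_of_dvd hℓp
  rw [h1, heckeAlgebra.coe_U, S49_qCoeff_heckeULin ℓ.2, S49_intCoeff_spec, hℓ]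

end Fermat.Agent.S16
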