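import Mathlib
import Fermat.Agent.S16.DualAct

/-! # S16 DUAL (helper1), part 2: Hecke polynomials P_k with a_k(f) = a_1(P_k f) and ev(P_k) = sigma*(k). -/

set_option autoImplicit false

open CuspForm ModularCurve CongruenceSubgroup ModularFormClass Fermat.Agent.S49

namespace Fermat.Agent.S16

variable (p : ℕ) [Fact p.Prime]

omit [Fact p.Prime] in
theorem S16_ev_X (ℓ : Nat.Primes) : S16_ev p (MvPolynomial.X ℓ) = eisensteinSystem p ℓ :=
  MvPolynomial.aeval_X _ _

omit [Fact p.Prime] in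
theorem S16_ev_C (z : ℤ) : S16_ev p (MvPolynomial.C z) = z := by
  unfold S16_ev
  rw [MvPolynomial.aeval_C]
  rfl

theorem S16_act_sub (P Q : HeckeAlg) (f : ↥(intLattice p 2)) :
    S16_act p (P - Q) f = S16_act p P f - S16_act p Q f := by
  unfold S16_act
  rw [map_sub]
  rfl

omit [Fact p.Prime] in
theorem S16_intCoeff_sub (n : ℕ) (x y : intLattice p 2) :
    S49_intCoeff n (x - y) = S49_intCoeff n x - S49_intCoeff n y := by
  have h := S49_intCoeff_add n (x - y) y
  rw [sub_add_cancel] at h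
  omega

/-- **Hecke polynomials**: `a_k(f) = a_1(P_k f)` with `ev(P_k) = σ*(k)`. -/
theorem S16_exists_heckePoly (k : ℕ) (hk : 1 ≤ k) :
    ∃ P : HeckeAlg, S16_ev p P = S16_sigmaStar p k ∧
      ∀ f : ↥(intLattice p 2), S49_intCoeff k f = S49_intCoeff 1 (S16_act p P f) := by
  have hp : p.Prime := Fact.out
  induction k using Nat.strong_induction_on with
  | _ k ih =>
    rcases Nat.lt_or_ge 1 k with hk1 | hk1
    swap
    · obtain rfl : k = 1 := le_antisymm hk1 hk
      refine ⟨1, ?_, fun f => ?_⟩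
      · rw [map_one, S16_sigmaStar_one hp]; rfl
      · rw [S16_act_one]
    -- `k = k' * ℓ` with `ℓ` prime
    have hℓ : (k.minFac).Prime := Nat.minFac_prime hk1.ne'
    obtain ⟨k', hk'⟩ : ∃ k', k = k' * k.minFac := ⟨k / k.minFac, (Nat.div_mul_cancel (Nat.minFac_dvd k)).symm⟩
    set ℓ : Nat.Primes := ⟨k.minFac, hℓ⟩ with hℓdef
    have hℓval : (ℓ : ℕ) = k.minFac := rfl
    have hk'pos : 1 ≤ k' := by
      rcases Nat.eq_zero_or_pos k' with h | h
      · rw [h, zero_mul] at hk'; omega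
      · exact h
    have hk'lt : k' < k := by
      rw [hk']
      exact lt_mul_of_one_lt_right hk'pos hℓ.one_lt
    obtain ⟨P', hP'ev, hP'⟩ := ih k' hk'lt hk'pos
    by_cases hℓp : (ℓ : ℕ) = p
    · -- `ℓ = p`
      refine ⟨P' * MvPolynomial.X ℓ, ?_, fun f => ?_⟩
      · rw [map_mul, hP'ev, S16_ev_X, eisensteinSystem_of_dvd (hℓp ▸ dvd_rfl), mul_one, hk',
          ← hℓval, hℓp, S16_sigmaStar_mul_self hp]
      · rw [S16_act_mul, ← hP', S16_intCoeff_act_X_self p hℓp, hk', ← hℓval, hℓp]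
    · -- `ℓ ≠ p`
      have hℓp' : ¬ (ℓ : ℕ) ∣ p := fun h => hℓp ((Nat.prime_dvd_prime_iff_eq ℓ.2 hp).mp h)
      by_cases hdvd : (ℓ : ℕ) ∣ k'
      · obtain ⟨k'', hk''⟩ := hdvd
        have hk''pos : 1 ≤ k'' := by
          rcases Nat.eq_zero_or_pos k'' with h | h
          · rw [h, mul_zero] at hk''; omega
          · exact h
        have hk''lt : k'' < k := by
          have : k'' ≤ k' := by
            rw [hk'']; exact Nat.le_mul_of_pos_left _ ℓ.2.pos
          omega
        obtain ⟨P'', hP''ev, hP''⟩ := ih k'' hk''lt hk''pos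
        have hdiv : k' / (ℓ : ℕ) = k'' := by
          rw [hk'']; exact Nat.mul_div_cancel_left _ ℓ.2.pos
        refine ⟨P' * MvPolynomial.X ℓ - MvPolynomial.C (ℓ : ℤ) * P'', ?_, fun f => ?_⟩
        · rw [map_sub, map_mul, map_mul, hP'ev, hP''ev, S16_ev_X, S16_ev_C,
            eisensteinSystem_of_not_dvd hℓp']
          have h := S16_sigmaStar_hecke hp ℓ.2 hℓp (k := k') (by omega)
          rw [if_pos ⟨k'', hk''⟩, hdiv] at h
          rw [hk', ← hℓval]
          have h' : ((S16_sigmaStar p (k' * ℓ) : ℕ) : ℤ) + (ℓ : ℕ) * S16_sigmaStar p k'' =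
              (1 + (ℓ : ℕ)) * S16_sigmaStar p k' := by exact_mod_cast h
          linear_combination -h'
        · rw [S16_act_sub, S16_intCoeff_sub, S16_act_mul, ← hP', S16_intCoeff_act_X p hℓp,
            S16_act_mul, S16_act_C, S49_intCoeff_zsmul, ← hP'',
            if_pos ⟨k'', hk''⟩, hdiv, hk', ← hℓval]
          ring
      · refine ⟨P' * MvPolynomial.X ℓ, ?_, fun f => ?_⟩
        · rw [map_mul, hP'ev, S16_ev_X, eisensteinSystem_of_not_dvd hℓp']
          have h := S16_sigmaStar_hecke hp ℓ.2 hℓp (k := k') (by omega)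
          rw [if_neg hdvd, add_zero] at h
          rw [hk', ← hℓval, h]
          push_cast
          ring
        · rw [S16_act_mul, ← hP', S16_intCoeff_act_X p hℓp, if_neg hdvd, add_zero, hk', ← hℓval]

end Fermat.Agent.S16
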