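import Mathlib
import Fermat.Agent.S16.DualHecke

/-! # S16 DUAL (helper1), part 3: the pairing L x T -> Z, (f,t) -> a_1(t f), is nondegenerate; rank T = rank L. -/

set_option autoImplicit false

open CuspForm ModularCurve CongruenceSubgroup ModularFormClass Fermat.Agent.S49

namespace Fermat.Agent.S16

/-- an injective map into a finite module of at most the same rank has torsion cokernel. -/
theorem S16_exists_smul_mem_range {R M D : Type*} [CommRing R] [IsDomain R]
    [AddCommGroup M] [Module R M]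
    [AddCommGroup D] [Module R D] [Module.Finite R D] (Φ : M →ₗ[R] D)
    (hΦ : Function.Injective Φ) (hrk : Module.finrank R D ≤ Module.finrank R M) (φ : D) :
    ∃ c : R, c ≠ 0 ∧ c • φ ∈ LinearMap.range Φ := by
  have h1 : Module.finrank R (LinearMap.range Φ) = Module.finrank R M :=
    (LinearEquiv.ofInjective Φ hΦ).finrank_eq.symm
  have h2 := (LinearMap.range Φ).finrank_quotient_add_finrank
  have h3 : Module.finrank R (D ⧸ LinearMap.range Φ) = 0 := by omega
  have h4 : Module.IsTorsion R (D ⧸ LinearMap.range Φ) := Module.finrank_eq_zero_iff_isTorsion.mp h3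
  obtain ⟨c, hc⟩ := @h4 (Submodule.Quotient.mk φ)
  refine ⟨c, nonZeroDivisors.coe_ne_zero c, ?_⟩
  have h5 : (Submodule.Quotient.mk ((c : R) • φ) : D ⧸ LinearMap.range Φ) = 0 := by
    rw [Submodule.Quotient.mk_smul]; exact hc
  exact (Submodule.Quotient.mk_eq_zero _).mp h5

variable (p : ℕ) [Fact p.Prime]

/-- `heckeEvalForms` is surjective. -/
theorem S16_heckeEvalForms_surjective : Function.Surjective (heckeEvalForms p 2) := by
  rintro ⟨x, hx⟩
  suffices h : ∃ P : HeckeAlg, ((heckeEvalForms p 2 P : heckeAlgebra p 2 ∅) :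
      Module.End ℂ (CuspForm (Gamma0 p) 2)) = x by
    obtain ⟨P, hP⟩ := h
    exact ⟨P, Subtype.ext hP⟩
  induction hx using Algebra.adjoin_induction with
  | mem x hx =>
    rcases hx with ⟨ℓ, hℓ, hℓN, -, rfl⟩ | ⟨q, hqN, hq, -, rfl⟩
    · refine ⟨MvPolynomial.X ⟨ℓ, hℓ⟩, ?_⟩
      have := heckeEvalForms_heckeGen_of_not_dvd (N := p) (k := 2) (ℓ := ⟨ℓ, hℓ⟩) hℓN
      rw [show (MvPolynomial.X ⟨ℓ, hℓ⟩ : HeckeAlg) = heckeGen ⟨ℓ, hℓ⟩ from rfl, this]
      rfl
    · refine ⟨MvPolynomial.X ⟨q, hq⟩, ?_⟩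
      have := heckeEvalForms_heckeGen_of_dvd (N := p) (k := 2) (q := ⟨q, hq⟩) hqN
      rw [show (MvPolynomial.X ⟨q, hq⟩ : HeckeAlg) = heckeGen ⟨q, hq⟩ from rfl, this]
      rfl
  | algebraMap z =>
    refine ⟨MvPolynomial.C z, ?_⟩
    rw [heckeEvalForms_C]
    rfl
  | add x y _ _ hx hy =>
    obtain ⟨P, rfl⟩ := hx
    obtain ⟨Q, rfl⟩ := hy
    exact ⟨P + Q, by rw [map_add]; rfl⟩
  | mul x y _ _ hx hy =>
    obtain ⟨P, rfl⟩ := hx
    obtain ⟨Q, rfl⟩ := hy
    exact ⟨P * Q, by rw [map_mul]; rfl⟩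

theorem S16_rho_surjective : Function.Surjective (S16_rho p) := by
  intro t
  obtain ⟨s, rfl⟩ := latticeRestrictHom_surjective p ∅ t
  obtain ⟨P, rfl⟩ := S16_heckeEvalForms_surjective p s
  exact ⟨P, rfl⟩

/-- every element of `T` is the action of a polynomial. -/
theorem S16_exists_act (t : ↥(heckeLatticeAlgebra p ∅)) :
    ∃ P : HeckeAlg, S16_rho p P = t := S16_rho_surjective p t

/-- `a₁` as a linear form on the lattice. -/
noncomputable def S16_a1 : ↥(intLattice p 2) →ₗ[ℤ] ℤ where
  toFun := S49_intCoeff 1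
  map_add' := S49_intCoeff_add 1
  map_smul' z x := by
    rw [S49_intCoeff_zsmul]; rfl

omit [Fact p.Prime] in
theorem S16_a1_apply (f : ↥(intLattice p 2)) : S16_a1 p f = S49_intCoeff 1 f := rfl

/-- the pairing `L × T → ℤ`, `(f, t) ↦ a₁(t f)`. -/
noncomputable def S16_pair : ↥(intLattice p 2) →ₗ[ℤ] (↥(heckeLatticeAlgebra p ∅) →ₗ[ℤ] ℤ) :=
  LinearMap.mk₂ ℤ (fun f t => S16_a1 p (t.1 f))
    (fun f g t => by simp only [map_add])
    (fun z f t => by simp only [map_smul])
    (fun f s t => by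
      show S16_a1 p ((s + t).1 f) = _
      rw [show ((s + t : ↥(heckeLatticeAlgebra p ∅)).1) = s.1 + t.1 from rfl,
        LinearMap.add_apply, map_add])
    (fun z f t => by
      show S16_a1 p ((z • t).1 f) = _
      rw [show ((z • t : ↥(heckeLatticeAlgebra p ∅)).1) = z • t.1 from rfl,
        LinearMap.smul_apply, map_smul])

theorem S16_pair_apply (f : ↥(intLattice p 2)) (t : ↥(heckeLatticeAlgebra p ∅)) :
    S16_pair p f t = S49_intCoeff 1 (t.1 f) := rfl

theorem S16_pair_rho (f : ↥(intLattice p 2)) (P : HeckeAlg) :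
    S16_pair p f (S16_rho p P) = S49_intCoeff 1 (S16_act p P f) := rfl

omit [Fact p.Prime] in
/-- a lattice element with vanishing coefficients `a_k`, `k ≥ 1`, is zero. -/
theorem S16_eq_zero_of_intCoeff (f : ↥(intLattice p 2))
    (h : ∀ k, 1 ≤ k → S49_intCoeff k f = 0) : f = 0 := by
  apply Subtype.ext
  apply S49_eq_zero_of_qCoeff
  intro n
  rcases Nat.eq_zero_or_pos n with rfl | hn
  · exact S49_qCoeff_zero _
  · rw [S49_intCoeff_spec, h n hn, Int.cast_zero]

theorem S16_pair_injective : Function.Injective (S16_pair p) := by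
  rw [injective_iff_map_eq_zero]
  intro f hf
  apply S16_eq_zero_of_intCoeff
  intro k hk
  obtain ⟨P, -, hP⟩ := S16_exists_heckePoly p k hk
  rw [hP f, ← S16_pair_rho, hf]
  rfl

theorem S16_pair_flip_injective : Function.Injective (S16_pair p).flip := by
  rw [injective_iff_map_eq_zero]
  intro t ht
  obtain ⟨Q, rfl⟩ := S16_exists_act p t
  apply Subtype.ext
  apply LinearMap.ext
  intro f
  show S16_act p Q f = 0
  apply S16_eq_zero_of_intCoeff
  intro k hk
  obtain ⟨P, -, hP⟩ := S16_exists_heckePoly p k hk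
  rw [hP, S16_act_comm, ← S16_pair_rho]
  have := LinearMap.congr_fun ht (S16_act p P f)
  simpa using this

theorem S16_finrank_eq :
    Module.finrank ℤ ↥(heckeLatticeAlgebra p ∅) = Module.finrank ℤ ↥(intLattice p 2) := by
  have := intLattice.moduleFinite p
  have := intLattice.moduleFree p
  apply le_antisymm
  · have := LinearMap.finrank_le_finrank_of_injective (S16_pair_flip_injective p)
    rwa [Module.finrank_linearMap_self] at this
  · have := LinearMap.finrank_le_finrank_of_injective (S16_pair_injective p)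
    rwa [Module.finrank_linearMap_self] at this

end Fermat.Agent.S16
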