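import Mathlib
import Fermat.Agent.S20.P1Index

/-!
# S16, CASE7, piece P5: counting the cosets of `Γ₀(3p)` in `SL(2,ℤ)`

A system of representatives of `Γ₀(3p) \ SL(2,ℤ)` has `4 n₁` elements, where `n₁ ≥ 1` is the number
of representatives with lower left entry divisible by `3` (`n₁ = [Γ₀(3) : Γ₀(3p)]`).
-/

set_option autoImplicit false

open Matrix.SpecialLinearGroup CongruenceSubgroup
open scoped MatrixGroups

namespace Fermat.Agent.S16

theorem S16_c7_index_three : (Gamma0 3).index = 4 := by
  rw [Fermat.Agent.S20.S20_index_Gamma0 3 (by norm_num)]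
  unfold ModularCurve.dedekindPsi
  have h3 : Nat.divisors 3 = {1, 3} := by decide
  rw [h3]
  have hs3 : Squarefree (3 : ℕ) := Nat.prime_three.squarefree
  rw [Finset.filter_true_of_mem]
  · simp
  · intro d hd
    simp only [Finset.mem_insert, Finset.mem_singleton] at hd
    rcases hd with rfl | rfl
    · exact squarefree_one
    · exact hs3

/-- For `H ≤ K`, the number of cosets in `G ⧸ H` whose chosen representative lies in `K` is the
relative index of `H` in `K`. -/
theorem S16_c7_card_out_mem {G : Type*} [Group G] (H K : Subgroup G) (hHK : H ≤ K)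
    [Fintype (G ⧸ H)] [DecidablePred (fun i : G ⧸ H => Quotient.out i ∈ K)] :
    (Finset.univ.filter (fun i : G ⧸ H => Quotient.out i ∈ K)).card = H.relIndex K := by
  have hA : ∀ x : G, Quotient.out (QuotientGroup.mk x : G ⧸ H) ∈ K ↔ x ∈ K := by
    intro x
    have h1 : (QuotientGroup.mk (Quotient.out (QuotientGroup.mk x : G ⧸ H)) : G ⧸ H) =
        QuotientGroup.mk x := Quotient.out_eq _
    rw [QuotientGroup.eq] at h1
    have h2 := hHK h1
    constructor
    · intro h
      have := K.mul_mem h h2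
      simpa using this
    · intro h
      have := K.mul_mem h (K.inv_mem h2)
      simpa using this
  rw [Subgroup.relIndex, Subgroup.index, ← Fintype.card_subtype, ← Nat.card_eq_fintype_card]
  apply Nat.card_congr
  refine
    { toFun := fun i => QuotientGroup.mk ⟨Quotient.out i.1, i.2⟩
      invFun := fun q => ⟨QuotientGroup.mk (Quotient.out q : K).1, (hA _).2 (Quotient.out q).2⟩
      left_inv := ?_
      right_inv := ?_ }
  · rintro ⟨i, hi⟩
    apply Subtype.ext
    simp only
    have h1 : (QuotientGroup.mk (Quotient.out i) : G ⧸ H) = i := Quotient.out_eq _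
    conv_rhs => rw [← h1]
    rw [QuotientGroup.eq]
    have h2 : (QuotientGroup.mk (Quotient.out (QuotientGroup.mk ⟨Quotient.out i, hi⟩ :
        K ⧸ H.subgroupOf K)) : K ⧸ H.subgroupOf K) = QuotientGroup.mk ⟨Quotient.out i, hi⟩ :=
      Quotient.out_eq _
    rw [QuotientGroup.eq, Subgroup.mem_subgroupOf] at h2
    simpa using h2
  · intro q
    simp only
    have h1 : (QuotientGroup.mk (Quotient.out q) : K ⧸ H.subgroupOf K) = q := Quotient.out_eq _
    conv_rhs => rw [← h1]
    rw [QuotientGroup.eq, Subgroup.mem_subgroupOf]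
    have h2 : (QuotientGroup.mk (Quotient.out (QuotientGroup.mk ((Quotient.out q : K) : G) :
        G ⧸ H)) : G ⧸ H) = QuotientGroup.mk ((Quotient.out q : K) : G) := Quotient.out_eq _
    rw [QuotientGroup.eq] at h2
    simpa using h2

/-- (P5) a system of representatives of `Γ₀(3p) \ SL(2,ℤ)` with `4 n₁` elements, `n₁ ≥ 1` of which
have lower left entry divisible by `3`. -/
theorem S16_c7_count (p : ℕ) (hp : 0 < p) :
    ∃ (ι : Type) (_ : Fintype ι) (γ : ι → SL(2, ℤ)),
      (∀ g : SL(2, ℤ), ∃! i, g * (γ i)⁻¹ ∈ Gamma0 (3 * p)) ∧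
      Fintype.card ι = 4 * (Finset.univ.filter (fun i => (3 : ℤ) ∣ (γ i) 1 0)).card ∧
      0 < (Finset.univ.filter (fun i => (3 : ℤ) ∣ (γ i) 1 0)).card := by
  classical
  set H : Subgroup SL(2, ℤ) := Gamma0 (3 * p) with hH
  set K : Subgroup SL(2, ℤ) := Gamma0 3 with hK
  have hHK : H ≤ K := by
    have := Fermat.Agent.S20.S20_Gamma0_le p 3
    rwa [mul_comm] at this
  have hindex : H.index ≠ 0 := by
    rw [hH, Fermat.Agent.S20.S20_index_Gamma0 (3 * p) (by positivity)]
    unfold ModularCurve.dedekindPsi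
    have h1 : (1 : ℕ) ∈ (3 * p).divisors.filter (fun d => Squarefree d) := by
      simp only [Finset.mem_filter, Nat.mem_divisors, one_dvd, true_and]
      exact ⟨by positivity, squarefree_one⟩
    intro h0
    have := Finset.sum_eq_zero_iff.mp h0 1 h1
    simp at this
    omega
  have hfin : H.FiniteIndex := ⟨hindex⟩
  let _ : Fintype (SL(2, ℤ) ⧸ H) := Subgroup.fintypeQuotientOfFiniteIndex
  refine ⟨SL(2, ℤ) ⧸ H, inferInstance, fun i => (Quotient.out i)⁻¹, ?_, ?_⟩
  · intro g
    refine ⟨QuotientGroup.mk g⁻¹, ?_, ?_⟩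
    · simp only [inv_inv]
      have h1 : (QuotientGroup.mk (Quotient.out (QuotientGroup.mk g⁻¹ : SL(2, ℤ) ⧸ H)) :
          SL(2, ℤ) ⧸ H) = QuotientGroup.mk g⁻¹ := Quotient.out_eq _
      rw [QuotientGroup.eq] at h1
      have := H.inv_mem h1
      simpa [mul_inv_rev] using this
    · intro i hi
      simp only [inv_inv] at hi
      have h1 : (QuotientGroup.mk (Quotient.out i) : SL(2, ℤ) ⧸ H) = i := Quotient.out_eq _
      rw [← h1, QuotientGroup.eq]
      have := H.inv_mem hi
      simpa [mul_inv_rev] using this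
  · -- the count
    have hfilter : (Finset.univ.filter
        (fun i : SL(2, ℤ) ⧸ H => (3 : ℤ) ∣ ((Quotient.out i)⁻¹ : SL(2, ℤ)) 1 0)) =
        Finset.univ.filter (fun i : SL(2, ℤ) ⧸ H => Quotient.out i ∈ K) := by
      refine Finset.filter_congr (fun i _ => ?_)
      have := Fermat.Agent.S20.S20_mem_Gamma0_iff 3 ((Quotient.out i)⁻¹ : SL(2, ℤ))
      rw [show ((3 : ℕ) : ℤ) = 3 from rfl] at this
      rw [← this, ← hK]
      exact K.inv_mem_iff
    rw [hfilter]
    have hcard := S16_c7_card_out_mem H K hHK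
    have hmul := Subgroup.relIndex_mul_index hHK
    rw [hcard]
    have hK4 : K.index = 4 := S16_c7_index_three
    constructor
    · rw [← Nat.card_eq_fintype_card]
      show H.index = _
      rw [← hmul, hK4]; ring
    · rw [Nat.pos_iff_ne_zero]
      intro h0
      rw [h0, zero_mul] at hmul
      exact hindex hmul.symm

end Fermat.Agent.S16
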