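import Mathlib

/-!
# S16 CASE7, package P1: the ring of `2`-integral algebraic numbers (helper25)

`S16_oddInt`: the subring of `ℂ` of all `x` such that `n * x` is an algebraic integer for some odd
natural number `n`. It contains `ℤ`, the inverses of the odd numbers and all roots of unity, and
`1 / 2` is not in it.
-/

set_option autoImplicit false

namespace Fermat.Agent.S16

/-- complex numbers `x` such that `n * x` is an algebraic integer for some odd `n`. -/
def S16_oddInt : Subring ℂ where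
  carrier := {x | ∃ n : ℕ, Odd n ∧ IsIntegral ℤ ((n : ℂ) * x)}
  mul_mem' := by
    rintro x y ⟨n, hn, hx⟩ ⟨m, hm, hy⟩
    refine ⟨n * m, hn.mul hm, ?_⟩
    have h := hx.mul hy
    have e : ((n * m : ℕ) : ℂ) * (x * y) = (n : ℂ) * x * ((m : ℂ) * y) := by push_cast; ring
    rw [e]
    exact h
  one_mem' := ⟨1, odd_one, by simpa using isIntegral_one⟩
  add_mem' := by
    rintro x y ⟨n, hn, hx⟩ ⟨m, hm, hy⟩
    refine ⟨n * m, hn.mul hm, ?_⟩
    have hm' : IsIntegral ℤ (m : ℂ) := isIntegral_natCast m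
    have hn' : IsIntegral ℤ (n : ℂ) := isIntegral_natCast n
    have h := (hm'.mul hx).add (hn'.mul hy)
    have e : ((n * m : ℕ) : ℂ) * (x + y) = (m : ℂ) * ((n : ℂ) * x) + (n : ℂ) * ((m : ℂ) * y) := by
      push_cast; ring
    rw [e]
    exact h
  zero_mem' := ⟨1, odd_one, by simpa using isIntegral_zero⟩
  neg_mem' := by
    rintro x ⟨n, hn, hx⟩
    refine ⟨n, hn, ?_⟩
    have e : (n : ℂ) * -x = -((n : ℂ) * x) := by ring
    rw [e]
    exact hx.neg

theorem S16_oddInt_mem {x : ℂ} :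
    x ∈ S16_oddInt ↔ ∃ n : ℕ, Odd n ∧ IsIntegral ℤ ((n : ℂ) * x) := Iff.rfl

theorem S16_oddInt_of_isIntegral {x : ℂ} (hx : IsIntegral ℤ x) : x ∈ S16_oddInt :=
  ⟨1, odd_one, by simpa using hx⟩

theorem S16_oddInt_int (z : ℤ) : (z : ℂ) ∈ S16_oddInt :=
  S16_oddInt_of_isIntegral (isIntegral_intCast z)

theorem S16_oddInt_nat (n : ℕ) : (n : ℂ) ∈ S16_oddInt :=
  S16_oddInt_of_isIntegral (isIntegral_natCast n)

theorem S16_oddInt_inv_odd (n : ℕ) (hn : Odd n) : ((n : ℂ))⁻¹ ∈ S16_oddInt := by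
  refine ⟨n, hn, ?_⟩
  have h0 : (n : ℂ) ≠ 0 := by
    rcases hn with ⟨k, rfl⟩
    exact_mod_cast Nat.succ_ne_zero (2 * k)
  rw [mul_inv_cancel₀ h0]
  exact isIntegral_one

theorem S16_oddInt_root (ζ : ℂ) (n : ℕ) (hn : 0 < n) (h : ζ ^ n = 1) : ζ ∈ S16_oddInt := by
  refine S16_oddInt_of_isIntegral ?_
  refine IsIntegral.of_pow hn ?_
  rw [h]
  exact isIntegral_one

/-- a rational number in `S16_oddInt` has odd denominator. -/
theorem S16_oddInt_half : (1 : ℂ) / 2 ∉ S16_oddInt := by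
  rintro ⟨n, hn, hx⟩
  have e : (n : ℂ) * (1 / 2) = algebraMap ℚ ℂ ((n : ℚ) / 2) := by
    simp [div_eq_mul_inv]
  rw [e, isIntegral_algebraMap_iff (algebraMap ℚ ℂ).injective] at hx
  obtain ⟨z, hz⟩ := IsIntegrallyClosed.isIntegral_iff.mp hx
  have h2 : ((2 * z : ℤ) : ℚ) = (n : ℤ) := by
    have : (algebraMap ℤ ℚ) z = (z : ℚ) := rfl
    rw [this] at hz
    push_cast
    rw [hz]
    ring
  have h3 : 2 * z = (n : ℤ) := by exact_mod_cast h2
  rcases hn with ⟨k, rfl⟩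
  push_cast at h3
  omega

/-- membership of `x / 2` for an integer `x`. -/
theorem S16_oddInt_int_div_two {z : ℤ} (hz : (2 : ℤ) ∣ z) : (z : ℂ) / 2 ∈ S16_oddInt := by
  obtain ⟨w, rfl⟩ := hz
  have : ((2 * w : ℤ) : ℂ) / 2 = (w : ℂ) := by push_cast; ring
  rw [this]
  exact S16_oddInt_int w

/-- `z / n ∈ R` for an integer `z` and an odd natural number `n`. -/
theorem S16_oddInt_int_div_odd (z : ℤ) (n : ℕ) (hn : Odd n) : (z : ℂ) / (n : ℂ) ∈ S16_oddInt := by
  rw [div_eq_mul_inv]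
  exact S16_oddInt.mul_mem (S16_oddInt_int z) (S16_oddInt_inv_odd n hn)

/-- the ideal `2 R` of `R = S16_oddInt`. -/
def S16_two : Ideal S16_oddInt := Ideal.span {(2 : S16_oddInt)}

theorem S16_mem_two {x : S16_oddInt} : x ∈ S16_two ↔ (x : ℂ) / 2 ∈ S16_oddInt := by
  unfold S16_two
  rw [Ideal.mem_span_singleton']
  constructor
  · rintro ⟨a, rfl⟩
    have : ((a * 2 : S16_oddInt) : ℂ) / 2 = (a : ℂ) := by
      rw [Subring.coe_mul]
      have : ((2 : S16_oddInt) : ℂ) = 2 := rfl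
      rw [this]
      ring
    rw [this]
    exact a.2
  · intro h
    refine ⟨⟨(x : ℂ) / 2, h⟩, ?_⟩
    ext
    rw [Subring.coe_mul]
    have : ((2 : S16_oddInt) : ℂ) = 2 := rfl
    rw [this]
    ring

theorem S16_one_notMem_two : (1 : S16_oddInt) ∉ S16_two := by
  rw [S16_mem_two]
  exact S16_oddInt_half

end Fermat.Agent.S16
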