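import Mathlib
import Fermat.Agent.S16.Defs
import Fermat.Agent.S20.DeltaN

/-!
# S16 package EIS: the weight 2 Eisenstein series of level `Γ₀(q)`

`E^{(q)}(τ) = (q E₂(qτ) − E₂(τ)) / 24 = (q − 1)/24 + ∑_{k ≥ 1} σ*(k) e(kτ)` is a modular form of
weight `2` on `Γ₀(q)` (`q` any positive integer; `σ*(k) = ∑_{d ∣ k, q ∤ d} d`).

Main result: `S16_eis`.
-/

set_option autoImplicit false

open UpperHalfPlane ModularForm Matrix.SpecialLinearGroup CongruenceSubgroup Filter EisensteinSeries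
open scoped MatrixGroups ModularForm Manifold Real ArithmeticFunction.sigma
open Fermat.Agent.S20

namespace Fermat.Agent.S16

/-! ### arithmetic: `σ₁(n) = σ*(n) + q σ₁(n / q)` -/

theorem S16_eis_sum_divisors_dvd (q n : ℕ) (hq : 0 < q) (hn : n ≠ 0) (hqn : q ∣ n) :
    ∑ d ∈ n.divisors with q ∣ d, d = q * ∑ d ∈ (n / q).divisors, d := by
  obtain ⟨m, rfl⟩ := hqn
  have hm : m ≠ 0 := fun h ↦ hn (by rw [h, mul_zero])
  rw [Nat.mul_div_cancel_left _ hq, Finset.mul_sum]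
  refine (Finset.sum_bij (fun d _ ↦ q * d) ?_ ?_ ?_ ?_).symm
  · intro d hd
    rw [Finset.mem_filter, Nat.mem_divisors]
    exact ⟨⟨Nat.mul_dvd_mul_left q (Nat.dvd_of_mem_divisors hd), hn⟩, dvd_mul_right q d⟩
  · intro a _ b _ h
    exact Nat.eq_of_mul_eq_mul_left hq h
  · intro d hd
    rw [Finset.mem_filter, Nat.mem_divisors] at hd
    obtain ⟨⟨hd1, -⟩, e, rfl⟩ := hd
    refine ⟨e, ?_, rfl⟩
    rw [Nat.mem_divisors]
    exact ⟨(Nat.mul_dvd_mul_iff_left hq).mp hd1, hm⟩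
  · intro d _
    rfl

theorem S16_eis_sigma (q n : ℕ) (hq : 0 < q) (hn : n ≠ 0) :
    σ 1 n = S16_sigmaStar q n + (if q ∣ n then q * σ 1 (n / q) else 0) := by
  rw [ArithmeticFunction.sigma_apply]
  simp only [pow_one]
  rw [← Finset.sum_filter_add_sum_filter_not n.divisors (fun d ↦ q ∣ d), add_comm]
  unfold S16_sigmaStar
  congr 1
  split_ifs with h
  · rw [S16_eis_sum_divisors_dvd q n hq hn h, ArithmeticFunction.sigma_apply]
    simp only [pow_one]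
  · apply Finset.sum_eq_zero
    intro d hd
    rw [Finset.mem_filter, Nat.mem_divisors] at hd
    exact absurd (hd.2.trans hd.1.1) h

/-! ### the function -/

variable (q : ℕ) [NeZero q]

/-- the function `τ ↦ (q E₂(qτ) − E₂(τ)) / 24` -/
noncomputable def S16_eisFun : ℍ → ℂ := (1 / 24 : ℂ) • (E2 ∣[(2 : ℤ)] diagN q - E2)

theorem S16_eis_coe_diagN_smul (τ : ℍ) : ((diagN q • τ : ℍ) : ℂ) = q * τ := by
  unfold diagN
  rw [upperGL_coe_smul]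
  simp

theorem S16_eis_slash_diagN_apply (f : ℍ → ℂ) (τ : ℍ) :
    (f ∣[(2 : ℤ)] diagN q) τ = q * f (diagN q • τ) := by
  unfold diagN
  rw [slash_upperGL]
  simp
  ring

theorem S16_eisFun_apply (τ : ℍ) :
    S16_eisFun q τ = (1 / 24 : ℂ) * (q * E2 (diagN q • τ) - E2 τ) := by
  unfold S16_eisFun
  simp only [Pi.smul_apply, Pi.sub_apply, smul_eq_mul, S16_eis_slash_diagN_apply]

/-- the coefficients of `E₂` -/
noncomputable def S16_eis_c (m : ℕ) : ℂ := if m = 0 then 1 else -24 * (σ 1 m : ℂ)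

/-- the coefficients of `E^{(q)}` -/
noncomputable def S16_eis_e (n : ℕ) : ℂ :=
  (1 / 24 : ℂ) * (q * (if q ∣ n then S16_eis_c (n / q) else 0) - S16_eis_c n)

omit [NeZero q] in
theorem S16_eis_e_zero : S16_eis_e q 0 = ((q : ℂ) - 1) / 24 := by
  unfold S16_eis_e S16_eis_c
  simp
  ring

theorem S16_eis_e_pos {n : ℕ} (hn : 1 ≤ n) : S16_eis_e q n = (S16_sigmaStar q n : ℂ) := by
  have hq : 0 < q := Nat.pos_of_ne_zero (NeZero.ne q)
  have hn0 : n ≠ 0 := by omega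
  have hs := S16_eis_sigma q n hq hn0
  unfold S16_eis_e S16_eis_c
  rw [if_neg hn0]
  by_cases h : q ∣ n
  · have hnq : n / q ≠ 0 := by
      obtain ⟨m, rfl⟩ := h
      rw [Nat.mul_div_cancel_left _ hq]
      exact fun hm ↦ hn0 (by rw [hm, mul_zero])
    rw [if_pos h, if_neg hnq]
    rw [if_pos h] at hs
    rw [hs]
    push_cast
    ring
  · rw [if_neg h]
    rw [if_neg h] at hs
    rw [hs]
    push_cast
    ring

theorem S16_eis_hasSum_E2 (τ : ℍ) :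
    HasSum (fun m : ℕ ↦ S16_eis_c m • Function.Periodic.qParam 1 τ ^ m) (E2 τ) := by
  have h := hasSum_qExpansion_E2 (z := τ)
  have e : Function.Periodic.qParam 1 (τ : ℂ) = Complex.exp (2 * π * Complex.I * τ) := by
    unfold Function.Periodic.qParam
    simp
  rw [e]
  exact h

theorem S16_eis_hasSum_E2_diagN (τ : ℍ) :
    HasSum (fun n : ℕ ↦ (if q ∣ n then S16_eis_c (n / q) else 0) •
      Function.Periodic.qParam 1 τ ^ n) (E2 (diagN q • τ)) := by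
  have hq : 0 < q := Nat.pos_of_ne_zero (NeZero.ne q)
  have h := S16_eis_hasSum_E2 (diagN q • τ)
  have e : Function.Periodic.qParam 1 ((diagN q • τ : ℍ) : ℂ) =
      Function.Periodic.qParam 1 (τ : ℂ) ^ q := by
    unfold Function.Periodic.qParam
    rw [S16_eis_coe_diagN_smul, ← Complex.exp_nat_mul]
    congr 1
    push_cast
    ring
  rw [e] at h
  have hinj : Function.Injective (fun m : ℕ ↦ q * m) := fun a b hab ↦
    Nat.eq_of_mul_eq_mul_left hq hab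
  rw [← hinj.hasSum_iff]
  · convert h using 1
    funext m
    simp only [Function.comp_apply, dvd_mul_right, if_true, Nat.mul_div_cancel_left _ hq,
      pow_mul]
  · intro n hn
    have : ¬ q ∣ n := by
      rintro ⟨m, rfl⟩
      exact hn ⟨m, rfl⟩
    rw [if_neg this, zero_smul]

theorem S16_eis_hasSum (τ : ℍ) :
    HasSum (fun n : ℕ ↦ S16_eis_e q n • Function.Periodic.qParam 1 τ ^ n) (S16_eisFun q τ) := by
  rw [S16_eisFun_apply]
  have h1 := (S16_eis_hasSum_E2_diagN q τ).mul_left (q : ℂ)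
  have h2 := S16_eis_hasSum_E2 τ
  have h3 := (h1.sub h2).mul_left (1 / 24 : ℂ)
  have e : (fun n : ℕ ↦ S16_eis_e q n • Function.Periodic.qParam 1 τ ^ n) =
      fun i : ℕ ↦ 1 / 24 *
        (↑q * (if q ∣ i then S16_eis_c (i / q) else 0) • Function.Periodic.qParam 1 ↑τ ^ i -
          S16_eis_c i • Function.Periodic.qParam 1 ↑τ ^ i) := by
    funext n
    unfold S16_eis_e
    simp only [smul_eq_mul]
    ring
  rw [e]
  exact h3

/-! ### holomorphy -/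

theorem S16_eis_mdiff : MDiff (S16_eisFun q) := by
  unfold S16_eisFun
  exact ((E2_mdifferentiable.slash 2 _).sub E2_mdifferentiable).const_smul _

/-! ### the transformation behaviour -/

/-- slash distributes over `(1/24) • (f - g)` -/
theorem S16_eis_slash_combo (f g : ℍ → ℂ) (γ : SL(2, ℤ)) :
    ((1 / 24 : ℂ) • (f - g)) ∣[(2 : ℤ)] γ =
      (1 / 24 : ℂ) • (f ∣[(2 : ℤ)] γ - g ∣[(2 : ℤ)] γ) := by
  funext τ
  simp only [SL_slash_apply, Pi.smul_apply, Pi.sub_apply, smul_eq_mul]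
  ring

/-- `diag(q,1) γ = γ' diag(q,1)` for `γ ∈ Γ₀(q)` -/
theorem S16_eis_conj (γ : SL(2, ℤ)) (hγ : γ ∈ Gamma0 q) :
    ∃ γ' : SL(2, ℤ), (q : ℤ) * γ' 1 0 = γ 1 0 ∧ γ' 1 1 = γ 1 1 ∧
      diagN q * mapGL ℝ γ = mapGL ℝ γ' * diagN q := by
  obtain ⟨c', hc'⟩ := (Gamma0_dvd q).mp hγ
  have hdet : γ 0 0 * γ 1 1 - γ 0 1 * γ 1 0 = 1 := by
    have := γ.det_coe
    rw [Matrix.det_fin_two] at this
    exact this
  obtain ⟨γ', t00, t01, t10, t11⟩ : ∃ γ' : SL(2, ℤ),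
      γ' 0 0 = γ 0 0 ∧ γ' 0 1 = q * γ 0 1 ∧ γ' 1 0 = c' ∧ γ' 1 1 = γ 1 1 :=
    ⟨⟨!![γ 0 0, q * γ 0 1; c', γ 1 1], by
      rw [Matrix.det_fin_two_of]
      rw [hc'] at hdet
      linear_combination hdet⟩, rfl, rfl, rfl, rfl⟩
  refine ⟨γ', by rw [t10, hc'], t11, ?_⟩
  apply Matrix.GeneralLinearGroup.ext
  intro i j
  have e10 : ((γ 1 0 : ℤ) : ℝ) = q * (c' : ℝ) := by exact_mod_cast hc'
  fin_cases i <;> fin_cases j <;>
    simp [diagN, Matrix.mul_apply, Fin.sum_univ_two, t00, t01, t10, t11, e10] <;> ring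

theorem S16_eis_denom (γ : SL(2, ℤ)) (z : ℍ) :
    denom (toGL ((Matrix.SpecialLinearGroup.map (Int.castRingHom ℝ)) γ)) (z : ℂ) =
      (γ 1 0 : ℂ) * z + γ 1 1 := by
  simp [denom]

theorem S16_eis_D2_apply (γ : SL(2, ℤ)) (z : ℍ) :
    D2 γ z = 2 * π * Complex.I * ((γ 1 0 : ℤ) : ℂ) / (((γ 1 0 : ℤ) : ℂ) * z + ((γ 1 1 : ℤ) : ℂ)) := by
  rw [← S16_eis_denom]
  rfl

theorem S16_eis_D2_slash (γ γ' : SL(2, ℤ)) (h10 : (q : ℤ) * γ' 1 0 = γ 1 0)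
    (h11 : γ' 1 1 = γ 1 1) (τ : ℍ) : (q : ℂ) * D2 γ' (diagN q • τ) = D2 γ τ := by
  rw [S16_eis_D2_apply, S16_eis_D2_apply, S16_eis_coe_diagN_smul, ← h10, h11]
  push_cast
  have hden : ((γ 1 0 : ℤ) : ℂ) * τ + ((γ 1 1 : ℤ) : ℂ) ≠ 0 := by
    have := UpperHalfPlane.denom_ne_zero (mapGL ℝ γ) τ
    rwa [show denom (mapGL ℝ γ) (τ : ℂ) = ((γ 1 0 : ℤ) : ℂ) * τ + ((γ 1 1 : ℤ) : ℂ) from
      S16_eis_denom γ τ] at this
  have hden' : ((γ' 1 0 : ℤ) : ℂ) * ((q : ℂ) * τ) + ((γ 1 1 : ℤ) : ℂ) ≠ 0 := by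
    have e : ((γ' 1 0 : ℤ) : ℂ) * ((q : ℂ) * τ) = ((γ 1 0 : ℤ) : ℂ) * τ := by
      rw [← h10]; push_cast; ring
    rw [e]
    exact hden
  have hden'' : ((q : ℂ) * ((γ' 1 0 : ℤ) : ℂ)) * τ + ((γ 1 1 : ℤ) : ℂ) ≠ 0 := by
    have e : ((q : ℂ) * ((γ' 1 0 : ℤ) : ℂ)) * τ = ((γ' 1 0 : ℤ) : ℂ) * ((q : ℂ) * τ) := by ring
    rw [e]
    exact hden'
  field_simp

/-- the slash of `q E₂(qτ)` by `γ ∈ Γ₀(q)` -/
theorem S16_eis_E2_diagN_slash (γ : SL(2, ℤ)) (hγ : γ ∈ Gamma0 q) :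
    (E2 ∣[(2 : ℤ)] diagN q) ∣[(2 : ℤ)] γ =
      E2 ∣[(2 : ℤ)] diagN q - (1 / (2 * riemannZeta 2)) • D2 γ := by
  obtain ⟨γ', h10, h11, h⟩ := S16_eis_conj q γ hγ
  have h1 : (E2 ∣[(2 : ℤ)] diagN q) ∣[(2 : ℤ)] γ = E2 ∣[(2 : ℤ)] (diagN q * mapGL ℝ γ) := by
    rw [SL_slash, ← SlashAction.slash_mul]
    rfl
  have h2 : E2 ∣[(2 : ℤ)] (mapGL ℝ γ' * diagN q) = (E2 ∣[(2 : ℤ)] γ') ∣[(2 : ℤ)] diagN q := by
    rw [SlashAction.slash_mul]
    rfl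
  rw [h1, h, h2, E2_slash_action]
  funext τ
  simp only [S16_eis_slash_diagN_apply, Pi.sub_apply, Pi.smul_apply, smul_eq_mul]
  rw [← S16_eis_D2_slash q γ γ' h10 h11 τ]
  ring

/-- `E^{(q)}` is invariant under `Γ₀(q)` -/
theorem S16_eis_slash (γ : SL(2, ℤ)) (hγ : γ ∈ Gamma0 q) :
    S16_eisFun q ∣[(2 : ℤ)] γ = S16_eisFun q := by
  unfold S16_eisFun
  rw [S16_eis_slash_combo, S16_eis_E2_diagN_slash q γ hγ, E2_slash_action]
  congr 1
  funext τ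
  simp only [Pi.sub_apply, Pi.smul_apply, smul_eq_mul]
  ring

/-! ### boundedness at the cusps -/

theorem S16_eis_bdd_D2 (γ : SL(2, ℤ)) : IsBoundedAtImInfty (D2 γ) := by
  rw [isBoundedAtImInfty_iff]
  refine ⟨2 * π, 1, fun z hz ↦ ?_⟩
  rw [S16_eis_D2_apply]
  by_cases hc : γ 1 0 = 0
  · rw [hc]
    simp
    positivity
  have hc' : (0 : ℝ) < |((γ 1 0 : ℤ) : ℝ)| := abs_pos.mpr (by exact_mod_cast hc)
  have hden : |((γ 1 0 : ℤ) : ℝ)| ≤ ‖((γ 1 0 : ℤ) : ℂ) * z + ((γ 1 1 : ℤ) : ℂ)‖ := by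
    have h1 : (((γ 1 0 : ℤ) : ℂ) * z + ((γ 1 1 : ℤ) : ℂ)).im = ((γ 1 0 : ℤ) : ℝ) * z.im := by
      simp
    have h2 := Complex.abs_im_le_norm (((γ 1 0 : ℤ) : ℂ) * z + ((γ 1 1 : ℤ) : ℂ))
    rw [h1, abs_mul, abs_of_pos z.im_pos] at h2
    calc |((γ 1 0 : ℤ) : ℝ)| = |((γ 1 0 : ℤ) : ℝ)| * 1 := (mul_one _).symm
      _ ≤ |((γ 1 0 : ℤ) : ℝ)| * z.im := mul_le_mul_of_nonneg_left hz hc'.le
      _ ≤ _ := h2
  have hpos : 0 < ‖((γ 1 0 : ℤ) : ℂ) * z + ((γ 1 1 : ℤ) : ℂ)‖ := lt_of_lt_of_le hc' hden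
  rw [norm_div, div_le_iff₀ hpos]
  have hnum : ‖2 * (π : ℂ) * Complex.I * ((γ 1 0 : ℤ) : ℂ)‖ = 2 * π * |((γ 1 0 : ℤ) : ℝ)| := by
    rw [norm_mul, norm_mul, norm_mul, Complex.norm_I, mul_one]
    simp [abs_of_pos Real.pi_pos]
  rw [hnum]
  exact mul_le_mul_of_nonneg_left hden (by positivity)

theorem S16_eis_bdd_slash_upperGL {f : ℍ → ℂ} (hf : IsBoundedAtImInfty f) (k : ℤ) (a b d : ℝ)
    (ha : 0 < a) (hd : 0 < d) : IsBoundedAtImInfty (f ∣[k] upperGL a b d ha hd) := by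
  have h1 : IsBoundedAtImInfty (f ∘ fun τ : ℍ ↦ upperGL a b d ha hd • τ) := by
    have := Asymptotics.IsBigO.comp_tendsto hf (tendsto_upperGL_smul a b d ha hd)
    exact this
  have h2 : (f ∣[k] upperGL a b d ha hd) =
      (f ∘ fun τ : ℍ ↦ upperGL a b d ha hd • τ) *
        Function.const ℍ ((((a * d : ℝ) : ℂ) ^ (k - 1)) * (d : ℂ) ^ (-k)) := by
    funext τ
    rw [slash_upperGL]
    simp only [Pi.mul_apply, Function.comp_apply, Function.const_apply]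
    ring
  rw [h2]
  exact Filter.BoundedAtFilter.mul h1 (Filter.const_boundedAtFilter _ _)

theorem S16_eis_bdd_sub {f g : ℍ → ℂ} (hf : IsBoundedAtImInfty f) (hg : IsBoundedAtImInfty g) :
    IsBoundedAtImInfty (f - g) := by
  rw [sub_eq_add_neg]
  exact Filter.BoundedAtFilter.add hf (Filter.BoundedAtFilter.neg hg)

theorem S16_eis_bdd_E2_slash (γ : SL(2, ℤ)) : IsBoundedAtImInfty (E2 ∣[(2 : ℤ)] γ) := by
  rw [E2_slash_action]
  exact S16_eis_bdd_sub isBoundedAtImInfty_E2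
    (Filter.BoundedAtFilter.smul _ (S16_eis_bdd_D2 γ))

/-- `E^{(q)}` is bounded at every cusp -/
theorem S16_eis_bdd (γ : SL(2, ℤ)) : IsBoundedAtImInfty (S16_eisFun q ∣[(2 : ℤ)] γ) := by
  unfold S16_eisFun
  rw [S16_eis_slash_combo]
  refine Filter.BoundedAtFilter.smul _ (S16_eis_bdd_sub ?_ (S16_eis_bdd_E2_slash γ))
  obtain ⟨γ', a, d, b, ha, hd, -, -, h⟩ := exists_hnf q γ
  have h1 : (E2 ∣[(2 : ℤ)] diagN q) ∣[(2 : ℤ)] γ = E2 ∣[(2 : ℤ)] (diagN q * mapGL ℝ γ) := by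
    rw [SL_slash, ← SlashAction.slash_mul]
    rfl
  have h2 : E2 ∣[(2 : ℤ)] (mapGL ℝ γ' * upperGL a b d ha hd) =
      (E2 ∣[(2 : ℤ)] γ') ∣[(2 : ℤ)] upperGL a b d ha hd := by
    rw [SlashAction.slash_mul]
    rfl
  rw [h1, h, h2]
  exact S16_eis_bdd_slash_upperGL (S16_eis_bdd_E2_slash γ') _ _ _ _ _ _

/-! ### the modular form -/

theorem S16_eis_isMF : IsMF q 2 (S16_eisFun q) :=
  isMF_iff.mpr ⟨S16_eis_mdiff q, fun γ hγ ↦ S16_eis_slash q γ hγ, S16_eis_bdd q⟩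

/-- **Package EIS.** For every `q ≥ 1` there is a modular form `E` of weight `2` on `Γ₀(q)` with
`q`-expansion `(q − 1)/24 + ∑_{k ≥ 1} σ*(k) q^k`. -/
theorem S16_eis_of_ne_zero :
    ∃ E : ModularForm (Gamma0 q) 2,
      ModularFormClass.qCoeff E 0 = ((q : ℂ) - 1) / 24 ∧
      ∀ k, 1 ≤ k → ModularFormClass.qCoeff E k = (S16_sigmaStar q k : ℂ) := by
  obtain ⟨E, hE⟩ := S16_eis_isMF q
  have h1 : (1 : ℝ) ∈ (Gamma0 q : Subgroup (GL (Fin 2) ℝ)).strictPeriods := by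
    simp [CongruenceSubgroup.strictPeriods_Gamma0]
  have hs : ∀ τ : ℍ, HasSum (fun m : ℕ ↦ S16_eis_e q m • Function.Periodic.qParam 1 τ ^ m)
      (E τ) := by
    intro τ
    rw [hE]
    exact S16_eis_hasSum q τ
  have hc := fun m ↦ ModularFormClass.qExpansion_coeff_unique one_pos h1 hs m
  refine ⟨E, ?_, fun k hk ↦ ?_⟩
  · unfold ModularFormClass.qCoeff
    rw [← hc 0, S16_eis_e_zero]
  · unfold ModularFormClass.qCoeff
    rw [← hc k, S16_eis_e_pos q hk]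


/-- **Package EIS** for a prime level. -/
theorem S16_eis (q : ℕ) (hq : q.Prime) :
    ∃ E : ModularForm (Gamma0 q) 2,
      ModularFormClass.qCoeff E 0 = ((q : ℂ) - 1) / 24 ∧
      ∀ k, 1 ≤ k → ModularFormClass.qCoeff E k = (S16_sigmaStar q k : ℂ) :=
  haveI : NeZero q := ⟨hq.ne_zero⟩
  S16_eis_of_ne_zero q

end Fermat.Agent.S16
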