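import Fermat.Agent.S16.CuspExp
import Fermat.Agent.S16.Case7Ring
import Fermat.Agent.S16.Eis
import Fermat.Agent.S16.SigmaStar

/-!
# S16, CASE7 package P3: the expansions of `D ∣ γ` at all cusps, modulo `2`

`D = E_p - ((p-1)/2) E_3 - f` where `f` is a cusp form on `Γ₀(p)` with `a_k ≡ σ*_p(k) mod 2`.
Main result: `S16_c7_exp`.
-/

set_option autoImplicit false

open UpperHalfPlane ModularForm Matrix.SpecialLinearGroup CongruenceSubgroup
open scoped MatrixGroups ModularForm Manifold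
open Fermat.Agent.S20

namespace Fermat.Agent.S16

/-- the form `D = E_p − ((p−1)/2) E₃ − f` of level `3p`. -/
noncomputable def S16_c7D (p : ℕ) [NeZero p] (f : ℍ → ℂ) : ℍ → ℂ :=
  S16_eisFun p - (((p : ℂ) - 1) / 2) • S16_eisFun 3 - f

/-- the order (in `q^{1/(3p)}`) of `D ∣ γ` modulo 2. -/
def S16_c7r (p : ℕ) (γ : SL(2, ℤ)) : ℕ := if (3 : ℤ) ∣ γ 1 0 then 3 * p else 0

/-! ### Re-indexing expansions -/

/-- spread a sequence: `N ↦ b (N / d)` if `d ∣ N`, else `0`. -/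
noncomputable def S16_spread (d : ℕ) (b : ℕ → ℂ) (N : ℕ) : ℂ := if d ∣ N then b (N / d) else 0

theorem S16_spread_zero (d : ℕ) (b : ℕ → ℂ) : S16_spread d b 0 = b 0 := by
  simp [S16_spread]

theorem S16_spread_self {d : ℕ} (hd : d ≠ 0) (b : ℕ → ℂ) : S16_spread d b d = b 1 := by
  simp [S16_spread, Nat.div_self (Nat.pos_of_ne_zero hd)]

theorem S16_spread_mul {d : ℕ} (hd : d ≠ 0) (b : ℕ → ℂ) (n : ℕ) :
    S16_spread d b (d * n) = b n := by
  simp [S16_spread, Nat.mul_div_cancel_left n (Nat.pos_of_ne_zero hd)]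

theorem S16_spread_of_not_dvd {d N : ℕ} (h : ¬ d ∣ N) (b : ℕ → ℂ) : S16_spread d b N = 0 := by
  simp [S16_spread, h]

/-- if `P 0` and `P (b n)` for `n ≥ 1` then `P (spread d b N)` for `N ≥ 1`. -/
theorem S16_spread_mem {d : ℕ} (b : ℕ → ℂ) (P : ℂ → Prop) (h0 : P 0)
    (h : ∀ n, 1 ≤ n → P (b n)) (N : ℕ) (hN : 1 ≤ N) : P (S16_spread d b N) := by
  unfold S16_spread
  split_ifs with hd
  · apply h
    obtain ⟨n, rfl⟩ := hd
    rcases Nat.eq_zero_or_pos d with rfl | hdpos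
    · simp at hN
    rw [Nat.mul_div_cancel_left n hdpos]
    rcases Nat.eq_zero_or_pos n with rfl | hn
    · simp at hN
    · exact hn
  · exact h0

theorem S16_qParam_pow (M d : ℕ) (hM : M ≠ 0) (hd : d ≠ 0) (z : ℂ) :
    Function.Periodic.qParam ((M * d : ℕ) : ℝ) z ^ d = Function.Periodic.qParam (M : ℝ) z := by
  have hM' : (M : ℂ) ≠ 0 := by exact_mod_cast hM
  have hd' : (d : ℂ) ≠ 0 := by exact_mod_cast hd
  rw [Function.Periodic.qParam, Function.Periodic.qParam, ← Complex.exp_nat_mul]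
  congr 1
  push_cast
  field_simp

theorem S16_hasSum_spread {b : ℕ → ℂ} {s : ℂ} (M d : ℕ) (hM : M ≠ 0) (hd : d ≠ 0) (z : ℂ)
    (h : HasSum (fun n : ℕ => b n • Function.Periodic.qParam (M : ℝ) z ^ n) s) :
    HasSum (fun N : ℕ =>
      S16_spread d b N • Function.Periodic.qParam ((M * d : ℕ) : ℝ) z ^ N) s := by
  have hinj : Function.Injective (fun n : ℕ => d * n) :=
    fun a b hab => Nat.eq_of_mul_eq_mul_left (Nat.pos_of_ne_zero hd) hab
  rw [← hinj.hasSum_iff]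
  · have e : ((fun N : ℕ =>
        S16_spread d b N • Function.Periodic.qParam ((M * d : ℕ) : ℝ) z ^ N) ∘
          fun n : ℕ => d * n) = fun n : ℕ => b n • Function.Periodic.qParam (M : ℝ) z ^ n := by
      funext n
      simp only [Function.comp_apply]
      rw [S16_spread_mul hd, pow_mul, S16_qParam_pow M d hM hd]
    rw [e]
    exact h
  · intro N hN
    have hnd : ¬ d ∣ N := fun ⟨n, hn⟩ => hN ⟨n, hn.symm⟩
    rw [S16_spread_of_not_dvd hnd, zero_smul]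

/-! ### The coefficients of `E_q` and of `H = E_p - f` -/

theorem S16_qCoeff_eisFun (q : ℕ) [NeZero q] (n : ℕ) :
    ModularFormClass.qCoeff (S16_eisFun q) n = S16_eis_e q n := by
  obtain ⟨E, hE⟩ := S16_eis_isMF q
  have h1 : (1 : ℝ) ∈ (Gamma0 q : Subgroup (GL (Fin 2) ℝ)).strictPeriods := by
    simp [CongruenceSubgroup.strictPeriods_Gamma0]
  have hs : ∀ τ : ℍ, HasSum (fun m : ℕ ↦ S16_eis_e q m • Function.Periodic.qParam 1 τ ^ m)
      (E τ) := by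
    intro τ
    rw [hE]
    exact S16_eis_hasSum q τ
  have hc := ModularFormClass.qExpansion_coeff_unique one_pos h1 hs n
  unfold ModularFormClass.qCoeff
  rw [← hE, ← hc]

theorem S16_c7_isMF_H (p : ℕ) [NeZero p] {f : ℍ → ℂ} (hf : IsMF p 2 f) :
    IsMF p 2 (S16_eisFun p - f) := (S16_eis_isMF p).sub hf

theorem S16_c7_qCoeff_H (p : ℕ) [NeZero p] {f : ℍ → ℂ} (hf : IsMF p 2 f) (n : ℕ) :
    ModularFormClass.qCoeff (S16_eisFun p - f) n =
      S16_eis_e p n - ModularFormClass.qCoeff f n := by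
  have h := S16_qCoeff_eisFun p n
  unfold ModularFormClass.qCoeff at h ⊢
  rw [qExpansion_sub (S16_analyticAt (S16_eis_isMF p)) (S16_analyticAt hf), map_sub, h]

theorem S16_c7_qCoeff_H_zero (p : ℕ) [NeZero p] {f : ℍ → ℂ} (hf : IsMF p 2 f)
    (a : ℕ → ℤ) (ha : ∀ k, ModularFormClass.qCoeff f k = (a k : ℂ)) (ha0 : a 0 = 0) :
    ModularFormClass.qCoeff (S16_eisFun p - f) 0 = ((p : ℂ) - 1) / 24 := by
  rw [S16_c7_qCoeff_H p hf, ha, ha0, S16_eis_e_zero]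
  simp

/-- for `n ≥ 1` the `n`-th coefficient of `H = E_p - f` is an even integer. -/
theorem S16_c7_qCoeff_H_even (p : ℕ) [NeZero p] {f : ℍ → ℂ} (hf : IsMF p 2 f)
    (a : ℕ → ℤ) (ha : ∀ k, ModularFormClass.qCoeff f k = (a k : ℂ))
    (hcong : ∀ k, 1 ≤ k → (2 : ℤ) ∣ a k - S16_sigmaStar p k) (n : ℕ) (hn : 1 ≤ n) :
    ∃ w : ℤ, ModularFormClass.qCoeff (S16_eisFun p - f) n = 2 * (w : ℂ) := by
  obtain ⟨w, hw⟩ := hcong n hn
  refine ⟨-w, ?_⟩
  rw [S16_c7_qCoeff_H p hf, ha, S16_eis_e_pos p hn]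
  have : ((S16_sigmaStar p n : ℕ) : ℂ) - (a n : ℂ) = -((a n - (S16_sigmaStar p n : ℕ) : ℤ) : ℂ) := by
    push_cast
    ring
  rw [this, hw]
  push_cast
  ring

/-! ### The two parts of the expansion -/

theorem S16_oddInt_zero_div_two : (0 : ℂ) / 2 ∈ S16_oddInt := by
  rw [zero_div]
  exact S16_oddInt.zero_mem

/-- `H`-part: the expansion of `(E_p - f) ∣ γ` in `q^{1/(3p)}`. -/
theorem S16_c7_H_exp (p : ℕ) [Fact p.Prime] [NeZero p] (hodd : Odd p) {f : ℍ → ℂ}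
    (hf : IsMF p 2 f) (a : ℕ → ℤ) (ha : ∀ k, ModularFormClass.qCoeff f k = (a k : ℂ))
    (ha0 : a 0 = 0) (hcong : ∀ k, 1 ≤ k → (2 : ℤ) ∣ a k - S16_sigmaStar p k) (γ : SL(2, ℤ)) :
    ∃ (A : ℕ → ℂ) (ε : ℂ), (ε = 1 ∨ ε = -(p : ℂ)⁻¹) ∧
      (∀ τ : ℍ, HasSum (fun N : ℕ ↦ A N • Function.Periodic.qParam ((3 * p : ℕ) : ℝ) τ ^ N)
        (((S16_eisFun p - f) ∣[(2 : ℤ)] γ) τ)) ∧
      A 0 = ε * (((p : ℂ) - 1) / 24) ∧
      ∀ N, 1 ≤ N → A N / 2 ∈ S16_oddInt := by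
  have hp0 : p ≠ 0 := NeZero.ne p
  have hH := S16_c7_isMF_H p hf
  have hH0 := S16_c7_qCoeff_H_zero p hf a ha ha0
  have hHe := S16_c7_qCoeff_H_even p hf a ha hcong
  obtain ⟨h1, h2⟩ := S16_cusp_exp p hH γ
  by_cases hγ : γ ∈ Gamma0 p
  · refine ⟨S16_spread (3 * p) (ModularFormClass.qCoeff (S16_eisFun p - f)), 1, Or.inl rfl,
      fun τ => ?_, ?_, ?_⟩
    · have h := h1 hγ τ
      have h' := S16_hasSum_spread (b := ModularFormClass.qCoeff (S16_eisFun p - f)) 1 (3 * p)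
        one_ne_zero (by positivity) (τ : ℂ) (by simpa using h)
      rwa [one_mul] at h'
    · rw [S16_spread_zero, hH0, one_mul]
    · intro N hN
      refine S16_spread_mem _ (fun x => x / 2 ∈ S16_oddInt) S16_oddInt_zero_div_two ?_ N hN
      intro n hn
      obtain ⟨w, hw⟩ := hHe n hn
      rw [hw, mul_div_cancel_left₀ _ (two_ne_zero)]
      exact S16_oddInt_int w
  · obtain ⟨ζ, hζ, h⟩ := h2 hγ
    refine ⟨S16_spread 3 (fun n => -(p : ℂ)⁻¹ * ζ ^ n *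
        ModularFormClass.qCoeff (S16_eisFun p - f) (n * p)), -(p : ℂ)⁻¹, Or.inr rfl,
      fun τ => ?_, ?_, ?_⟩
    · have h' := S16_hasSum_spread p 3 hp0 (by norm_num) (τ : ℂ) (h τ)
      rwa [Nat.mul_comm p 3] at h'
    · rw [S16_spread_zero, zero_mul, hH0, pow_zero, mul_one]
    · intro N hN
      refine S16_spread_mem _ (fun x => x / 2 ∈ S16_oddInt) S16_oddInt_zero_div_two ?_ N hN
      intro n hn
      have hnp : 1 ≤ n * p := Nat.mul_pos hn (Nat.pos_of_ne_zero hp0)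
      obtain ⟨w, hw⟩ := hHe (n * p) hnp
      have e : -(p : ℂ)⁻¹ * ζ ^ n * ModularFormClass.qCoeff (S16_eisFun p - f) (n * p) / 2 =
          -((p : ℂ)⁻¹ * ζ ^ n * (w : ℂ)) := by
        rw [hw]
        ring
      show -(p : ℂ)⁻¹ * ζ ^ n * ModularFormClass.qCoeff (S16_eisFun p - f) (n * p) / 2 ∈ S16_oddInt
      rw [e]
      exact S16_oddInt.neg_mem (S16_oddInt.mul_mem (S16_oddInt.mul_mem (S16_oddInt_inv_odd p hodd)
        (S16_oddInt.pow_mem (S16_oddInt_root ζ p (Nat.pos_of_ne_zero hp0) hζ) n))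
        (S16_oddInt_int w))

theorem S16_c7_three_dvd_iff (γ : SL(2, ℤ)) : γ ∈ Gamma0 3 ↔ (3 : ℤ) ∣ γ 1 0 := by
  rw [Gamma0_dvd]
  simp

/-- `E₃`-part: the expansion of `E₃ ∣ γ` in `q^{1/(3p)}`. -/
theorem S16_c7_E3_exp (p : ℕ) (hp0 : p ≠ 0) (γ : SL(2, ℤ)) :
    ∃ B : ℕ → ℂ,
      (∀ τ : ℍ, HasSum (fun N : ℕ ↦ B N • Function.Periodic.qParam ((3 * p : ℕ) : ℝ) τ ^ N)
        ((S16_eisFun 3 ∣[(2 : ℤ)] γ) τ)) ∧
      (∀ N, 1 ≤ N → B N ∈ S16_oddInt) ∧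
      (((3 : ℤ) ∣ γ 1 0) →
        B 0 = 1 / 12 ∧ (∀ N, 0 < N → N < 3 * p → B N = 0) ∧ B (3 * p) = 1) ∧
      (¬ ((3 : ℤ) ∣ γ 1 0) → B 0 = -(1 / 36)) := by
  have : Fact (Nat.Prime 3) := ⟨Nat.prime_three⟩
  have hE := S16_eis_isMF 3
  obtain ⟨h1, h2⟩ := S16_cusp_exp 3 hE γ
  have he0 : ModularFormClass.qCoeff (S16_eisFun 3) 0 = 1 / 12 := by
    rw [S16_qCoeff_eisFun, S16_eis_e_zero]
    norm_num
  have hen : ∀ n, 1 ≤ n → ModularFormClass.qCoeff (S16_eisFun 3) n =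
      ((S16_sigmaStar 3 n : ℕ) : ℂ) := fun n hn => by
    rw [S16_qCoeff_eisFun, S16_eis_e_pos 3 hn]
  by_cases hγ : (3 : ℤ) ∣ γ 1 0
  · have hγ' : γ ∈ Gamma0 3 := (S16_c7_three_dvd_iff γ).mpr hγ
    refine ⟨S16_spread (3 * p) (ModularFormClass.qCoeff (S16_eisFun 3)), fun τ => ?_, ?_,
      fun _ => ⟨?_, ?_, ?_⟩, fun h => absurd hγ h⟩
    · have h := h1 hγ' τ
      have h' := S16_hasSum_spread (b := ModularFormClass.qCoeff (S16_eisFun 3)) 1 (3 * p)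
        one_ne_zero (by positivity) (τ : ℂ) (by simpa using h)
      rwa [one_mul] at h'
    · intro N hN
      refine S16_spread_mem _ (fun x => x ∈ S16_oddInt) S16_oddInt.zero_mem ?_ N hN
      intro n hn
      rw [hen n hn]
      exact S16_oddInt_nat _
    · rw [S16_spread_zero, he0]
    · intro N hN hN3
      exact S16_spread_of_not_dvd (Nat.not_dvd_of_pos_of_lt hN hN3) _
    · rw [S16_spread_self (by positivity), hen 1 le_rfl, S16_sigmaStar_one Nat.prime_three]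
      simp
  · have hγ' : γ ∉ Gamma0 3 := fun h => hγ ((S16_c7_three_dvd_iff γ).mp h)
    obtain ⟨ξ, hξ, h⟩ := h2 hγ'
    refine ⟨S16_spread p (fun n => -((3 : ℕ) : ℂ)⁻¹ * ξ ^ n *
        ModularFormClass.qCoeff (S16_eisFun 3) (n * 3)), fun τ => ?_, ?_,
      fun h => absurd h hγ, fun _ => ?_⟩
    · exact S16_hasSum_spread 3 p (by norm_num) hp0 (τ : ℂ) (h τ)
    · intro N hN
      refine S16_spread_mem _ (fun x => x ∈ S16_oddInt) S16_oddInt.zero_mem ?_ N hN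
      intro n hn
      have hn3 : 1 ≤ n * 3 := by omega
      show -((3 : ℕ) : ℂ)⁻¹ * ξ ^ n * ModularFormClass.qCoeff (S16_eisFun 3) (n * 3) ∈ S16_oddInt
      rw [hen _ hn3]
      exact S16_oddInt.mul_mem (S16_oddInt.mul_mem
        (S16_oddInt.neg_mem (S16_oddInt_inv_odd 3 (by decide)))
        (S16_oddInt.pow_mem (S16_oddInt_root ξ 3 (by norm_num) hξ) n)) (S16_oddInt_nat _)
    · rw [S16_spread_zero, zero_mul, he0]
      norm_num

/-! ### The expansion of `D ∣ γ` -/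

theorem S16_c7D_slash (p : ℕ) [NeZero p] (f : ℍ → ℂ) (γ : SL(2, ℤ)) :
    S16_c7D p f ∣[(2 : ℤ)] γ =
      (S16_eisFun p - f) ∣[(2 : ℤ)] γ - (((p : ℂ) - 1) / 2) • (S16_eisFun 3 ∣[(2 : ℤ)] γ) := by
  have e : S16_c7D p f = (S16_eisFun p - f) + -((((p : ℂ) - 1) / 2) • S16_eisFun 3) := by
    unfold S16_c7D
    abel
  rw [e, SlashAction.add_slash, SlashAction.neg_slash, SL_smul_slash, ← sub_eq_add_neg]

/-- (P3) expansions of `D ∣ γ` at all cusps. -/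
theorem S16_c7_exp (p : ℕ) [Fact p.Prime] [NeZero p] (h7 : p % 8 = 7) {f : ℍ → ℂ}
    (hf : IsMF p 2 f) (a : ℕ → ℤ) (ha : ∀ k, ModularFormClass.qCoeff f k = (a k : ℂ))
    (ha0 : a 0 = 0) (hcong : ∀ k, 1 ≤ k → (2 : ℤ) ∣ a k - S16_sigmaStar p k) (γ : SL(2, ℤ)) :
    ∃ c : ℕ → ℂ,
      (∀ τ : ℍ, HasSum (fun n : ℕ ↦ c n • Function.Periodic.qParam ((3 * p : ℕ) : ℝ) τ ^ n)
        ((S16_c7D p f ∣[(2 : ℤ)] γ) τ)) ∧
      (∀ n, c n ∈ S16_oddInt) ∧
      (∀ n, n < S16_c7r p γ → c n / 2 ∈ S16_oddInt) ∧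
      (c (S16_c7r p γ) - 1) / 2 ∈ S16_oddInt := by
  have hp0 : p ≠ 0 := NeZero.ne p
  -- `p = 8 k + 7`
  obtain ⟨k, hk⟩ : ∃ k : ℕ, p = 8 * k + 7 := ⟨p / 8, by omega⟩
  have hodd : Odd p := ⟨4 * k + 3, by omega⟩
  have hodd3 : Odd (3 * p) := (by decide : Odd 3).mul hodd
  have hodd9 : Odd (9 * p) := (by decide : Odd 9).mul hodd
  have hP : (p : ℂ) = 8 * (k : ℂ) + 7 := by rw [hk]; push_cast; ring
  have hP0 : (8 * (k : ℂ) + 7) ≠ 0 := by rw [← hP]; exact_mod_cast hp0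
  have hm : ((p : ℂ) - 1) / 2 = ((4 * k + 3 : ℤ) : ℂ) := by rw [hP]; push_cast; ring
  have hmR : ((p : ℂ) - 1) / 2 ∈ S16_oddInt := by rw [hm]; exact S16_oddInt_int _
  have hm1 : (((p : ℂ) - 1) / 2 + 1) / 2 = ((2 * k + 2 : ℤ) : ℂ) := by rw [hP]; push_cast; ring
  obtain ⟨A, ε, hε, hA, hA0, hAe⟩ := S16_c7_H_exp p hodd hf a ha ha0 hcong γ
  obtain ⟨B, hB, hBR, hB3, hB3'⟩ := S16_c7_E3_exp p hp0 γ
  have hAR : ∀ N, 1 ≤ N → A N ∈ S16_oddInt := fun N hN => by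
    have h := S16_oddInt.mul_mem (S16_oddInt_int 2) (hAe N hN)
    have e : ((2 : ℤ) : ℂ) * (A N / 2) = A N := by push_cast; ring
    rwa [e] at h
  have two_mul_mem : ∀ x : ℂ, x / 2 ∈ S16_oddInt → x ∈ S16_oddInt := fun x hx => by
    have h := S16_oddInt.mul_mem (S16_oddInt_int 2) hx
    have e : ((2 : ℤ) : ℂ) * (x / 2) = x := by push_cast; ring
    rwa [e] at h
  refine ⟨fun N => A N - (((p : ℂ) - 1) / 2) * B N, fun τ => ?_, ?_, ?_, ?_⟩
  · rw [S16_c7D_slash]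
    have h := (hA τ).sub ((hB τ).mul_left (((p : ℂ) - 1) / 2))
    have e : (fun N : ℕ => (A N - (((p : ℂ) - 1) / 2) * B N) •
        Function.Periodic.qParam ((3 * p : ℕ) : ℝ) τ ^ N) =
        fun N : ℕ => A N • Function.Periodic.qParam ((3 * p : ℕ) : ℝ) τ ^ N -
          (((p : ℂ) - 1) / 2) * (B N • Function.Periodic.qParam ((3 * p : ℕ) : ℝ) τ ^ N) := by
      funext N
      simp only [smul_eq_mul]
      ring
    rw [e]
    exact h
  -- the three membership statements, by cases on `3 ∣ γ 1 0`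
  all_goals by_cases h3 : (3 : ℤ) ∣ γ 1 0
  · -- all coefficients in `R`, case `3 ∣ c`
    obtain ⟨hB0, hBlt, hB3p⟩ := hB3 h3
    intro n
    rcases Nat.eq_zero_or_pos n with rfl | hn
    · apply two_mul_mem
      show (A 0 - (((p : ℂ) - 1) / 2) * B 0) / 2 ∈ S16_oddInt
      rw [hA0, hB0]
      rcases hε with rfl | rfl
      · have e : (1 * (((p : ℂ) - 1) / 24) - ((p : ℂ) - 1) / 2 * (1 / 12)) / 2 = 0 := by ring
        rw [e]
        exact S16_oddInt.zero_mem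
      · have e : (-(p : ℂ)⁻¹ * (((p : ℂ) - 1) / 24) - ((p : ℂ) - 1) / 2 * (1 / 12)) / 2 =
            ((-((4 * k + 3) * (k + 1)) : ℤ) : ℂ) / ((3 * p : ℕ) : ℂ) := by
          push_cast
          rw [hP]
          field_simp
          ring
        rw [e]
        exact S16_oddInt_int_div_odd _ _ hodd3
    · exact S16_oddInt.sub_mem (hAR n hn) (S16_oddInt.mul_mem hmR (hBR n hn))
  · -- all coefficients in `R`, case `3 ∤ c`
    have hB0 := hB3' h3
    intro n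
    rcases Nat.eq_zero_or_pos n with rfl | hn
    · have hsuff : ((A 0 - (((p : ℂ) - 1) / 2) * B 0) - 1) / 2 ∈ S16_oddInt := by
        rw [hA0, hB0]
        rcases hε with rfl | rfl
        · have e : (1 * (((p : ℂ) - 1) / 24) - ((p : ℂ) - 1) / 2 * -(1 / 36) - 1) / 2 =
              ((2 * k - 3 : ℤ) : ℂ) / ((9 : ℕ) : ℂ) := by
            push_cast
            rw [hP]
            ring
          rw [e]
          exact S16_oddInt_int_div_odd _ _ (by decide)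
        · have e : (-(p : ℂ)⁻¹ * (((p : ℂ) - 1) / 24) - ((p : ℂ) - 1) / 2 * -(1 / 36) - 1) / 2 =
              ((4 * k ^ 2 - 31 * k - 30 : ℤ) : ℂ) / ((9 * p : ℕ) : ℂ) := by
            push_cast
            rw [hP]
            field_simp
            ring
          rw [e]
          exact S16_oddInt_int_div_odd _ _ hodd9
      have h1 := S16_oddInt.add_mem (two_mul_mem _ hsuff) S16_oddInt.one_mem
      have e : (A 0 - (((p : ℂ) - 1) / 2) * B 0) - 1 + 1 = A 0 - (((p : ℂ) - 1) / 2) * B 0 := by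
        ring
      rwa [e] at h1
    · exact S16_oddInt.sub_mem (hAR n hn) (S16_oddInt.mul_mem hmR (hBR n hn))
  · -- `c n / 2 ∈ R` for `n < 3 p`, case `3 ∣ c`
    obtain ⟨hB0, hBlt, hB3p⟩ := hB3 h3
    intro n hn
    have hr : S16_c7r p γ = 3 * p := by simp [S16_c7r, h3]
    rw [hr] at hn
    rcases Nat.eq_zero_or_pos n with rfl | hn0
    · show (A 0 - (((p : ℂ) - 1) / 2) * B 0) / 2 ∈ S16_oddInt
      rw [hA0, hB0]
      rcases hε with rfl | rfl
      · have e : (1 * (((p : ℂ) - 1) / 24) - ((p : ℂ) - 1) / 2 * (1 / 12)) / 2 = 0 := by ring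
        rw [e]
        exact S16_oddInt.zero_mem
      · have e : (-(p : ℂ)⁻¹ * (((p : ℂ) - 1) / 24) - ((p : ℂ) - 1) / 2 * (1 / 12)) / 2 =
            ((-((4 * k + 3) * (k + 1)) : ℤ) : ℂ) / ((3 * p : ℕ) : ℂ) := by
          push_cast
          rw [hP]
          field_simp
          ring
        rw [e]
        exact S16_oddInt_int_div_odd _ _ hodd3
    · show (A n - (((p : ℂ) - 1) / 2) * B n) / 2 ∈ S16_oddInt
      rw [hBlt n hn0 hn, mul_zero, sub_zero]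
      exact hAe n hn0
  · -- `c n / 2 ∈ R` for `n < 0`: vacuous
    intro n hn
    have hr : S16_c7r p γ = 0 := by simp [S16_c7r, h3]
    rw [hr] at hn
    exact absurd hn (Nat.not_lt_zero n)
  · -- leading coefficient, case `3 ∣ c`
    obtain ⟨hB0, hBlt, hB3p⟩ := hB3 h3
    have hr : S16_c7r p γ = 3 * p := by simp [S16_c7r, h3]
    rw [hr]
    show (A (3 * p) - (((p : ℂ) - 1) / 2) * B (3 * p) - 1) / 2 ∈ S16_oddInt
    rw [hB3p]
    have e : (A (3 * p) - (((p : ℂ) - 1) / 2) * 1 - 1) / 2 =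
        A (3 * p) / 2 - (((p : ℂ) - 1) / 2 + 1) / 2 := by ring
    rw [e, hm1]
    exact S16_oddInt.sub_mem (hAe _ (Nat.mul_pos (by norm_num) (Nat.pos_of_ne_zero hp0)))
      (S16_oddInt_int _)
  · -- leading coefficient, case `3 ∤ c`
    have hB0 := hB3' h3
    have hr : S16_c7r p γ = 0 := by simp [S16_c7r, h3]
    rw [hr]
    show ((A 0 - (((p : ℂ) - 1) / 2) * B 0) - 1) / 2 ∈ S16_oddInt
    rw [hA0, hB0]
    rcases hε with rfl | rfl
    · have e : (1 * (((p : ℂ) - 1) / 24) - ((p : ℂ) - 1) / 2 * -(1 / 36) - 1) / 2 =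
          ((2 * k - 3 : ℤ) : ℂ) / ((9 : ℕ) : ℂ) := by
        push_cast
        rw [hP]
        ring
      rw [e]
      exact S16_oddInt_int_div_odd _ _ (by decide)
    · have e : (-(p : ℂ)⁻¹ * (((p : ℂ) - 1) / 24) - ((p : ℂ) - 1) / 2 * -(1 / 36) - 1) / 2 =
          ((4 * k ^ 2 - 31 * k - 30 : ℤ) : ℂ) / ((9 * p : ℕ) : ℂ) := by
        push_cast
        rw [hP]
        field_simp
        ring
      rw [e]
      exact S16_oddInt_int_div_odd _ _ hodd9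

end Fermat.Agent.S16
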