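import Fermat.Agent.S16.Wp

/-!
# S16, CASE7 package P2: the expansion of `F ∣ γ` at any cusp, for `F ∈ M₂(Γ₀(q))`

`S16_cusp_exp`: for `γ ∈ Γ₀(q)` the expansion of `F ∣ γ = F` is the `q`-expansion of `F`; for
`γ ∉ Γ₀(q)` we have `F ∣ γ = F ∣ S T^j` and
`(F ∣ S T^j)(τ) = -q⁻¹ ∑ₙ ζⁿ a_{nq}(F) e(nτ/q)` with `ζ = e(j/q)`.
-/

set_option autoImplicit false

namespace Fermat.Agent.S16

open UpperHalfPlane ModularForm Matrix.SpecialLinearGroup CongruenceSubgroup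
open scoped MatrixGroups ModularForm Manifold
open Fermat.Agent.S20

/-- The `q`-expansion of a form on `Γ₀(p)` as a `HasSum`. -/
theorem S16_hasSum_qCoeff {p : ℕ} [NeZero p] {k : ℤ} {f : ℍ → ℂ} (hf : IsMF p k f) (τ : ℍ) :
    HasSum (fun n : ℕ ↦ ModularFormClass.qCoeff f n • Function.Periodic.qParam (1 : ℝ) τ ^ n)
      (f τ) :=
  hasSum_qExpansion one_pos (S16_periodic hf) hf.mdiff (S16_bdd hf) τ

theorem S16_qParam_heckeMatrix_smul {q : ℕ} (hq : q ≠ 0) (j : ℕ) (τ : ℍ) :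
    Function.Periodic.qParam (1 : ℝ) (heckeMatrix q j • τ : ℍ) =
      Complex.exp (2 * Real.pi * Complex.I * j / q) * Function.Periodic.qParam (q : ℝ) τ := by
  have hq' : (q : ℂ) ≠ 0 := by exact_mod_cast hq
  rw [Function.Periodic.qParam, Function.Periodic.qParam, coe_heckeMatrix_smul hq, ← Complex.exp_add]
  congr 1
  push_cast
  field_simp
  ring

/-- The expansion of `F ∣ S T^j` at `∞`, for `F ∈ M₂(Γ₀(q))`. -/
theorem S16_hasSum_slash_ST (q : ℕ) [Fact q.Prime] {F : ℍ → ℂ} (hF : IsMF q 2 F) (j : ℕ)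
    (τ : ℍ) :
    HasSum (fun n : ℕ ↦ (-(q : ℂ)⁻¹ * Complex.exp (2 * Real.pi * Complex.I * j / q) ^ n *
        ModularFormClass.qCoeff F (n * q)) • Function.Periodic.qParam (q : ℝ) τ ^ n)
      ((F ∣[(2 : ℤ)] S16_ST j) τ) := by
  have hq : q ≠ 0 := (Fact.out : q.Prime).ne_zero
  have : NeZero q := ⟨hq⟩
  have hU : IsMF q 2 (heckeU 2 q F) := S16_isMF_heckeU hF
  have h1 := (S16_hasSum_qCoeff hU (heckeMatrix q j • τ)).mul_left (-(q : ℂ)⁻¹)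
  have h2 : (F ∣[(2 : ℤ)] S16_ST j) τ = -(q : ℂ)⁻¹ * heckeU 2 q F (heckeMatrix q j • τ) := by
    rw [S16_slash_ST 2 hq, sub_self, zpow_zero, one_smul, slash_heckeMatrix_apply 2 hq,
      S16_slash_W_eq_neg_heckeU hF]
    simp
  rw [h2]
  have hfun : (fun n : ℕ ↦ (-(q : ℂ)⁻¹ * Complex.exp (2 * Real.pi * Complex.I * j / q) ^ n *
        ModularFormClass.qCoeff F (n * q)) • Function.Periodic.qParam (q : ℝ) τ ^ n) =
      fun i : ℕ ↦ -(q : ℂ)⁻¹ * (ModularFormClass.qCoeff (heckeU 2 q F) i •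
        Function.Periodic.qParam (1 : ℝ) (heckeMatrix q j • τ : ℍ) ^ i) := by
    funext n
    rw [S16_qParam_heckeMatrix_smul hq, S16_qCoeff_heckeU hF 2 hq n]
    simp only [smul_eq_mul, mul_pow]
    ring
  rw [hfun]
  exact h1

/-- (CE) expansion of `F ∣ γ` at any cusp, for `F ∈ M₂(Γ₀(q))`, `q` prime. -/
theorem S16_cusp_exp (q : ℕ) [Fact q.Prime] {F : ℍ → ℂ} (hF : IsMF q 2 F) (γ : SL(2, ℤ)) :
    (γ ∈ Gamma0 q → ∀ τ : ℍ,
      HasSum (fun n : ℕ ↦ ModularFormClass.qCoeff F n • Function.Periodic.qParam (1 : ℝ) τ ^ n)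
        ((F ∣[(2 : ℤ)] γ) τ)) ∧
    (γ ∉ Gamma0 q → ∃ ζ : ℂ, ζ ^ q = 1 ∧ ∀ τ : ℍ,
      HasSum (fun n : ℕ ↦ (-(q : ℂ)⁻¹ * ζ ^ n * ModularFormClass.qCoeff F (n * q)) •
        Function.Periodic.qParam (q : ℝ) τ ^ n) ((F ∣[(2 : ℤ)] γ) τ)) := by
  have hq : q ≠ 0 := (Fact.out : q.Prime).ne_zero
  have : NeZero q := ⟨hq⟩
  have hq' : (q : ℂ) ≠ 0 := by exact_mod_cast hq
  constructor
  · intro hγ τ
    rw [hF.slash_eq hγ]
    exact S16_hasSum_qCoeff hF τ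
  · intro hγ
    rcases S16_coset_cases' q γ with h | ⟨δ, hδ, j, -, rfl⟩
    · exact absurd h hγ
    refine ⟨Complex.exp (2 * Real.pi * Complex.I * j / q), ?_, fun τ => ?_⟩
    · rw [← Complex.exp_nat_mul]
      have h1 : (q : ℂ) * (2 * Real.pi * Complex.I * j / q) = (j : ℕ) * (2 * Real.pi * Complex.I) := by
        field_simp
      rw [h1, Complex.exp_nat_mul_two_pi_mul_I]
    · rw [SlashAction.slash_mul, hF.slash_eq hδ]
      exact S16_hasSum_slash_ST q hF j τ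

end Fermat.Agent.S16
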