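import Fermat.Agent.S16.Defs
import Fermat.Agent.S20.Basic

/-!
# S16: the integral form of a congruence (helper14)

`S16_KCong p L`: there is a weight 2 modular form `K` on `Γ₀(p)` with integral `q`-expansion,
constant term `p - 1` and all higher coefficients divisible by `L`.
(`K = 24 (E - f)` for a cusp form `f ≡ E' mod M` gives `S16_KCong p (24 * M)`.)
-/

set_option autoImplicit false

namespace Fermat.Agent.S16

open UpperHalfPlane

/-- integral form `K ≡ p - 1 mod L` of weight 2 on `Γ₀(p)`. -/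
def S16_KCong (p L : ℕ) : Prop :=
  ∃ K : ℍ → ℂ, Fermat.Agent.S20.IsMF p 2 K ∧ ∃ a : ℕ → ℤ,
    (∀ k, ModularFormClass.qCoeff K k = (a k : ℂ)) ∧ a 0 = (p : ℤ) - 1 ∧
      ∀ k, 1 ≤ k → (L : ℤ) ∣ a k

theorem S16_KCong_of_dvd {p L L' : ℕ} (h : L' ∣ L) (hK : S16_KCong p L) : S16_KCong p L' := by
  obtain ⟨K, hK1, a, ha, ha0, hak⟩ := hK
  exact ⟨K, hK1, a, ha, ha0, fun k hk => (Int.natCast_dvd_natCast.mpr h).trans (hak k hk)⟩

theorem S16_HasCong_of_dvd {p M M' : ℕ} (h : M' ∣ M) (hM : S16_HasCong p M) :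
    S16_HasCong p M' := by
  obtain ⟨f, a, ha, hak⟩ := hM
  exact ⟨f, a, ha, fun k hk => (Int.natCast_dvd_natCast.mpr h).trans (hak k hk)⟩

end Fermat.Agent.S16
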