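import Mathlib

/-!
# S16, package NORM, part N1: the `q`-expansion of a level one form which is a finite product of
functions with `𝕢 M`-expansions is the product of these expansions (helper24)
-/

set_option autoImplicit false

open scoped MatrixGroups ModularForm Manifold
open UpperHalfPlane hiding I
open ModularForm Complex CongruenceSubgroup Matrix.SpecialLinearGroup Function

namespace Fermat.Agent.S16

local notation "𝕢" => Periodic.qParam

theorem S16_norm_qParam_add (h : ℝ) (hh : h ≠ 0) (w : ℂ) : 𝕢 h (w + h) = 𝕢 h w := by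
  unfold Periodic.qParam
  have hh' : (h : ℂ) ≠ 0 := by exact_mod_cast hh
  have : 2 * (Real.pi : ℂ) * I * (w + h) / h = 2 * Real.pi * I * w / h + 2 * Real.pi * I := by
    field_simp
  rw [this, Complex.exp_add, Complex.exp_two_pi_mul_I, mul_one]

/-- a function given by a `𝕢 h`-expansion is `h`-periodic -/
theorem S16_norm_periodic_of_hasSum {f : ℍ → ℂ} {h : ℝ} (hh : h ≠ 0) {c : ℕ → ℂ}
    (hf : ∀ τ : ℍ, HasSum (fun n ↦ c n • 𝕢 h τ ^ n) (f τ)) :
    Periodic (f ∘ ofComplex) h := by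
  intro w
  by_cases! hw : 0 < im w
  · have hw' : 0 < im (w + h) := by simp [hw]
    simp only [comp_apply, ofComplex_apply_of_im_pos hw', ofComplex_apply_of_im_pos hw]
    refine (hf _).unique ?_
    have := hf ⟨w, hw⟩
    have hq : 𝕢 h ((⟨w + h, hw'⟩ : ℍ) : ℂ) = 𝕢 h ((⟨w, hw⟩ : ℍ) : ℂ) :=
      S16_norm_qParam_add h hh w
    simpa [hq] using this
  · have : im (w + h) ≤ 0 := by simpa using hw
    simp [ofComplex_apply_of_im_nonpos this, ofComplex_apply_of_im_nonpos hw]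

/-- analyticity of the cusp function from an expansion -/
theorem S16_norm_analyticAt_of_hasSum {f : ℍ → ℂ} {h : ℝ} (hh : 0 < h) {c : ℕ → ℂ}
    (hhol : MDiff f) (hf : ∀ τ : ℍ, HasSum (fun n ↦ c n • 𝕢 h τ ^ n) (f τ)) :
    AnalyticAt ℂ (cuspFunction h f) 0 :=
  analyticAt_cuspFunction_zero hh (S16_norm_periodic_of_hasSum hh.ne' hf) hhol
    (isBoundedAtImInfty_of_hasSum_qExpansion hh hf)

/-- the expansion is the `qExpansion` -/
theorem S16_norm_qExpansion_eq_of_hasSum {f : ℍ → ℂ} {h : ℝ} (hh : 0 < h) (a : PowerSeries ℂ)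
    (hhol : MDiff f) (hf : ∀ τ : ℍ, HasSum (fun n ↦ a.coeff n • 𝕢 h τ ^ n) (f τ)) :
    qExpansion h f = a := by
  ext n
  have han := S16_norm_analyticAt_of_hasSum hh hhol hf
  have h1 := (hasFPowerSeriesOnBall_cuspFunction hh han hf).hasFPowerSeriesAt
  have h2 : HasFPowerSeriesAt (cuspFunction h f)
      (.ofScalars ℂ fun m ↦ (qExpansion h f).coeff m) 0 := by
    simpa [qExpansion_coeff, div_eq_mul_inv, mul_comm] using han.hasFPowerSeriesAt
  have := congr_arg (FormalMultilinearSeries.coeff · n) (h1.eq_formalMultilinearSeries h2)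
  simpa [FormalMultilinearSeries.coeff_ofScalars] using this.symm

/-- finite products: analyticity of the cusp function and multiplicativity of `qExpansion`. -/
theorem S16_norm_qExpansion_prod {ι : Type*} (s : Finset ι) (f : ι → ℍ → ℂ) (h : ℝ)
    (hf : ∀ i ∈ s, AnalyticAt ℂ (cuspFunction h (f i)) 0) :
    AnalyticAt ℂ (cuspFunction h (∏ i ∈ s, f i)) 0 ∧
      qExpansion h (∏ i ∈ s, f i) = ∏ i ∈ s, qExpansion h (f i) := by
  classical
  induction s using Finset.induction_on with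
  | empty =>
    simp only [Finset.prod_empty]
    refine ⟨?_, qExpansion_one h⟩
    have h1 : cuspFunction h (1 : ℍ → ℂ) = 1 := by
      ext q
      rcases eq_or_ne q 0 with rfl | hq
      · simpa [cuspFunction, Periodic.cuspFunction] using! tendsto_const_nhds.limUnder_eq
      · simp [cuspFunction, Periodic.cuspFunction_eq_of_nonzero h _ hq]
    rw [h1]
    exact analyticAt_const
  | insert i s hi ih =>
    have hfi := hf i (Finset.mem_insert_self i s)
    obtain ⟨h1, h2⟩ := ih (fun j hj => hf j (Finset.mem_insert_of_mem hj))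
    rw [Finset.prod_insert hi, Finset.prod_insert hi]
    refine ⟨?_, ?_⟩
    · rw [cuspFunction_mul hfi.continuousAt h1.continuousAt]
      exact hfi.mul h1
    · rw [qExpansion_mul hfi h1, h2]

theorem S16_norm_qParam_pow (M : ℕ) (hM : 0 < M) (z : ℂ) :
    𝕢 (M : ℝ) z ^ M = 𝕢 (1 : ℝ) z := by
  unfold Periodic.qParam
  rw [← Complex.exp_nat_mul]
  congr 1
  have : (M : ℂ) ≠ 0 := by exact_mod_cast hM.ne'
  push_cast
  field_simp

/-- the `𝕢 M`-expansion of a level one form -/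
theorem S16_norm_levelOne_hasSum (M : ℕ) (hM : 0 < M) {K : ℤ} (𝒩 : ModularForm 𝒮ℒ K) (τ : ℍ) :
    HasSum (fun n ↦ (PowerSeries.mk fun n ↦
      if M ∣ n then (qExpansion 1 𝒩).coeff (n / M) else 0).coeff n • 𝕢 (M : ℝ) τ ^ n) (𝒩 τ) := by
  have h1 := ModularForm.hasSum_qExpansion (f := 𝒩) (h := 1) one_pos (by simp) τ
  have hg : Function.Injective (fun m : ℕ ↦ M * m) := fun a b hab ↦ by
    exact Nat.eq_of_mul_eq_mul_left hM hab
  rw [← hg.hasSum_iff]
  · convert h1 using 2 with m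
    simp only [Function.comp_apply, PowerSeries.coeff_mk, dvd_mul_right, if_true,
      Nat.mul_div_cancel_left m hM, smul_eq_mul]
    rw [pow_mul, S16_norm_qParam_pow M hM]
  · intro n hn
    have : ¬ M ∣ n := fun ⟨m, hm⟩ ↦ hn ⟨m, hm.symm⟩
    simp [this]

/-- (N1) product of conjugate expansions = `q`-expansion of the level one form. -/
theorem S16_norm_qExpansion
    {ι : Type*} [Fintype ι] (f : ι → ℍ → ℂ) (M : ℕ) (hM : 0 < M)
    (a : ι → PowerSeries ℂ)
    (hhol : ∀ i, MDiff (f i))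
    (hexp : ∀ i (τ : ℍ), HasSum (fun n ↦ (a i).coeff n • 𝕢 (M : ℝ) τ ^ n) (f i τ))
    {K : ℤ} (𝒩 : ModularForm 𝒮ℒ K) (h𝒩 : ∀ τ, 𝒩 τ = ∏ i, f i τ) :
    (∀ m : ℕ, (qExpansion 1 𝒩).coeff m = (∏ i, a i).coeff (M * m)) ∧
      ∀ n : ℕ, ¬ M ∣ n → (∏ i, a i).coeff n = 0 := by
  have hM' : (0 : ℝ) < M := by exact_mod_cast hM
  have h1 : ∀ i, qExpansion (M : ℝ) (f i) = a i := fun i ↦
    S16_norm_qExpansion_eq_of_hasSum hM' (a i) (hhol i) (hexp i)
  have h2 := (S16_norm_qExpansion_prod Finset.univ f (M : ℝ)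
    (fun i _ ↦ S16_norm_analyticAt_of_hasSum hM' (hhol i) (hexp i))).2
  have h3 : (𝒩 : ℍ → ℂ) = ∏ i, f i := by
    funext τ
    rw [h𝒩 τ, Finset.prod_apply]
  have h4 : qExpansion (M : ℝ) (𝒩 : ℍ → ℂ) = PowerSeries.mk fun n ↦
      if M ∣ n then (qExpansion 1 𝒩).coeff (n / M) else 0 :=
    S16_norm_qExpansion_eq_of_hasSum hM' _ 𝒩.holo' (S16_norm_levelOne_hasSum M hM 𝒩)
  have h5 : ∏ i, a i = PowerSeries.mk fun n ↦
      if M ∣ n then (qExpansion 1 𝒩).coeff (n / M) else 0 := by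
    rw [← h4, h3, h2]
    exact Finset.prod_congr rfl fun i _ ↦ (h1 i).symm
  refine ⟨fun m ↦ ?_, fun n hn ↦ ?_⟩
  · rw [h5]
    simp [Nat.mul_div_cancel_left m hM]
  · rw [h5]
    simp [hn]

end Fermat.Agent.S16
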