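import Mathlib

/-!
# S16, package NORM (parts N4, N5): existence of the norm to level one

* `S16_norm_exists` : for `Γ ≤ SL(2,ℤ)` and a system of representatives `γ i` of `Γ \ SL(2,ℤ)`,
  the product `∏ i, F ∣[k] γ i` is a modular form of level one and weight `k * #ι`.
* `S16_normRep p` : the representatives `1, S·T^j` (`j < p`) of `Γ₀(p) \ SL(2,ℤ)`;
  `S16_normRep_unique`.
-/

set_option autoImplicit false

open UpperHalfPlane ModularForm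
open scoped MatrixGroups ModularForm
open Matrix.SpecialLinearGroup

noncomputable section

namespace Fermat.Agent.S16

/-- **N4**: the norm exists for any `Γ ≤ SL(2,ℤ)` and any system of representatives of
`Γ \ SL(2,ℤ)`. -/
theorem S16_norm_exists (Γ : Subgroup SL(2, ℤ)) {k : ℤ} (F : ModularForm Γ k)
    {ι : Type*} [Fintype ι] (γ : ι → SL(2, ℤ))
    (hγ : ∀ g : SL(2, ℤ), ∃! i, g * (γ i)⁻¹ ∈ Γ) :
    ∃ 𝒩 : ModularForm 𝒮ℒ (k * Fintype.card ι),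
      ∀ τ, 𝒩 τ = ∏ i, ((F : ℍ → ℂ) ∣[k] γ i) τ := by
  classical
  -- the map `ι → SL(2,ℤ) ⧸ Γ`, `i ↦ (γ i)⁻¹ Γ` is a bijection
  let e₀ : ι → SL(2, ℤ) ⧸ Γ := fun i => QuotientGroup.mk (γ i)⁻¹
  have he₀ : Function.Bijective e₀ := by
    constructor
    · intro i j hij
      have h1 : ((γ i)⁻¹)⁻¹ * (γ j)⁻¹ ∈ Γ := QuotientGroup.eq.mp hij
      rw [inv_inv] at h1
      obtain ⟨i₀, -, hi₀⟩ := hγ (γ i)
      have hi : i = i₀ := hi₀ i (by simp)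
      have hj : j = i₀ := hi₀ j h1
      rw [hi, hj]
    · intro q
      obtain ⟨s, rfl⟩ := QuotientGroup.mk_surjective q
      obtain ⟨i, hi, -⟩ := hγ s⁻¹
      refine ⟨i, ?_⟩
      show (QuotientGroup.mk (γ i)⁻¹ : SL(2, ℤ) ⧸ Γ) = QuotientGroup.mk s
      rw [QuotientGroup.eq, inv_inv]
      have := Γ.inv_mem hi
      simpa using this
  have : Finite (SL(2, ℤ) ⧸ Γ) := Finite.of_surjective e₀ he₀.2
  have : Γ.FiniteIndex := Subgroup.finiteIndex_of_finite_quotient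
  -- the quotient used by Mathlib's norm
  let 𝒢 : Subgroup (GL (Fin 2) ℝ) := Γ.map (mapGL ℝ)
  let e : ι → 𝒮ℒ ⧸ (𝒢.subgroupOf 𝒮ℒ) := fun i =>
    QuotientGroup.mk (⟨mapGL ℝ (γ i)⁻¹, ⟨(γ i)⁻¹, rfl⟩⟩ : 𝒮ℒ)
  have hmem : ∀ s : SL(2, ℤ), mapGL ℝ s ∈ 𝒢 ↔ s ∈ Γ := by
    intro s
    constructor
    · rintro ⟨t, ht, hts⟩
      have := mapGL_injective (R := ℤ) (S := ℝ) (n := Fin 2) hts
      rwa [← this]
    · intro hs
      exact ⟨s, hs, rfl⟩
  have he : Function.Bijective e := by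
    constructor
    · intro i j hij
      apply he₀.1
      show (QuotientGroup.mk (γ i)⁻¹ : SL(2, ℤ) ⧸ Γ) = QuotientGroup.mk (γ j)⁻¹
      rw [QuotientGroup.eq]
      have h1 := QuotientGroup.eq.mp hij
      rw [Subgroup.mem_subgroupOf] at h1
      have h2 : ((⟨mapGL ℝ (γ i)⁻¹, ⟨(γ i)⁻¹, rfl⟩⟩ : 𝒮ℒ)⁻¹ *
          (⟨mapGL ℝ (γ j)⁻¹, ⟨(γ j)⁻¹, rfl⟩⟩ : 𝒮ℒ) : 𝒮ℒ).1 =
          mapGL ℝ (((γ i)⁻¹)⁻¹ * (γ j)⁻¹) := by
        simp
      rw [h2] at h1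
      exact (hmem _).mp h1
    · intro q
      obtain ⟨⟨x, s, rfl⟩, rfl⟩ := QuotientGroup.mk_surjective q
      obtain ⟨i, hi⟩ := he₀.2 (QuotientGroup.mk s)
      refine ⟨i, ?_⟩
      have h1 : ((γ i)⁻¹)⁻¹ * s ∈ Γ := QuotientGroup.eq.mp hi
      show (QuotientGroup.mk _ : 𝒮ℒ ⧸ (𝒢.subgroupOf 𝒮ℒ)) = QuotientGroup.mk _
      rw [QuotientGroup.eq, Subgroup.mem_subgroupOf]
      have h2 : ((⟨mapGL ℝ (γ i)⁻¹, ⟨(γ i)⁻¹, rfl⟩⟩ : 𝒮ℒ)⁻¹ *
          (⟨mapGL ℝ s, ⟨s, rfl⟩⟩ : 𝒮ℒ) : 𝒮ℒ).1 = mapGL ℝ (((γ i)⁻¹)⁻¹ * s) := by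
        simp
      rw [h2]
      exact (hmem _).mpr h1
  let E : ι ≃ 𝒮ℒ ⧸ (𝒢.subgroupOf 𝒮ℒ) := Equiv.ofBijective e he
  have hcard : Nat.card (𝒮ℒ ⧸ (𝒢.subgroupOf 𝒮ℒ)) = Fintype.card ι := by
    rw [← Nat.card_eq_fintype_card]
    exact (Nat.card_congr E).symm
  have hw : k * (Nat.card (𝒮ℒ ⧸ (𝒢.subgroupOf 𝒮ℒ)) : ℤ) = k * (Fintype.card ι : ℤ) := by
    rw [hcard]
  refine ⟨ModularForm.mcast hw (ModularForm.norm 𝒮ℒ F) rfl, fun τ => ?_⟩
  show (ModularForm.norm 𝒮ℒ F) τ = _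
  rw [ModularForm.coe_norm]
  let _ : Fintype (𝒮ℒ ⧸ (𝒢.subgroupOf 𝒮ℒ)) := Fintype.ofFinite _
  rw [Finset.prod_apply]
  rw [← Equiv.prod_comp E]
  refine Finset.prod_congr rfl fun i _ => ?_
  show SlashInvariantForm.quotientFunc F (e i) τ = _
  rw [show e i = (⟦(⟨mapGL ℝ (γ i)⁻¹, ⟨(γ i)⁻¹, rfl⟩⟩ : 𝒮ℒ)⟧ :
    𝒮ℒ ⧸ (𝒢.subgroupOf 𝒮ℒ)) from rfl, SlashInvariantForm.quotientFunc_mk]
  simp only [map_inv, inv_inv]
  rfl

/-! ### Representatives of `Γ₀(p) \ SL(2,ℤ)` -/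

/-- **N5**: the representatives `1`, `S·T^j` (`j < p`) of `Γ₀(p) \ SL(2,ℤ)`. -/
def S16_normRep (p : ℕ) : Option (Fin p) → SL(2, ℤ)
  | none => 1
  | some j => ModularGroup.S * ModularGroup.T ^ (j : ℕ)

@[simp] theorem S16_normRep_none (p : ℕ) : S16_normRep p none = 1 := rfl

@[simp] theorem S16_normRep_some (p : ℕ) (j : Fin p) :
    S16_normRep p (some j) = ModularGroup.S * ModularGroup.T ^ (j : ℕ) := rfl

/-- the lower left entry of `g * (S T^j)⁻¹` -/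
theorem S16_mul_normRep_inv_entry (g : SL(2, ℤ)) (j : ℕ) :
    (g * (ModularGroup.S * ModularGroup.T ^ j)⁻¹) 1 0 = g 1 0 * (j : ℤ) - g 1 1 := by
  have hT : (ModularGroup.T ^ j : SL(2, ℤ)).1 = !![1, (j : ℤ); 0, 1] := by
    have := ModularGroup.coe_T_zpow (j : ℤ)
    simpa using this
  have hB : (ModularGroup.S * ModularGroup.T ^ j : SL(2, ℤ)).1 = !![0, -1; 1, (j : ℤ)] := by
    rw [Matrix.SpecialLinearGroup.coe_mul, hT, ModularGroup.coe_S]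
    ext a b
    fin_cases a <;> fin_cases b <;> simp [Matrix.mul_apply, Fin.sum_univ_two]
  have hinv : ((ModularGroup.S * ModularGroup.T ^ j : SL(2, ℤ))⁻¹).1 =
      !![(j : ℤ), 1; -1, 0] := by
    rw [Matrix.SpecialLinearGroup.coe_inv, hB, Matrix.adjugate_fin_two_of]
    simp
  show (g * (ModularGroup.S * ModularGroup.T ^ j)⁻¹).1 1 0 = _
  rw [Matrix.SpecialLinearGroup.coe_mul, hinv]
  simp [Matrix.mul_apply, Fin.sum_univ_two]
  ring

theorem S16_mem_Gamma0_mul_normRep_inv (p : ℕ) (g : SL(2, ℤ)) (j : Fin p) :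
    g * (S16_normRep p (some j))⁻¹ ∈ CongruenceSubgroup.Gamma0 p ↔
      ((g 1 0 : ℤ) : ZMod p) * ((j : ℕ) : ZMod p) = ((g 1 1 : ℤ) : ZMod p) := by
  rw [CongruenceSubgroup.Gamma0_mem, S16_normRep_some, S16_mul_normRep_inv_entry]
  push_cast
  rw [sub_eq_zero]

theorem S16_normRep_unique (p : ℕ) [Fact p.Prime] (g : SL(2, ℤ)) :
    ∃! i, g * (S16_normRep p i)⁻¹ ∈ CongruenceSubgroup.Gamma0 p := by
  have hp : p.Prime := Fact.out
  have : NeZero p := ⟨hp.ne_zero⟩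
  have hdet : g 0 0 * g 1 1 - g 0 1 * g 1 0 = 1 := by
    have := g.det_coe
    rw [Matrix.det_fin_two] at this
    exact this
  by_cases hc : ((g 1 0 : ℤ) : ZMod p) = 0
  · refine ⟨none, ?_, ?_⟩
    · show g * (S16_normRep p none)⁻¹ ∈ CongruenceSubgroup.Gamma0 p
      simp only [S16_normRep_none, inv_one, mul_one]
      exact CongruenceSubgroup.Gamma0_mem.mpr hc
    · intro i hi
      change g * (S16_normRep p i)⁻¹ ∈ CongruenceSubgroup.Gamma0 p at hi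
      cases i with
      | none => rfl
      | some j =>
        exfalso
        rw [S16_mem_Gamma0_mul_normRep_inv, hc, zero_mul] at hi
        have h1 : ((g 0 0 * g 1 1 - g 0 1 * g 1 0 : ℤ) : ZMod p) = 1 := by
          rw [hdet]; simp
        push_cast at h1
        rw [hc, ← hi] at h1
        simp at h1
  · set j₀ : ZMod p := ((g 1 1 : ℤ) : ZMod p) / ((g 1 0 : ℤ) : ZMod p) with hj₀
    refine ⟨some ⟨j₀.val, ZMod.val_lt j₀⟩, ?_, ?_⟩
    · show g * (S16_normRep p (some ⟨j₀.val, ZMod.val_lt j₀⟩))⁻¹ ∈ CongruenceSubgroup.Gamma0 p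
      rw [S16_mem_Gamma0_mul_normRep_inv]
      simp only [ZMod.natCast_val, ZMod.cast_id', id_eq]
      rw [hj₀, mul_div_cancel₀ _ hc]
    · intro i hi
      change g * (S16_normRep p i)⁻¹ ∈ CongruenceSubgroup.Gamma0 p at hi
      cases i with
      | none =>
        exfalso
        simp only [S16_normRep_none, inv_one, mul_one] at hi
        exact hc (CongruenceSubgroup.Gamma0_mem.mp hi)
      | some j =>
        rw [S16_mem_Gamma0_mul_normRep_inv] at hi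
        have h1 : ((j : ℕ) : ZMod p) = j₀ := by
          rw [hj₀, eq_div_iff hc, mul_comm]
          exact hi
        congr 1
        apply Fin.ext
        show (j : ℕ) = j₀.val
        rw [← h1, ZMod.val_natCast, Nat.mod_eq_of_lt j.2]

end Fermat.Agent.S16
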