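import Mathlib
import Fermat.Agent.S28.LevelOneQ

/-!
# S16, package STURM: the Sturm bound in level one for an additive subgroup of `ℂ`

Every `q`-coefficient of a level one modular form `f` of weight `k` is a `ℤ`-linear combination of
the coefficients `a₀, …, a_{⌊k/12⌋}`.  Hence, for every additive subgroup `A ⊆ ℂ`:
if `aₙ ∈ A` for all `n ≤ k / 12`, then `aₙ ∈ A` for all `n`.

* `S16_sturm` : the statement for an additive subgroup.
* `S16_sturm_ideal` : the statement for an ideal `J` of a subring `R ⊆ ℂ`.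
* `S16_qExpansion_E6_eq` : `E₆` has an integral `q`-expansion.
-/

set_option autoImplicit false

open UpperHalfPlane ModularForm EisensteinSeries
open scoped MatrixGroups

noncomputable section

namespace Fermat.Agent.S16

/-! ### Power series with coefficients in an additive subgroup -/

/-- the coefficients of index `≤ m` of `p` lie in `A` -/
def S16_CoeffLe (A : AddSubgroup ℂ) (m : ℕ) (p : PowerSeries ℂ) : Prop :=
  ∀ n ≤ m, PowerSeries.coeff n p ∈ A

theorem S16_mul_intCast_mem (A : AddSubgroup ℂ) {x : ℂ} (hx : x ∈ A) (z : ℤ) :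
    x * (z : ℂ) ∈ A := by
  have := A.zsmul_mem hx z
  rwa [zsmul_eq_mul, mul_comm] at this

theorem S16_coeffLe_mul_int {A : AddSubgroup ℂ} {m : ℕ} {p : PowerSeries ℂ}
    (hp : S16_CoeffLe A m p) (q : PowerSeries ℤ) :
    S16_CoeffLe A m (p * PowerSeries.map (Int.castRingHom ℂ) q) := by
  intro n hn
  rw [PowerSeries.coeff_mul]
  refine A.sum_mem fun x hx => ?_
  rw [PowerSeries.coeff_map]
  have hx1 : x.1 ≤ n := by
    have := Finset.HasAntidiagonal.mem_antidiagonal.mp hx
    omega
  exact S16_mul_intCast_mem A (hp _ (hx1.trans hn)) _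

theorem S16_coeffLe_int_mul {A : AddSubgroup ℂ} {m : ℕ} {p : PowerSeries ℂ}
    (hp : S16_CoeffLe A m p) (q : PowerSeries ℤ) :
    S16_CoeffLe A m (PowerSeries.map (Int.castRingHom ℂ) q * p) := by
  rw [mul_comm]
  exact S16_coeffLe_mul_int hp q

theorem S16_coeffLe_sub {A : AddSubgroup ℂ} {m : ℕ} {p q : PowerSeries ℂ}
    (hp : S16_CoeffLe A m p) (hq : S16_CoeffLe A m q) : S16_CoeffLe A m (p - q) := by
  intro n hn
  rw [map_sub]
  exact A.sub_mem (hp n hn) (hq n hn)

theorem S16_coeffLe_add {A : AddSubgroup ℂ} {m : ℕ} {p q : PowerSeries ℂ}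
    (hp : S16_CoeffLe A m p) (hq : S16_CoeffLe A m q) : S16_CoeffLe A m (p + q) := by
  intro n hn
  rw [map_add]
  exact A.add_mem (hp n hn) (hq n hn)

theorem S16_coeffLe_smul_int {A : AddSubgroup ℂ} (m : ℕ) {a : ℂ} (ha : a ∈ A)
    (q : PowerSeries ℤ) : S16_CoeffLe A m (a • PowerSeries.map (Int.castRingHom ℂ) q) := by
  intro n _
  rw [PowerSeries.coeff_smul, PowerSeries.coeff_map, smul_eq_mul]
  exact S16_mul_intCast_mem A ha _

theorem S16_coeffLe_zero (A : AddSubgroup ℂ) (m : ℕ) : S16_CoeffLe A m 0 := by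
  intro n _
  simp

theorem S16_coeffLe_mono {A : AddSubgroup ℂ} {m m' : ℕ} (h : m' ≤ m) {p : PowerSeries ℂ}
    (hp : S16_CoeffLe A m p) : S16_CoeffLe A m' p :=
  fun n hn => hp n (hn.trans h)

/-! ### Integral `q`-expansions -/

/-- the formal `q`-expansion of `E₆` -/
def S16_e6 : PowerSeries ℤ :=
  PowerSeries.mk fun n => if n = 0 then 1 else -504 * ∑ d ∈ n.divisors, (d : ℤ) ^ 5

theorem S16_constantCoeff_e6 : PowerSeries.constantCoeff S16_e6 = 1 := by
  rw [← PowerSeries.coeff_zero_eq_constantCoeff]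
  simp [S16_e6]

theorem S16_bernoulli_six : bernoulli 6 = 1 / 42 := by
  decide +kernel

/-- the `q`-expansion of `E₆` is integral -/
theorem S16_qExpansion_E6_eq :
    UpperHalfPlane.qExpansion 1 E₆ = PowerSeries.map (Int.castRingHom ℂ) S16_e6 := by
  ext n
  have h := E_qExpansion_coeff (k := 6) (by norm_num) ⟨3, rfl⟩ n
  rw [show (E₆ : ℍ → ℂ) = E (k := 6) (by norm_num) from rfl, h]
  simp only [PowerSeries.coeff_map, S16_e6, PowerSeries.coeff_mk]
  by_cases hn : n = 0
  · simp [hn]
  · simp only [hn, if_false]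
    rw [ArithmeticFunction.sigma_apply]
    norm_num [S16_bernoulli_six]

theorem S16_one_mem_strictPeriods : (1 : ℝ) ∈ (𝒮ℒ).strictPeriods := by simp

/-- for every even weight `k ≠ 2` there is a level one form with integral `q`-expansion and
constant term `1` -/
theorem S16_exists_integral_form (k : ℕ) (hk : Even k) (hk2 : k ≠ 2) :
    ∃ (G : ModularForm 𝒮ℒ (k : ℤ)) (g : PowerSeries ℤ),
      qExpansion 1 G = PowerSeries.map (Int.castRingHom ℂ) g ∧
        PowerSeries.constantCoeff g = 1 := by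
  obtain ⟨a, b, hab⟩ : ∃ a b : ℕ, a * 4 + b * 6 = k := by
    obtain ⟨r, hr⟩ := hk
    rcases Nat.even_or_odd' r with ⟨s, hs | hs⟩
    · exact ⟨s, 0, by omega⟩
    · exact ⟨s - 1, 1, by omega⟩
  have hw : ((a : ℕ) : ℤ) * 4 + ((b : ℕ) : ℤ) * 6 = (k : ℤ) := by exact_mod_cast hab
  refine ⟨ModularForm.mcast hw ((E₄.pow a).mul (E₆.pow b)) rfl,
    ModularCurve.eisenstein4 ^ a * S16_e6 ^ b, ?_, ?_⟩
  · rw [ModularForm.qExpansion_mcast,
      ModularForm.qExpansion_mul one_pos S16_one_mem_strictPeriods,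
      ModularForm.qExpansion_pow one_pos S16_one_mem_strictPeriods,
      ModularForm.qExpansion_pow one_pos S16_one_mem_strictPeriods,
      Fermat.Agent.S28.qExpansion_E4_eq, S16_qExpansion_E6_eq, map_mul, map_pow, map_pow]
  · rw [map_mul, map_pow, map_pow, ModularCurve.constantCoeff_eisenstein4, S16_constantCoeff_e6]
    simp

/-! ### The Sturm bound -/

/-- **Sturm bound in level one, natural weight.** -/
theorem S16_sturm_nat (A : AddSubgroup ℂ) : ∀ (k : ℕ) (f : ModularForm 𝒮ℒ (k : ℤ)),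
    S16_CoeffLe A (k / 12) (qExpansion 1 f) → ∀ n : ℕ, (qExpansion 1 f).coeff n ∈ A := by
  intro k
  induction k using Nat.strong_induction_on with | _ k ih =>
  intro f hf n
  -- odd weight
  rcases Nat.even_or_odd k with hk | hk
  swap
  · have h0 : f = 0 := ModularForm.levelOne_odd_weight_eq_zero (by exact_mod_cast hk) f
    rw [h0, show (⇑(0 : ModularForm 𝒮ℒ (k : ℤ)) : ℍ → ℂ) = 0 from rfl, qExpansion_zero]
    simp
  -- weight two
  by_cases hk2 : k = 2
  · subst hk2
    have h0 : f = 0 := rank_zero_iff_forall_zero.mp ModularForm.levelOne_weight_two_rank_zero f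
    rw [h0, show (⇑(0 : ModularForm 𝒮ℒ ((2 : ℕ) : ℤ)) : ℍ → ℂ) = 0 from rfl, qExpansion_zero]
    simp
  obtain ⟨G, g, hGq, hg0⟩ := S16_exists_integral_form k hk hk2
  set a₀ : ℂ := PowerSeries.coeff 0 (qExpansion 1 f) with ha₀
  have ha₀A : a₀ ∈ A := hf 0 (Nat.zero_le _)
  set F₀ : ModularForm 𝒮ℒ (k : ℤ) := f - a₀ • G with hF₀
  have hF₀q : qExpansion 1 F₀ = qExpansion 1 f - a₀ • qExpansion 1 G := by
    rw [hF₀, show (⇑(f - a₀ • G) : ℍ → ℂ) = ⇑f - ⇑(a₀ • G) from rfl,
      ModularForm.qExpansion_sub one_pos S16_one_mem_strictPeriods,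
      show (⇑(a₀ • G) : ℍ → ℂ) = a₀ • ⇑G from rfl,
      ModularForm.qExpansion_smul one_pos S16_one_mem_strictPeriods]
  have hfq : qExpansion 1 f = qExpansion 1 F₀ + a₀ • qExpansion 1 G := by
    rw [hF₀q]; ring
  have h0 : PowerSeries.coeff 0 (qExpansion 1 F₀) = 0 := by
    have hg0' : PowerSeries.coeff 0 (PowerSeries.map (Int.castRingHom ℂ) g) = 1 := by
      rw [PowerSeries.coeff_map, PowerSeries.coeff_zero_eq_constantCoeff_apply, hg0]
      simp
    rw [hF₀q, hGq, map_sub, PowerSeries.coeff_smul, hg0', smul_eq_mul, mul_one, sub_self]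
  set h : ModularForm 𝒮ℒ ((k : ℤ) - 12) :=
    CuspForm.discriminantEquiv (ModularForm.toCuspForm F₀ h0) with hh
  have hmul : qExpansion 1 F₀ = qExpansion 1 ModularForm.discriminant * qExpansion 1 h :=
    ModularForm.qExpansion_eq_qExpansion_discriminant_mul F₀ h0
  -- it suffices to show that all coefficients of `h` are in `A`
  suffices hall : ∀ m, S16_CoeffLe A m (qExpansion 1 h) by
    rw [hfq, map_add]
    refine A.add_mem ?_ ?_
    · rw [hmul, Fermat.Agent.S28.qExpansion_discriminant_eq]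
      exact S16_coeffLe_int_mul (hall n) _ n le_rfl
    · rw [hGq]
      exact S16_coeffLe_smul_int n ha₀A g n le_rfl
  rcases lt_or_ge k 12 with hk12 | hk12
  · -- negative weight: `h = 0`
    have hz : h = 0 :=
      rank_zero_iff_forall_zero.mp (ModularForm.levelOne_neg_weight_rank_zero (by omega)) h
    intro m
    rw [hz, show (⇑(0 : ModularForm 𝒮ℒ ((k : ℤ) - 12)) : ℍ → ℂ) = 0 from rfl, qExpansion_zero]
    exact S16_coeffLe_zero A m
  · -- induction
    have hF₀le : S16_CoeffLe A (k / 12) (qExpansion 1 F₀) := by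
      rw [hF₀q, hGq]
      exact S16_coeffLe_sub hf (S16_coeffLe_smul_int _ ha₀A g)
    have hV : PowerSeries.map (Int.castRingHom ℂ) ModularCurve.dedekindEtaUnit *
        PowerSeries.map (Int.castRingHom ℂ) ModularCurve.dedekindEtaUnitInv = 1 := by
      rw [← map_mul, ModularCurve.dedekindEtaUnit_mul_inv, map_one]
    have hX : PowerSeries.X * qExpansion 1 h
        = qExpansion 1 F₀ * PowerSeries.map (Int.castRingHom ℂ) ModularCurve.dedekindEtaUnitInv := by
      rw [hmul, Fermat.Agent.S28.qExpansion_discriminant_eq, map_mul, PowerSeries.map_X,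
        show ModularCurve.etaProd ^ 24 = ModularCurve.dedekindEtaUnit from rfl]
      calc PowerSeries.X * qExpansion 1 h
          = PowerSeries.X * qExpansion 1 h *
            (PowerSeries.map (Int.castRingHom ℂ) ModularCurve.dedekindEtaUnit *
              PowerSeries.map (Int.castRingHom ℂ) ModularCurve.dedekindEtaUnitInv) := by
            rw [hV, mul_one]
        _ = _ := by ring
    have hsucc : k / 12 = (k - 12) / 12 + 1 := by omega
    have hhle : S16_CoeffLe A ((k - 12) / 12) (qExpansion 1 h) := by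
      intro m hm
      have h1 : PowerSeries.coeff m (qExpansion 1 h)
          = PowerSeries.coeff (m + 1) (PowerSeries.X * qExpansion 1 h) := by
        rw [PowerSeries.coeff_succ_X_mul]
      rw [h1, hX]
      exact S16_coeffLe_mul_int hF₀le _ (m + 1) (by omega)
    have hcast : (k : ℤ) - 12 = ((k - 12 : ℕ) : ℤ) := by omega
    have := ih (k - 12) (by omega) (ModularForm.mcast hcast h rfl)
      (by rw [ModularForm.qExpansion_mcast]; exact hhle)
    intro m n' _
    have h2 := this n'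
    rwa [ModularForm.qExpansion_mcast] at h2

/-- **Sturm bound in level one for an additive subgroup of `ℂ`.**  If the `q`-coefficients `aₙ`
of a level one form of weight `k` lie in `A` for `n ≤ k / 12`, then they all lie in `A`. -/
theorem S16_sturm (A : AddSubgroup ℂ) {k : ℤ} (f : ModularForm 𝒮ℒ k)
    (h : ∀ n : ℕ, n ≤ k.toNat / 12 → (qExpansion 1 f).coeff n ∈ A) :
    ∀ n : ℕ, (qExpansion 1 f).coeff n ∈ A := by
  rcases lt_or_ge k 0 with hk | hk
  · have h0 : f = 0 :=
      rank_zero_iff_forall_zero.mp (ModularForm.levelOne_neg_weight_rank_zero hk) f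
    intro n
    rw [h0, show (⇑(0 : ModularForm 𝒮ℒ k) : ℍ → ℂ) = 0 from rfl, qExpansion_zero]
    simp
  · lift k to ℕ using hk
    exact S16_sturm_nat A k f (fun n hn => h n (by simpa using hn))

/-- **Sturm bound in level one for an ideal of a subring of `ℂ`.** -/
theorem S16_sturm_ideal (R : Subring ℂ) (J : Ideal R) {k : ℤ} (f : ModularForm 𝒮ℒ k)
    (h : ∀ n : ℕ, n ≤ k.toNat / 12 → ∃ r ∈ J, (r : ℂ) = (qExpansion 1 f).coeff n) :
    ∀ n : ℕ, ∃ r ∈ J, (r : ℂ) = (qExpansion 1 f).coeff n := by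
  let A : AddSubgroup ℂ := (J.toAddSubgroup).map (R.subtype : R →+ ℂ)
  have hA : ∀ x : ℂ, x ∈ A ↔ ∃ r ∈ J, (r : ℂ) = x := by
    intro x
    simp only [A, AddSubgroup.mem_map]
    rfl
  intro n
  rw [← hA]
  exact S16_sturm A f (fun m hm => (hA _).mpr (h m hm)) n

end Fermat.Agent.S16
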