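import Mathlib
import Fermat.Agent.S16.Sturm

/-!
# S16, package NORM (part N2): leading coefficients of a product modulo an ideal, and the
Sturm bound for the norm

* `S16_prod_lead` : if `aᵢ ≡ 0 mod (J, X^{rᵢ})` then `∏ aᵢ ≡ (∏ leadᵢ) X^{Σ rᵢ} mod (J, X^{Σrᵢ+1})`.
* `S16_norm_sturm_core` : the norm/Sturm argument, with the `q`-expansion of the norm given as a
  hypothesis (N1).
-/

set_option autoImplicit false

open UpperHalfPlane ModularForm
open scoped MatrixGroups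

noncomputable section

namespace Fermat.Agent.S16

/-- **Leading term of a product modulo an ideal.** -/
theorem S16_prod_lead {R : Type*} [CommRing R] (J : Ideal R) {ι : Type*} (s : Finset ι)
    (a : ι → PowerSeries R) (r : ι → ℕ)
    (h : ∀ i ∈ s, ∀ n, n < r i → PowerSeries.coeff n (a i) ∈ J) :
    (∀ n, n < ∑ i ∈ s, r i → PowerSeries.coeff n (∏ i ∈ s, a i) ∈ J) ∧
      PowerSeries.coeff (∑ i ∈ s, r i) (∏ i ∈ s, a i) -
        ∏ i ∈ s, PowerSeries.coeff (r i) (a i) ∈ J := by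
  classical
  set φ := PowerSeries.map (Ideal.Quotient.mk J) with hφ
  have hdvd : ∀ i ∈ s, ∃ b : PowerSeries (R ⧸ J), φ (a i) = PowerSeries.X ^ r i * b := by
    intro i hi
    have : (PowerSeries.X : PowerSeries (R ⧸ J)) ^ r i ∣ φ (a i) := by
      rw [PowerSeries.X_pow_dvd_iff]
      intro m hm
      rw [hφ, PowerSeries.coeff_map]
      exact Ideal.Quotient.eq_zero_iff_mem.mpr (h i hi m hm)
    exact this
  choose! b hb using hdvd
  have hprod : φ (∏ i ∈ s, a i) = PowerSeries.X ^ (∑ i ∈ s, r i) * ∏ i ∈ s, b i := by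
    rw [map_prod, ← Finset.prod_pow_eq_pow_sum, ← Finset.prod_mul_distrib]
    exact Finset.prod_congr rfl hb
  have hlead : ∀ i ∈ s, PowerSeries.constantCoeff (b i) =
      Ideal.Quotient.mk J (PowerSeries.coeff (r i) (a i)) := by
    intro i hi
    have h1 : PowerSeries.coeff (r i) (φ (a i)) = PowerSeries.constantCoeff (b i) := by
      rw [hb i hi, PowerSeries.coeff_X_pow_mul', if_pos le_rfl, Nat.sub_self,
        PowerSeries.coeff_zero_eq_constantCoeff_apply]
    rw [← h1, hφ, PowerSeries.coeff_map]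
  refine ⟨fun n hn => ?_, ?_⟩
  · rw [← Ideal.Quotient.eq_zero_iff_mem, ← PowerSeries.coeff_map, ← hφ, hprod,
      PowerSeries.coeff_X_pow_mul', if_neg (by omega)]
  · rw [← Ideal.Quotient.eq_zero_iff_mem, map_sub, ← PowerSeries.coeff_map, ← hφ, hprod,
      PowerSeries.coeff_X_pow_mul', if_pos le_rfl, Nat.sub_self,
      PowerSeries.coeff_zero_eq_constantCoeff_apply, map_prod, map_prod,
      Finset.prod_congr rfl hlead, sub_self]

/-- **NORM + STURM, core.**  `R ⊆ ℂ` a subring, `J` an ideal of `R`, `aᵢ ∈ R⟦X⟧` with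
`aᵢ ≡ 0 mod (J, X^{rᵢ})`.  If `𝒩` is a level one form of weight `K` whose `q`-expansion is
`∏ aᵢ` in the variable `X = q^{1/M}` and `M · ⌊K/12⌋ < Σ rᵢ`, then `∏ᵢ (aᵢ)_{rᵢ} ∈ J`. -/
theorem S16_norm_sturm_core {ι : Type*} [Fintype ι] (M : ℕ) (R : Subring ℂ) (J : Ideal R)
    (a : ι → PowerSeries R) (r : ι → ℕ)
    (hJ : ∀ i n, n < r i → PowerSeries.coeff n (a i) ∈ J)
    {K : ℤ} (𝒩 : ModularForm 𝒮ℒ K)
    (hN : ∀ m, (qExpansion 1 𝒩).coeff m = ((PowerSeries.coeff (M * m) (∏ i, a i) : R) : ℂ))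
    (hN' : ∀ n, ¬ M ∣ n → PowerSeries.coeff n (∏ i, a i) = 0)
    (hbig : K.toNat / 12 * M < ∑ i, r i) :
    ∏ i, PowerSeries.coeff (r i) (a i) ∈ J := by
  classical
  obtain ⟨hlow, hlead⟩ := S16_prod_lead J Finset.univ a r (fun i _ => hJ i)
  have hall : ∀ m, PowerSeries.coeff (M * m) (∏ i, a i) ∈ J := by
    intro m
    obtain ⟨x, hx, hxm⟩ := S16_sturm_ideal R J 𝒩 (fun n hn => by
      refine ⟨PowerSeries.coeff (M * n) (∏ i, a i), hlow _ ?_, (hN n).symm⟩
      calc M * n ≤ M * (K.toNat / 12) := Nat.mul_le_mul_left _ hn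
        _ = K.toNat / 12 * M := Nat.mul_comm _ _
        _ < _ := hbig) m
    rw [hN m] at hxm
    have : x = PowerSeries.coeff (M * m) (∏ i, a i) := Subtype.ext hxm
    rwa [← this]
  have hS : PowerSeries.coeff (∑ i, r i) (∏ i, a i) ∈ J := by
    by_cases hd : M ∣ ∑ i, r i
    · obtain ⟨m, hm⟩ := hd
      rw [hm]
      exact hall m
    · rw [hN' _ hd]
      exact J.zero_mem
  have := J.sub_mem hS hlead
  simpa using this

end Fermat.Agent.S16
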