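import Fermat.Agent.S16.Case7Ring
import Fermat.Agent.S16.CuspExp
import Fermat.Agent.S16.Norm
import Fermat.Agent.S16.NormSturm
import Fermat.Agent.S16.Case7Count
import Fermat.Agent.S16.Case7Exp
import Fermat.Agent.S16.NormExists
import Fermat.Agent.S16.Eis
import Fermat.Agent.S16.HDefs
import Fermat.Agent.S20.P1Index
import Fermat.Agent.S20.FinDim

/-!
# S16 package CASE7 (helper25): for `p ≡ 7 mod 8` there is no congruence modulo `2`

Let `f` be a weight 2 cusp form on `Γ₀(p)` with integral `q`-expansion congruent to the Eisenstein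
series `E_p` modulo `2`. Then `D = E_p − ((p−1)/2) E₃ − f ∈ M₂(Γ₀(3p))` has `q`-expansion
`≡ ∑ σ*₃(n) qⁿ mod 2`; its conjugates at the cosets with `3 ∣ c` have order `1` in `q` modulo `2`,
the other conjugates have a unit constant term. The norm of `D` to level one has weight `8 n₁` and
order `n₁ > 8 n₁ / 12` modulo `2`: this contradicts the Sturm bound of level one.

* P1 `Case7Ring.lean` (the ring of `2`-integral algebraic numbers), P2 `CuspExp.lean` (helper22),
  P3 `Case7Exp.lean` (helper22), P5 `Case7Count.lean` (helper6), NORM `Norm.lean` (helper24),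
  `NormSturm.lean`, `NormExists.lean` (helper2), STURM `Sturm.lean` (helper2).
-/

set_option autoImplicit false

open UpperHalfPlane ModularForm Matrix.SpecialLinearGroup CongruenceSubgroup
open scoped MatrixGroups ModularForm Manifold
open Fermat.Agent.S20

namespace Fermat.Agent.S16


/-- raising the level. -/
theorem S16_c7_isMF_mul {N : ℕ} [NeZero N] (d : ℕ) [NeZero d] {k : ℤ} {f : ℍ → ℂ}
    (hf : IsMF N k f) : IsMF (d * N) k f := by
  have : NeZero (d * N) := ⟨Nat.mul_ne_zero (NeZero.ne d) (NeZero.ne N)⟩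
  rw [isMF_iff] at hf ⊢
  exact ⟨hf.1, fun γ hγ => hf.2.1 γ (S20_Gamma0_le d N hγ), hf.2.2⟩

theorem S16_c7D_isMF (p : ℕ) [NeZero p] {f : ℍ → ℂ} (hf : IsMF p 2 f) :
    IsMF (3 * p) 2 (S16_c7D p f) := by
  have h1 : IsMF (3 * p) 2 (S16_eisFun p) := S16_c7_isMF_mul 3 (S16_eis_isMF p)
  have h2 : IsMF (3 * p) 2 (S16_eisFun 3) := by
    have := S16_c7_isMF_mul p (S16_eis_isMF 3)
    rwa [mul_comm] at this
  have h3 : IsMF (3 * p) 2 f := S16_c7_isMF_mul 3 hf
  exact (h1.sub (h2.smul _)).sub h3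

/-- (N2) NORM + STURM, leading coefficient form. -/
theorem S16_c7_norm_sturm_lead {ι : Type*} [Fintype ι] (f : ι → ℍ → ℂ) (M : ℕ) (hM : 0 < M)
    (R : Subring ℂ) (J : Ideal R) (a : ι → PowerSeries R) (r : ι → ℕ) (hhol : ∀ i, MDiff (f i))
    (hexp : ∀ i (τ : ℍ), HasSum (fun n ↦ ((PowerSeries.coeff n (a i) : R) : ℂ) •
      Function.Periodic.qParam (M : ℝ) τ ^ n) (f i τ))
    (hJ : ∀ i n, n < r i → PowerSeries.coeff n (a i) ∈ J)
    {K : ℤ} (𝒩 : ModularForm 𝒮ℒ K) (h𝒩 : ∀ τ, 𝒩 τ = ∏ i, f i τ)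
    (hbig : K.toNat / 12 * M < ∑ i, r i) : ∏ i, PowerSeries.coeff (r i) (a i) ∈ J := by
  have h1 := S16_norm_qExpansion f M hM (fun i => PowerSeries.map R.subtype (a i)) hhol
    (fun i τ => by simpa using hexp i τ) 𝒩 h𝒩
  have hmap : ∏ i, PowerSeries.map R.subtype (a i) = PowerSeries.map R.subtype (∏ i, a i) := by
    rw [map_prod]
  rw [hmap] at h1
  refine S16_norm_sturm_core M R J a r hJ 𝒩 (fun m => ?_) (fun n hn => ?_) hbig
  · rw [h1.1 m, PowerSeries.coeff_map]
    rfl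
  · have := h1.2 n hn
    rw [PowerSeries.coeff_map] at this
    exact Subtype.ext (by simpa using this)

/-- **CASE7**: for `p ≡ 7 mod 8` there is no weight 2 cusp form on `Γ₀(p)` with integral
`q`-expansion which is congruent to the Eisenstein series modulo `2`. -/
theorem S16_case7 (p : ℕ) (hp : p.Prime) (h7 : p % 8 = 7) : ¬ S16_HasCong p 2 := by
  rintro ⟨f, a, ha, hcong⟩
  have : Fact p.Prime := ⟨hp⟩
  have : NeZero p := ⟨hp.ne_zero⟩
  have hfMF : IsMF p 2 (⇑f) := IsCF.isMF (⟨f, rfl⟩ : IsCF p 2 (⇑f))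
  have hf0 : ModularFormClass.qCoeff f 0 = 0 :=
    CuspFormClass.qExpansion_coeff_zero f one_pos (Fermat.Agent.S20.one_mem_strictPeriods p)
  have ha0 : a 0 = 0 := by
    have := ha 0
    rw [hf0] at this
    exact_mod_cast this.symm
  obtain ⟨Dm, hDm⟩ := S16_c7D_isMF p hfMF
  obtain ⟨ι, _, γ, hγ, hcard, hpos⟩ := S16_c7_count p hp.pos
  obtain ⟨𝒩, h𝒩⟩ := S16_norm_exists (Gamma0 (3 * p)) Dm γ hγ
  choose c hc1 hc2 hc3 hc4 using fun i => S16_c7_exp p h7 hfMF a ha ha0
    (fun k hk => by simpa using hcong k hk) (γ i)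
  set A : ι → PowerSeries S16_oddInt := fun i => PowerSeries.mk (fun n => ⟨c i n, hc2 i n⟩) with hA
  have hprod : ∏ i, PowerSeries.coeff (S16_c7r p (γ i)) (A i) ∈ S16_two := by
    refine S16_c7_norm_sturm_lead (fun i => S16_c7D p (⇑f) ∣[(2 : ℤ)] γ i) (3 * p)
      (Nat.mul_pos (by norm_num) hp.pos) S16_oddInt S16_two A (fun i => S16_c7r p (γ i))
      (fun i => ?_) (fun i τ => ?_) (fun i n hn => ?_) 𝒩 (fun τ => ?_) ?_
    · rw [← hDm]
      exact Dm.holo'.slash 2 _
    · simpa [hA] using hc1 i τ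
    · rw [S16_mem_two]
      simpa [hA] using hc3 i n hn
    · rw [h𝒩 τ, hDm]
    · have hsum : ∑ i, S16_c7r p (γ i) =
          (Finset.univ.filter (fun i => (3 : ℤ) ∣ (γ i) 1 0)).card * (3 * p) := by
        unfold S16_c7r
        rw [Finset.sum_ite, Finset.sum_const, Finset.sum_const_zero, add_zero, smul_eq_mul]
      rw [hsum]
      have hK : ((2 : ℤ) * (Fintype.card ι : ℤ)).toNat = 2 * Fintype.card ι := by
        have : (2 : ℤ) * (Fintype.card ι : ℤ) = ((2 * Fintype.card ι : ℕ) : ℤ) := by push_cast; ring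
        rw [this, Int.toNat_natCast]
      rw [hK, hcard]
      have h3p : 0 < 3 * p := Nat.mul_pos (by norm_num) hp.pos
      refine Nat.mul_lt_mul_of_pos_right ?_ h3p
      omega
  have hone : ∀ i, Ideal.Quotient.mk S16_two (PowerSeries.coeff (S16_c7r p (γ i)) (A i)) = 1 := by
    intro i
    rw [← map_one (Ideal.Quotient.mk S16_two), Ideal.Quotient.eq, S16_mem_two]
    simpa [hA] using hc4 i
  have h1 : Ideal.Quotient.mk S16_two (∏ i, PowerSeries.coeff (S16_c7r p (γ i)) (A i)) = 1 := by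
    rw [map_prod]
    exact Finset.prod_eq_one fun i _ => hone i
  have h0 : Ideal.Quotient.mk S16_two (∏ i, PowerSeries.coeff (S16_c7r p (γ i)) (A i)) = 0 :=
    Ideal.Quotient.eq_zero_iff_mem.mpr hprod
  rw [h0] at h1
  have : (1 : S16_oddInt) ∈ S16_two := by
    rw [← Ideal.Quotient.eq_zero_iff_mem, map_one]
    exact h1.symm
  exact S16_one_notMem_two this

end Fermat.Agent.S16
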