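import Mathlib
import Fermat.Agent.S16.DualPair

/-! # S16 DUAL (helper1), part 4: saturation, duality (every linear form on T is a_1(t f)), T/I is a quotient of Z. -/

set_option autoImplicit false

open CuspForm ModularCurve CongruenceSubgroup ModularFormClass Fermat.Agent.S49

namespace Fermat.Agent.S16

variable (p : ℕ) [Fact p.Prime]

omit [Fact p.Prime] in
/-- **saturation** of the lattice. -/
theorem S16_exists_eq_smul (c : ℤ) (hc : c ≠ 0) (g : ↥(intLattice p 2))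
    (h : ∀ k, 1 ≤ k → c ∣ S49_intCoeff k g) : ∃ g' : ↥(intLattice p 2), g = c • g' := by
  have hmem : ((c : ℂ)⁻¹ • (g : CuspForm (Gamma0 p) 2)) ∈ intLattice p 2 := by
    refine S49_mem_intLattice_of_coeff fun n => ?_
    rcases Nat.eq_zero_or_pos n with rfl | hn
    · exact ⟨0, by rw [S49_qCoeff_zero]; simp⟩
    · obtain ⟨m, hm⟩ := h n hn
      refine ⟨m, ?_⟩
      rw [S49_qCoeff_smul, S49_intCoeff_spec, hm]
      have : (c : ℂ) ≠ 0 := Int.cast_ne_zero.mpr hc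
      push_cast
      field_simp
  refine ⟨⟨_, hmem⟩, Subtype.ext ?_⟩
  rw [Submodule.coe_smul, ← Int.cast_smul_eq_zsmul ℂ c, smul_smul,
    mul_inv_cancel₀ (Int.cast_ne_zero.mpr hc), one_smul]

theorem S16_pair_eq_of_smul {c : ℤ} (hc : c ≠ 0) {f : ↥(intLattice p 2)}
    {φ : ↥(heckeLatticeAlgebra p ∅) →ₗ[ℤ] ℤ} (hf₀ : S16_pair p (c • f) = c • φ) :
    S16_pair p f = φ := by
  refine LinearMap.ext fun t => ?_
  have h1 := LinearMap.congr_fun hf₀ t
  rw [S16_pair_apply] at h1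
  have h2 : t.1 (c • f) = c • t.1 f := LinearMap.map_smul t.1 c f
  rw [h2, S49_intCoeff_zsmul, LinearMap.smul_apply, smul_eq_mul, ← S16_pair_apply] at h1
  exact mul_left_cancel₀ hc h1

set_option maxHeartbeats 1000000 in
/-- **Duality**: every linear form on `T` is `t ↦ a₁(t f)` for some `f` in the lattice. -/
theorem S16_duality (φ : ↥(heckeLatticeAlgebra p ∅) →ₗ[ℤ] ℤ) :
    ∃ f : ↥(intLattice p 2), S16_pair p f = φ := by
  have := intLattice.moduleFinite p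
  have := intLattice.moduleFree p
  have hrk : Module.finrank ℤ (↥(heckeLatticeAlgebra p ∅) →ₗ[ℤ] ℤ) ≤
      Module.finrank ℤ ↥(intLattice p 2) := by
    rw [Module.finrank_linearMap_self, S16_finrank_eq]
  obtain ⟨c, hc, f₀, hf₀⟩ := S16_exists_smul_mem_range (S16_pair p) (S16_pair_injective p) hrk φ
  have hdiv : ∀ k, 1 ≤ k → c ∣ S49_intCoeff k f₀ := by
    intro k hk
    obtain ⟨P, -, hP⟩ := S16_exists_heckePoly p k hk
    rw [hP, ← S16_pair_rho, hf₀, LinearMap.smul_apply, smul_eq_mul]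
    exact dvd_mul_right _ _
  obtain ⟨f, hf⟩ := S16_exists_eq_smul p c hc f₀ hdiv
  rw [hf] at hf₀
  exact ⟨f, S16_pair_eq_of_smul p hc hf₀⟩

/-- the Eisenstein ideal of `T`. -/
noncomputable def S16_eisT : Ideal ↥(heckeLatticeAlgebra p ∅) :=
  Ideal.map ((latticeRestrictHom p ∅).toRingHom.comp (heckeEvalForms p 2)) (eisensteinIdeal p)

theorem S16_eisT_eq : S16_eisT p = Ideal.map (S16_rho p) (eisensteinIdeal p) := rfl

theorem S16_rho_C (z : ℤ) : S16_rho p (MvPolynomial.C z) = (z : ↥(heckeLatticeAlgebra p ∅)) := by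
  rw [← map_intCast (S16_rho p) z]
  congr 1

/-- `T / I` is a quotient of `ℤ`: `ρ(P) ≡ ev(P)` modulo `I`. -/
theorem S16_rho_sub_ev_mem (P : HeckeAlg) :
    S16_rho p P - ((S16_ev p P : ℤ) : ↥(heckeLatticeAlgebra p ∅)) ∈ S16_eisT p := by
  rw [← S16_rho_C, ← map_sub, S16_eisT_eq]
  apply Ideal.mem_map_of_mem
  rw [S16_mem_eisensteinIdeal, map_sub, S16_ev_C, sub_self]

theorem S16_mem_eisT_iff (t : ↥(heckeLatticeAlgebra p ∅)) :
    t ∈ S16_eisT p ↔ ∃ Q : HeckeAlg, S16_ev p Q = 0 ∧ S16_rho p Q = t := by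
  rw [S16_eisT_eq, Ideal.mem_map_iff_of_surjective _ (S16_rho_surjective p)]
  constructor
  · rintro ⟨Q, hQ, rfl⟩
    exact ⟨Q, (S16_mem_eisensteinIdeal p Q).mp hQ, rfl⟩
  · rintro ⟨Q, hQ, rfl⟩
    exact ⟨Q, (S16_mem_eisensteinIdeal p Q).mpr hQ, rfl⟩

set_option maxHeartbeats 1000000 in
theorem S16_castRingHom_surjective :
    Function.Surjective (Int.castRingHom (↥(heckeLatticeAlgebra p ∅) ⧸ S16_eisT p)) := by
  intro x
  obtain ⟨t, rfl⟩ := Ideal.Quotient.mk_surjective x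
  obtain ⟨P, hP⟩ := S16_exists_act p t
  refine ⟨S16_ev p P, ?_⟩
  have h2 : Ideal.Quotient.mk (S16_eisT p) (S16_rho p P) =
      Ideal.Quotient.mk (S16_eisT p) ((S16_ev p P : ℤ) : ↥(heckeLatticeAlgebra p ∅)) :=
    Ideal.Quotient.eq.mpr (S16_rho_sub_ev_mem p P)
  rw [eq_intCast, ← hP, h2, map_intCast]

/-- the cardinality of `T / I` generates the ideal of integers lying in `I`. -/
theorem S16_intCast_mem_eisT_iff (z : ℤ) :
    (z : ↥(heckeLatticeAlgebra p ∅)) ∈ S16_eisT p ↔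
      (Nat.card (↥(heckeLatticeAlgebra p ∅) ⧸ S16_eisT p) : ℤ) ∣ z := by
  set φ := Int.castRingHom (↥(heckeLatticeAlgebra p ∅) ⧸ S16_eisT p) with hφ
  have hker : ∀ z : ℤ, z ∈ RingHom.ker φ ↔ (z : ↥(heckeLatticeAlgebra p ∅)) ∈ S16_eisT p := by
    intro z
    rw [RingHom.mem_ker, hφ, eq_intCast, ← map_intCast (Ideal.Quotient.mk (S16_eisT p)),
      Ideal.Quotient.eq_zero_iff_mem]
  obtain ⟨g, hg⟩ : ∃ g : ℤ, RingHom.ker φ = Ideal.span {g} :=
    ⟨_, (Submodule.IsPrincipal.span_singleton_generator (RingHom.ker φ)).symm⟩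
  have hg' : RingHom.ker φ = Ideal.span {((g.natAbs : ℕ) : ℤ)} := by
    rw [hg, Int.span_natAbs]
  have e1 : (ℤ ⧸ RingHom.ker φ) ≃+* (↥(heckeLatticeAlgebra p ∅) ⧸ S16_eisT p) :=
    RingHom.quotientKerEquivOfSurjective (S16_castRingHom_surjective p)
  have e2 : (ℤ ⧸ RingHom.ker φ) ≃+* ZMod g.natAbs :=
    (Ideal.quotEquivOfEq hg').trans (Int.quotientSpanNatEquivZMod g.natAbs)
  have hcard : Nat.card (↥(heckeLatticeAlgebra p ∅) ⧸ S16_eisT p) = g.natAbs := by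
    rw [← Nat.card_zmod g.natAbs]
    exact Nat.card_congr (e1.symm.trans e2).toEquiv
  rw [hcard, ← hker, hg', Ideal.mem_span_singleton]

end Fermat.Agent.S16
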