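import Mathlib
import Fermat.Agent.S16.DualSat

/-! # S16 DUAL (helper1), part 5: a form congruent to the Eisenstein series mod M is an eigenform mod M; D2 in ideal form. -/

set_option autoImplicit false

open CuspForm ModularCurve CongruenceSubgroup ModularFormClass Fermat.Agent.S49

namespace Fermat.Agent.S16

variable (p : ℕ) [Fact p.Prime]

/-! ## the eigen-property modulo `M` -/

theorem S16_act_zsmul (P : HeckeAlg) (c : ℤ) (f : ↥(intLattice p 2)) :
    S16_act p P (c • f) = c • S16_act p P f :=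
  LinearMap.map_smul (S16_act p P) c f

/-- the action of `T` preserves `M · L`. -/
theorem S16_dvd_intCoeff_act {M : ℤ} (hM : M ≠ 0) (P : HeckeAlg) (g : ↥(intLattice p 2))
    (hg : ∀ k, 1 ≤ k → M ∣ S49_intCoeff k g) (k : ℕ) :
    M ∣ S49_intCoeff k (S16_act p P g) := by
  obtain ⟨g', rfl⟩ := S16_exists_eq_smul p M hM g hg
  rw [S16_act_zsmul, S49_intCoeff_zsmul]
  exact dvd_mul_right _ _

/-- a form congruent to the Eisenstein series is an eigenform modulo `M` for the generators. -/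
theorem S16_eigen_X {M : ℤ} (f : ↥(intLattice p 2))
    (hf : ∀ k, 1 ≤ k → M ∣ S49_intCoeff k f - S16_sigmaStar p k) (ℓ : Nat.Primes)
    (k : ℕ) (hk : 1 ≤ k) :
    M ∣ S49_intCoeff k (S16_act p (MvPolynomial.X ℓ) f) -
      eisensteinSystem p ℓ * S49_intCoeff k f := by
  have hp : p.Prime := Fact.out
  by_cases hℓp : (ℓ : ℕ) = p
  · rw [S16_intCoeff_act_X_self p hℓp, eisensteinSystem_of_dvd (hℓp ▸ dvd_rfl), one_mul]
    have h1 := hf (k * p) (Nat.mul_pos hk hp.pos)
    have h2 := hf k hk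
    rw [S16_sigmaStar_mul_self hp] at h1
    have := dvd_sub h1 h2
    simpa using this
  · have hℓp' : ¬ (ℓ : ℕ) ∣ p := fun h => hℓp ((Nat.prime_dvd_prime_iff_eq ℓ.2 hp).mp h)
    rw [S16_intCoeff_act_X p hℓp, eisensteinSystem_of_not_dvd hℓp']
    have h1 := hf (k * ℓ) (Nat.mul_pos hk ℓ.2.pos)
    have h2 := hf k hk
    have h3 := S16_sigmaStar_hecke hp ℓ.2 hℓp (k := k) (by omega)
    by_cases hdvd : (ℓ : ℕ) ∣ k
    · rw [if_pos hdvd] at h3 ⊢
      have hk' : 1 ≤ k / ℓ := Nat.div_pos (Nat.le_of_dvd hk hdvd) ℓ.2.pos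
      have h4 := hf (k / ℓ) hk'
      have h3' : ((S16_sigmaStar p (k * ℓ) : ℕ) : ℤ) + (ℓ : ℕ) * S16_sigmaStar p (k / ℓ) =
          (1 + (ℓ : ℕ)) * S16_sigmaStar p k := by exact_mod_cast h3
      have h5 := dvd_sub (dvd_add h1 (Dvd.dvd.mul_left h4 ((ℓ : ℕ) : ℤ)))
        (Dvd.dvd.mul_left h2 (1 + ((ℓ : ℕ) : ℤ)))
      have e : S49_intCoeff (k * ↑ℓ) f + ↑↑ℓ * S49_intCoeff (k / ↑ℓ) f -
          (1 + ↑↑ℓ) * S49_intCoeff k f =
          S49_intCoeff (k * ↑ℓ) f - ↑(S16_sigmaStar p (k * ↑ℓ)) +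
            ↑↑ℓ * (S49_intCoeff (k / ↑ℓ) f - ↑(S16_sigmaStar p (k / ↑ℓ))) -
          (1 + ↑↑ℓ) * (S49_intCoeff k f - ↑(S16_sigmaStar p k)) := by
        linear_combination h3'
      rw [e]
      exact h5
    · rw [if_neg hdvd, add_zero] at h3 ⊢
      have h3' : ((S16_sigmaStar p (k * ℓ) : ℕ) : ℤ) = (1 + (ℓ : ℕ)) * S16_sigmaStar p k := by
        exact_mod_cast h3
      have h5 := dvd_sub h1 (Dvd.dvd.mul_left h2 (1 + ((ℓ : ℕ) : ℤ)))
      have e : S49_intCoeff (k * ↑ℓ) f - (1 + ↑↑ℓ) * S49_intCoeff k f =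
          S49_intCoeff (k * ↑ℓ) f - ↑(S16_sigmaStar p (k * ↑ℓ)) -
          (1 + ↑↑ℓ) * (S49_intCoeff k f - ↑(S16_sigmaStar p k)) := by
        linear_combination h3'
      rw [e]
      exact h5

/-- a form congruent to the Eisenstein series is an eigenform modulo `M` for all of `T`. -/
theorem S16_eigen {M : ℤ} (hM : M ≠ 0) (f : ↥(intLattice p 2))
    (hf : ∀ k, 1 ≤ k → M ∣ S49_intCoeff k f - S16_sigmaStar p k) (P : HeckeAlg) :
    ∀ k, 1 ≤ k → M ∣ S49_intCoeff k (S16_act p P f) - S16_ev p P * S49_intCoeff k f := by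
  induction P using MvPolynomial.induction_on with
  | C z =>
    intro k _
    rw [S16_act_C, S49_intCoeff_zsmul, S16_ev_C, sub_self]
    exact dvd_zero _
  | add P Q hP hQ =>
    intro k hk
    rw [S16_act_add, S49_intCoeff_add, map_add]
    have := dvd_add (hP k hk) (hQ k hk)
    have e : S49_intCoeff k (S16_act p P f) + S49_intCoeff k (S16_act p Q f) -
        (S16_ev p P + S16_ev p Q) * S49_intCoeff k f =
        S49_intCoeff k (S16_act p P f) - S16_ev p P * S49_intCoeff k f +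
          (S49_intCoeff k (S16_act p Q f) - S16_ev p Q * S49_intCoeff k f) := by ring
    rw [e]
    exact this
  | mul_X P ℓ hP =>
    intro k hk
    rw [S16_act_mul, map_mul, S16_ev_X]
    set g : ↥(intLattice p 2) :=
      S16_act p (MvPolynomial.X ℓ) f - eisensteinSystem p ℓ • f with hg
    have hgdvd : ∀ k, 1 ≤ k → M ∣ S49_intCoeff k g := by
      intro k hk
      rw [hg, S16_intCoeff_sub, S49_intCoeff_zsmul]
      exact S16_eigen_X p f hf ℓ k hk
    have hsplit : S16_act p (MvPolynomial.X ℓ) f = g + eisensteinSystem p ℓ • f := by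
      rw [hg, sub_add_cancel]
    have h1 := S16_dvd_intCoeff_act p hM P g hgdvd k
    have h2 := hP k hk
    rw [hsplit, map_add, S49_intCoeff_add, S16_act_zsmul, S49_intCoeff_zsmul]
    have := dvd_add h1 (Dvd.dvd.mul_left h2 (eisensteinSystem p ℓ))
    have e : S49_intCoeff k (S16_act p P g) +
        eisensteinSystem p ℓ * S49_intCoeff k (S16_act p P f) -
        S16_ev p P * eisensteinSystem p ℓ * S49_intCoeff k f =
        S49_intCoeff k (S16_act p P g) + eisensteinSystem p ℓ *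
          (S49_intCoeff k (S16_act p P f) - S16_ev p P * S49_intCoeff k f) := by ring
    rw [e]
    exact this

theorem S16_intCast_act (z : ℤ) (f : ↥(intLattice p 2)) :
    ((z : ↥(heckeLatticeAlgebra p ∅)) : Module.End ℤ ↥(intLattice p 2)) f = z • f := by
  rw [SubringClass.coe_intCast, Module.End.intCast_apply]

/-- **D2, ideal form**. -/
theorem S16_dvd_of_hasCong {M : ℕ} (hM : 0 < M) (h : S16_HasCong p M) (z : ℤ)
    (hz : (z : ↥(heckeLatticeAlgebra p ∅)) ∈ S16_eisT p) : (M : ℤ) ∣ z := by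
  have hp : p.Prime := Fact.out
  obtain ⟨f₀, a, ha, hcong⟩ := h
  set f : ↥(intLattice p 2) := ⟨f₀, S49_mem_intLattice_of_coeff fun n => ⟨a n, ha n⟩⟩ with hfdef
  have hic : ∀ k, S49_intCoeff k f = a k := fun k => S49_intCoeff_eq k f (a k) (ha k)
  have hf : ∀ k, 1 ≤ k → (M : ℤ) ∣ S49_intCoeff k f - S16_sigmaStar p k := by
    intro k hk
    rw [hic]
    exact hcong k hk
  obtain ⟨Q, hQev, hQ⟩ := (S16_mem_eisT_iff p _).mp hz
  have h1 := S16_eigen p (Int.natCast_ne_zero.mpr hM.ne') f hf Q 1 le_rfl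
  have h2 : S16_act p Q f = z • f := by
    unfold S16_act
    rw [hQ]
    exact S16_intCast_act p z f
  rw [h2, hQev, zero_mul, sub_zero, S49_intCoeff_zsmul] at h1
  have h3 := hf 1 le_rfl
  rw [S16_sigmaStar_one hp] at h3
  have h4 := dvd_sub h1 (Dvd.dvd.mul_left h3 z)
  have e : z * S49_intCoeff 1 f - z * (S49_intCoeff 1 f - ((1 : ℕ) : ℤ)) = z := by
    push_cast; ring
  rw [e] at h4
  exact h4

end Fermat.Agent.S16
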