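import Mathlib
import Fermat.Agent.S16.DualEigen

/-! # S16 DUAL (helper1), part 6: D1, D2 and the main theorems S16_card_eq_of, S16_card_eq_of', S16_card_eq_of_primePow. -/

set_option autoImplicit false

open CuspForm ModularCurve CongruenceSubgroup ModularFormClass Fermat.Agent.S49

namespace Fermat.Agent.S16

variable (p : ℕ) [Fact p.Prime]

/-- **D2**: a congruence modulo `M` forces `M ∣ #(T/I)`. -/
theorem S16_dvd_card_of_hasCong {M : ℕ} (hM : 0 < M) (h : S16_HasCong p M) :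
    M ∣ Nat.card (↥(heckeLatticeAlgebra p ∅) ⧸
        Ideal.map ((latticeRestrictHom p ∅).toRingHom.comp (heckeEvalForms p 2))
          (eisensteinIdeal p)) := by
  have h1 := S16_dvd_of_hasCong p hM h _
    ((S16_intCast_mem_eisT_iff p _).mpr dvd_rfl)
  exact Int.natCast_dvd_natCast.mp h1

/-- a linear form `T → ZMod M` with `ρ(P) ↦ ev(P)`, if every integer of `I` is divisible
by `M`. -/
theorem S16_exists_linearForm {M : ℕ}
    (h : ∀ z : ℤ, (z : ↥(heckeLatticeAlgebra p ∅)) ∈ S16_eisT p → (M : ℤ) ∣ z) :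
    ∃ ψ : ↥(heckeLatticeAlgebra p ∅) →+ ZMod M,
      ∀ P : HeckeAlg, ψ (S16_rho p P) = ((S16_ev p P : ℤ) : ZMod M) := by
  -- `ψ t = z` whenever `t - z ∈ I`
  have hex : ∀ t : ↥(heckeLatticeAlgebra p ∅), ∃ z : ℤ,
      t - (z : ↥(heckeLatticeAlgebra p ∅)) ∈ S16_eisT p := by
    intro t
    obtain ⟨P, rfl⟩ := S16_exists_act p t
    exact ⟨_, S16_rho_sub_ev_mem p P⟩
  choose zf hzf using hex
  have huniq : ∀ (t : ↥(heckeLatticeAlgebra p ∅)) (z : ℤ),
      t - (z : ↥(heckeLatticeAlgebra p ∅)) ∈ S16_eisT p → ((zf t : ℤ) : ZMod M) = (z : ZMod M) := by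
    intro t z hz
    rw [ZMod.intCast_eq_intCast_iff_dvd_sub]
    apply h
    have := (S16_eisT p).sub_mem (hzf t) hz
    have e : t - ((zf t : ℤ) : ↥(heckeLatticeAlgebra p ∅)) - (t - (z : ↥(heckeLatticeAlgebra p ∅)))
        = ((z - zf t : ℤ) : ↥(heckeLatticeAlgebra p ∅)) := by
      push_cast; ring
    rwa [e] at this
  refine ⟨⟨⟨fun t => ((zf t : ℤ) : ZMod M), ?_⟩, ?_⟩, ?_⟩
  · show ((zf 0 : ℤ) : ZMod M) = 0
    rw [huniq 0 0 (by simp)]
    simp
  · intro s t
    show ((zf (s + t) : ℤ) : ZMod M) = ((zf s : ℤ) : ZMod M) + ((zf t : ℤ) : ZMod M)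
    rw [huniq (s + t) (zf s + zf t) ?_]
    · push_cast; rfl
    · have := (S16_eisT p).add_mem (hzf s) (hzf t)
      have e : s - ((zf s : ℤ) : ↥(heckeLatticeAlgebra p ∅)) +
          (t - ((zf t : ℤ) : ↥(heckeLatticeAlgebra p ∅))) =
          s + t - ((zf s + zf t : ℤ) : ↥(heckeLatticeAlgebra p ∅)) := by
        push_cast; ring
      rwa [e] at this
  · intro P
    exact huniq _ _ (S16_rho_sub_ev_mem p P)

set_option maxHeartbeats 1000000 in
/-- **D1, ideal form**. -/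
theorem S16_hasCong_of_forall_dvd {M : ℕ}
    (h : ∀ z : ℤ, (z : ↥(heckeLatticeAlgebra p ∅)) ∈ S16_eisT p → (M : ℤ) ∣ z) :
    S16_HasCong p M := by
  obtain ⟨ψ, hψ⟩ := S16_exists_linearForm p h
  -- lift `ψ` to a linear form with values in `ℤ`
  obtain ⟨φ, hφ⟩ := Module.projective_lifting_property
    ((Int.castAddHom (ZMod M)).toIntLinearMap) ψ.toIntLinearMap
    (fun x => ZMod.intCast_surjective x)
  obtain ⟨f, hf⟩ := S16_duality p φ
  refine ⟨(f : CuspForm (Gamma0 p) 2), fun k => S49_intCoeff k f,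
    fun k => S49_intCoeff_spec k f, fun k hk => ?_⟩
  obtain ⟨P, hPev, hP⟩ := S16_exists_heckePoly p k hk
  have h1 : S49_intCoeff k f = φ (S16_rho p P) := by
    rw [hP, ← S16_pair_rho, hf]
  have h2 : ((φ (S16_rho p P) : ℤ) : ZMod M) = ((S16_ev p P : ℤ) : ZMod M) := by
    rw [← hψ P]
    exact LinearMap.congr_fun hφ (S16_rho p P)
  show (M : ℤ) ∣ S49_intCoeff k f - S16_sigmaStar p k
  rw [h1, ← hPev]
  exact (ZMod.intCast_eq_intCast_iff_dvd_sub _ _ M).mp h2.symm

/-- **D1**: `M ∣ #(T/I)` gives a congruence modulo `M`. -/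
theorem S16_hasCong_of_dvd_card {M : ℕ}
    (h : M ∣ Nat.card (↥(heckeLatticeAlgebra p ∅) ⧸
        Ideal.map ((latticeRestrictHom p ∅).toRingHom.comp (heckeEvalForms p 2))
          (eisensteinIdeal p))) :
    S16_HasCong p M :=
  S16_hasCong_of_forall_dvd p fun z hz =>
    (Int.natCast_dvd_natCast.mpr h).trans ((S16_intCast_mem_eisT_iff p z).mp hz)

/-- **DUAL**, with the lower bound in divisibility form. -/
theorem S16_card_eq_of' (n : ℕ) (hn : 0 < n)
    (hlow : n ∣ Nat.card (↥(heckeLatticeAlgebra p ∅) ⧸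
        Ideal.map ((latticeRestrictHom p ∅).toRingHom.comp (heckeEvalForms p 2))
          (eisensteinIdeal p)))
    (hup : ∀ M : ℕ, 0 < M → S16_HasCong p M → M ∣ n) :
    Nat.card (↥(heckeLatticeAlgebra p ∅) ⧸
        Ideal.map ((latticeRestrictHom p ∅).toRingHom.comp (heckeEvalForms p 2))
          (eisensteinIdeal p)) = n := by
  set c := Nat.card (↥(heckeLatticeAlgebra p ∅) ⧸
        Ideal.map ((latticeRestrictHom p ∅).toRingHom.comp (heckeEvalForms p 2))
          (eisensteinIdeal p)) with hc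
  rcases Nat.eq_zero_or_pos c with h0 | hpos
  · exfalso
    have h1 : S16_HasCong p (n + 1) := S16_hasCong_of_dvd_card p (by rw [← hc, h0]; exact dvd_zero _)
    have h2 := Nat.le_of_dvd hn (hup (n + 1) (Nat.succ_pos n) h1)
    omega
  · exact Nat.dvd_antisymm (hup c hpos (S16_hasCong_of_dvd_card p dvd_rfl)) hlow

/-- **DUAL**: the Eisenstein index from the two congruence statements. -/
theorem S16_card_eq_of (n : ℕ) (hn : 0 < n)
    (hlow : S16_HasCong p n)
    (hup : ∀ M : ℕ, 0 < M → S16_HasCong p M → M ∣ n) :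
    Nat.card (↥(heckeLatticeAlgebra p ∅) ⧸
        Ideal.map ((latticeRestrictHom p ∅).toRingHom.comp (heckeEvalForms p 2))
          (eisensteinIdeal p)) = n :=
  S16_card_eq_of' p n hn (S16_dvd_card_of_hasCong p hn hlow) hup

omit [Fact p.Prime] in
/-- congruences can be weakened. -/
theorem S16_hasCong_of_dvd {M M' : ℕ} (hdvd : M' ∣ M) (h : S16_HasCong p M) : S16_HasCong p M' := by
  obtain ⟨f, a, ha, hcong⟩ := h
  exact ⟨f, a, ha, fun k hk => (Int.natCast_dvd_natCast.mpr hdvd).trans (hcong k hk)⟩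

omit [Fact p.Prime] in
/-- the upper bound only has to be checked on prime powers. -/
theorem S16_upper_of_primePow (n : ℕ)
    (hup : ∀ ℓ a : ℕ, ℓ.Prime → 0 < a → S16_HasCong p (ℓ ^ a) → ℓ ^ a ∣ n)
    (M : ℕ) (_hM : 0 < M) (h : S16_HasCong p M) : M ∣ n := by
  rw [Nat.dvd_iff_prime_pow_dvd_dvd]
  intro ℓ a hℓ hdvd
  rcases Nat.eq_zero_or_pos a with rfl | ha
  · simp
  · exact hup ℓ a hℓ ha (S16_hasCong_of_dvd p hdvd h)

/-- **DUAL**, prime power form of the upper bound. -/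
theorem S16_card_eq_of_primePow (n : ℕ) (hn : 0 < n)
    (hlow : S16_HasCong p n)
    (hup : ∀ ℓ a : ℕ, ℓ.Prime → 0 < a → S16_HasCong p (ℓ ^ a) → ℓ ^ a ∣ n) :
    Nat.card (↥(heckeLatticeAlgebra p ∅) ⧸
        Ideal.map ((latticeRestrictHom p ∅).toRingHom.comp (heckeEvalForms p 2))
          (eisensteinIdeal p)) = n :=
  S16_card_eq_of p n hn hlow (S16_upper_of_primePow p n hup)

end Fermat.Agent.S16
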