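import Mathlib
import Fermat.Prelude.Def_ModularForm_HeckeOperator
import Fermat.Prelude.Def_FLTPrelim_Modularity
import Fermat.Prelude.Thm_ModularFormClass_qCoeff_heckeU
import Fermat.Prelude.Thm_CongruenceSubgroup_one_mem_strictPeriods_Gamma0
import Fermat.Prelude.Thm_UpperHalfPlane_qCoeff_heckeU
import Fermat.Prelude.Thm_ModularForm_periodic_heckeU_comp_ofComplex
import Fermat.Prelude.Thm_ModularForm_mdifferentiable_heckeU
import Fermat.Prelude.Thm_ModularForm_isBoundedAtImInfty_heckeU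
import Fermat.Agent.S20.Basic
import Fermat.Agent.S20.DeltaN
import Fermat.Agent.S20.LevelOne

/-!
# S16, package WFACTS: the Fricke involution `W_p`, the cosets of `Γ₀(p)` and the trace to level one

Everything is stated for plain functions `ℍ → ℂ` with the predicates `IsMF N k f`, `IsMF1 k f`
of `Fermat.Agent.S20.Basic`.

Normalisation: `∣[k]` is Mathlib's slash action of `GL(2,ℝ)`,
`(f ∣[k] g) z = det g ^ (k-1) * (c z + d) ^ (-k) * f (g z)`.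
-/

set_option autoImplicit false

namespace Fermat.Agent.S16

open UpperHalfPlane ModularForm Matrix.SpecialLinearGroup CongruenceSubgroup
open scoped MatrixGroups ModularForm Manifold
open Fermat.Agent.S20

/-- The Fricke matrix `W_p = S * diag(p,1) = [[0,-1],[p,0]]` in `GL(2,ℝ)`. -/
noncomputable def S16_W (p : ℕ) : GL (Fin 2) ℝ := mapGL ℝ ModularGroup.S * heckeDiagMatrix p

variable {p : ℕ} {k l : ℤ} {f g : ℍ → ℂ}

theorem S16_val_W (hp : p ≠ 0) :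
    ((S16_W p : GL (Fin 2) ℝ) : Matrix (Fin 2) (Fin 2) ℝ) = !![0, -1; (p : ℝ), 0] := by
  ext i j
  fin_cases i <;> fin_cases j <;>
    simp [S16_W, val_heckeDiagMatrix hp, ModularGroup.coe_S, Matrix.mul_apply, Fin.sum_univ_two]

theorem S16_det_W (hp : p ≠ 0) : ((S16_W p).det : ℝ) = p := by
  rw [Matrix.GeneralLinearGroup.val_det_apply, S16_val_W hp, Matrix.det_fin_two_of]
  ring

theorem S16_det_W_pos (hp : p ≠ 0) : 0 < ((S16_W p).det : ℝ) := by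
  rw [S16_det_W hp]; exact_mod_cast Nat.pos_of_ne_zero hp

theorem S16_slash_W_eq (k : ℤ) (p : ℕ) (f : ℍ → ℂ) :
    f ∣[k] S16_W p = (f ∣[k] ModularGroup.S) ∣[k] heckeDiagMatrix p := by
  rw [S16_W, SlashAction.slash_mul]
  rfl

theorem S16_denom_W (hp : p ≠ 0) (τ : ℍ) : denom (S16_W p) τ = (p : ℂ) * τ := by
  simp [denom, S16_val_W hp]

theorem S16_coe_W_smul (hp : p ≠ 0) (τ : ℍ) :
    ((S16_W p • τ : ℍ) : ℂ) = -1 / ((p : ℂ) * τ) := by
  rw [coe_smul_of_det_pos (S16_det_W_pos hp)]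
  simp [num, denom, S16_val_W hp]

theorem S16_σ_W (hp : p ≠ 0) : σ (S16_W p) = .refl ℝ ℂ := by
  rw [σ, if_pos (S16_det_W_pos hp)]

theorem S16_slash_W_apply (k : ℤ) (hp : p ≠ 0) (f : ℍ → ℂ) (τ : ℍ) :
    (f ∣[k] S16_W p) τ = (p : ℂ) ^ (k - 1) * ((p : ℂ) * τ) ^ (-k) * f (S16_W p • τ) := by
  rw [ModularForm.slash_apply, S16_σ_W hp, S16_det_W hp, S16_denom_W hp]
  simp only [ContinuousAlgEquiv.refl_apply, Nat.abs_cast, Complex.ofReal_natCast]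
  ring

/-! ### Boundedness under upper triangular slashes -/

theorem S16_isBoundedAtImInfty_slash_upperGL (k : ℤ) (a b d : ℝ) (ha : 0 < a) (hd : 0 < d)
    {g : ℍ → ℂ} (hg : IsBoundedAtImInfty g) :
    IsBoundedAtImInfty (g ∣[k] upperGL a b d ha hd) := by
  unfold IsBoundedAtImInfty Filter.BoundedAtFilter at hg ⊢
  have h1 := hg.comp_tendsto (tendsto_upperGL_smul a b d ha hd)
  have h2 : (g ∣[k] upperGL a b d ha hd) =
      fun τ => (((a * d : ℝ) : ℂ) ^ (k - 1) * (d : ℂ) ^ (-k)) *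
        (g ∘ fun τ : ℍ => upperGL a b d ha hd • τ) τ := by
    funext τ
    rw [slash_upperGL]
    simp only [Function.comp_apply]
    ring
  rw [h2]
  exact h1.const_mul_left _

theorem S16_diagN_eq (p : ℕ) [NeZero p] : diagN p = heckeDiagMatrix p := by
  apply Matrix.GeneralLinearGroup.ext
  intro i j
  have h := val_heckeDiagMatrix (NeZero.ne p)
  have h2 : (heckeDiagMatrix p) i j = (!![(p : ℝ), 0; 0, 1] : Matrix (Fin 2) (Fin 2) ℝ) i j := by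
    rw [← h]
  rw [h2]
  fin_cases i <;> fin_cases j <;> simp [diagN]

/-- Slashing a form on `Γ₀(p)` by `diag(p,1) * γ` gives something bounded at `i∞`. -/
theorem S16_bdd_slash_diag_mul [NeZero p] {g : ℍ → ℂ}
    (hg : ∀ γ : SL(2, ℤ), IsBoundedAtImInfty (g ∣[k] γ)) (γ : SL(2, ℤ)) :
    IsBoundedAtImInfty ((g ∣[k] heckeDiagMatrix p) ∣[k] γ) := by
  obtain ⟨γ', a, d, b, ha, hd, -, -, h⟩ := exists_hnf p γ
  have h0 : (g ∣[k] heckeDiagMatrix p) ∣[k] γ = g ∣[k] (diagN p * mapGL ℝ γ) := by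
    rw [SL_slash, ← SlashAction.slash_mul, ← S16_diagN_eq]
    rfl
  have h1 : (g ∣[k] heckeDiagMatrix p) ∣[k] γ = (g ∣[k] γ') ∣[k] upperGL a b d ha hd := by
    rw [h0, h, SlashAction.slash_mul]
    rfl
  rw [h1]
  exact S16_isBoundedAtImInfty_slash_upperGL k _ _ _ ha hd (hg γ')

/-! ### `W_p` and `diag(p,1)` versus `Γ₀(p)` -/

theorem S16_det_SL (γ : SL(2, ℤ)) : γ 0 0 * γ 1 1 - γ 0 1 * γ 1 0 = 1 := by
  have h := γ.det_coe
  rw [Matrix.det_fin_two] at h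
  exact h

theorem S16_W_apply (hp : p ≠ 0) (i j : Fin 2) :
    (S16_W p) i j = (!![0, -1; (p : ℝ), 0] : Matrix (Fin 2) (Fin 2) ℝ) i j := by
  rw [← S16_val_W hp]

theorem S16_heckeDiagMatrix_apply (hp : p ≠ 0) (i j : Fin 2) :
    (heckeDiagMatrix p) i j = (!![(p : ℝ), 0; 0, 1] : Matrix (Fin 2) (Fin 2) ℝ) i j := by
  rw [← val_heckeDiagMatrix hp]

theorem S16_heckeMatrix_apply (hp : p ≠ 0) (m : ℕ) (i j : Fin 2) :
    (heckeMatrix p m) i j = (!![(1 : ℝ), (m : ℝ); 0, (p : ℝ)] : Matrix (Fin 2) (Fin 2) ℝ) i j := by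
  rw [← val_heckeMatrix hp]

/-- `W_p γ = γ' W_p` with `γ' ∈ Γ₀(p)` for `γ ∈ Γ₀(p)`. -/
theorem S16_W_mul_Gamma0 (hp : p ≠ 0) {γ : SL(2, ℤ)} (hγ : γ ∈ Gamma0 p) :
    ∃ γ' ∈ Gamma0 p, S16_W p * mapGL ℝ γ = mapGL ℝ γ' * S16_W p := by
  obtain ⟨c', hc'⟩ := (Gamma0_dvd p).mp hγ
  have hdet := S16_det_SL γ
  obtain ⟨γ', g00, g01, g10, g11⟩ : ∃ γ' : SL(2, ℤ),
      γ' 0 0 = γ 1 1 ∧ γ' 0 1 = -c' ∧ γ' 1 0 = -(p * γ 0 1) ∧ γ' 1 1 = γ 0 0 :=
    ⟨⟨!![γ 1 1, -c'; -(p * γ 0 1), γ 0 0], by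
      rw [Matrix.det_fin_two_of]; rw [hc'] at hdet; linear_combination hdet⟩, rfl, rfl, rfl, rfl⟩
  refine ⟨γ', (Gamma0_dvd p).mpr ⟨-γ 0 1, by rw [g10]; ring⟩, ?_⟩
  apply Matrix.GeneralLinearGroup.ext
  intro i j
  have e : ((γ 1 0 : ℤ) : ℝ) = p * c' := by exact_mod_cast hc'
  fin_cases i <;> fin_cases j <;>
    simp [S16_W_apply hp, Matrix.mul_apply, Fin.sum_univ_two, g00, g01, g10, g11, e] <;> ring

/-- `diag(p,1) γ = γ' diag(p,1)` with `γ' ∈ SL(2,ℤ)` for `γ ∈ Γ₀(p)`. -/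
theorem S16_diag_mul_Gamma0 (hp : p ≠ 0) {γ : SL(2, ℤ)} (hγ : γ ∈ Gamma0 p) :
    ∃ γ' : SL(2, ℤ), heckeDiagMatrix p * mapGL ℝ γ = mapGL ℝ γ' * heckeDiagMatrix p := by
  obtain ⟨c', hc'⟩ := (Gamma0_dvd p).mp hγ
  have hdet := S16_det_SL γ
  obtain ⟨γ', g00, g01, g10, g11⟩ : ∃ γ' : SL(2, ℤ),
      γ' 0 0 = γ 0 0 ∧ γ' 0 1 = p * γ 0 1 ∧ γ' 1 0 = c' ∧ γ' 1 1 = γ 1 1 :=
    ⟨⟨!![γ 0 0, p * γ 0 1; c', γ 1 1], by
      rw [Matrix.det_fin_two_of]; rw [hc'] at hdet; linear_combination hdet⟩, rfl, rfl, rfl, rfl⟩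
  refine ⟨γ', ?_⟩
  apply Matrix.GeneralLinearGroup.ext
  intro i j
  have e : ((γ 1 0 : ℤ) : ℝ) = p * c' := by exact_mod_cast hc'
  fin_cases i <;> fin_cases j <;>
    simp [S16_heckeDiagMatrix_apply hp, Matrix.mul_apply, Fin.sum_univ_two, g00, g01, g10, g11, e]
      <;> ring

/-- `W_p` normalises `Γ₀(p)`: `f ∣ W` is again a modular form on `Γ₀(p)`. -/
theorem S16_isMF_slash_W [NeZero p] (hf : IsMF p k f) : IsMF p k (f ∣[k] S16_W p) := by
  have hp : p ≠ 0 := NeZero.ne p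
  rw [isMF_iff]
  refine ⟨hf.mdiff.slash k _, fun γ hγ => ?_, fun γ => ?_⟩
  · obtain ⟨γ', hγ', h⟩ := S16_W_mul_Gamma0 hp hγ
    have h0 : (f ∣[k] S16_W p) ∣[k] γ = f ∣[k] (S16_W p * mapGL ℝ γ) := by
      rw [SL_slash, ← SlashAction.slash_mul]
      rfl
    rw [h0, h, SlashAction.slash_mul]
    have h1 : f ∣[k] (mapGL ℝ γ') = f := hf.slash_eq hγ'
    rw [h1]
  · rw [S16_slash_W_eq]
    refine S16_bdd_slash_diag_mul (fun δ => ?_) γ
    have h2 : (f ∣[k] ModularGroup.S) ∣[k] δ = f ∣[k] (ModularGroup.S * δ) := by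
      rw [SlashAction.slash_mul]
    rw [h2]
    exact hf.bdd _

/-- `V_p`: a level one form slashed by `diag(p,1)` is a form on `Γ₀(p)`. -/
theorem S16_isMF_slash_diag [NeZero p] {F : ℍ → ℂ} (hF : IsMF1 k F) :
    IsMF p k (F ∣[k] heckeDiagMatrix p) := by
  have hp : p ≠ 0 := NeZero.ne p
  rw [isMF_iff]
  refine ⟨hF.mdiff.slash k _, fun γ hγ => ?_, fun γ => ?_⟩
  · obtain ⟨γ', h⟩ := S16_diag_mul_Gamma0 hp hγ
    have h0 : (F ∣[k] heckeDiagMatrix p) ∣[k] γ = F ∣[k] (heckeDiagMatrix p * mapGL ℝ γ) := by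
      rw [SL_slash, ← SlashAction.slash_mul]
      rfl
    rw [h0, h, SlashAction.slash_mul]
    have h1 : F ∣[k] (mapGL ℝ γ') = F := hF.slash_eq γ'
    rw [h1]
  · refine S16_bdd_slash_diag_mul (fun δ => ?_) γ
    rw [hF.slash_eq δ]
    exact hF.bdd

/-- `f ∣ W` for `f` of level one. -/
theorem S16_slash_W_of_isMF1 (p : ℕ) {F : ℍ → ℂ} (hF : IsMF1 k F) :
    F ∣[k] S16_W p = F ∣[k] heckeDiagMatrix p := by
  rw [S16_slash_W_eq, hF.slash_eq]

/-! ### Pointwise identities -/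

theorem S16_W_smul_W_smul (hp : p ≠ 0) (τ : ℍ) : S16_W p • (S16_W p • τ) = τ := by
  have hp' : (p : ℂ) ≠ 0 := by exact_mod_cast hp
  have hτ : (τ : ℂ) ≠ 0 := ne_zero τ
  apply UpperHalfPlane.ext
  rw [S16_coe_W_smul hp, S16_coe_W_smul hp]
  field_simp

/-- `W_p² = -p`, so `(f∣W)∣W = (-1)^k p^(k-2) f`. -/
theorem S16_slash_W_slash_W (k : ℤ) (hp : p ≠ 0) (f : ℍ → ℂ) :
    (f ∣[k] S16_W p) ∣[k] S16_W p = ((-1 : ℂ) ^ k * (p : ℂ) ^ (k - 2)) • f := by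
  have hp' : (p : ℂ) ≠ 0 := by exact_mod_cast hp
  funext τ
  have hτ : (τ : ℂ) ≠ 0 := ne_zero τ
  rw [S16_slash_W_apply k hp, S16_slash_W_apply k hp, S16_W_smul_W_smul hp, S16_coe_W_smul hp]
  simp only [Pi.smul_apply, smul_eq_mul]
  have h1 : (p : ℂ) * (-1 / ((p : ℂ) * τ)) = (-1) * (τ : ℂ)⁻¹ := by
    field_simp
  have hA : ((p : ℂ) * τ) ^ (-k) = ((p : ℂ) ^ k)⁻¹ * ((τ : ℂ) ^ k)⁻¹ := by
    rw [mul_zpow, zpow_neg, zpow_neg]
  have hB : ((-1 : ℂ) * (τ : ℂ)⁻¹) ^ (-k) = (-1 : ℂ) ^ k * (τ : ℂ) ^ k := by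
    rw [mul_zpow, inv_zpow', neg_neg, zpow_neg, ← inv_zpow, inv_neg_one]
  have hC : (p : ℂ) ^ (k - 1) = (p : ℂ) ^ k * (p : ℂ)⁻¹ := zpow_sub_one₀ hp' k
  have hD : (p : ℂ) ^ (k - 2) = (p : ℂ) ^ k * ((p : ℂ) ^ 2)⁻¹ := by
    rw [zpow_sub₀ hp', div_eq_mul_inv]
    norm_cast
  rw [h1, hA, hB, hC, hD]
  have hpk : (p : ℂ) ^ k ≠ 0 := zpow_ne_zero _ hp'
  have hτk : (τ : ℂ) ^ k ≠ 0 := zpow_ne_zero _ hτ
  field_simp

theorem S16_mul_slash_W (k l : ℤ) (hp : p ≠ 0) (f g : ℍ → ℂ) :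
    (f * g) ∣[k + l] S16_W p = (p : ℂ) • ((f ∣[k] S16_W p) * (g ∣[l] S16_W p)) := by
  rw [ModularForm.mul_slash, S16_det_W hp]
  funext τ
  simp

/-- `(V_p F) ∣ W = p^(k-2) F` for `F` of level one. -/
theorem S16_slash_diag_slash_W (hp : p ≠ 0) {F : ℍ → ℂ} (hF : IsMF1 k F) :
    (F ∣[k] heckeDiagMatrix p) ∣[k] S16_W p = ((p : ℂ) ^ (k - 2)) • F := by
  rw [← S16_slash_W_of_isMF1 p hF, S16_slash_W_slash_W k hp]
  rcases Int.even_or_odd k with hk | hk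
  · rw [hk.neg_one_zpow, one_mul]
  · rw [hF.eq_zero_of_odd hk]
    simp

/-! ### The coset representatives `S T^j` -/

/-- The matrix `S T^j = [[0,-1],[1,j]]`. -/
def S16_ST (j : ℤ) : SL(2, ℤ) := ⟨!![0, -1; 1, j], by simp [Matrix.det_fin_two_of]⟩

@[simp] theorem S16_ST_apply_zero_zero (j : ℤ) : S16_ST j 0 0 = 0 := rfl
@[simp] theorem S16_ST_apply_zero_one (j : ℤ) : S16_ST j 0 1 = -1 := rfl
@[simp] theorem S16_ST_apply_one_zero (j : ℤ) : S16_ST j 1 0 = 1 := rfl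
@[simp] theorem S16_ST_apply_one_one (j : ℤ) : S16_ST j 1 1 = j := rfl

theorem S16_ST_eq (j : ℤ) : S16_ST j = ModularGroup.S * ModularGroup.T ^ j := by
  ext i m
  fin_cases i <;> fin_cases m <;>
    simp [S16_ST, ModularGroup.coe_T_zpow, ModularGroup.coe_S, Matrix.mul_apply,
      Fin.sum_univ_two]

theorem S16_ST_eq_nat (j : ℕ) : S16_ST j = ModularGroup.S * ModularGroup.T ^ j := by
  rw [S16_ST_eq, zpow_natCast]

theorem S16_coe_ST_smul (j : ℤ) (τ : ℍ) : ((S16_ST j • τ : ℍ) : ℂ) = -1 / ((τ : ℂ) + j) := by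
  rw [coe_specialLinearGroup_apply]
  simp

theorem S16_denom_ST (j : ℤ) (τ : ℍ) : denom (S16_ST j) τ = (τ : ℂ) + j := by
  simp [denom]

theorem S16_ST_smul_eq (hp : p ≠ 0) (j : ℕ) (τ : ℍ) :
    S16_ST j • τ = S16_W p • (heckeMatrix p j • τ) := by
  have hp' : (p : ℂ) ≠ 0 := by exact_mod_cast hp
  apply UpperHalfPlane.ext
  rw [S16_coe_ST_smul, S16_coe_W_smul hp, coe_heckeMatrix_smul hp]
  congr 1
  push_cast
  field_simp

/-- The translates of `f` by the non-trivial cosets `Γ₀(p) S T^j`. -/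
theorem S16_slash_ST (k : ℤ) (hp : p ≠ 0) (f : ℍ → ℂ) (j : ℕ) :
    f ∣[k] S16_ST j = ((p : ℂ) ^ (2 - k)) • ((f ∣[k] S16_W p) ∣[k] heckeMatrix p j) := by
  have hp' : (p : ℂ) ≠ 0 := by exact_mod_cast hp
  funext τ
  rw [SL_slash_apply, S16_denom_ST, Pi.smul_apply, smul_eq_mul, slash_heckeMatrix_apply k hp,
    S16_slash_W_apply k hp, ← S16_ST_smul_eq hp, coe_heckeMatrix_smul hp]
  have h1 : (p : ℂ) * (((τ : ℂ) + (j : ℕ)) / p) = (τ : ℂ) + ((j : ℕ) : ℤ) := by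
    push_cast
    field_simp
  rw [h1]
  have h2 : (p : ℂ) ^ (2 - k) * ((p : ℂ)⁻¹ * ((p : ℂ) ^ (k - 1))) = 1 := by
    rw [← zpow_neg_one, ← zpow_add₀ hp', ← zpow_add₀ hp']
    have : 2 - k + (-1 + (k - 1)) = 0 := by ring
    rw [this, zpow_zero]
  calc f (S16_ST j • τ) * ((τ : ℂ) + ((j : ℕ) : ℤ)) ^ (-k)
      = ((p : ℂ) ^ (2 - k) * ((p : ℂ)⁻¹ * ((p : ℂ) ^ (k - 1)))) *
          (((τ : ℂ) + ((j : ℕ) : ℤ)) ^ (-k) * f (S16_ST j • τ)) := by rw [h2]; ring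
    _ = _ := by ring

/-- The translates of `f` by the non-trivial cosets `Γ₀(p) S T^j`. -/
theorem S16_slash_S_T (k : ℤ) (hp : p ≠ 0) (f : ℍ → ℂ) (j : ℕ) :
    f ∣[k] (ModularGroup.S * ModularGroup.T ^ j) =
      ((p : ℂ) ^ (2 - k)) • ((f ∣[k] S16_W p) ∣[k] heckeMatrix p j) := by
  rw [← S16_ST_eq_nat, S16_slash_ST k hp]

/-- Coset representatives of `Γ₀(p)\SL(2,ℤ)`: `1` and `S T^j`, `0 ≤ j < p`. -/
theorem S16_coset_cases' (p : ℕ) [Fact p.Prime] (γ : SL(2, ℤ)) :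
    γ ∈ Gamma0 p ∨ ∃ δ ∈ Gamma0 p, ∃ j : ℕ, j < p ∧ γ = δ * S16_ST j := by
  by_cases hγ : γ ∈ Gamma0 p
  · exact Or.inl hγ
  right
  have hc : ((γ 1 0 : ℤ) : ZMod p) ≠ 0 := fun h => hγ (Gamma0_mem.mpr h)
  set x : ZMod p := ((γ 1 1 : ℤ) : ZMod p) * ((γ 1 0 : ℤ) : ZMod p)⁻¹ with hx
  refine ⟨γ * (S16_ST x.val)⁻¹, ?_, x.val, ZMod.val_lt x, by simp⟩
  rw [Gamma0_mem]
  have h1 : (γ * (S16_ST x.val)⁻¹) 1 0 = γ 1 0 * x.val - γ 1 1 := by
    simp [Matrix.SpecialLinearGroup.coe_inv, Matrix.adjugate_fin_two, Matrix.mul_apply,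
      Fin.sum_univ_two]
    ring
  rw [h1]
  push_cast
  rw [ZMod.natCast_zmod_val, hx, mul_comm (((γ 1 1 : ℤ) : ZMod p)), ← mul_assoc,
    mul_inv_cancel₀ hc, one_mul, sub_self]

/-- Coset representatives of `Γ₀(p)\SL(2,ℤ)`: `1` and `S T^j`, `0 ≤ j < p`. -/
theorem S16_coset_cases (p : ℕ) [Fact p.Prime] (γ : SL(2, ℤ)) :
    γ ∈ Gamma0 p ∨
      ∃ δ ∈ Gamma0 p, ∃ j : ℕ, j < p ∧ γ = δ * (ModularGroup.S * ModularGroup.T ^ j) := by
  rcases S16_coset_cases' p γ with h | ⟨δ, hδ, j, hj, h⟩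
  · exact Or.inl h
  · exact Or.inr ⟨δ, hδ, j, hj, by rw [h, S16_ST_eq_nat]⟩

/-- Moving between the translates `f ∣ S T^i`. -/
theorem S16_slash_ST_slash (hf : ∀ δ ∈ Gamma0 p, f ∣[k] δ = f) (i j : ℤ) (γ : SL(2, ℤ))
    (h : (p : ℤ) ∣ (γ 0 0 + i * γ 1 0) * j - (γ 0 1 + i * γ 1 1)) :
    (f ∣[k] S16_ST i) ∣[k] γ = f ∣[k] S16_ST j := by
  have hδ : S16_ST i * γ * (S16_ST j)⁻¹ ∈ Gamma0 p := by
    rw [Gamma0_dvd]
    have h1 : (S16_ST i * γ * (S16_ST j)⁻¹) 1 0 =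
        (γ 0 0 + i * γ 1 0) * j - (γ 0 1 + i * γ 1 1) := by
      simp [Matrix.SpecialLinearGroup.coe_inv, Matrix.adjugate_fin_two, Matrix.mul_apply,
        Fin.sum_univ_two]
      ring
    rw [h1]
    exact h
  have h2 : S16_ST i * γ = (S16_ST i * γ * (S16_ST j)⁻¹) * S16_ST j := by
    simp
  rw [← SlashAction.slash_mul, h2, SlashAction.slash_mul, hf _ hδ]

/-! ### The trace from `Γ₀(p)` to level one -/

/-- The sum of the translates of `f` over the `p` non-trivial cosets. -/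
noncomputable def S16_cosetSum (k : ℤ) (p : ℕ) (f : ℍ → ℂ) : ℍ → ℂ :=
  ∑ j ∈ Finset.range p, f ∣[k] S16_ST j

theorem S16_cosetSum_eq (k : ℤ) (hp : p ≠ 0) (f : ℍ → ℂ) :
    S16_cosetSum k p f = ((p : ℂ) ^ (2 - k)) • heckeU k p (f ∣[k] S16_W p) := by
  rw [S16_cosetSum, heckeU, Finset.smul_sum]
  exact Finset.sum_congr rfl fun j _ => S16_slash_ST k hp f j

theorem S16_cosetSum_eq_zmod (k : ℤ) (p : ℕ) [NeZero p] (f : ℍ → ℂ) :
    S16_cosetSum k p f = ∑ x : ZMod p, f ∣[k] S16_ST (x.val : ℤ) := by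
  rw [S16_cosetSum]
  symm
  refine Finset.sum_bij (fun x _ => x.val) (fun x _ => Finset.mem_range.mpr (ZMod.val_lt x))
    (fun x _ y _ h => ZMod.val_injective p h)
    (fun j hj => ⟨(j : ZMod p), Finset.mem_univ _,
      ZMod.val_natCast_of_lt (Finset.mem_range.mp hj)⟩) (fun x _ => rfl)

theorem S16_T_mem_Gamma0 (p : ℕ) : ModularGroup.T ∈ Gamma0 p := by
  rw [Gamma0_mem]
  simp [ModularGroup.T]

theorem S16_cosetSum_slash_T [Fact p.Prime] (hf : ∀ δ ∈ Gamma0 p, f ∣[k] δ = f) :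
    (S16_cosetSum k p f) ∣[k] ModularGroup.T = S16_cosetSum k p f := by
  have : NeZero p := ⟨(Fact.out : p.Prime).ne_zero⟩
  rw [S16_cosetSum_eq_zmod, SlashAction.sum_slash]
  have h1 : ∀ x : ZMod p, (f ∣[k] S16_ST (x.val : ℤ)) ∣[k] ModularGroup.T =
      f ∣[k] S16_ST (((x + 1 : ZMod p)).val : ℤ) := by
    intro x
    apply S16_slash_ST_slash hf
    rw [← ZMod.intCast_zmod_eq_zero_iff_dvd]
    simp [ModularGroup.T]
    ring
  rw [Finset.sum_congr rfl (fun x _ => h1 x)]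
  exact Fintype.sum_equiv (Equiv.addRight (1 : ZMod p)) _ _ (fun x => rfl)

theorem S16_ST_zero : S16_ST 0 = ModularGroup.S := by
  ext i m
  fin_cases i <;> fin_cases m <;> simp [S16_ST, ModularGroup.coe_S]

theorem S16_add_cosetSum_slash_S [Fact p.Prime] (hf : ∀ δ ∈ Gamma0 p, f ∣[k] δ = f) :
    (f + S16_cosetSum k p f) ∣[k] ModularGroup.S = f + S16_cosetSum k p f := by
  have : NeZero p := ⟨(Fact.out : p.Prime).ne_zero⟩
  rw [S16_cosetSum_eq_zmod, SlashAction.add_slash, SlashAction.sum_slash]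
  have h0 : f ∣[k] ModularGroup.S = f ∣[k] S16_ST (((0 : ZMod p)).val : ℤ) := by
    rw [ZMod.val_zero, Nat.cast_zero, S16_ST_zero]
  have h00 : (f ∣[k] S16_ST (((0 : ZMod p)).val : ℤ)) ∣[k] ModularGroup.S = f := by
    rw [ZMod.val_zero, Nat.cast_zero, ← SlashAction.slash_mul]
    apply hf
    rw [Gamma0_mem]
    have h : (S16_ST 0 * ModularGroup.S) 1 0 = 0 := by
      simp [ModularGroup.coe_S, Matrix.mul_apply, Fin.sum_univ_two]
    rw [h]
    simp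
  have h1 : ∀ x : ZMod p, x ≠ 0 → (f ∣[k] S16_ST (x.val : ℤ)) ∣[k] ModularGroup.S =
      f ∣[k] S16_ST (((-x⁻¹ : ZMod p)).val : ℤ) := by
    intro x hx
    apply S16_slash_ST_slash hf
    rw [← ZMod.intCast_zmod_eq_zero_iff_dvd]
    simp [ModularGroup.coe_S, hx]
  rw [← Finset.add_sum_erase Finset.univ _ (Finset.mem_univ (0 : ZMod p)),
    ← Finset.add_sum_erase Finset.univ (fun x : ZMod p => f ∣[k] S16_ST (x.val : ℤ))
      (Finset.mem_univ (0 : ZMod p)), h00, ← h0]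
  have h2 : ∑ x ∈ Finset.univ.erase (0 : ZMod p), (f ∣[k] S16_ST (x.val : ℤ)) ∣[k] ModularGroup.S
      = ∑ x ∈ Finset.univ.erase (0 : ZMod p), f ∣[k] S16_ST (x.val : ℤ) := by
    rw [Finset.sum_congr rfl (fun x hx => h1 x (Finset.ne_of_mem_erase hx))]
    refine Finset.sum_nbij' (fun x => -x⁻¹) (fun x => -x⁻¹) ?_ ?_ ?_ ?_ ?_
    · intro x hx
      have := Finset.ne_of_mem_erase hx
      simp [this]
    · intro x hx
      have := Finset.ne_of_mem_erase hx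
      simp [this]
    · intro x _
      simp
    · intro x _
      simp
    · intro x _
      rfl
  rw [h2]
  abel

theorem S16_add_cosetSum_slash [Fact p.Prime] (hf : ∀ δ ∈ Gamma0 p, f ∣[k] δ = f)
    (γ : SL(2, ℤ)) : (f + S16_cosetSum k p f) ∣[k] γ = f + S16_cosetSum k p f := by
  have hγ : γ ∈ Subgroup.closure {ModularGroup.S, ModularGroup.T} := by
    simp [SpecialLinearGroup.SL2Z_generators]
  induction hγ using Subgroup.closure_induction with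
  | mem x hx =>
    rcases hx with rfl | hx
    · exact S16_add_cosetSum_slash_S hf
    · rw [Set.mem_singleton_iff] at hx
      subst hx
      rw [SlashAction.add_slash, hf _ (S16_T_mem_Gamma0 p), S16_cosetSum_slash_T hf]
  | one => exact SlashAction.slash_one _ _
  | mul x y _ _ hx hy => rw [SlashAction.slash_mul, hx, hy]
  | inv x _ hx =>
    have h1 : (f + S16_cosetSum k p f) ∣[k] x⁻¹ =
        ((f + S16_cosetSum k p f) ∣[k] x) ∣[k] x⁻¹ := by rw [hx]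
    rw [h1, ← SlashAction.slash_mul, mul_inv_cancel, SlashAction.slash_one]

theorem S16_isBoundedAtImInfty_sum {ι : Type*} (s : Finset ι) (F : ι → ℍ → ℂ)
    (h : ∀ i ∈ s, IsBoundedAtImInfty (F i)) : IsBoundedAtImInfty (∑ i ∈ s, F i) := by
  classical
  induction s using Finset.induction_on with
  | empty =>
    rw [Finset.sum_empty]
    exact Filter.const_boundedAtFilter _ (0 : ℂ)
  | insert a s ha ih =>
    rw [Finset.sum_insert ha]
    exact Filter.BoundedAtFilter.add (h a (Finset.mem_insert_self a s))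
      (ih fun i hi => h i (Finset.mem_insert_of_mem hi))

/-- The trace from `Γ₀(p)` to level one, in the form `f + ∑_j f ∣ S T^j`. -/
theorem S16_isMF1_add_cosetSum [Fact p.Prime] (hf : IsMF p k f) :
    IsMF1 k (f + S16_cosetSum k p f) := by
  have : NeZero p := ⟨(Fact.out : p.Prime).ne_zero⟩
  rw [isMF1_iff]
  refine ⟨?_, fun γ => S16_add_cosetSum_slash (fun δ hδ => hf.slash_eq hδ) γ, ?_⟩
  · refine hf.mdiff.add ?_
    rw [S16_cosetSum]
    exact MDifferentiable.sum fun j _ => hf.mdiff.slash k _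
  · refine Filter.BoundedAtFilter.add ?_ ?_
    · have := hf.bdd (1 : SL(2, ℤ))
      rwa [SlashAction.slash_one] at this
    · rw [S16_cosetSum]
      exact S16_isBoundedAtImInfty_sum _ _ fun j _ => hf.bdd _

/-- The trace from `Γ₀(p)` to level one: `Tr f = f + p^(2-k) U_p (f ∣ W)`. -/
theorem S16_isMF1_trace [Fact p.Prime] (hf : IsMF p k f) :
    IsMF1 k (f + ((p : ℂ) ^ (2 - k)) • heckeU k p (f ∣[k] S16_W p)) := by
  rw [← S16_cosetSum_eq k (Fact.out : p.Prime).ne_zero]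
  exact S16_isMF1_add_cosetSum hf

/-! ### `q`-expansions -/

theorem S16_periodic [NeZero p] (hf : IsMF p k f) : Function.Periodic (f ∘ ofComplex) 1 := by
  obtain ⟨F, rfl⟩ := hf
  exact SlashInvariantFormClass.periodic_comp_ofComplex F
    (CongruenceSubgroup.one_mem_strictPeriods_Gamma0 p)

theorem S16_bdd [NeZero p] (hf : IsMF p k f) : IsBoundedAtImInfty f := by
  have := hf.bdd (1 : SL(2, ℤ))
  rwa [SlashAction.slash_one] at this

theorem S16_analyticAt [NeZero p] (hf : IsMF p k f) : AnalyticAt ℂ (cuspFunction 1 f) 0 :=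
  analyticAt_cuspFunction_zero one_pos (S16_periodic hf) hf.mdiff (S16_bdd hf)

theorem S16_analyticAt_heckeU [NeZero p] (hf : IsMF p k f) (l : ℤ) (m : ℕ) :
    AnalyticAt ℂ (cuspFunction 1 (heckeU l m f)) 0 :=
  analyticAt_cuspFunction_zero one_pos (periodic_heckeU_comp_ofComplex (S16_periodic hf) l m)
    (mdifferentiable_heckeU hf.mdiff l m) (isBoundedAtImInfty_heckeU (S16_bdd hf) l m)

theorem S16_qCoeff_heckeU [NeZero p] (hf : IsMF p k f) (l : ℤ) {m : ℕ} (hm : m ≠ 0) (n : ℕ) :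
    ModularFormClass.qCoeff (heckeU l m f) n = ModularFormClass.qCoeff f (n * m) := by
  rw [UpperHalfPlane.qCoeff_heckeU (S16_periodic hf) hf.mdiff (S16_bdd hf) l hm, coeffHeckeU_apply]

/-- q-expansion of the trace. -/
theorem S16_qCoeff_trace [Fact p.Prime] (hf : IsMF p k f) (n : ℕ) :
    ModularFormClass.qCoeff (f + ((p : ℂ) ^ (2 - k)) • heckeU k p (f ∣[k] S16_W p)) n =
      ModularFormClass.qCoeff f n
        + (p : ℂ) ^ (2 - k) * ModularFormClass.qCoeff (f ∣[k] S16_W p) (n * p) := by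
  have : NeZero p := ⟨(Fact.out : p.Prime).ne_zero⟩
  have hW := S16_isMF_slash_W hf
  have hU := S16_analyticAt_heckeU hW k p
  have hcU : AnalyticAt ℂ (cuspFunction 1 (((p : ℂ) ^ (2 - k)) • heckeU k p (f ∣[k] S16_W p))) 0 := by
    rw [cuspFunction_smul hU.continuousAt]
    exact hU.const_smul
  unfold ModularFormClass.qCoeff
  rw [qExpansion_add (S16_analyticAt hf) hcU, qExpansion_smul hU, map_add]
  simp only [PowerSeries.coeff_smul, smul_eq_mul]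
  congr 2
  exact S16_qCoeff_heckeU hW k (NeZero.ne p) n

/-! ### Weight 2 -/

/-- Weight 2: `f = - U_p (f ∣ W)`. -/
theorem S16_eq_neg_heckeU_slash_W [Fact p.Prime] (hf : IsMF p 2 f) :
    f = - heckeU 2 p (f ∣[(2 : ℤ)] S16_W p) := by
  have h := (S16_isMF1_trace hf).eq_zero_of_weight_two
  simp only [sub_self, zpow_zero, one_smul] at h
  exact eq_neg_of_add_eq_zero_left h

/-- Weight 2: `f ∣ W = - U_p f`. -/
theorem S16_slash_W_eq_neg_heckeU [Fact p.Prime] (hf : IsMF p 2 f) :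
    f ∣[(2 : ℤ)] S16_W p = - heckeU 2 p f := by
  have : NeZero p := ⟨(Fact.out : p.Prime).ne_zero⟩
  have h := S16_eq_neg_heckeU_slash_W (S16_isMF_slash_W hf)
  rw [S16_slash_W_slash_W 2 (NeZero.ne p)] at h
  simpa using h

/-- Weight 2: `U_p² = 1` on `M₂(Γ₀(p))`. -/
theorem S16_heckeU_heckeU [Fact p.Prime] (hf : IsMF p 2 f) :
    heckeU 2 p (heckeU 2 p f) = f := by
  have h := S16_eq_neg_heckeU_slash_W hf
  rw [S16_slash_W_eq_neg_heckeU hf, heckeU_neg, neg_neg] at h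
  exact h.symm

/-- Weight 2: `U_p f` is again in `M₂(Γ₀(p))`. -/
theorem S16_isMF_heckeU [Fact p.Prime] (hf : IsMF p 2 f) : IsMF p 2 (heckeU 2 p f) := by
  have : NeZero p := ⟨(Fact.out : p.Prime).ne_zero⟩
  have h := (S16_isMF_slash_W hf).neg
  rwa [S16_slash_W_eq_neg_heckeU hf, neg_neg] at h

/-- Weight 2 coefficients: `a_{n p²}(f) = a_n(f)`. -/
theorem S16_qCoeff_mul_sq [Fact p.Prime] (hf : IsMF p 2 f) (n : ℕ) :
    ModularFormClass.qCoeff f (n * p * p) = ModularFormClass.qCoeff f n := by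
  have : NeZero p := ⟨(Fact.out : p.Prime).ne_zero⟩
  rw [← S16_qCoeff_heckeU hf 2 (NeZero.ne p), ← S16_qCoeff_heckeU (S16_isMF_heckeU hf) 2
    (NeZero.ne p), S16_heckeU_heckeU hf]

/-- Weight 2 coefficients of `f ∣ W`: `a_n(f ∣ W) = - a_{np}(f)`. -/
theorem S16_qCoeff_slash_W [Fact p.Prime] (hf : IsMF p 2 f) (n : ℕ) :
    ModularFormClass.qCoeff (f ∣[(2 : ℤ)] S16_W p) n = - ModularFormClass.qCoeff f (n * p) := by
  have : NeZero p := ⟨(Fact.out : p.Prime).ne_zero⟩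
  rw [S16_slash_W_eq_neg_heckeU hf, ← S16_qCoeff_heckeU hf 2 (NeZero.ne p)]
  unfold ModularFormClass.qCoeff
  rw [qExpansion_neg (S16_analyticAt_heckeU hf 2 p), map_neg]

end Fermat.Agent.S16
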