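import Mathlib
import Fermat.Agent.S16.Eis
import Fermat.Agent.S16.Wp
import Fermat.Prelude.Def_ModularCurve_ModularUnit

/-!
# S16 package LOWER-B (glue): the lower bound from one theta series

If `Θ ∈ M₂(Γ₀(p))` has integral `q`-expansion `1 + ∑_{k ≥ 1} t_k q^k` with all `t_k` even, then
`f = ν' ν (E − ((p − 1)/24) Θ)` is a cusp form with integral coefficients congruent to `σ*(k)`
modulo `n = (p − 1)/gcd(p − 1, 12)`.
-/

set_option autoImplicit false

open UpperHalfPlane ModularForm Matrix.SpecialLinearGroup CongruenceSubgroup Filter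
open scoped MatrixGroups ModularForm Manifold Real
open Fermat.Agent.S20

namespace Fermat.Agent.S16

/-! ### arithmetic of `n = (p − 1)/gcd(p − 1, 12)` and `ν = 12/gcd(p − 1, 12)` -/

theorem S16_lt_arith (p : ℕ) :
    ∃ (ν : ℕ) (u v : ℤ), ν * (p - 1) = 12 * ModularCurve.eisensteinNumerator p ∧
      u * ν + v * ModularCurve.eisensteinNumerator p = 1 := by
  unfold ModularCurve.eisensteinNumerator
  set g := Nat.gcd (p - 1) 12 with hg
  have hg0 : 0 < g := Nat.gcd_pos_of_pos_right _ (by norm_num)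
  have h1 : g ∣ p - 1 := Nat.gcd_dvd_left _ _
  have h2 : g ∣ 12 := Nat.gcd_dvd_right _ _
  have hcop : Nat.Coprime ((p - 1) / g) (12 / g) := Nat.coprime_div_gcd_div_gcd hg0
  refine ⟨12 / g, Nat.gcdB ((p - 1) / g) (12 / g), Nat.gcdA ((p - 1) / g) (12 / g), ?_, ?_⟩
  · obtain ⟨a, ha⟩ := h1
    obtain ⟨b, hb⟩ := h2
    rw [ha, hb, Nat.mul_div_cancel_left _ hg0, Nat.mul_div_cancel_left _ hg0]
    ring
  · have := Nat.gcd_eq_gcd_ab ((p - 1) / g) (12 / g)
    rw [hcop.gcd_eq_one] at this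
    push_cast at this ⊢
    linarith

/-! ### the glue -/

theorem S16_lt_one_mem_strictPeriods (N : ℕ) :
    (1 : ℝ) ∈ ((Gamma0 N : Subgroup SL(2, ℤ)) : Subgroup (GL (Fin 2) ℝ)).strictPeriods := by
  simp [CongruenceSubgroup.strictPeriods_Gamma0]

theorem S16_lt_qCoeff_combo {N : ℕ} (E Θ : ModularForm (Gamma0 N) 2) (a b : ℂ) (k : ℕ) :
    ModularFormClass.qCoeff (⇑(a • E - b • Θ)) k =
      a * ModularFormClass.qCoeff E k - b * ModularFormClass.qCoeff Θ k := by
  unfold ModularFormClass.qCoeff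
  have h1 := S16_lt_one_mem_strictPeriods N
  have e1 : ⇑(a • E - b • Θ) = ⇑(a • E) - ⇑(b • Θ) := rfl
  have e2 : ⇑(a • E) = a • ⇑E := rfl
  have e3 : ⇑(b • Θ) = b • ⇑Θ := rfl
  rw [e1, ModularForm.qExpansion_sub one_pos h1 (a • E) (b • Θ), e2, e3,
    ModularForm.qExpansion_smul one_pos h1 a E, ModularForm.qExpansion_smul one_pos h1 b Θ]
  simp

/-- **LOWER-B glue**, with the cuspidality criterion as a hypothesis. -/
theorem S16_lower_of_theta_of (p : ℕ) [Fact p.Prime]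
    (hcf : ∀ f : ℍ → ℂ, IsMF p 2 f → ModularFormClass.qCoeff f 0 = 0 → IsCF p 2 f)
    (Θ : ModularForm (Gamma0 p) 2) (t : ℕ → ℤ)
    (ht : ∀ k, ModularFormClass.qCoeff Θ k = (t k : ℂ)) (h0 : t 0 = 1)
    (heven : ∀ k, 1 ≤ k → Even (t k)) :
    S16_HasCong p (ModularCurve.eisensteinNumerator p) := by
  have hp : p.Prime := Fact.out
  have : NeZero p := ⟨hp.ne_zero⟩
  obtain ⟨ν, u, v, hν, huv⟩ := S16_lt_arith p
  set n := ModularCurve.eisensteinNumerator p with hn
  obtain ⟨E, hE0, hEk⟩ := S16_eis_of_ne_zero p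
  -- the form
  set a : ℂ := (u : ℂ) * ν with ha
  set b : ℂ := (u : ℂ) * n / 2 with hb
  set F : ModularForm (Gamma0 p) 2 := a • E - b • Θ with hF
  have hcoeff : ∀ k, ModularFormClass.qCoeff (⇑F) k =
      a * ModularFormClass.qCoeff E k - b * (t k : ℂ) := by
    intro k
    rw [hF, S16_lt_qCoeff_combo, ht]
  have hνc : (ν : ℂ) * ((p : ℂ) - 1) = 12 * n := by
    have h1 : 1 ≤ p := hp.one_lt.le
    have : ((ν * (p - 1) : ℕ) : ℂ) = ((12 * n : ℕ) : ℂ) := by rw [hν]
    push_cast [Nat.cast_sub h1] at this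
    exact this
  have hF0 : ModularFormClass.qCoeff (⇑F) 0 = 0 := by
    rw [hcoeff 0, hE0, h0, ha, hb]
    push_cast
    linear_combination (u : ℂ) / 24 * hνc
  obtain ⟨G, hG⟩ := hcf (⇑F) ⟨F, rfl⟩ hF0
  refine ⟨G, fun k ↦ if k = 0 then 0 else u * ν * S16_sigmaStar p k - u * n * (t k / 2), ?_, ?_⟩
  · intro k
    rw [hG]
    show ModularFormClass.qCoeff (⇑F) k =
      ((if k = 0 then 0 else u * ν * S16_sigmaStar p k - u * n * (t k / 2) : ℤ) : ℂ)
    by_cases hk : k = 0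
    · rw [if_pos hk, hk, hF0]
      simp
    · rw [if_neg hk, hcoeff k, hEk k (Nat.one_le_iff_ne_zero.mpr hk)]
      obtain ⟨m, hm⟩ := heven k (Nat.one_le_iff_ne_zero.mpr hk)
      have hm2 : t k / 2 = m := by omega
      rw [hm2, hm, ha, hb]
      push_cast
      ring
  · intro k hk
    have hk0 : k ≠ 0 := by omega
    simp only [if_neg hk0]
    refine ⟨-(v * S16_sigmaStar p k) - u * (t k / 2), ?_⟩
    have huv' : u * ν = 1 - v * n := by linarith
    linear_combination (S16_sigmaStar p k : ℤ) * huv'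

/-! ### a weight 2 form on `Γ₀(p)` with vanishing constant term is a cusp form -/

theorem S16_lt_isZeroAtImInfty {p : ℕ} [NeZero p] {k : ℤ} {g : ℍ → ℂ} (hg : IsMF p k g)
    (h0 : ModularFormClass.qCoeff g 0 = 0) : IsZeroAtImInfty g := by
  have hanal := S16_analyticAt hg
  have hper := S16_periodic hg
  have h1 : cuspFunction 1 g 0 = 0 := by
    rw [UpperHalfPlane.cuspFunction_apply_zero one_pos hanal hper,
      ← UpperHalfPlane.qExpansion_coeff_zero one_pos hanal hper]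
    exact h0
  have h2 := (hanal.continuousAt.tendsto.comp (qParam_tendsto_atImInfty one_pos)).congr
    (fun τ ↦ UpperHalfPlane.eq_cuspFunction τ one_ne_zero hper)
  rw [h1] at h2
  exact h2

theorem S16_lt_zero_slash_heckeMatrix {p : ℕ} (hp : p ≠ 0) {g : ℍ → ℂ}
    (hg : IsZeroAtImInfty g) (k : ℤ) (j : ℕ) : IsZeroAtImInfty (g ∣[k] heckeMatrix p j) := by
  have ht : Tendsto (fun τ : ℍ ↦ heckeMatrix p j • τ) atImInfty atImInfty :=
    tendsto_smul_atImInfty (by simp [val_heckeMatrix hp])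
  have h1 : Tendsto (fun τ : ℍ ↦ g (heckeMatrix p j • τ)) atImInfty (nhds 0) := hg.comp ht
  have h2 := h1.const_mul ((p : ℂ)⁻¹)
  simp only [mul_zero] at h2
  refine h2.congr fun τ ↦ ?_
  rw [slash_heckeMatrix_apply k hp]

/-- **Cuspidality criterion**: a modular form of weight `2` on `Γ₀(p)` (`p` prime) whose constant
term at `∞` vanishes is a cusp form. -/
theorem S16_isCF_of_qCoeff_zero (p : ℕ) [Fact p.Prime] {f : ℍ → ℂ} (hf : IsMF p 2 f)
    (h0 : ModularFormClass.qCoeff f 0 = 0) : IsCF p 2 f := by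
  have hp : p.Prime := Fact.out
  have : NeZero p := ⟨hp.ne_zero⟩
  rw [isCF_iff]
  refine ⟨hf.mdiff, fun γ hγ ↦ hf.slash_eq hγ, fun γ ↦ ?_⟩
  have hz : IsZeroAtImInfty f := S16_lt_isZeroAtImInfty hf h0
  have hW : IsMF p 2 (f ∣[(2 : ℤ)] S16_W p) := S16_isMF_slash_W hf
  have hW0 : ModularFormClass.qCoeff (f ∣[(2 : ℤ)] S16_W p) 0 = 0 := by
    rw [S16_qCoeff_slash_W hf 0, zero_mul, h0, neg_zero]
  have hzW := S16_lt_isZeroAtImInfty hW hW0
  rcases S16_coset_cases' p γ with h | ⟨δ, hδ, j, -, rfl⟩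
  · rw [hf.slash_eq h]
    exact hz
  · rw [SlashAction.slash_mul, hf.slash_eq hδ, S16_slash_ST 2 hp.ne_zero]
    simp only [sub_self, zpow_zero, one_smul]
    exact S16_lt_zero_slash_heckeMatrix hp.ne_zero hzW 2 j

/-- **LOWER-B glue**: a theta series `Θ ∈ M₂(Γ₀(p))` with integral coefficients, constant term `1`
and even higher coefficients gives the lower bound `S16_HasCong p n`,
`n = (p − 1)/gcd(p − 1, 12)`. -/
theorem S16_lower_of_theta (p : ℕ) [Fact p.Prime]
    (Θ : ModularForm (Gamma0 p) 2) (t : ℕ → ℤ)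
    (ht : ∀ k, ModularFormClass.qCoeff Θ k = (t k : ℂ)) (h0 : t 0 = 1)
    (heven : ∀ k, 1 ≤ k → Even (t k)) :
    S16_HasCong p (ModularCurve.eisensteinNumerator p) :=
  S16_lower_of_theta_of p (fun _ hf hf0 ↦ S16_isCF_of_qCoeff_zero p hf hf0) Θ t ht h0 heven

end Fermat.Agent.S16
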