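import Fermat.Agent.S16.Defs
import Fermat.Agent.S16.SigmaStar
import Fermat.Agent.S20
import Fermat.Prelude.Def_ModularCurve_GenusNumerics
import Fermat.Prelude.Def_ModularCurve_ModularUnit

/-!
# S16, package SMALL: the primes `p ∈ {2, 3, 5, 7, 13}` (genus `0`)

* `S16_hasCong_one p : S16_HasCong p 1`;
* for `p ∈ {2, 3, 5, 7, 13}`: `genusFormula p = 0`, every weight 2 cusp form on `Γ₀(p)` vanishes,
  `eisensteinNumerator p = 1`, and `S16_HasCong p M → M ∣ eisensteinNumerator p`.
-/

set_option autoImplicit false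
set_option linter.style.haveILetI false

open ModularCurve

namespace Fermat.Agent.S16

/-- the set of primes of genus zero -/
def S16_IsSmall (p : ℕ) : Prop := p = 2 ∨ p = 3 ∨ p = 5 ∨ p = 7 ∨ p = 13

theorem S16_qCoeff_zero (p : ℕ) (k : ℕ) :
    ModularFormClass.qCoeff (⇑(0 : CuspForm (CongruenceSubgroup.Gamma0 p) 2)) k = 0 := by
  rw [ModularFormClass.qCoeff]
  have : (⇑(0 : CuspForm (CongruenceSubgroup.Gamma0 p) 2) : UpperHalfPlane → ℂ) = 0 := rfl
  rw [this, UpperHalfPlane.qExpansion_zero]
  simp

/-- congruences modulo `1` always exist. -/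
theorem S16_hasCong_one (p : ℕ) : S16_HasCong p 1 :=
  ⟨0, fun _ => 0, fun k => by rw [S16_qCoeff_zero]; simp, fun k _ => by simp⟩

theorem S16_dedekindPsi_prime {p : ℕ} (hp : p.Prime) : dedekindPsi p = p + 1 := by
  rw [dedekindPsi, Nat.Prime.divisors hp, Finset.filter_true_of_mem, Finset.sum_pair hp.one_lt.ne]
  · simp [Nat.div_self hp.pos]
  · intro d hd
    simp only [Finset.mem_insert, Finset.mem_singleton] at hd
    rcases hd with rfl | rfl
    · exact squarefree_one
    · exact hp.squarefree

theorem S16_cuspCount_prime {p : ℕ} (hp : p.Prime) : cuspCount p = 2 := by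
  rw [cuspCount, Nat.Prime.divisors hp, Finset.sum_pair hp.one_lt.ne]
  simp [Nat.div_self hp.pos]

theorem S16_isSmall_prime {p : ℕ} (hp : S16_IsSmall p) : p.Prime := by
  rcases hp with rfl | rfl | rfl | rfl | rfl <;> norm_num

theorem S16_genusFormula_small {p : ℕ} (hp : S16_IsSmall p) : genusFormula p = 0 := by
  have hpp := S16_isSmall_prime hp
  rw [genusFormula, S16_dedekindPsi_prime hpp, S16_cuspCount_prime hpp]
  rcases hp with rfl | rfl | rfl | rfl | rfl
  · have h2 : nuTwo 2 = 1 := by
      rw [nuTwo, Nat.card_eq_fintype_card, Fintype.card_subtype]; decide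
    have h3 : nuThree 2 = 0 := by
      rw [nuThree, Nat.card_eq_fintype_card, Fintype.card_subtype]; decide
    rw [h2, h3]; norm_num
  · have h2 : nuTwo 3 = 0 := by
      rw [nuTwo, Nat.card_eq_fintype_card, Fintype.card_subtype]; decide
    have h3 : nuThree 3 = 1 := by
      rw [nuThree, Nat.card_eq_fintype_card, Fintype.card_subtype]; decide
    rw [h2, h3]; norm_num
  · have h2 : nuTwo 5 = 2 := by
      rw [nuTwo, Nat.card_eq_fintype_card, Fintype.card_subtype]; decide
    have h3 : nuThree 5 = 0 := by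
      rw [nuThree, Nat.card_eq_fintype_card, Fintype.card_subtype]; decide
    rw [h2, h3]; norm_num
  · have h2 : nuTwo 7 = 0 := by
      rw [nuTwo, Nat.card_eq_fintype_card, Fintype.card_subtype]; decide
    have h3 : nuThree 7 = 2 := by
      rw [nuThree, Nat.card_eq_fintype_card, Fintype.card_subtype]; decide
    rw [h2, h3]; norm_num
  · have h2 : nuTwo 13 = 2 := by
      rw [nuTwo, Nat.card_eq_fintype_card, Fintype.card_subtype]; decide
    have h3 : nuThree 13 = 2 := by
      rw [nuThree, Nat.card_eq_fintype_card, Fintype.card_subtype]; decide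
    rw [h2, h3]; norm_num

theorem S16_eisensteinNumerator_small {p : ℕ} (hp : S16_IsSmall p) :
    eisensteinNumerator p = 1 := by
  rcases hp with rfl | rfl | rfl | rfl | rfl <;> decide

/-- for `p ∈ {2, 3, 5, 7, 13}` there are no nonzero cusp forms of weight `2` on `Γ₀(p)`. -/
theorem S16_cuspForm_eq_zero_small {p : ℕ} (hp : S16_IsSmall p)
    (f : CuspForm (CongruenceSubgroup.Gamma0 p) 2) : f = 0 := by
  haveI : NeZero p := ⟨(S16_isSmall_prime hp).ne_zero⟩
  have h0 : Module.finrank ℂ (CuspForm (CongruenceSubgroup.Gamma0 p) 2) = 0 := by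
    have := Fermat.Agent.S20.result p
    rw [S16_genusFormula_small hp] at this
    exact_mod_cast this
  haveI : FiniteDimensional ℂ (CuspForm (CongruenceSubgroup.Gamma0 p) 2) :=
    Module.Finite.of_injective CuspForm.toModularFormₗ CuspForm.toModularFormₗ_injective
  exact finrank_zero_iff_forall_zero.mp h0 f

/-- UPPER for the small primes. -/
theorem S16_upper_small {p : ℕ} (hp : S16_IsSmall p) (M : ℕ) (hM : S16_HasCong p M) :
    M ∣ eisensteinNumerator p := by
  obtain ⟨f, a, ha, hcong⟩ := hM
  have hf := S16_cuspForm_eq_zero_small hp f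
  subst hf
  have h1 : a 1 = 0 := by
    have := ha 1
    rw [S16_qCoeff_zero] at this
    exact_mod_cast this.symm
  have h2 := hcong 1 le_rfl
  rw [h1, S16_sigmaStar_one (S16_isSmall_prime hp)] at h2
  have h3 : (M : ℤ) ∣ 1 := by
    have : (M : ℤ) ∣ -((0 : ℤ) - ((1 : ℕ) : ℤ)) := (dvd_neg).mpr h2
    simpa using this
  have h4 : M ∣ 1 := by exact_mod_cast h3
  exact h4.trans (one_dvd _)

/-- LOWER for the small primes. -/
theorem S16_lower_small {p : ℕ} (hp : S16_IsSmall p) : S16_HasCong p (eisensteinNumerator p) := by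
  rw [S16_eisensteinNumerator_small hp]
  exact S16_hasCong_one p

end Fermat.Agent.S16
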