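import Mathlib

/-!
# S16, package GRAM: an even quaternary Gram matrix of level `p` and determinant `p²`

For an odd prime `p` there are integers `t > 0`, `r`, `s` with `p = (4t - 1) s - r²`; the matrix
```
A = !![2, 1, 0, 0; 1, 2t, 0, r; 0, 0, 2tp, p; 0, r, p, 2s]
```
is symmetric, even, positive definite, of determinant `p²`, and `p • A⁻¹ = B` is even integral
(this is the norm form of a maximal order in the quaternion algebra ramified at `p` and `∞`).
-/

set_option autoImplicit false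

open Matrix

noncomputable section

namespace Fermat.Agent.S16

/-- The Gram matrix `A(p, t, r, s)` (`q = 4t - 1`). -/
def S16_gramMat (p t r s : ℤ) : Matrix (Fin 4) (Fin 4) ℤ :=
  !![2, 1, 0, 0; 1, 2 * t, 0, r; 0, 0, 2 * t * p, p; 0, r, p, 2 * s]

/-- The matrix `B = p • A⁻¹`. -/
def S16_gramDual (t r s : ℤ) : Matrix (Fin 4) (Fin 4) ℤ :=
  !![2 * t * s, -(r ^ 2 + s), -r, 2 * t * r;
     -(r ^ 2 + s), 2 * (r ^ 2 + s), 2 * r, -(4 * t * r);
     -r, 2 * r, 2, -(4 * t - 1);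
     2 * t * r, -(4 * t * r), -(4 * t - 1), 2 * t * (4 * t - 1)]

theorem S16_gramMat_isSymm (p t r s : ℤ) : (S16_gramMat p t r s).IsSymm := by
  ext i j
  fin_cases i <;> fin_cases j <;> simp [S16_gramMat]

theorem S16_gramDual_isSymm (t r s : ℤ) : (S16_gramDual t r s).IsSymm := by
  ext i j
  fin_cases i <;> fin_cases j <;> simp [S16_gramDual]

theorem S16_gramMat_even (p t r s : ℤ) (i : Fin 4) : Even (S16_gramMat p t r s i i) := by
  fin_cases i
  · exact ⟨1, by simp [S16_gramMat]⟩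
  · exact ⟨t, by simp [S16_gramMat]; ring⟩
  · exact ⟨t * p, by simp [S16_gramMat]; ring⟩
  · exact ⟨s, by simp [S16_gramMat]; ring⟩

theorem S16_gramDual_even (t r s : ℤ) (i : Fin 4) : Even (S16_gramDual t r s i i) := by
  fin_cases i
  · exact ⟨t * s, by simp [S16_gramDual]; ring⟩
  · exact ⟨r ^ 2 + s, by simp [S16_gramDual]; ring⟩
  · exact ⟨1, by simp [S16_gramDual]⟩
  · exact ⟨t * (4 * t - 1), by simp [S16_gramDual]; ring⟩

theorem S16_gramMat_mul_dual (p t r s : ℤ) (h : p = (4 * t - 1) * s - r ^ 2) :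
    S16_gramMat p t r s * S16_gramDual t r s = p • (1 : Matrix (Fin 4) (Fin 4) ℤ) := by
  subst h
  ext i j
  fin_cases i <;> fin_cases j <;>
    simp [S16_gramMat, S16_gramDual, Matrix.mul_apply, Fin.sum_univ_four] <;>
    ring

theorem S16_gramMat_det (p t r s : ℤ) (h : p = (4 * t - 1) * s - r ^ 2) :
    (S16_gramMat p t r s).det = p ^ 2 := by
  subst h
  rw [Matrix.det_succ_row_zero]
  simp [Fin.sum_univ_four, S16_gramMat, Matrix.det_fin_three, Fin.succAbove, Matrix.submatrix]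
  ring

/-- The quadratic form of `A` over `ℝ`. -/
theorem S16_gramMat_quad (p t r s : ℤ) (x : Fin 4 → ℝ) :
    star x ⬝ᵥ ((S16_gramMat p t r s).map (Int.cast : ℤ → ℝ) *ᵥ x)
      = 2 * (x 0 ^ 2 + x 0 * x 1 + t * x 1 ^ 2 + r * x 1 * x 3 + t * p * x 2 ^ 2 + p * x 2 * x 3
          + s * x 3 ^ 2) := by
  simp [S16_gramMat, dotProduct, Matrix.mulVec, Fin.sum_univ_four]
  ring

/-- Completing the squares. -/
theorem S16_gramMat_quad_sq (p t r s : ℤ) (h : p = (4 * t - 1) * s - r ^ 2) (x : Fin 4 → ℝ) :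
    4 * (t : ℝ) * (4 * t - 1) * (x 0 ^ 2 + x 0 * x 1 + t * x 1 ^ 2 + r * x 1 * x 3
        + t * p * x 2 ^ 2 + p * x 2 * x 3 + s * x 3 ^ 2)
      = t * (4 * t - 1) * (2 * x 0 + x 1) ^ 2 + t * ((4 * t - 1) * x 1 + 2 * r * x 3) ^ 2
        + p * (4 * t - 1) * (2 * t * x 2 + x 3) ^ 2 + p * x 3 ^ 2 := by
  have hp : (p : ℝ) = (4 * t - 1) * s - r ^ 2 := by exact_mod_cast h
  rw [hp]
  ring

theorem S16_gramMat_posDef (p t r s : ℤ) (hp : 0 < p) (ht : 0 < t)
    (h : p = (4 * t - 1) * s - r ^ 2) :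
    ((S16_gramMat p t r s).map (Int.cast : ℤ → ℝ)).PosDef := by
  refine Matrix.PosDef.of_dotProduct_mulVec_pos ?_ ?_
  · have hs := S16_gramMat_isSymm p t r s
    rw [Matrix.IsHermitian, Matrix.conjTranspose_eq_transpose_of_trivial]
    ext i j
    simp only [Matrix.transpose_apply, Matrix.map_apply]
    rw [← hs.apply i j]
  · intro x hx
    rw [S16_gramMat_quad]
    have hpR : (0 : ℝ) < p := by exact_mod_cast hp
    have htR : (0 : ℝ) < t := by exact_mod_cast ht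
    have htR1 : (1 : ℝ) ≤ t := by exact_mod_cast ht
    have hq : (0 : ℝ) < 4 * t - 1 := by linarith
    have key := S16_gramMat_quad_sq p t r s h x
    set Q : ℝ := x 0 ^ 2 + x 0 * x 1 + t * x 1 ^ 2 + r * x 1 * x 3
        + t * p * x 2 ^ 2 + p * x 2 * x 3 + s * x 3 ^ 2 with hQ
    have h1 : 0 ≤ t * (4 * t - 1) * (2 * x 0 + x 1) ^ 2 := by positivity
    have h2 : 0 ≤ t * ((4 * t - 1) * x 1 + 2 * r * x 3) ^ 2 := by positivity
    have h3 : 0 ≤ p * (4 * t - 1) * (2 * t * x 2 + x 3) ^ 2 := by positivity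
    have h4 : 0 ≤ p * x 3 ^ 2 := by positivity
    have hnn : 0 ≤ 4 * (t : ℝ) * (4 * t - 1) * Q := by rw [key]; linarith
    have hcoef : (0 : ℝ) < 4 * t * (4 * t - 1) := by positivity
    by_contra hcon
    have hQ0 : Q ≤ 0 := by
      rw [not_lt] at hcon
      linarith
    have hQ00 : 4 * (t : ℝ) * (4 * t - 1) * Q = 0 := by
      apply le_antisymm _ hnn
      exact mul_nonpos_of_nonneg_of_nonpos hcoef.le hQ0
    rw [key] at hQ00
    have e4 : p * x 3 ^ 2 = 0 := by linarith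
    have e3 : p * (4 * t - 1) * (2 * t * x 2 + x 3) ^ 2 = 0 := by linarith
    have e2 : t * ((4 * t - 1) * x 1 + 2 * r * x 3) ^ 2 = 0 := by linarith
    have e1 : t * (4 * t - 1) * (2 * x 0 + x 1) ^ 2 = 0 := by linarith
    have x3 : x 3 = 0 := by
      rcases mul_eq_zero.mp e4 with h | h
      · exact absurd h hpR.ne'
      · exact pow_eq_zero_iff (two_ne_zero) |>.mp h
    have x2 : x 2 = 0 := by
      have : (2 * t * x 2 + x 3) ^ 2 = 0 := by
        rcases mul_eq_zero.mp e3 with h | h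
        · exact absurd h (mul_pos hpR hq).ne'
        · exact h
      have h5 : 2 * t * x 2 + x 3 = 0 := pow_eq_zero_iff (two_ne_zero) |>.mp this
      rw [x3, add_zero] at h5
      rcases mul_eq_zero.mp h5 with h | h
      · exact absurd h (by positivity)
      · exact h
    have x1 : x 1 = 0 := by
      have : ((4 * t - 1) * x 1 + 2 * r * x 3) ^ 2 = 0 := by
        rcases mul_eq_zero.mp e2 with h | h
        · exact absurd h htR.ne'
        · exact h
      have h5 : (4 * t - 1) * x 1 + 2 * r * x 3 = 0 := pow_eq_zero_iff (two_ne_zero) |>.mp this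
      rw [x3, mul_zero, add_zero] at h5
      rcases mul_eq_zero.mp h5 with h | h
      · exact absurd h hq.ne'
      · exact h
    have x0 : x 0 = 0 := by
      have : (2 * x 0 + x 1) ^ 2 = 0 := by
        rcases mul_eq_zero.mp e1 with h | h
        · exact absurd h (mul_pos htR hq).ne'
        · exact h
      have h5 : 2 * x 0 + x 1 = 0 := pow_eq_zero_iff (two_ne_zero) |>.mp this
      rw [x1, add_zero] at h5
      linarith
    apply hx
    ext i
    fin_cases i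
    · exact x0
    · exact x1
    · exact x2
    · exact x3

/-! ### Existence of the parameters -/

theorem S16_gram_params_three_mod_four (p : ℕ) (h3 : p % 4 = 3) :
    ∃ t r s : ℤ, 0 < t ∧ (p : ℤ) = (4 * t - 1) * s - r ^ 2 := by
  refine ⟨((p + 1) / 4 : ℕ), 0, 1, ?_, ?_⟩
  · have : 0 < (p + 1) / 4 := by lia
    exact_mod_cast this
  · have h4 : 4 * ((p + 1) / 4) = p + 1 := by lia
    have h4' : (4 : ℤ) * (((p + 1) / 4 : ℕ) : ℤ) = p + 1 := by exact_mod_cast h4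
    linarith

theorem S16_gram_params_one_mod_four (p : ℕ) [hp : Fact p.Prime] (h1 : p % 4 = 1) :
    ∃ t r s : ℤ, 0 < t ∧ (p : ℤ) = (4 * t - 1) * s - r ^ 2 := by
  have hp2 : p ≠ 2 := by
    rintro rfl
    simp at h1
  -- a non-square mod `p`
  obtain ⟨n, hn⟩ := FiniteField.exists_nonsquare (F := ZMod p)
    (by rw [ZMod.ringChar_zmod_n]; exact hp2)
  have hn0 : n ≠ 0 := by
    rintro rfl
    exact hn (IsSquare.zero)
  -- CRT
  have hco : Nat.Coprime 4 p := by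
    have : Nat.Coprime 2 p := (Nat.coprime_primes Nat.prime_two hp.out).mpr (Ne.symm hp2)
    exact Nat.Coprime.pow_left 2 this
  obtain ⟨k, hk4, hkp⟩ := Nat.chineseRemainder hco 3 n.val
  have hkn : (k : ZMod p) = n := by
    have := (ZMod.natCast_eq_natCast_iff k n.val p).mpr hkp
    rw [this, ZMod.natCast_zmod_val]
  have hk_cop : k.Coprime (4 * p) := by
    apply Nat.Coprime.mul_right
    · have : Nat.gcd k 4 = Nat.gcd 3 4 := Nat.ModEq.gcd_eq hk4
      rw [Nat.Coprime, this]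
      norm_num
    · rw [Nat.coprime_comm, Nat.Prime.coprime_iff_not_dvd hp.out]
      intro hdvd
      apply hn0
      rw [← hkn]
      exact (ZMod.natCast_eq_zero_iff k p).mpr hdvd
  -- Dirichlet
  obtain ⟨ℓ, -, hℓ, hℓk⟩ := Nat.forall_exists_prime_gt_and_modEq 0
    (by have := hp.out.pos; lia : 4 * p ≠ 0) hk_cop
  have : Fact ℓ.Prime := ⟨hℓ⟩
  have hℓ4 : ℓ % 4 = 3 := by
    have h1 : ℓ ≡ k [MOD 4] := Nat.ModEq.of_mul_right p hℓk
    have h2 : ℓ ≡ 3 [MOD 4] := h1.trans hk4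
    exact h2
  have hℓp : (ℓ : ZMod p) = n := by
    have h1 : ℓ ≡ k [MOD p] := Nat.ModEq.of_mul_left 4 hℓk
    rw [← hkn]
    exact (ZMod.natCast_eq_natCast_iff ℓ k p).mpr h1
  have hℓ2 : ℓ ≠ 2 := by
    rintro rfl
    simp at hℓ4
  have hℓnep : ℓ ≠ p := by
    rintro rfl
    apply hn0
    rw [← hℓp]
    exact ZMod.natCast_self ℓ
  -- quadratic reciprocity
  have hnsq : ¬ IsSquare ((p : ℕ) : ZMod ℓ) := by
    rw [← ZMod.exists_sq_eq_prime_iff_of_mod_four_eq_one h1 hℓ2, hℓp]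
    exact hn
  have hneg : ¬ IsSquare (-1 : ZMod ℓ) := by
    rw [ZMod.exists_sq_eq_neg_one_iff]
    simp [hℓ4]
  have hsq : IsSquare (((-1 * (p : ℤ) : ℤ)) : ZMod ℓ) := by
    have hne0 : (((-1 * (p : ℤ) : ℤ)) : ZMod ℓ) ≠ 0 := by
      intro h0
      have : ((p : ℕ) : ZMod ℓ) = 0 := by
        push_cast at h0
        simpa using h0
      rw [ZMod.natCast_eq_zero_iff] at this
      exact hℓnep ((Nat.prime_dvd_prime_iff_eq hℓ hp.out).mp this)
    rw [← legendreSym.eq_one_iff ℓ hne0, legendreSym.mul]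
    have e1 : legendreSym ℓ (-1) = -1 := by
      rw [legendreSym.eq_neg_one_iff]
      simpa using hneg
    have e2 : legendreSym ℓ (p : ℤ) = -1 := by
      rw [legendreSym.eq_neg_one_iff]
      simpa using hnsq
    rw [e1, e2]
    norm_num
  obtain ⟨r₀, hr₀⟩ := hsq
  -- the integers
  have hdvd : ℓ ∣ r₀.val ^ 2 + p := by
    rw [← ZMod.natCast_eq_zero_iff]
    push_cast
    rw [ZMod.natCast_zmod_val]
    push_cast at hr₀
    rw [pow_two, ← hr₀]
    ring
  obtain ⟨s, hs⟩ := hdvd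
  refine ⟨((ℓ + 1) / 4 : ℕ), (r₀.val : ℤ), (s : ℤ), ?_, ?_⟩
  · have : 0 < (ℓ + 1) / 4 := by lia
    exact_mod_cast this
  · have h4 : 4 * ((ℓ + 1) / 4) = ℓ + 1 := by lia
    have h4' : (4 : ℤ) * (((ℓ + 1) / 4 : ℕ) : ℤ) = ℓ + 1 := by exact_mod_cast h4
    have hs' : ((r₀.val : ℤ)) ^ 2 + (p : ℤ) = ℓ * s := by exact_mod_cast hs
    have : (4 * (((ℓ + 1) / 4 : ℕ) : ℤ) - 1) = ℓ := by linarith
    rw [this]
    linarith

theorem S16_gram_params (p : ℕ) (hp : p.Prime) (hp2 : p ≠ 2) :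
    ∃ t r s : ℤ, 0 < t ∧ (p : ℤ) = (4 * t - 1) * s - r ^ 2 := by
  have hodd : p % 2 = 1 := by
    rcases hp.eq_two_or_odd with h | h
    · exact absurd h hp2
    · exact h
  have h4 : p % 4 = 1 ∨ p % 4 = 3 := by lia
  rcases h4 with h | h
  · have : Fact p.Prime := ⟨hp⟩
    exact S16_gram_params_one_mod_four p h
  · exact S16_gram_params_three_mod_four p h

/-- **GRAM, explicit form.** -/
theorem S16_gram_exists_explicit (p : ℕ) (hp : p.Prime) (hp2 : p ≠ 2) :
    ∃ t r s : ℤ, 0 < t ∧ (p : ℤ) = (4 * t - 1) * s - r ^ 2 ∧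
      (S16_gramMat p t r s).IsSymm ∧ (∀ i, Even (S16_gramMat p t r s i i)) ∧
      ((S16_gramMat p t r s).map (Int.cast : ℤ → ℝ)).PosDef ∧
      (S16_gramMat p t r s).det = (p : ℤ) ^ 2 ∧
      S16_gramMat p t r s * S16_gramDual t r s = (p : ℤ) • (1 : Matrix (Fin 4) (Fin 4) ℤ) ∧
      (S16_gramDual t r s).IsSymm ∧ (∀ i, Even (S16_gramDual t r s i i)) := by
  obtain ⟨t, r, s, ht, h⟩ := S16_gram_params p hp hp2
  have hp0 : (0 : ℤ) < p := by exact_mod_cast hp.pos
  exact ⟨t, r, s, ht, h, S16_gramMat_isSymm _ _ _ _, S16_gramMat_even _ _ _ _,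
    S16_gramMat_posDef _ _ _ _ hp0 ht h, S16_gramMat_det _ _ _ _ h,
    S16_gramMat_mul_dual _ _ _ _ h, S16_gramDual_isSymm _ _ _, S16_gramDual_even _ _ _⟩

/-- **GRAM.** For every odd prime `p` there is an even, symmetric, positive definite integral
`4 × 4` matrix `A` of determinant `p²` such that `p • A⁻¹` is integral and even. -/
theorem S16_gram_exists (p : ℕ) (hp : p.Prime) (hp2 : p ≠ 2) :
    ∃ A : Matrix (Fin 4) (Fin 4) ℤ, A.IsSymm ∧ (∀ i, Even (A i i)) ∧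
      (A.map (Int.cast : ℤ → ℝ)).PosDef ∧ A.det = (p : ℤ) ^ 2 ∧
      ∃ B : Matrix (Fin 4) (Fin 4) ℤ, A * B = (p : ℤ) • (1 : Matrix (Fin 4) (Fin 4) ℤ) ∧
        ∀ i, Even (B i i) := by
  obtain ⟨t, r, s, -, -, h1, h2, h3, h4, h5, -, h7⟩ := S16_gram_exists_explicit p hp hp2
  exact ⟨_, h1, h2, h3, h4, _, h5, h7⟩

/-- Variant of **GRAM** which also records that `B` is symmetric. -/
theorem S16_gram_exists' (p : ℕ) (hp : p.Prime) (hp2 : p ≠ 2) :
    ∃ A : Matrix (Fin 4) (Fin 4) ℤ, A.IsSymm ∧ (∀ i, Even (A i i)) ∧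
      (A.map (Int.cast : ℤ → ℝ)).PosDef ∧ A.det = (p : ℤ) ^ 2 ∧
      ∃ B : Matrix (Fin 4) (Fin 4) ℤ, A * B = (p : ℤ) • (1 : Matrix (Fin 4) (Fin 4) ℤ) ∧
        B.IsSymm ∧ ∀ i, Even (B i i) := by
  obtain ⟨t, r, s, -, -, h1, h2, h3, h4, h5, h6, h7⟩ := S16_gram_exists_explicit p hp hp2
  exact ⟨_, h1, h2, h3, h4, _, h5, h6, h7⟩

end Fermat.Agent.S16
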