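import Mathlib.NumberTheory.GaussSum
import Mathlib.NumberTheory.LegendreSymbol.Basic
import Mathlib.NumberTheory.LegendreSymbol.QuadraticChar.Basic
import Mathlib.Analysis.SpecialFunctions.Complex.CircleAddChar
import Mathlib.LinearAlgebra.QuadraticForm.Basic
import Mathlib.LinearAlgebra.Matrix.BilinearForm
import Mathlib.LinearAlgebra.Matrix.Determinant.Basic

/-!
# S16, THETA package, piece T3: quadratic Gauss sums at odd primes

For an odd prime `ℓ`, a symmetric integral matrix `A` of even rank `2k` with `ℓ ∤ det A`, and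
`ℓ ∤ b`:  `Σ_{g ∈ (ℤ/ℓ)^{2k}} e(b Q(g) / ℓ) = ((-1)^k det A / ℓ) · ℓ^k`, where `2 Q(g) = gᵀ A g`.
-/

set_option autoImplicit false
set_option linter.unusedSectionVars false
set_option linter.style.haveILetI false

open Finset

noncomputable section

namespace Fermat.Agent.S16

section FiniteField

variable {F : Type*} [Field F] [Fintype F] [DecidableEq F]

/-- the quadratic character with values in `ℂ` -/
def S16_quadCharC (F : Type*) [Field F] [Fintype F] [DecidableEq F] : MulChar F ℂ :=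
  (quadraticChar F).ringHomComp (Int.castRingHom ℂ)

theorem S16_quadCharC_apply (a : F) : S16_quadCharC F a = ((quadraticChar F a : ℤ) : ℂ) := rfl

theorem S16_quadCharC_ne_one (hF : ringChar F ≠ 2) : S16_quadCharC F ≠ 1 := by
  intro h
  obtain ⟨a, ha⟩ := quadraticChar_exists_neg_one' hF
  have := congrArg (fun χ : MulChar F ℂ => χ a) h
  simp only [S16_quadCharC_apply, ha, MulChar.one_apply a.isUnit] at this
  norm_num at this

theorem S16_quadCharC_isQuadratic : (S16_quadCharC F).IsQuadratic :=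
  (quadraticChar_isQuadratic F).comp _

theorem S16_quadCharC_sq (a : F) (ha : a ≠ 0) : S16_quadCharC F a ^ 2 = 1 := by
  rw [S16_quadCharC_apply, ← Int.cast_pow, quadraticChar_sq_one ha, Int.cast_one]

/-- one-dimensional quadratic Gauss sum -/
theorem S16_sum_addChar_mul_sq (hF : ringChar F ≠ 2) (ψ : AddChar F ℂ) (hψ : ψ.IsPrimitive)
    (w : F) (hw : w ≠ 0) :
    ∑ x : F, ψ (w * x ^ 2) = S16_quadCharC F w * gaussSum (S16_quadCharC F) ψ := by
  have h1 : ∑ x : F, ψ (w * x ^ 2) = ∑ y : F, ((quadraticChar F y : ℤ) + 1 : ℂ) * ψ (w * y) := by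
    rw [← Finset.sum_fiberwise_of_maps_to (s := Finset.univ) (t := Finset.univ)
      (g := fun x : F => x ^ 2) (fun _ _ => Finset.mem_univ _)]
    refine Finset.sum_congr rfl fun y _ => ?_
    rw [Finset.sum_congr rfl (g := fun _ => ψ (w * y))
      (fun x hx => by rw [(Finset.mem_filter.mp hx).2])]
    rw [Finset.sum_const, nsmul_eq_mul]
    congr 1
    have := quadraticChar_card_sqrts hF y
    have h2 : (#{x : F | x ^ 2 = y} : ℤ) = (#{x : F | x ^ 2 = y}.toFinset : ℤ) := by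
      congr 2
      ext x
      simp
    have h3 : ((#{x : F | x ^ 2 = y} : ℕ) : ℂ) = (((#{x : F | x ^ 2 = y} : ℕ) : ℤ) : ℂ) := by
      push_cast; rfl
    rw [h3, h2, this]
    push_cast
    rfl
  rw [h1]
  simp only [add_mul, one_mul, Finset.sum_add_distrib]
  have h2 : ∑ y : F, ψ (w * y) = 0 := by
    have := AddChar.sum_mulShift (ψ := ψ) w hψ
    rw [if_neg hw] at this
    rw [← Nat.cast_zero (R := ℂ), ← this]
    exact Finset.sum_congr rfl fun y _ => by rw [mul_comm]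
  rw [h2, add_zero]
  have h3 := gaussSum_mulShift (S16_quadCharC F) ψ (Units.mk0 w hw)
  have h4 : gaussSum (S16_quadCharC F) (AddChar.mulShift ψ (Units.mk0 w hw : Fˣ)) =
      ∑ y : F, ((quadraticChar F y : ℤ) : ℂ) * ψ (w * y) := by
    rw [gaussSum]
    refine Finset.sum_congr rfl fun y _ => ?_
    rw [AddChar.mulShift_apply, S16_quadCharC_apply]
    rfl
  rw [← h4, ← h3, Units.val_mk0, ← mul_assoc, ← pow_two, S16_quadCharC_sq w hw, one_mul]

theorem S16_addChar_sum {ι : Type*} (ψ : AddChar F ℂ) (s : Finset ι) (f : ι → F) :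
    ψ (∑ i ∈ s, f i) = ∏ i ∈ s, ψ (f i) := by
  classical
  induction s using Finset.induction_on with
  | empty => simp
  | insert a s ha ih => rw [Finset.sum_insert ha, Finset.prod_insert ha, AddChar.map_add_eq_mul, ih]

/-- weighted sums of squares -/
theorem S16_sum_addChar_weighted (hF : ringChar F ≠ 2) (ψ : AddChar F ℂ) (hψ : ψ.IsPrimitive)
    {n : ℕ} (w : Fin n → F) (hw : ∀ i, w i ≠ 0) :
    ∑ g : Fin n → F, ψ (∑ i, w i * g i ^ 2) =
      S16_quadCharC F (∏ i, w i) * gaussSum (S16_quadCharC F) ψ ^ n := by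
  have h1 : ∀ g : Fin n → F, ψ (∑ i, w i * g i ^ 2) = ∏ i, ψ (w i * g i ^ 2) := fun g =>
    S16_addChar_sum ψ _ _
  simp only [h1]
  have h2 := Finset.prod_univ_sum (fun _ : Fin n => (Finset.univ : Finset F))
    (fun i x => ψ (w i * x ^ 2))
  rw [Fintype.piFinset_univ] at h2
  rw [← h2]
  simp only [S16_sum_addChar_mul_sq hF ψ hψ _ (hw _), Finset.prod_mul_distrib, Finset.prod_const,
    Finset.card_univ, Fintype.card_fin, map_prod]

/-- diagonalisation of a symmetric matrix by congruence -/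
theorem S16_exists_diag_congr (hF2 : (2 : F) ≠ 0) {n : ℕ} (M : Matrix (Fin n) (Fin n) F)
    (hM : M.IsSymm) :
    ∃ (P : Matrix (Fin n) (Fin n) F) (w : Fin n → F), P.det ≠ 0 ∧
      P.transpose * M * P = Matrix.diagonal w := by
  letI : Invertible (2 : F) := invertibleOfNonzero hF2
  obtain ⟨v, hv⟩ := LinearMap.BilinForm.exists_orthogonal_basis
    (B := Matrix.toBilin' M)
    (LinearMap.BilinForm.isSymm_iff.mp (Matrix.isSymm_toBilin'_iff_isSymm.mpr hM))
  have hfr : Module.finrank F (Fin n → F) = n := Module.finrank_fin_fun F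
  let v' : Module.Basis (Fin n) F (Fin n → F) := v.reindex (finCongr hfr)
  have hv' : ∀ i j, i ≠ j → Matrix.toBilin' M (v' i) (v' j) = 0 := by
    intro i j hij
    have := hv (i := (finCongr hfr).symm i)
      (j := (finCongr hfr).symm j)
      (fun h => hij ((finCongr hfr).symm.injective h))
    simpa [v'] using this
  refine ⟨(Pi.basisFun F (Fin n)).toMatrix v', fun i => Matrix.toBilin' M (v' i) (v' i), ?_, ?_⟩
  · exact Matrix.det_ne_zero_of_right_inverse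
      (Module.Basis.toMatrix_mul_toMatrix_flip (Pi.basisFun F (Fin n)) v')
  · ext i j
    have key : ((Pi.basisFun F (Fin n)).toMatrix v').transpose * M *
        (Pi.basisFun F (Fin n)).toMatrix v' = Matrix.of fun i j => Matrix.toBilin' M (v' i) (v' j) := by
      ext i j
      simp only [Matrix.toBilin'_apply, Matrix.mul_apply, Matrix.transpose_apply,
        Module.Basis.toMatrix_apply, Pi.basisFun_repr, Matrix.of_apply, Finset.sum_mul]
      rw [Finset.sum_comm]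
    rw [key, Matrix.of_apply, Matrix.diagonal_apply]
    split_ifs with h
    · rw [h]
    · exact hv' i j h

theorem S16_quad_congr {n : ℕ} (M P : Matrix (Fin n) (Fin n) F) (h : Fin n → F) :
    (P.mulVec h) ⬝ᵥ M.mulVec (P.mulVec h) = h ⬝ᵥ (P.transpose * M * P).mulVec h := by
  have h1 : ∀ u : Fin n → F, (P.mulVec h) ⬝ᵥ u = h ⬝ᵥ P.transpose.mulVec u := fun u => by
    rw [← Matrix.vecMul_transpose, Matrix.dotProduct_mulVec]
  rw [h1, Matrix.mulVec_mulVec, Matrix.mulVec_mulVec, Matrix.mul_assoc]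

theorem S16_quad_diagonal {n : ℕ} (w h : Fin n → F) :
    h ⬝ᵥ (Matrix.diagonal w).mulVec h = ∑ i, w i * h i ^ 2 := by
  simp only [dotProduct, Matrix.mulVec_diagonal]
  exact Finset.sum_congr rfl fun i _ => by ring

/-- **Quadratic Gauss sum of a nondegenerate quadratic form over a finite field of odd
characteristic.** -/
theorem S16_sum_addChar_quad (hF : ringChar F ≠ 2) (ψ : AddChar F ℂ) (hψ : ψ.IsPrimitive)
    {n : ℕ} (M : Matrix (Fin n) (Fin n) F) (hM : M.IsSymm) (hdet : M.det ≠ 0) :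
    ∑ g : Fin n → F, ψ (g ⬝ᵥ M.mulVec g) =
      S16_quadCharC F M.det * gaussSum (S16_quadCharC F) ψ ^ n := by
  have hF2 : (2 : F) ≠ 0 := Ring.two_ne_zero hF
  obtain ⟨P, w, hP, hPM⟩ := S16_exists_diag_congr hF2 M hM
  have hinj : Function.Injective P.mulVec :=
    Matrix.mulVec_injective_iff_isUnit.mpr ((Matrix.isUnit_iff_isUnit_det P).mpr hP.isUnit)
  have hbij : Function.Bijective P.mulVec := hinj.bijective_of_finite
  rw [← hbij.sum_comp (fun g => ψ (g ⬝ᵥ M.mulVec g))]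
  simp only [S16_quad_congr, hPM, S16_quad_diagonal]
  have hprod : ∏ i, w i = P.det ^ 2 * M.det := by
    rw [← Matrix.det_diagonal, ← hPM, Matrix.det_mul, Matrix.det_mul, Matrix.det_transpose]
    ring
  have hw : ∀ i, w i ≠ 0 := by
    intro i hi
    have : ∏ i, w i = 0 := Finset.prod_eq_zero (Finset.mem_univ i) hi
    rw [hprod] at this
    exact mul_ne_zero (pow_ne_zero 2 hP) hdet this
  rw [S16_sum_addChar_weighted hF ψ hψ w hw, hprod, map_mul, map_pow, S16_quadCharC_sq _ hP,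
    one_mul]

end FiniteField

section ZModPrime

variable (ℓ : ℕ) [Fact ℓ.Prime]

theorem S16_gaussSum_sq_zmod (hℓ : ℓ ≠ 2) :
    gaussSum (S16_quadCharC (ZMod ℓ)) ZMod.stdAddChar ^ 2 =
      S16_quadCharC (ZMod ℓ) (-1) * (ℓ : ℂ) := by
  have hF : ringChar (ZMod ℓ) ≠ 2 := by rwa [ZMod.ringChar_zmod_n]
  rw [gaussSum_sq (S16_quadCharC_ne_one hF) S16_quadCharC_isQuadratic
    (ZMod.isPrimitive_stdAddChar ℓ), ZMod.card]

/-- T3, abstract form: `q` is any function on `(ℤ/ℓ)ⁿ` with `2 q(g) = gᵀ A g` (`n = 2k`). -/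
theorem S16_gaussQuad_prime (k : ℕ) (A : Matrix (Fin (2 * k)) (Fin (2 * k)) ℤ) (hA : A.IsSymm)
    (ℓ : ℕ) [Fact ℓ.Prime] (hℓ : ℓ ≠ 2) (hdet : ¬ (ℓ : ℤ) ∣ A.det) (b : ℤ) (hb : ¬ (ℓ : ℤ) ∣ b)
    (q : (Fin (2 * k) → ZMod ℓ) → ZMod ℓ)
    (hq : ∀ g, 2 * q g = g ⬝ᵥ (A.map (Int.cast : ℤ → ZMod ℓ)).mulVec g) :
    ∑ g : Fin (2 * k) → ZMod ℓ, ZMod.stdAddChar ((b : ZMod ℓ) * q g) =
      (legendreSym ℓ ((-1) ^ k * A.det) : ℂ) * (ℓ : ℂ) ^ k := by
  have hF : ringChar (ZMod ℓ) ≠ 2 := by rwa [ZMod.ringChar_zmod_n]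
  have h2 : (2 : ZMod ℓ) ≠ 0 := Ring.two_ne_zero hF
  have hb' : (b : ZMod ℓ) ≠ 0 := by
    rwa [Ne, ZMod.intCast_zmod_eq_zero_iff_dvd]
  have hdet' : ((A.map (Int.cast : ℤ → ZMod ℓ)).det) ≠ 0 := by
    rw [← Int.cast_det, Ne, ZMod.intCast_zmod_eq_zero_iff_dvd]
    exact hdet
  set Ab : Matrix (Fin (2 * k)) (Fin (2 * k)) (ZMod ℓ) := A.map (Int.cast : ℤ → ZMod ℓ) with hAb
  have hAbs : Ab.IsSymm := by
    rw [Matrix.IsSymm, hAb, ← Matrix.transpose_map, hA.eq]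
  set c : ZMod ℓ := (b : ZMod ℓ) * 2⁻¹ with hc
  have hc0 : c ≠ 0 := mul_ne_zero hb' (inv_ne_zero h2)
  have hMs : (c • Ab).IsSymm := by
    rw [Matrix.IsSymm, Matrix.transpose_smul, hAbs.eq]
  have hMdet : (c • Ab).det = (c ^ k) ^ 2 * Ab.det := by
    rw [Matrix.det_smul, Fintype.card_fin, ← pow_mul, mul_comm k 2]
  have hMdet0 : (c • Ab).det ≠ 0 := by
    rw [hMdet]
    exact mul_ne_zero (pow_ne_zero _ (pow_ne_zero _ hc0)) hdet'
  have hterm : ∀ g : Fin (2 * k) → ZMod ℓ, (b : ZMod ℓ) * q g = g ⬝ᵥ (c • Ab).mulVec g := by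
    intro g
    rw [Matrix.smul_mulVec, dotProduct_smul, ← hq g, smul_eq_mul, hc]
    field_simp
  simp only [hterm]
  rw [S16_sum_addChar_quad hF _ (ZMod.isPrimitive_stdAddChar ℓ) (c • Ab) hMs hMdet0, hMdet,
    map_mul, map_pow, S16_quadCharC_sq _ (pow_ne_zero _ hc0), one_mul, pow_mul,
    S16_gaussSum_sq_zmod ℓ hℓ, mul_pow, ← mul_assoc]
  congr 1
  rw [← map_pow, ← map_mul, S16_quadCharC_apply]
  congr 1
  rw [legendreSym]
  congr 1
  rw [hAb, ← Int.cast_det]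
  push_cast
  ring

/-- an even symmetric matrix takes even values -/
theorem S16_even_quad {n : ℕ} (A : Matrix (Fin n) (Fin n) ℤ) (hA : A.IsSymm)
    (heven : ∀ i, Even (A i i)) (v : Fin n → ℤ) : Even (∑ i, ∑ j, A i j * v i * v j) := by
  rw [even_iff_two_dvd]
  have hcast : ((2 : ℕ) : ℤ) = 2 := rfl
  rw [← hcast, ← ZMod.intCast_zmod_eq_zero_iff_dvd]
  push_cast
  rw [← Fintype.sum_prod_type']
  refine Finset.sum_involution (fun p _ => p.swap) ?_ ?_ (fun _ _ => Finset.mem_univ _)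
    (fun _ _ => Prod.swap_swap _)
  · rintro ⟨i, j⟩ -
    simp only [Prod.swap_prod_mk]
    have hs : A j i = A i j := by
      have := congrFun (congrFun hA.eq i) j
      simpa [Matrix.transpose_apply] using this
    rw [hs]
    have h2 : ∀ x : ZMod 2, x + x = 0 := by decide
    rw [mul_right_comm _ (v j : ZMod 2)]
    exact h2 _
  · rintro ⟨i, j⟩ - hne hsw
    simp only [Prod.swap_prod_mk, Prod.mk.injEq] at hsw
    obtain ⟨rfl, -⟩ := hsw
    apply hne
    have : ((A j j : ℤ) : ZMod 2) = 0 := by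
      rw [ZMod.intCast_zmod_eq_zero_iff_dvd]
      exact even_iff_two_dvd.mp (heven j)
    simp only [this, zero_mul]

/-- T3, explicit form: sum over the representatives `0 ≤ g_i < ℓ` of
`exp(2πi · b · (gᵀAg) / (2ℓ))`. -/
theorem S16_gaussQuad_prime_exp (k : ℕ) (A : Matrix (Fin (2 * k)) (Fin (2 * k)) ℤ)
    (hA : A.IsSymm) (heven : ∀ i, Even (A i i))
    (ℓ : ℕ) [Fact ℓ.Prime] (hℓ : ℓ ≠ 2) (hdet : ¬ (ℓ : ℤ) ∣ A.det) (b : ℤ) (hb : ¬ (ℓ : ℤ) ∣ b) :
    ∑ g : Fin (2 * k) → ZMod ℓ,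
        Complex.exp (2 * Real.pi * Complex.I * b *
          (∑ i, ∑ j, (A i j : ℂ) * ((g i).val : ℂ) * ((g j).val : ℂ)) / (2 * ℓ)) =
      (legendreSym ℓ ((-1) ^ k * A.det) : ℂ) * (ℓ : ℂ) ^ k := by
  have hℓ0 : (ℓ : ℂ) ≠ 0 := Nat.cast_ne_zero.mpr (Fact.out : ℓ.Prime).ne_zero
  set Nz : (Fin (2 * k) → ZMod ℓ) → ℤ := fun g =>
    ∑ i, ∑ j, A i j * ((g i).val : ℤ) * ((g j).val : ℤ) with hNz
  have hev : ∀ g, Even (Nz g) := fun g => S16_even_quad A hA heven _
  set q : (Fin (2 * k) → ZMod ℓ) → ZMod ℓ := fun g => ((Nz g / 2 : ℤ) : ZMod ℓ) with hq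
  have h2m : ∀ g, 2 * (Nz g / 2) = Nz g := fun g =>
    Int.mul_ediv_cancel' (even_iff_two_dvd.mp (hev g))
  have hq2 : ∀ g, 2 * q g = g ⬝ᵥ (A.map (Int.cast : ℤ → ZMod ℓ)).mulVec g := by
    intro g
    have : (2 : ZMod ℓ) * q g = ((2 * (Nz g / 2) : ℤ) : ZMod ℓ) := by
      rw [hq]; push_cast; rfl
    rw [this, h2m, hNz]
    push_cast
    simp only [dotProduct, Matrix.mulVec, Matrix.map_apply, ZMod.natCast_zmod_val,
      Finset.mul_sum]
    refine Finset.sum_congr rfl fun i _ => Finset.sum_congr rfl fun j _ => ?_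
    ring
  rw [← S16_gaussQuad_prime k A hA ℓ hℓ hdet b hb q hq2]
  refine Finset.sum_congr rfl fun g _ => ?_
  have h1 : (b : ZMod ℓ) * q g = ((b * (Nz g / 2) : ℤ) : ZMod ℓ) := by
    rw [hq]; push_cast; rfl
  rw [h1, ZMod.stdAddChar_coe]
  congr 1
  have h3 : (∑ i, ∑ j, (A i j : ℂ) * ((g i).val : ℂ) * ((g j).val : ℂ)) = ((Nz g : ℤ) : ℂ) := by
    rw [hNz]; push_cast; rfl
  rw [h3]
  have h4 : ((Nz g : ℤ) : ℂ) = 2 * ((Nz g / 2 : ℤ) : ℂ) := by
    rw [← Int.cast_ofNat (R := ℂ), ← Int.cast_mul, h2m]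
  rw [h4]
  push_cast
  field_simp

/-- T3, the instance used for THETA in rank 4: `det A` a square prime to `ℓ` gives `ℓ²`. -/
theorem S16_gaussQuad_prime_four (A : Matrix (Fin 4) (Fin 4) ℤ)
    (hA : A.IsSymm) (heven : ∀ i, Even (A i i)) (m : ℤ) (hm : A.det = m ^ 2)
    (ℓ : ℕ) [Fact ℓ.Prime] (hℓ : ℓ ≠ 2) (hdet : ¬ (ℓ : ℤ) ∣ m) (b : ℤ) (hb : ¬ (ℓ : ℤ) ∣ b) :
    ∑ g : Fin 4 → ZMod ℓ,
        Complex.exp (2 * Real.pi * Complex.I * b *
          (∑ i, ∑ j, (A i j : ℂ) * ((g i).val : ℂ) * ((g j).val : ℂ)) / (2 * ℓ)) =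
      (ℓ : ℂ) ^ 2 := by
  have hp : Prime (ℓ : ℤ) := Nat.prime_iff_prime_int.mp (Fact.out : ℓ.Prime)
  have hdet' : ¬ (ℓ : ℤ) ∣ A.det := by
    rw [hm]
    exact fun h => hdet (hp.dvd_of_dvd_pow h)
  have := S16_gaussQuad_prime_exp 2 A hA heven ℓ hℓ hdet' b hb
  rw [this]
  have hleg : legendreSym ℓ ((-1) ^ 2 * A.det) = 1 := by
    rw [hm, neg_one_sq, one_mul]
    exact legendreSym.sq_one' ℓ (by rwa [Ne, ZMod.intCast_zmod_eq_zero_iff_dvd])
  rw [hleg, Int.cast_one, one_mul]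

end ZModPrime

end Fermat.Agent.S16
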