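import Fermat.Agent.S16.ThetaMult
import Fermat.Agent.S16.GaussQuad

/-!
# S16, THETA package, BRIDGE: from a Gram matrix to the hypotheses of T2/T4

`A` an integral symmetric matrix with even diagonal, `A'` likewise, `A * A' = N`.
`S16_matQ A v = ½ vᵀAv`.  We check the algebraic hypotheses of `thetaQ_transform` and derive its
analytic hypotheses (`hsum`, `hsumd`, `hinv`) from the Gaussian inversion formula T1
(`S16_theta_summable`, `S16_theta_shift_FE`, taken here as hypotheses in exactly that shape).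
-/

set_option autoImplicit false

open Complex Real

namespace Fermat.Agent.S16

/-- `Q_A(v) = ½ vᵀ A v` (an integer when `A` is symmetric with even diagonal). -/
def S16_matQ {n : ℕ} (A : Matrix (Fin n) (Fin n) ℤ) (v : Fin n → ℤ) : ℤ :=
  (∑ i, ∑ j, A i j * v i * v j) / 2

/-- the bilinear form `B_A(v,w) = vᵀ A w`. -/
def S16_matB {n : ℕ} (A : Matrix (Fin n) (Fin n) ℤ) (v w : Fin n → ℤ) : ℤ :=
  ∑ i, ∑ j, A i j * v i * w j

theorem S16_two_mul_matQ {n : ℕ} (A : Matrix (Fin n) (Fin n) ℤ) (hA : A.IsSymm)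
    (heven : ∀ i, Even (A i i)) (v : Fin n → ℤ) :
    2 * S16_matQ A v = ∑ i, ∑ j, A i j * v i * v j :=
  Int.mul_ediv_cancel' (even_iff_two_dvd.mp (S16_even_quad A hA heven v))

theorem S16_matB_eq_dotProduct {n : ℕ} (A : Matrix (Fin n) (Fin n) ℤ) (v w : Fin n → ℤ) :
    S16_matB A v w = v ⬝ᵥ A.mulVec w := by
  simp only [S16_matB, dotProduct, Matrix.mulVec, Finset.mul_sum]
  refine Finset.sum_congr rfl fun i _ => Finset.sum_congr rfl fun j _ => ?_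
  ring

theorem S16_matB_symm {n : ℕ} (A : Matrix (Fin n) (Fin n) ℤ) (hA : A.IsSymm)
    (v w : Fin n → ℤ) : S16_matB A v w = S16_matB A w v := by
  unfold S16_matB
  rw [Finset.sum_comm]
  refine Finset.sum_congr rfl fun i _ => Finset.sum_congr rfl fun j _ => ?_
  have hs : A j i = A i j := by
    have := congrFun (congrFun hA.eq i) j
    simpa [Matrix.transpose_apply] using this
  rw [hs]; ring

theorem S16_matQ_add {n : ℕ} (A : Matrix (Fin n) (Fin n) ℤ) (hA : A.IsSymm)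
    (heven : ∀ i, Even (A i i)) (v w : Fin n → ℤ) :
    S16_matQ A (v + w) = S16_matQ A v + S16_matQ A w + S16_matB A v w := by
  have h2 : (2 : ℤ) ≠ 0 := two_ne_zero
  apply mul_left_cancel₀ h2
  rw [mul_add, mul_add, S16_two_mul_matQ A hA heven, S16_two_mul_matQ A hA heven,
    S16_two_mul_matQ A hA heven, two_mul (S16_matB A v w)]
  nth_rewrite 2 [S16_matB_symm A hA v w]
  simp only [S16_matB, ← Finset.sum_add_distrib, Pi.add_apply]
  refine Finset.sum_congr rfl fun i _ => Finset.sum_congr rfl fun j _ => ?_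
  ring

theorem S16_matB_smul {n : ℕ} (A : Matrix (Fin n) (Fin n) ℤ) (t : ℤ) (v w : Fin n → ℤ) :
    S16_matB A v (t • w) = t * S16_matB A v w := by
  simp only [S16_matB, Pi.smul_apply, smul_eq_mul, Finset.mul_sum]
  refine Finset.sum_congr rfl fun i _ => Finset.sum_congr rfl fun j _ => ?_
  ring

theorem S16_matQ_smul {n : ℕ} (A : Matrix (Fin n) (Fin n) ℤ) (hA : A.IsSymm)
    (heven : ∀ i, Even (A i i)) (t : ℤ) (v : Fin n → ℤ) :
    S16_matQ A (t • v) = t ^ 2 * S16_matQ A v := by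
  have h2 : (2 : ℤ) ≠ 0 := two_ne_zero
  apply mul_left_cancel₀ h2
  rw [S16_two_mul_matQ A hA heven, mul_left_comm, S16_two_mul_matQ A hA heven]
  simp only [Pi.smul_apply, smul_eq_mul, Finset.mul_sum]
  refine Finset.sum_congr rfl fun i _ => Finset.sum_congr rfl fun j _ => ?_
  ring

theorem S16_matB_mulVec {n : ℕ} (A A' : Matrix (Fin n) (Fin n) ℤ) (N : ℕ)
    (hAA' : A * A' = (N : ℤ) • (1 : Matrix (Fin n) (Fin n) ℤ)) (v m : Fin n → ℤ) :
    S16_matB A v (A'.mulVec m) = N * (m ⬝ᵥ v) := by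
  rw [S16_matB_eq_dotProduct, Matrix.mulVec_mulVec, hAA', Matrix.smul_mulVec, Matrix.one_mulVec,
    dotProduct_smul, smul_eq_mul, dotProduct_comm]

theorem S16_matQ_mulVec {n : ℕ} (A A' : Matrix (Fin n) (Fin n) ℤ) (N : ℕ)
    (hA : A.IsSymm) (heven : ∀ i, Even (A i i)) (hA' : A'.IsSymm) (heven' : ∀ i, Even (A' i i))
    (hAA' : A * A' = (N : ℤ) • (1 : Matrix (Fin n) (Fin n) ℤ)) (m : Fin n → ℤ) :
    S16_matQ A (A'.mulVec m) = N * S16_matQ A' m := by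
  have h2 : (2 : ℤ) ≠ 0 := two_ne_zero
  apply mul_left_cancel₀ h2
  rw [S16_two_mul_matQ A hA heven, mul_left_comm, S16_two_mul_matQ A' hA' heven']
  have e1 : ∑ i, ∑ j, A i j * A'.mulVec m i * A'.mulVec m j =
      S16_matB A (A'.mulVec m) (A'.mulVec m) := rfl
  have e2 : ∑ i, ∑ j, A' i j * m i * m j = S16_matB A' m m := rfl
  rw [e1, e2, S16_matB_mulVec A A' N hAA', S16_matB_eq_dotProduct]


/-! ### The analytic side -/

/-- the quadratic form of a real matrix on complex vectors (unfolds to the same sum as T1's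
`S16_qf`). -/
noncomputable def S16_bqf {n : ℕ} (M : Matrix (Fin n) (Fin n) ℝ) (ζ : Fin n → ℂ) : ℂ :=
  ∑ i, ∑ j, (M i j : ℂ) * ζ i * ζ j

/-- the real matrix of an integral matrix -/
noncomputable def S16_toReal {n : ℕ} (A : Matrix (Fin n) (Fin n) ℤ) : Matrix (Fin n) (Fin n) ℝ :=
  A.map (Int.cast : ℤ → ℝ)

theorem S16_bqf_int {n : ℕ} (A : Matrix (Fin n) (Fin n) ℤ) (hA : A.IsSymm)
    (heven : ∀ i, Even (A i i)) (v : Fin n → ℤ) :
    S16_bqf (S16_toReal A) (fun i => (v i : ℂ)) = 2 * (S16_matQ A v : ℂ) := by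
  have h := S16_two_mul_matQ A hA heven v
  have : (2 : ℂ) * (S16_matQ A v : ℂ) = ((2 * S16_matQ A v : ℤ) : ℂ) := by push_cast; ring
  rw [this, h]
  simp only [S16_bqf, S16_toReal, Matrix.map_apply]
  push_cast
  rfl

theorem S16_bqf_smul {n : ℕ} (M : Matrix (Fin n) (Fin n) ℝ) (t : ℂ) (ζ : Fin n → ℂ) :
    S16_bqf M (fun i => t * ζ i) = t ^ 2 * S16_bqf M ζ := by
  simp only [S16_bqf, Finset.mul_sum]
  refine Finset.sum_congr rfl fun i _ => Finset.sum_congr rfl fun j _ => ?_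
  ring

theorem S16_bqf_real_smul {n : ℕ} (M : Matrix (Fin n) (Fin n) ℝ) (t : ℝ) (ζ : Fin n → ℂ) :
    S16_bqf (t • M) ζ = t * S16_bqf M ζ := by
  simp only [S16_bqf, Finset.mul_sum, Matrix.smul_apply, smul_eq_mul]
  refine Finset.sum_congr rfl fun i _ => Finset.sum_congr rfl fun j _ => ?_
  push_cast
  ring

theorem S16_toReal_inv {n : ℕ} (A A' : Matrix (Fin n) (Fin n) ℤ) (N : ℕ) (hN : 0 < N)
    (hAA' : A * A' = (N : ℤ) • (1 : Matrix (Fin n) (Fin n) ℤ)) :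
    (S16_toReal A)⁻¹ = ((N : ℝ)⁻¹) • S16_toReal A' := by
  apply Matrix.inv_eq_right_inv
  have h : S16_toReal A * S16_toReal A' = (N : ℝ) • (1 : Matrix (Fin n) (Fin n) ℝ) := by
    have := congrArg (fun X : Matrix (Fin n) (Fin n) ℤ => X.map (Int.castRingHom ℝ)) hAA'
    simp only [Matrix.map_mul] at this
    rw [show S16_toReal A = A.map (Int.castRingHom ℝ) from rfl,
      show S16_toReal A' = A'.map (Int.castRingHom ℝ) from rfl, this]
    ext i j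
    simp only [Matrix.map_apply, Matrix.smul_apply, Matrix.one_apply, smul_eq_mul,
      Int.coe_castRingHom]
    split_ifs <;> simp
  rw [Matrix.mul_smul, h, smul_smul, inv_mul_cancel₀ (by exact_mod_cast hN.ne'), one_smul]

theorem S16_toReal_posDef' {n : ℕ} (A A' : Matrix (Fin n) (Fin n) ℤ) (N : ℕ) (hN : 0 < N)
    (hAA' : A * A' = (N : ℤ) • (1 : Matrix (Fin n) (Fin n) ℤ))
    (hpos : (S16_toReal A).PosDef) : (S16_toReal A').PosDef := by
  have h1 : (S16_toReal A)⁻¹.PosDef := hpos.inv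
  rw [S16_toReal_inv A A' N hN hAA'] at h1
  have h2 := h1.smul (a := (N : ℝ)) (by exact_mod_cast hN)
  rwa [smul_smul, mul_inv_cancel₀ (by exact_mod_cast hN.ne'), one_smul] at h2

/-- The hypotheses of T1 in the shape of helper5's interface (`S16_theta_summable`,
`S16_theta_shift_FE`), for one matrix `M`. -/
structure S16_T1Hyp {n : ℕ} (M : Matrix (Fin n) (Fin n) ℝ) : Prop where
  summ : ∀ (z : Fin n → ℂ) (τ : ℂ), 0 < τ.im →
    Summable (fun u : Fin n → ℤ =>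
      cexp (π * I * τ * S16_bqf M (fun i => (u i : ℂ)) + 2 * π * I * ∑ i, z i * (u i : ℂ)))
  shiftFE : ∀ (x : Fin n → ℝ) (τ : ℂ), 0 < τ.im →
    ∑' u : Fin n → ℤ, cexp (π * I * τ * S16_bqf M (fun i => (u i : ℂ) + (x i : ℂ))) =
      ((Real.sqrt M.det : ℂ))⁻¹ * (((-I * τ) ^ (1 / 2 : ℂ)) ^ Fintype.card (Fin n))⁻¹ *
        ∑' m : Fin n → ℤ, cexp (-π * I * S16_bqf M⁻¹ (fun i => (m i : ℂ)) / τ
          + 2 * π * I * ∑ i, (x i : ℂ) * (m i : ℂ))

theorem S16_bridge_summable {n : ℕ} (A : Matrix (Fin n) (Fin n) ℤ) (hA : A.IsSymm)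
    (heven : ∀ i, Even (A i i)) (hT1 : S16_T1Hyp (S16_toReal A)) (τ : ℂ) (hτ : 0 < τ.im) :
    Summable (fun v : Fin n → ℤ => cexp (2 * π * I * τ * (S16_matQ A v : ℂ))) := by
  have h := hT1.summ 0 τ hτ
  refine h.congr (fun v => ?_)
  rw [S16_bqf_int A hA heven]
  congr 1
  simp only [Pi.zero_apply, zero_mul, Finset.sum_const_zero, mul_zero, add_zero]
  ring

/-- `hinv` of `thetaQ_transform` from T1. -/
theorem S16_bridge_inv {k : ℕ} (A A' : Matrix (Fin (2 * k)) (Fin (2 * k)) ℤ) (N : ℕ)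
    (hN : 0 < N) (hA : A.IsSymm) (heven : ∀ i, Even (A i i)) (hA' : A'.IsSymm)
    (heven' : ∀ i, Even (A' i i))
    (hAA' : A * A' = (N : ℤ) • (1 : Matrix (Fin (2 * k)) (Fin (2 * k)) ℤ))
    (hT1 : S16_T1Hyp (S16_toReal A))
    (d : ℕ) (hd : 0 < d) (g : Fin (2 * k) → ℤ) (τ : ℂ) (hτ : 0 < τ.im) :
    ∑' u : Fin (2 * k) → ℤ, cexp (2 * π * I * τ * (S16_matQ A (g + (d : ℤ) • u) : ℂ)) =
      ((Real.sqrt (S16_toReal A).det : ℂ))⁻¹ * (I / ((d : ℂ) ^ 2 * τ)) ^ k *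
        ∑' m : Fin (2 * k) → ℤ, cexp (2 * π * I * (-1 / ((N : ℂ) * (d : ℂ) ^ 2 * τ)) *
          (S16_matQ A' m : ℂ) + 2 * π * I * ((m ⬝ᵥ g : ℤ) : ℂ) / (d : ℂ)) := by
  have hdC : (d : ℂ) ≠ 0 := by exact_mod_cast hd.ne'
  have hNC : (N : ℂ) ≠ 0 := by exact_mod_cast hN.ne'
  have hτ0 : τ ≠ 0 := by rintro rfl; simp at hτ
  have hdR : (0 : ℝ) < (d : ℝ) ^ 2 := by positivity
  have hτ' : 0 < ((d : ℂ) ^ 2 * τ).im := by
    have : ((d : ℂ) ^ 2) = (((d : ℝ) ^ 2 : ℝ) : ℂ) := by push_cast; ring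
    rw [this, Complex.im_ofReal_mul]
    exact mul_pos hdR hτ
  have h := hT1.shiftFE (fun i => (g i : ℝ) / (d : ℝ)) ((d : ℂ) ^ 2 * τ) hτ'
  -- left side
  have hL : ∀ u : Fin (2 * k) → ℤ,
      cexp (π * I * ((d : ℂ) ^ 2 * τ) * S16_bqf (S16_toReal A)
        (fun i => (u i : ℂ) + (((g i : ℝ) / (d : ℝ) : ℝ) : ℂ))) =
      cexp (2 * π * I * τ * (S16_matQ A (g + (d : ℤ) • u) : ℂ)) := by
    intro u
    have e1 : (fun i => (u i : ℂ) + (((g i : ℝ) / (d : ℝ) : ℝ) : ℂ)) =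
        fun i => ((d : ℂ))⁻¹ * (((g + (d : ℤ) • u) i : ℤ) : ℂ) := by
      funext i
      simp only [Pi.add_apply, Pi.smul_apply, smul_eq_mul]
      push_cast
      field_simp
      ring
    rw [e1, S16_bqf_smul, S16_bqf_int A hA heven]
    congr 1
    field_simp
  -- right side
  have hR : ∀ m : Fin (2 * k) → ℤ,
      cexp (-π * I * S16_bqf (S16_toReal A)⁻¹ (fun i => (m i : ℂ)) / ((d : ℂ) ^ 2 * τ)
          + 2 * π * I * ∑ i, ((((g i : ℝ) / (d : ℝ) : ℝ)) : ℂ) * (m i : ℂ)) =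
      cexp (2 * π * I * (-1 / ((N : ℂ) * (d : ℂ) ^ 2 * τ)) *
          (S16_matQ A' m : ℂ) + 2 * π * I * ((m ⬝ᵥ g : ℤ) : ℂ) / (d : ℂ)) := by
    intro m
    rw [S16_toReal_inv A A' N hN hAA', S16_bqf_real_smul, S16_bqf_int A' hA' heven']
    congr 1
    have e2 : ∑ i, ((((g i : ℝ) / (d : ℝ) : ℝ)) : ℂ) * (m i : ℂ) =
        ((m ⬝ᵥ g : ℤ) : ℂ) / (d : ℂ) := by
      simp only [dotProduct]
      push_cast
      rw [Finset.sum_div]
      refine Finset.sum_congr rfl fun i _ => ?_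
      field_simp
    rw [e2]
    push_cast
    field_simp
  -- the power
  have hP : (((-I * ((d : ℂ) ^ 2 * τ)) ^ (1 / 2 : ℂ)) ^ Fintype.card (Fin (2 * k)))⁻¹ =
      (I / ((d : ℂ) ^ 2 * τ)) ^ k := by
    rw [Fintype.card_fin, pow_mul]
    have : ((-I * ((d : ℂ) ^ 2 * τ)) ^ (1 / 2 : ℂ)) ^ 2 = -I * ((d : ℂ) ^ 2 * τ) := by
      have := Complex.cpow_nat_inv_pow (-I * ((d : ℂ) ^ 2 * τ)) (n := 2) two_ne_zero
      rw [show ((1 : ℂ) / 2) = ((2 : ℕ) : ℂ)⁻¹ by norm_num]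
      exact this
    rw [this, ← inv_pow]
    congr 1
    field_simp
    rw [Complex.I_sq]
  simp_rw [hL, hR] at h
  rw [h, hP]

/-- The `S`-transformation: `Θ_A(z) = C (I/z)^k Θ_{A'}(-1/(N z))`. -/
theorem S16_bridge_S {k : ℕ} (A A' : Matrix (Fin (2 * k)) (Fin (2 * k)) ℤ) (N : ℕ)
    (hN : 0 < N) (hA : A.IsSymm) (heven : ∀ i, Even (A i i)) (hA' : A'.IsSymm)
    (heven' : ∀ i, Even (A' i i))
    (hAA' : A * A' = (N : ℤ) • (1 : Matrix (Fin (2 * k)) (Fin (2 * k)) ℤ))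
    (hT1 : S16_T1Hyp (S16_toReal A)) (z : ℂ) (hz : 0 < z.im) :
    thetaQ (S16_matQ A) z =
      ((Real.sqrt (S16_toReal A).det : ℂ))⁻¹ * (I / z) ^ k *
        thetaQ (S16_matQ A') (-1 / ((N : ℂ) * z)) := by
  have h := S16_bridge_inv A A' N hN hA heven hA' heven' hAA' hT1 1 Nat.one_pos 0 z hz
  simp only [Nat.cast_one, one_smul, zero_add, one_pow, one_mul, mul_one, dotProduct_zero,
    Int.cast_zero, mul_zero, zero_div, add_zero] at h
  rw [thetaQ, h, thetaQ]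

/-- **BRIDGE + T2 + T3 + T4 in rank 4.**  For an even integral positive definite quaternary Gram
matrix `A` of level `N` (`A * A' = N`, `A'` even) with square determinant, the theta series
`Θ_A(z) = Σ_{v ∈ ℤ⁴} e(z · ½ vᵀAv)` satisfies `Θ_A(γ z) = (c z + d)² Θ_A(z)` for `γ ∈ Γ₀(N)`. -/
theorem S16_theta4_transform (A A' : Matrix (Fin (2 * 2)) (Fin (2 * 2)) ℤ) (N : ℕ)
    (hN : 0 < N) (hA : A.IsSymm) (heven : ∀ i, Even (A i i)) (hA' : A'.IsSymm)
    (heven' : ∀ i, Even (A' i i))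
    (hAA' : A * A' = (N : ℤ) • (1 : Matrix (Fin (2 * 2)) (Fin (2 * 2)) ℤ))
    (m : ℤ) (hm : A.det = m ^ 2) (hm0 : m ≠ 0)
    (hT1 : S16_T1Hyp (S16_toReal A)) (hT1' : S16_T1Hyp (S16_toReal A'))
    (a b c d : ℤ) (hdet : a * d - b * c = 1) (hc : (N : ℤ) ∣ c) (z : ℂ) (hz : 0 < z.im) :
    thetaQ (S16_matQ A) ((a * z + b) / (c * z + d)) =
      (c * z + d) ^ 2 * thetaQ (S16_matQ A) z := by
  refine thetaQ_transform_Gamma0 (S16_matQ A) (S16_matQ A') (S16_matB A)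
    (S16_matQ_add A hA heven) (S16_matB_smul A) (S16_matQ_smul A hA heven) N hN A'.mulVec
    (S16_matB_mulVec A A' N hAA') (S16_matQ_mulVec A A' N hA heven hA' heven' hAA')
    ((Real.sqrt (S16_toReal A).det : ℂ))⁻¹
    (fun τ hτ => S16_bridge_summable A hA heven hT1 τ hτ)
    (fun τ hτ => S16_bridge_summable A' hA' heven' hT1' τ hτ)
    (fun d hd g τ hτ => S16_bridge_inv A A' N hN hA heven hA' heven' hAA' hT1 d hd g τ hτ)
    (by decide) (max 2 m.natAbs) ?_ a b c d hdet hc z hz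
  intro ℓ _ hℓ hℓM b hb
  have : Fact ℓ.Prime := ⟨hℓ⟩
  have hℓ2 : ℓ ≠ 2 := by
    have : 2 < ℓ := lt_of_le_of_lt (le_max_left _ _) hℓM
    omega
  have hℓm : ¬ (ℓ : ℤ) ∣ m := by
    intro h
    have h1 : ℓ ∣ m.natAbs := Int.natCast_dvd.mp h
    have h2 : ℓ ≤ m.natAbs := Nat.le_of_dvd (Int.natAbs_pos.mpr hm0) h1
    have h3 : m.natAbs < ℓ := lt_of_le_of_lt (le_max_right _ _) hℓM
    omega
  have hℓb : ¬ (ℓ : ℤ) ∣ b := by
    intro h
    have hp : Prime (ℓ : ℤ) := Nat.prime_iff_prime_int.mp hℓ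
    have : IsUnit (ℓ : ℤ) := hb.symm.isUnit_of_dvd' (dvd_refl _) h
    exact hp.not_isUnit this
  have key := S16_gaussQuad_prime_four A hA heven m hm ℓ hℓ2 hℓm b hℓb
  rw [← key, gaussQ]
  refine Finset.sum_congr rfl fun x _ => ?_
  congr 1
  have h2 := S16_two_mul_matQ A hA heven (resLift x)
  have h3 : (∑ i, ∑ j, (A i j : ℂ) * (((x i).val : ℕ) : ℂ) * (((x j).val : ℕ) : ℂ)) =
      ((2 * S16_matQ A (resLift x) : ℤ) : ℂ) := by
    rw [h2]
    push_cast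
    refine Finset.sum_congr rfl fun i _ => Finset.sum_congr rfl fun j _ => ?_
    simp only [resLift, ZMod.cast_eq_val]
    push_cast
    rfl
  rw [h3]
  have hℓC : (ℓ : ℂ) ≠ 0 := by exact_mod_cast hℓ.ne_zero
  push_cast
  field_simp

end Fermat.Agent.S16
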