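import Mathlib

/-!
# S16, THETA package, part T2: the multiplier of a theta series under `Γ₀(N)`

Setting: `Q, Qd : (Fin n → ℤ) → ℤ` integer valued quadratic forms on `ℤⁿ`, `n = 2k`
(`Q(v) = ½ vᵀAv`, `Qd(m) = N · ½ mᵀA⁻¹m`), `A' = N·A⁻¹` as an additive map.

From the Gaussian inversion formula (hypothesis `hinv`, this is part T1) we derive, for
`a d - b c = 1`, `N ∣ c`, `d > 0`:

  `Θ((a z + b)/(c z + d)) = ((c z + d)/d)^k · G(b,d) · Θ(z)`,   `G(b,d) = Σ_{x ∈ (ℤ/d)ⁿ} e(b Q(x)/d)`.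
-/

set_option autoImplicit false

open Complex Real

namespace Fermat.Agent.S16

/-- The theta series of an integer valued function `Q` on `ℤⁿ`: `Σ_v e(z Q(v))`. -/
noncomputable def thetaQ {n : ℕ} (Q : (Fin n → ℤ) → ℤ) (z : ℂ) : ℂ :=
  ∑' v : Fin n → ℤ, cexp (2 * π * I * z * (Q v : ℂ))

/-- The lift of a residue vector to `ℤⁿ` (coordinates in `[0, d)`). -/
def resLift {n : ℕ} {d : ℕ} (x : Fin n → ZMod d) : Fin n → ℤ := fun i => ((x i).cast : ℤ)

/-- The Gauss sum `G(b,d) = Σ_{x ∈ (ℤ/d)ⁿ} e(b Q(x)/d)`. -/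
noncomputable def gaussQ {n : ℕ} (Q : (Fin n → ℤ) → ℤ) (b : ℤ) (d : ℕ) [NeZero d] : ℂ :=
  ∑ x : Fin n → ZMod d, cexp (2 * π * I * ((b * Q (resLift x) : ℤ) : ℂ) / (d : ℂ))

/-- `e(m/d)` depends only on `m` mod `d`. -/
theorem thetaMult_exp_congr (d : ℕ) (hd : 0 < d) (m m' t : ℤ) (h : m = m' + (d : ℤ) * t) :
    cexp (2 * π * I * (m : ℂ) / (d : ℂ)) = cexp (2 * π * I * (m' : ℂ) / (d : ℂ)) := by
  have hd' : (d : ℂ) ≠ 0 := by exact_mod_cast hd.ne'
  have : 2 * π * I * (m : ℂ) / (d : ℂ) = 2 * π * I * (m' : ℂ) / (d : ℂ) + t * (2 * π * I) := by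
    subst h
    push_cast
    field_simp
  rw [this, Complex.exp_add, Complex.exp_int_mul_two_pi_mul_I, mul_one]

/-- The equivalence `(ℤ/d)ⁿ × ℤⁿ ≃ ℤⁿ`, `(x, u) ↦ x̃ + d u`. -/
noncomputable def resEquiv (n : ℕ) (d : ℕ) [NeZero d] :
    (Fin n → ZMod d) × (Fin n → ℤ) ≃ (Fin n → ℤ) where
  toFun p := resLift p.1 + (d : ℤ) • p.2
  invFun v := (fun i => ((v i : ℤ) : ZMod d), fun i => v i / (d : ℤ))
  left_inv := by
    rintro ⟨x, u⟩
    have hd : (d : ℤ) ≠ 0 := by exact_mod_cast NeZero.ne d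
    ext i
    · simp [resLift]
    · simp only [resLift, Pi.add_apply, Pi.smul_apply, smul_eq_mul]
      rw [Int.add_mul_ediv_left _ _ hd]
      have h0 : (0 : ℤ) ≤ ((x i).cast : ℤ) := by
        rw [ZMod.cast_eq_val]; exact_mod_cast Nat.zero_le _
      have h1 : ((x i).cast : ℤ) < (d : ℤ) := by
        rw [ZMod.cast_eq_val]; exact_mod_cast ZMod.val_lt (x i)
      rw [Int.ediv_eq_zero_of_lt h0 h1, zero_add]
  right_inv := by
    intro v
    ext i
    simp only [resLift, Pi.add_apply, Pi.smul_apply, smul_eq_mul, ZMod.coe_intCast]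
    exact Int.emod_add_mul_ediv (v i) d

@[simp] theorem resEquiv_apply (n : ℕ) (d : ℕ) [NeZero d]
    (p : (Fin n → ZMod d) × (Fin n → ℤ)) : resEquiv n d p = resLift p.1 + (d : ℤ) • p.2 := rfl

/-- Splitting a sum over `ℤⁿ` into residue classes mod `d`. -/
theorem tsum_split_residues {n : ℕ} (d : ℕ) [NeZero d] (F : (Fin n → ℤ) → ℂ) (hF : Summable F) :
    ∑' v, F v = ∑ x : Fin n → ZMod d, ∑' u : Fin n → ℤ, F (resLift x + (d : ℤ) • u) := by
  rw [← (resEquiv n d).tsum_eq F]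
  have hs : Summable (fun p : (Fin n → ZMod d) × (Fin n → ℤ) => F (resEquiv n d p)) :=
    (resEquiv n d).summable_iff.mpr hF
  rw [hs.tsum_prod, tsum_fintype]
  rfl

/-- A sum over residues of a `d`-periodic function is translation invariant. -/
theorem resSum_translate {n : ℕ} (d : ℕ) [NeZero d] (φ : (Fin n → ℤ) → ℂ)
    (hφ : ∀ v u : Fin n → ℤ, φ (v + (d : ℤ) • u) = φ v) (t : Fin n → ℤ) :
    ∑ x : Fin n → ZMod d, φ (resLift x + t) = ∑ x : Fin n → ZMod d, φ (resLift x) := by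
  -- `φ (v) = φ (resLift (v mod d))`
  have key : ∀ v : Fin n → ℤ, φ v = φ (resLift (fun i => ((v i : ℤ) : ZMod d))) := by
    intro v
    have := (resEquiv n d).right_inv v
    conv_lhs => rw [← this]
    simp only [resEquiv]
    exact hφ _ _
  let tb : Fin n → ZMod d := fun i => ((t i : ℤ) : ZMod d)
  have h1 : ∀ x : Fin n → ZMod d, φ (resLift x + t) = φ (resLift (x + tb)) := by
    intro x
    rw [key (resLift x + t)]
    congr 2
    ext i
    simp [resLift, tb]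
  simp_rw [h1]
  exact Fintype.sum_equiv (Equiv.addRight tb) _ _ (fun x => rfl)


/-- norm of `e(x/d)` for an integer `x`. -/
theorem thetaMult_norm_exp_int (m : ℤ) (d : ℕ) :
    ‖cexp (2 * π * I * (m : ℂ) / (d : ℂ))‖ = 1 := by
  rw [Complex.norm_exp]
  have : 2 * (π : ℂ) * I * (m : ℂ) / (d : ℂ) = ((2 * π * m / d : ℝ) : ℂ) * I := by
    push_cast; ring
  rw [this]
  simp

theorem thetaMult_im_pos_aux (z : ℂ) (hz : 0 < z.im) (c : ℤ) (d : ℕ) (hd : 0 < d)
    (hj0 : (c : ℂ) * z + d ≠ 0) : 0 < (z / (d * ((c : ℂ) * z + d))).im := by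
  have hdR : (0 : ℝ) < d := by exact_mod_cast hd
  have hns : 0 < Complex.normSq ((d : ℂ) * ((c : ℂ) * z + d)) :=
    Complex.normSq_pos.mpr (mul_ne_zero (by exact_mod_cast hd.ne') hj0)
  rw [Complex.div_im, ← sub_div]
  apply div_pos _ hns
  simp only [Complex.mul_re, Complex.mul_im, Complex.add_re, Complex.add_im, Complex.intCast_re,
    Complex.intCast_im, Complex.natCast_re, Complex.natCast_im]
  have : z.im * (↑d * (↑c * z.re - 0 * z.im + ↑d) - 0 * (↑c * z.im + 0 * z.re + 0)) -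
      z.re * (↑d * (↑c * z.im + 0 * z.re + 0) + 0 * (↑c * z.re - 0 * z.im + ↑d)) =
        (d : ℝ) * d * z.im := by
    ring
  rw [this]
  positivity

theorem thetaMult_im_pos_aux2 (z : ℂ) (hz : 0 < z.im) (N : ℕ) (hN : 0 < N) :
    0 < (-1 / ((N : ℂ) * z)).im := by
  have hz0 : z ≠ 0 := by rintro rfl; simp at hz
  have hNR : (0 : ℝ) < N := by exact_mod_cast hN
  have hns : 0 < Complex.normSq ((N : ℂ) * z) :=
    Complex.normSq_pos.mpr (mul_ne_zero (by exact_mod_cast hN.ne') hz0)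
  rw [Complex.div_im, ← sub_div]
  apply div_pos _ hns
  simp only [Complex.mul_re, Complex.mul_im, Complex.neg_re, Complex.neg_im, Complex.one_re,
    Complex.one_im, Complex.natCast_re, Complex.natCast_im]
  have : -0 * (↑N * z.re - 0 * z.im) - -1 * (↑N * z.im + 0 * z.re) = (N : ℝ) * z.im := by ring
  rw [this]
  positivity

theorem thetaMult_denom_ne_zero (z : ℂ) (hz : 0 < z.im) (c : ℤ) (d : ℕ) (hd : 0 < d) :
    (c : ℂ) * z + d ≠ 0 := by
  intro h
  have h1 : ((c : ℂ) * z + d).im = 0 := by rw [h]; simp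
  have h2 : ((c : ℂ) * z + d).re = 0 := by rw [h]; simp
  simp only [Complex.add_im, Complex.mul_im, Complex.intCast_re, Complex.intCast_im, zero_mul,
    add_zero, Complex.natCast_im] at h1
  have hc0 : (c : ℝ) = 0 := by
    rcases mul_eq_zero.mp h1 with h | h
    · exact h
    · exact absurd h hz.ne'
  simp only [Complex.add_re, Complex.mul_re, Complex.intCast_re, Complex.intCast_im, zero_mul,
    sub_zero, Complex.natCast_re, hc0, zero_add] at h2
  exact hd.ne' (by exact_mod_cast h2)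

/-- **T2.** The transformation of a theta series under `Γ₀(N)` with its Gauss-sum multiplier,
derived from the Gaussian inversion formula `hinv` (T1). -/
theorem thetaQ_transform {n k : ℕ}
    (Q Qd : (Fin n → ℤ) → ℤ) (B : (Fin n → ℤ) → (Fin n → ℤ) → ℤ)
    (hQadd : ∀ v w, Q (v + w) = Q v + Q w + B v w)
    (hBsmul : ∀ (t : ℤ) v w, B v (t • w) = t * B v w)
    (hQsmul : ∀ (t : ℤ) v, Q (t • v) = t ^ 2 * Q v)
    (N : ℕ) (hN : 0 < N) (A' : (Fin n → ℤ) → (Fin n → ℤ))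
    (hBA' : ∀ v m, B v (A' m) = N * (m ⬝ᵥ v))
    (hQA' : ∀ m, Q (A' m) = N * Qd m)
    (C : ℂ)
    (hsum : ∀ τ : ℂ, 0 < τ.im →
      Summable (fun v : Fin n → ℤ => cexp (2 * π * I * τ * (Q v : ℂ))))
    (hsumd : ∀ τ : ℂ, 0 < τ.im →
      Summable (fun m : Fin n → ℤ => cexp (2 * π * I * τ * (Qd m : ℂ))))
    (hinv : ∀ (d : ℕ), 0 < d → ∀ (g : Fin n → ℤ) (τ : ℂ), 0 < τ.im →
      ∑' u : Fin n → ℤ, cexp (2 * π * I * τ * (Q (g + (d : ℤ) • u) : ℂ)) =
        C * (I / ((d : ℂ) ^ 2 * τ)) ^ k *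
          ∑' m : Fin n → ℤ, cexp (2 * π * I * (-1 / ((N : ℂ) * (d : ℂ) ^ 2 * τ)) * (Qd m : ℂ)
            + 2 * π * I * ((m ⬝ᵥ g : ℤ) : ℂ) / (d : ℂ)))
    (a b c : ℤ) (d : ℕ) [NeZero d] (hdet : a * d - b * c = 1) (hc : (N : ℤ) ∣ c)
    (z : ℂ) (hz : 0 < z.im) :
    thetaQ Q ((a * z + b) / (c * z + d)) =
      ((c * z + d) / d) ^ k * gaussQ Q b d * thetaQ Q z := by
  obtain ⟨c', hc'⟩ := hc
  have hdpos : 0 < d := Nat.pos_of_ne_zero (NeZero.ne d)
  have hD : (d : ℂ) ≠ 0 := by exact_mod_cast hdpos.ne'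
  have hNC : (N : ℂ) ≠ 0 := by exact_mod_cast hN.ne'
  have hz0 : z ≠ 0 := by
    rintro rfl; simp at hz
  have hcC : (c : ℂ) = (N : ℂ) * (c' : ℂ) := by rw [hc']; push_cast; ring
  -- the denominator
  set j : ℂ := (c : ℂ) * z + d with hj
  have hj0 : j ≠ 0 := thetaMult_denom_ne_zero z hz c d hdpos
  set w : ℂ := z / (d * j) with hw
  have hdetC : (a : ℂ) * d - b * (c : ℂ) = 1 := by exact_mod_cast hdet
  -- (F1)
  have F1 : ((a : ℂ) * z + b) / j = b / d + w := by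
    rw [hw]
    field_simp
    rw [hj]
    linear_combination (z) * hdetC
  -- (F2)
  have F2 : 0 < w.im := thetaMult_im_pos_aux z hz c d hdpos hj0
  have hw0 : w ≠ 0 := by
    rintro h; rw [h] at F2; simp at F2
  -- (F3)
  have F3 : -1 / ((N : ℂ) * (d : ℂ) ^ 2 * w) = -(c' : ℂ) / d + -1 / ((N : ℂ) * z) := by
    rw [hw]
    field_simp
    rw [hj, hcC]
    ring
  have him : 0 < ((b : ℂ) / d + w).im := by
    have : ((b : ℂ) / d).im = 0 := by
      have : (b : ℂ) / d = ((b / d : ℝ) : ℂ) := by push_cast; ring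
      rw [this]; simp
    rw [Complex.add_im, this, zero_add]; exact F2
  have him' : 0 < (-1 / ((N : ℂ) * z)).im := thetaMult_im_pos_aux2 z hz N hN
  -- Step 2: split into residues
  have step2 : thetaQ Q ((a * z + b) / j) =
      ∑ x : Fin n → ZMod d, cexp (2 * π * I * ((b * Q (resLift x) : ℤ) : ℂ) / (d : ℂ)) *
        ∑' u : Fin n → ℤ, cexp (2 * π * I * w * (Q (resLift x + (d : ℤ) • u) : ℂ)) := by
    rw [F1, thetaQ, tsum_split_residues d _ (hsum _ him)]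
    refine Finset.sum_congr rfl (fun x _ => ?_)
    rw [← tsum_mul_left]
    refine tsum_congr (fun u => ?_)
    have hQ : Q (resLift x + (d : ℤ) • u) =
        Q (resLift x) + (d : ℤ) * ((d : ℤ) * Q u + B (resLift x) u) := by
      rw [hQadd, hQsmul, hBsmul]; ring
    have e1 : cexp (2 * π * I * ((b * Q (resLift x + (d : ℤ) • u) : ℤ) : ℂ) / (d : ℂ)) =
        cexp (2 * π * I * ((b * Q (resLift x) : ℤ) : ℂ) / (d : ℂ)) :=
      thetaMult_exp_congr d hdpos _ _ (b * ((d : ℤ) * Q u + B (resLift x) u)) (by rw [hQ]; ring)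
    rw [← e1, ← Complex.exp_add]
    congr 1
    push_cast
    field_simp
  -- the dual sum at `z`
  set S : ℂ := ∑' m : Fin n → ℤ, cexp (2 * π * I * (-1 / ((N : ℂ) * z)) * (Qd m : ℂ)) with hS
  -- Step 6 first: `Θ(z) = C (I/z)^k S`
  have step6 : thetaQ Q z = C * (I / z) ^ k * S := by
    have h := hinv 1 Nat.one_pos 0 z hz
    simp only [Nat.cast_one, one_smul, zero_add, one_pow, one_mul, mul_one, dotProduct_zero,
      Int.cast_zero, mul_zero, add_zero, div_one] at h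
    rw [thetaQ, h]
  -- Steps 3-5
  have step345 : ∀ x : Fin n → ZMod d,
      cexp (2 * π * I * ((b * Q (resLift x) : ℤ) : ℂ) / (d : ℂ)) *
        ∑' u : Fin n → ℤ, cexp (2 * π * I * w * (Q (resLift x + (d : ℤ) • u) : ℂ)) =
      C * (I / ((d : ℂ) ^ 2 * w)) ^ k *
        ∑' m : Fin n → ℤ, cexp (2 * π * I * (-1 / ((N : ℂ) * z)) * (Qd m : ℂ)) *
          cexp (2 * π * I * ((b * Q (resLift x + (-c') • A' m) : ℤ) : ℂ) / (d : ℂ)) := by
    intro x
    rw [hinv d hdpos (resLift x) w F2, ← tsum_mul_left, ← tsum_mul_left, ← tsum_mul_left]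
    refine tsum_congr (fun m => ?_)
    have hQ : Q (resLift x + (-c') • A' m) =
        Q (resLift x) + c' ^ 2 * (N * Qd m) - c' * (N * (m ⬝ᵥ resLift x)) := by
      rw [hQadd, hQsmul, hBsmul, hQA', hBA']; ring
    have e1 : cexp (2 * π * I * ((b * Q (resLift x + (-c') • A' m) : ℤ) : ℂ) / (d : ℂ)) =
        cexp (2 * π * I * ((b * Q (resLift x) + m ⬝ᵥ resLift x - c' * Qd m : ℤ) : ℂ) / (d : ℂ)) := by
      refine thetaMult_exp_congr d hdpos _ _ (a * (c' * Qd m - m ⬝ᵥ resLift x)) ?_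
      rw [hQ]
      have hbc : b * (N * c') = a * d - 1 := by rw [← hc']; linarith
      linear_combination (c' * Qd m - m ⬝ᵥ resLift x) * hbc
    rw [e1, F3]
    rw [mul_comm (cexp _) (C * _ * _), mul_assoc (C * _)]
    congr 1
    rw [← Complex.exp_add, ← Complex.exp_add]
    congr 1
    push_cast
    field_simp
    ring
  -- sum over x and swap
  have hsw : ∀ x : Fin n → ZMod d, Summable (fun m : Fin n → ℤ =>
      cexp (2 * π * I * (-1 / ((N : ℂ) * z)) * (Qd m : ℂ)) *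
          cexp (2 * π * I * ((b * Q (resLift x + (-c') • A' m) : ℤ) : ℂ) / (d : ℂ))) := by
    intro x
    refine Summable.of_norm_bounded (hsumd _ him').norm (fun m => ?_)
    rw [norm_mul, thetaMult_norm_exp_int, mul_one]
  have hG : ∀ m : Fin n → ℤ,
      ∑ x : Fin n → ZMod d,
        cexp (2 * π * I * ((b * Q (resLift x + (-c') • A' m) : ℤ) : ℂ) / (d : ℂ)) =
      gaussQ Q b d := by
    intro m
    refine resSum_translate d (fun v => cexp (2 * π * I * ((b * Q v : ℤ) : ℂ) / (d : ℂ))) ?_ _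
    intro v u
    refine thetaMult_exp_congr d hdpos _ _ (b * ((d : ℤ) * Q u + B v u)) ?_
    rw [hQadd, hQsmul, hBsmul]; ring
  rw [step2, Finset.sum_congr rfl (fun x _ => step345 x), ← Finset.mul_sum,
    ← Summable.tsum_finsetSum (fun x _ => hsw x)]
  simp_rw [← Finset.mul_sum, hG]
  rw [tsum_mul_right, step6, ← hS]
  have hpow : (I / ((d : ℂ) ^ 2 * w)) ^ k = (j / d) ^ k * (I / z) ^ k := by
    rw [← mul_pow]
    congr 1
    rw [hw]
    field_simp
  rw [hpow]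
  ring


/-- periodicity `Θ(z + t) = Θ(z)` for `t ∈ ℤ`. -/
theorem thetaQ_add_int {n : ℕ} (Q : (Fin n → ℤ) → ℤ) (z : ℂ) (t : ℤ) :
    thetaQ Q (z + t) = thetaQ Q z := by
  unfold thetaQ
  refine tsum_congr (fun v => ?_)
  have : 2 * π * I * (z + t) * (Q v : ℂ) = 2 * π * I * z * (Q v : ℂ) + ((t * Q v : ℤ) : ℂ) * (2 * π * I) := by
    push_cast; ring
  rw [this, Complex.exp_add, Complex.exp_int_mul_two_pi_mul_I, mul_one]

/-- **T4.** If the Gauss sums `G(b,ℓ)` are `ℓ^k` for all primes `ℓ` outside a finite set (T3) and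
`k` is even, then `Θ` is invariant of weight `k` under all of `Γ₀(N)`.  (Dirichlet's theorem moves
the lower right entry of `γ` to a good prime by a translation.) -/
theorem thetaQ_transform_Gamma0 {n k : ℕ}
    (Q Qd : (Fin n → ℤ) → ℤ) (B : (Fin n → ℤ) → (Fin n → ℤ) → ℤ)
    (hQadd : ∀ v w, Q (v + w) = Q v + Q w + B v w)
    (hBsmul : ∀ (t : ℤ) v w, B v (t • w) = t * B v w)
    (hQsmul : ∀ (t : ℤ) v, Q (t • v) = t ^ 2 * Q v)
    (N : ℕ) (hN : 0 < N) (A' : (Fin n → ℤ) → (Fin n → ℤ))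
    (hBA' : ∀ v m, B v (A' m) = N * (m ⬝ᵥ v))
    (hQA' : ∀ m, Q (A' m) = N * Qd m)
    (C : ℂ)
    (hsum : ∀ τ : ℂ, 0 < τ.im →
      Summable (fun v : Fin n → ℤ => cexp (2 * π * I * τ * (Q v : ℂ))))
    (hsumd : ∀ τ : ℂ, 0 < τ.im →
      Summable (fun m : Fin n → ℤ => cexp (2 * π * I * τ * (Qd m : ℂ))))
    (hinv : ∀ (d : ℕ), 0 < d → ∀ (g : Fin n → ℤ) (τ : ℂ), 0 < τ.im →
      ∑' u : Fin n → ℤ, cexp (2 * π * I * τ * (Q (g + (d : ℤ) • u) : ℂ)) =
        C * (I / ((d : ℂ) ^ 2 * τ)) ^ k *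
          ∑' m : Fin n → ℤ, cexp (2 * π * I * (-1 / ((N : ℂ) * (d : ℂ) ^ 2 * τ)) * (Qd m : ℂ)
            + 2 * π * I * ((m ⬝ᵥ g : ℤ) : ℂ) / (d : ℂ)))
    (hk : Even k) (M : ℕ)
    (hG : ∀ (ℓ : ℕ) [NeZero ℓ], ℓ.Prime → M < ℓ → ∀ b : ℤ, IsCoprime b (ℓ : ℤ) →
      gaussQ Q b ℓ = (ℓ : ℂ) ^ k)
    (a b c d : ℤ) (hdet : a * d - b * c = 1) (hc : (N : ℤ) ∣ c)
    (z : ℂ) (hz : 0 < z.im) :
    thetaQ Q ((a * z + b) / (c * z + d)) = (c * z + d) ^ k * thetaQ Q z := by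
  by_cases hc0 : c = 0
  · subst hc0
    have had : a * d = 1 := by linarith
    rcases Int.eq_one_or_neg_one_of_mul_eq_one' had with ⟨ha, hd⟩ | ⟨ha, hd⟩
    · subst ha hd
      simp only [Int.cast_one, one_mul, Int.cast_zero, zero_mul, zero_add, div_one, one_pow]
      exact thetaQ_add_int Q z b
    · subst ha hd
      have h1 : ((-1 : ℤ) : ℂ) * z + b = -(z + ((-b : ℤ) : ℂ)) := by push_cast; ring
      simp only [Int.cast_zero, zero_mul, zero_add]
      rw [h1]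
      have h2 : -(z + ((-b : ℤ) : ℂ)) / ((-1 : ℤ) : ℂ) = z + ((-b : ℤ) : ℂ) := by
        push_cast; field_simp
      rw [h2, thetaQ_add_int]
      have : (((-1 : ℤ) : ℂ)) ^ k = 1 := by
        push_cast
        exact hk.neg_one_pow
      rw [this, one_mul]
  · -- Dirichlet
    have hcabs : c.natAbs ≠ 0 := Int.natAbs_ne_zero.mpr hc0
    have : NeZero c.natAbs := ⟨hcabs⟩
    have hcop : IsCoprime d c := ⟨a, -b, by linarith⟩
    have hunit : IsUnit ((d : ℤ) : ZMod c.natAbs) := by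
      rw [ZMod.coe_int_isUnit_iff_isCoprime]
      have h1 : IsCoprime c d := hcop.symm
      rcases Int.natAbs_eq c with h | h
      · rw [← h]; exact h1
      · have : ((c.natAbs : ℕ) : ℤ) = -c := by omega
        rw [this]; exact h1.neg_left
    obtain ⟨ℓ, hℓM, hℓp, hℓd⟩ := Nat.forall_exists_prime_gt_and_eq_mod hunit M
    have : NeZero ℓ := ⟨hℓp.ne_zero⟩
    -- `ℓ = d + t c`
    have hdvd : c ∣ (ℓ : ℤ) - d := by
      have h1 : (((ℓ : ℕ) : ℤ) : ZMod c.natAbs) = ((d : ℤ) : ZMod c.natAbs) := by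
        rw [← hℓd]; simp
      have h2 := (ZMod.intCast_eq_intCast_iff_dvd_sub _ _ _).mp h1.symm
      exact Int.natAbs_dvd.mp h2
    obtain ⟨t, ht⟩ := hdvd
    have hℓ' : (ℓ : ℤ) = c * t + d := by linarith
    have hdet' : a * (ℓ : ℤ) - (a * t + b) * c = 1 := by rw [hℓ']; linear_combination hdet
    have hzt : 0 < (z - t).im := by simpa using hz
    have key := thetaQ_transform Q Qd B hQadd hBsmul hQsmul N hN A' hBA' hQA' C hsum hsumd hinv
      a (a * t + b) c ℓ (by exact_mod_cast hdet') hc (z - t) hzt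
    have hcopℓ : IsCoprime (a * t + b) (ℓ : ℤ) := ⟨-c, a, by linear_combination hdet'⟩
    rw [hG ℓ hℓp hℓM _ hcopℓ] at key
    have e1 : (a : ℂ) * (z - t) + ((a * t + b : ℤ) : ℂ) = a * z + b := by push_cast; ring
    have e2 : (c : ℂ) * (z - t) + (ℓ : ℂ) = c * z + d := by
      have : (ℓ : ℂ) = c * t + d := by exact_mod_cast hℓ'
      rw [this]; ring
    have e3 : thetaQ Q (z - t) = thetaQ Q z := by
      have := thetaQ_add_int Q z (-t)
      rw [← this]; congr 1; push_cast; ring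
    rw [e1, e2, e3] at key
    rw [key]
    have hℓC : (ℓ : ℂ) ≠ 0 := by exact_mod_cast hℓp.ne_zero
    rw [div_pow]
    field_simp

end Fermat.Agent.S16
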