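import Mathlib

/-!
# S16, package THETA, piece CUSPS (part 1): general "theta-like" series

For a function `q : V → ℝ` with `q ≥ 0` and `∑ exp (-t q v) < ∞` for all `t > 0` we study
`Θ_q(z) = ∑_v exp (π i z q(v))` on the upper half plane: summability, holomorphy, boundedness at
`i∞`, periodicity and the `q`-expansion (grouping by the value of `q`).
-/

set_option autoImplicit false

open scoped MatrixGroups ModularForm Manifold Topology
open UpperHalfPlane Filter
open Complex hiding I
open scoped Real

noncomputable section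

namespace Fermat.Agent.S16

variable {V : Type*}

/-- The theta-like series `∑_v exp (π i z q(v))`. -/
def S16_thetaSeries (q : V → ℝ) (z : ℍ) : ℂ := ∑' v : V, cexp (π * Complex.I * z * (q v : ℂ))

/-- Norm of one term. -/
theorem S16_thetaSeries_norm_term (t : ℝ) (z : ℂ) :
    ‖cexp (π * Complex.I * z * (t : ℂ))‖ = Real.exp (-(π * z.im) * t) := by
  rw [Complex.norm_exp]
  congr 1
  simp only [mul_re, ofReal_re, ofReal_im, Complex.I_re, Complex.I_im, mul_im, mul_zero, mul_one,
    zero_mul, sub_zero, add_zero, zero_add, zero_sub]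

/-- Summability of the norms of the terms. -/
theorem S16_thetaSeries_summable_norm {q : V → ℝ}
    (hsum : ∀ t : ℝ, 0 < t → Summable (fun v : V => Real.exp (-t * q v))) (z : ℂ) (hz : 0 < z.im) :
    Summable (fun v : V => ‖cexp (π * Complex.I * z * (q v : ℂ))‖) := by
  simp_rw [S16_thetaSeries_norm_term]
  exact hsum (π * z.im) (mul_pos Real.pi_pos hz)

/-- Summability of the terms. -/
theorem S16_thetaSeries_summable {q : V → ℝ}
    (hsum : ∀ t : ℝ, 0 < t → Summable (fun v : V => Real.exp (-t * q v))) (z : ℂ) (hz : 0 < z.im) :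
    Summable (fun v : V => cexp (π * Complex.I * z * (q v : ℂ))) :=
  (S16_thetaSeries_summable_norm hsum z hz).of_norm

/-- The theta-like series is holomorphic on the upper half plane. -/
theorem S16_thetaSeries_mdiff {q : V → ℝ} (hq : ∀ v, 0 ≤ q v)
    (hsum : ∀ t : ℝ, 0 < t → Summable (fun v : V => Real.exp (-t * q v))) :
    MDiff (S16_thetaSeries q) := by
  rw [UpperHalfPlane.mdifferentiable_iff]
  intro w hw
  have hw' : 0 < w.im := hw
  -- work on the open set `{z | w.im / 2 < z.im}`
  set U : Set ℂ := {z | w.im / 2 < z.im} with hU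
  have hUo : IsOpen U := isOpen_lt continuous_const Complex.continuous_im
  have hwU : w ∈ U := by simp only [hU, Set.mem_ofPred_eq]; linarith
  have hUsub : U ⊆ {z | 0 < z.im} := by
    intro z hz
    simp only [hU, Set.mem_ofPred_eq] at hz ⊢
    linarith
  have key : DifferentiableOn ℂ (fun z : ℂ => ∑' v : V, cexp (π * Complex.I * z * (q v : ℂ))) U := by
    refine differentiableOn_tsum_of_summable_norm (u := fun v => Real.exp (-(π * (w.im / 2)) * q v))
      ?_ ?_ hUo ?_
    · exact hsum _ (mul_pos Real.pi_pos (by linarith))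
    · intro v
      apply Differentiable.differentiableOn
      fun_prop
    · intro v z hz
      rw [S16_thetaSeries_norm_term]
      apply Real.exp_le_exp.mpr
      have hz' : w.im / 2 < z.im := hz
      have h1 : π * (w.im / 2) ≤ π * z.im := by
        apply mul_le_mul_of_nonneg_left hz'.le Real.pi_pos.le
      have := mul_le_mul_of_nonneg_right h1 (hq v)
      linarith
  have h2 : DifferentiableAt ℂ (fun z : ℂ => ∑' v : V, cexp (π * Complex.I * z * (q v : ℂ))) w :=
    key.differentiableAt (hUo.mem_nhds hwU)
  have h3 : (S16_thetaSeries q ∘ ↑ofComplex) =ᶠ[𝓝 w]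
      (fun z : ℂ => ∑' v : V, cexp (π * Complex.I * z * (q v : ℂ))) := by
    filter_upwards [hUo.mem_nhds hwU] with z hz
    have hz0 : 0 < z.im := hUsub hz
    simp only [Function.comp_apply, S16_thetaSeries]
    rw [ofComplex_apply_of_im_pos hz0]
  exact (h2.congr_of_eventuallyEq h3).differentiableWithinAt

/-- The theta-like series is bounded at `i∞`. -/
theorem S16_thetaSeries_bdd {q : V → ℝ} (hq : ∀ v, 0 ≤ q v)
    (hsum : ∀ t : ℝ, 0 < t → Summable (fun v : V => Real.exp (-t * q v))) :
    IsBoundedAtImInfty (S16_thetaSeries q) := by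
  rw [UpperHalfPlane.isBoundedAtImInfty_iff]
  refine ⟨∑' v : V, Real.exp (-(π * 1) * q v), 1, fun z hz => ?_⟩
  have hs1 := hsum (π * 1) (by positivity)
  have hs2 := S16_thetaSeries_summable_norm hsum (z : ℂ) z.im_pos
  calc ‖S16_thetaSeries q z‖ ≤ ∑' v : V, ‖cexp (π * Complex.I * z * (q v : ℂ))‖ :=
        norm_tsum_le_tsum_norm hs2
    _ ≤ ∑' v : V, Real.exp (-(π * 1) * q v) := by
        refine hs2.tsum_le_tsum (fun v => ?_) hs1
        rw [S16_thetaSeries_norm_term]
        apply Real.exp_le_exp.mpr
        have h1 : π * 1 ≤ π * (z : ℂ).im := mul_le_mul_of_nonneg_left hz Real.pi_pos.le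
        have := mul_le_mul_of_nonneg_right h1 (hq v)
        linarith

end Fermat.Agent.S16
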