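import Mathlib
import Fermat.Prelude.Def_FLTPrelim_Modularity
import Fermat.Agent.S16.ThetaSeries
import Fermat.Agent.S16.ThetaMult

/-!
# S16, package THETA, piece CUSPS: the theta series as a modular form on `Γ₀(p)`

Input: an integer valued function `Q ≥ 0` on `ℤⁿ` whose theta series `thetaQ Q` (helper6,
`ThetaMult.lean`) satisfies the transformation law under `Γ₀(p)` (T2 + T3 + T4) and the inversion
formula (T1).  Output: a `ModularForm (Gamma0 p) k` with underlying function `z ↦ thetaQ Q z` and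
`q`-expansion coefficients `#{v : Q v = m}`.
-/

set_option autoImplicit false

open scoped MatrixGroups ModularForm Manifold Topology Real
open UpperHalfPlane Filter CongruenceSubgroup Matrix.SpecialLinearGroup
open Complex hiding I

noncomputable section

namespace Fermat.Agent.S16

variable {n : ℕ}

/-- The theta series as a function on the upper half plane. -/
def S16_thetaH (Q : (Fin n → ℤ) → ℤ) (z : ℍ) : ℂ := thetaQ Q (z : ℂ)

/-- `thetaQ` in terms of the general theta-like series. -/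
theorem S16_thetaQ_eq_series (Q : (Fin n → ℤ) → ℤ) (z : ℍ) :
    thetaQ Q (z : ℂ) = S16_thetaSeries (fun v => 2 * (Q v : ℝ)) z := by
  unfold thetaQ S16_thetaSeries
  refine tsum_congr (fun v => ?_)
  congr 1
  push_cast
  ring

/-- scaled version: `thetaQ Q (z / N)` as a theta-like series -/
theorem S16_thetaQ_div_eq_series (Q : (Fin n → ℤ) → ℤ) (N : ℕ) (z : ℍ) :
    thetaQ Q ((z : ℂ) / N) = S16_thetaSeries (fun v => 2 * (Q v : ℝ) / N) z := by
  unfold thetaQ S16_thetaSeries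
  refine tsum_congr (fun v => ?_)
  congr 1
  push_cast
  ring

/-- Real summability from the complex summability hypothesis of `thetaQ_transform`. -/
theorem S16_real_summable_of (Q : (Fin n → ℤ) → ℤ)
    (hsum : ∀ τ : ℂ, 0 < τ.im →
      Summable (fun v : Fin n → ℤ => cexp (2 * π * Complex.I * τ * (Q v : ℂ))))
    (c : ℝ) (hc : 0 < c) (t : ℝ) (ht : 0 < t) :
    Summable (fun v : Fin n → ℤ => Real.exp (-t * (c * (Q v : ℝ)))) := by
  have h1 := hsum (Complex.I * ((t * c / (2 * π) : ℝ) : ℂ)) (by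
    simp only [Complex.mul_im, Complex.I_re, Complex.I_im, Complex.ofReal_re, Complex.ofReal_im]
    have : 0 < t * c / (2 * π) := by positivity
    linarith)
  rw [← Complex.summable_ofReal]
  refine h1.congr (fun v => ?_)
  rw [Complex.ofReal_exp]
  congr 1
  have hpi : (π : ℂ) ≠ 0 := by exact_mod_cast Real.pi_ne_zero
  push_cast
  field_simp
  ring_nf
  rw [Complex.I_sq]
  ring

/-- holomorphy of the theta series -/
theorem S16_thetaH_mdiff (Q : (Fin n → ℤ) → ℤ) (hQ : ∀ v, 0 ≤ Q v)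
    (hsum : ∀ τ : ℂ, 0 < τ.im →
      Summable (fun v : Fin n → ℤ => cexp (2 * π * Complex.I * τ * (Q v : ℂ)))) :
    MDiff (S16_thetaH Q) := by
  have h : S16_thetaH Q = S16_thetaSeries (fun v => 2 * (Q v : ℝ)) := by
    funext z
    exact S16_thetaQ_eq_series Q z
  rw [h]
  exact S16_thetaSeries_mdiff (fun v => by have := hQ v; positivity)
    (fun t ht => S16_real_summable_of Q hsum 2 (by norm_num) t ht)

/-- boundedness at `i∞` of `z ↦ thetaQ Q (z / N)` -/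
theorem S16_thetaQ_div_bdd (Q : (Fin n → ℤ) → ℤ) (hQ : ∀ v, 0 ≤ Q v)
    (hsum : ∀ τ : ℂ, 0 < τ.im →
      Summable (fun v : Fin n → ℤ => cexp (2 * π * Complex.I * τ * (Q v : ℂ))))
    (N : ℕ) (hN : 0 < N) :
    IsBoundedAtImInfty (fun z : ℍ => thetaQ Q ((z : ℂ) / N)) := by
  have h : (fun z : ℍ => thetaQ Q ((z : ℂ) / N)) =
      S16_thetaSeries (fun v => 2 * (Q v : ℝ) / N) := by
    funext z
    exact S16_thetaQ_div_eq_series Q N z
  rw [h]
  refine S16_thetaSeries_bdd (fun v => by have := hQ v; positivity) (fun t ht => ?_)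
  have hN' : (0 : ℝ) < N := by exact_mod_cast hN
  refine (S16_real_summable_of Q hsum (2 / N) (by positivity) t ht).congr (fun v => ?_)
  congr 1
  ring

/-- boundedness at `i∞` of the theta series -/
theorem S16_thetaH_bdd (Q : (Fin n → ℤ) → ℤ) (hQ : ∀ v, 0 ≤ Q v)
    (hsum : ∀ τ : ℂ, 0 < τ.im →
      Summable (fun v : Fin n → ℤ => cexp (2 * π * Complex.I * τ * (Q v : ℂ)))) :
    IsBoundedAtImInfty (S16_thetaH Q) := by
  have h := S16_thetaQ_div_bdd Q hQ hsum 1 one_pos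
  have e : (fun z : ℍ => thetaQ Q ((z : ℂ) / (1 : ℕ))) = S16_thetaH Q := by
    funext z
    simp [S16_thetaH]
  rwa [e] at h

/-- The slash action of `SL(2, ℤ)` in coordinates. -/
theorem S16_slash_apply (k : ℤ) (f : ℍ → ℂ) (γ : SL(2, ℤ)) (z : ℍ) :
    (f ∣[k] γ) z = f (γ • z) * ((γ 1 0 : ℂ) * z + γ 1 1) ^ (-k) := by
  rw [ModularForm.SL_slash_apply, ModularGroup.denom_apply]

/-- The Möbius action of `SL(2, ℤ)` in coordinates. -/
theorem S16_coe_smul (γ : SL(2, ℤ)) (z : ℍ) :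
    ((γ • z : ℍ) : ℂ) = ((γ 0 0 : ℂ) * z + γ 0 1) / ((γ 1 0 : ℂ) * z + γ 1 1) := by
  rw [UpperHalfPlane.specialLinearGroup_apply]
  simp

theorem S16_denom_ne_zero (γ : SL(2, ℤ)) (z : ℍ) : ((γ 1 0 : ℂ) * z + γ 1 1) ≠ 0 := by
  rw [← ModularGroup.denom_apply]
  exact UpperHalfPlane.denom_ne_zero _ z

/-- slash invariance under `Γ₀(N)` from the transformation law in function form -/
theorem S16_thetaH_slash (Q : (Fin n → ℤ) → ℤ) (N k : ℕ)
    (htrans : ∀ a b c d : ℤ, a * d - b * c = 1 → (N : ℤ) ∣ c → ∀ z : ℂ, 0 < z.im →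
      thetaQ Q ((a * z + b) / (c * z + d)) = (c * z + d) ^ k * thetaQ Q z)
    (γ : SL(2, ℤ)) (hγ : γ ∈ Gamma0 N) :
    S16_thetaH Q ∣[(k : ℤ)] γ = S16_thetaH Q := by
  funext z
  rw [S16_slash_apply]
  have hdet := γ.det_coe
  rw [Matrix.det_fin_two] at hdet
  have hc : (N : ℤ) ∣ γ 1 0 := by
    rw [Gamma0_mem] at hγ
    exact (ZMod.intCast_zmod_eq_zero_iff_dvd _ _).mp hγ
  have h := htrans (γ 0 0) (γ 0 1) (γ 1 0) (γ 1 1) (by linarith) hc (z : ℂ) z.im_pos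
  have hne := S16_denom_ne_zero γ z
  unfold S16_thetaH
  rw [S16_coe_smul, h, zpow_neg, zpow_natCast]
  field_simp

/-- `Θ ∣ S` in terms of the dual theta series -/
theorem S16_thetaH_slash_S (Q Qd : (Fin n → ℤ) → ℤ) (N k : ℕ) (C : ℂ)
    (hinv1 : ∀ τ : ℂ, 0 < τ.im →
      thetaQ Q τ = C * (Complex.I / τ) ^ k * thetaQ Qd (-1 / ((N : ℂ) * τ)))
    (z : ℍ) :
    (S16_thetaH Q ∣[(k : ℤ)] ModularGroup.S) z =
      C * (-Complex.I) ^ k * thetaQ Qd ((z : ℂ) / N) := by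
  rw [S16_slash_apply]
  have hz : (z : ℂ) ≠ 0 := UpperHalfPlane.ne_zero z
  have h1 : ((ModularGroup.S • z : ℍ) : ℂ) = -1 / (z : ℂ) := by
    rw [UpperHalfPlane.modular_S_smul]
    show (-(z : ℂ))⁻¹ = -1 / (z : ℂ)
    field_simp
  have h2 : ((ModularGroup.S 1 0 : ℤ) : ℂ) * z + (ModularGroup.S 1 1 : ℤ) = z := by
    simp [ModularGroup.coe_S]
  have him : 0 < (-1 / (z : ℂ)).im := by
    rw [← h1]
    exact (ModularGroup.S • z).im_pos
  unfold S16_thetaH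
  rw [h1, h2, hinv1 _ him, zpow_neg, zpow_natCast]
  have e1 : Complex.I / (-1 / (z : ℂ)) = -Complex.I * z := by
    field_simp
  have e2 : -1 / ((N : ℂ) * (-1 / (z : ℂ))) = (z : ℂ) / N := by
    by_cases hN : (N : ℂ) = 0
    · simp [hN]
    · field_simp
  rw [e1, e2, mul_pow]
  field_simp

/-- `Θ ∣ S` is bounded at `i∞` -/
theorem S16_thetaH_slash_S_bdd (Q Qd : (Fin n → ℤ) → ℤ) (hQd : ∀ m, 0 ≤ Qd m)
    (hsumd : ∀ τ : ℂ, 0 < τ.im →
      Summable (fun m : Fin n → ℤ => cexp (2 * π * Complex.I * τ * (Qd m : ℂ))))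
    (N : ℕ) (hN : 0 < N) (k : ℕ) (C : ℂ)
    (hinv1 : ∀ τ : ℂ, 0 < τ.im →
      thetaQ Q τ = C * (Complex.I / τ) ^ k * thetaQ Qd (-1 / ((N : ℂ) * τ))) :
    IsBoundedAtImInfty (S16_thetaH Q ∣[(k : ℤ)] ModularGroup.S) := by
  have h : (S16_thetaH Q ∣[(k : ℤ)] ModularGroup.S) =
      fun z : ℍ => (C * (-Complex.I) ^ k) * thetaQ Qd ((z : ℂ) / N) := by
    funext z
    exact S16_thetaH_slash_S Q Qd N k C hinv1 z
  rw [h]
  have hb := S16_thetaQ_div_bdd Qd hQd hsumd N hN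
  rw [UpperHalfPlane.isBoundedAtImInfty_iff] at hb ⊢
  obtain ⟨M, A, hMA⟩ := hb
  refine ⟨‖C * (-Complex.I) ^ k‖ * M, A, fun z hz => ?_⟩
  rw [norm_mul]
  exact mul_le_mul_of_nonneg_left (hMA z hz) (norm_nonneg _)

/-- slashing with `T ^ j` preserves boundedness at `i∞` -/
theorem S16_bdd_slash_T_zpow (k : ℤ) (f : ℍ → ℂ) (hf : IsBoundedAtImInfty f) (j : ℤ) :
    IsBoundedAtImInfty (f ∣[k] (ModularGroup.T ^ j)) := by
  rw [UpperHalfPlane.isBoundedAtImInfty_iff] at hf ⊢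
  obtain ⟨M, A, hMA⟩ := hf
  refine ⟨M, A, fun z hz => ?_⟩
  rw [S16_slash_apply]
  have h2 : (((ModularGroup.T ^ j) 1 0 : ℤ) : ℂ) * z + ((ModularGroup.T ^ j) 1 1 : ℤ) = 1 := by
    simp [ModularGroup.coe_T_zpow]
  rw [h2, one_zpow, mul_one, UpperHalfPlane.modular_T_zpow_smul]
  apply hMA
  rw [UpperHalfPlane.vadd_im]
  exact hz

/-- coset decomposition of `SL(2, ℤ)` modulo `Γ₀(p)`, `p` prime -/
theorem S16_coset_Gamma0_prime (p : ℕ) [hp : Fact p.Prime] (γ : SL(2, ℤ)) :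
    γ ∈ Gamma0 p ∨ ∃ γ₀ ∈ Gamma0 p, ∃ j : ℤ, γ = γ₀ * (ModularGroup.S * ModularGroup.T ^ j) := by
  by_cases hc : ((γ 1 0 : ℤ) : ZMod p) = 0
  · left
    exact Gamma0_mem.mpr hc
  · right
    -- choose `j` with `j c ≡ d mod p`
    set j : ℤ := (((((γ 1 1 : ℤ) : ZMod p) * ((γ 1 0 : ℤ) : ZMod p)⁻¹ : ZMod p)).val : ℤ) with hj
    refine ⟨γ * (ModularGroup.S * ModularGroup.T ^ j)⁻¹, ?_, j, by
      rw [inv_mul_cancel_right]⟩
    rw [Gamma0_mem]
    have e : (γ * (ModularGroup.S * ModularGroup.T ^ j)⁻¹) 1 0 = j * γ 1 0 - γ 1 1 := by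
      simp [Matrix.SpecialLinearGroup.coe_mul, Matrix.SpecialLinearGroup.coe_inv,
        ModularGroup.coe_T_zpow, ModularGroup.coe_S, Matrix.mul_apply, Fin.sum_univ_two,
        Matrix.adjugate_fin_two]
      ring
    rw [e]
    push_cast
    have hjc : ((j : ℤ) : ZMod p) = ((γ 1 1 : ℤ) : ZMod p) * ((γ 1 0 : ℤ) : ZMod p)⁻¹ := by
      rw [hj]
      simp
    rw [hjc, mul_assoc, inv_mul_cancel₀ hc, mul_one, sub_self]

/-- all translates of `Θ` are bounded at `i∞` -/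
theorem S16_thetaH_bdd_all (p : ℕ) [Fact p.Prime] {k : ℕ} (Q Qd : (Fin n → ℤ) → ℤ)
    (hQ : ∀ v, 0 ≤ Q v) (hQd : ∀ m, 0 ≤ Qd m)
    (hsum : ∀ τ : ℂ, 0 < τ.im →
      Summable (fun v : Fin n → ℤ => cexp (2 * π * Complex.I * τ * (Q v : ℂ))))
    (hsumd : ∀ τ : ℂ, 0 < τ.im →
      Summable (fun m : Fin n → ℤ => cexp (2 * π * Complex.I * τ * (Qd m : ℂ))))
    (C : ℂ)
    (hinv1 : ∀ τ : ℂ, 0 < τ.im →
      thetaQ Q τ = C * (Complex.I / τ) ^ k * thetaQ Qd (-1 / ((p : ℂ) * τ)))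
    (htrans : ∀ a b c d : ℤ, a * d - b * c = 1 → (p : ℤ) ∣ c → ∀ z : ℂ, 0 < z.im →
      thetaQ Q ((a * z + b) / (c * z + d)) = (c * z + d) ^ k * thetaQ Q z)
    (γ : SL(2, ℤ)) : IsBoundedAtImInfty (S16_thetaH Q ∣[(k : ℤ)] γ) := by
  rcases S16_coset_Gamma0_prime p γ with hγ | ⟨γ₀, hγ₀, j, rfl⟩
  · rw [S16_thetaH_slash Q p k htrans γ hγ]
    exact S16_thetaH_bdd Q hQ hsum
  · rw [SlashAction.slash_mul, S16_thetaH_slash Q p k htrans γ₀ hγ₀, SlashAction.slash_mul]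
    exact S16_bdd_slash_T_zpow _ _
      (S16_thetaH_slash_S_bdd Q Qd hQd hsumd p (Nat.Prime.pos Fact.out) k C hinv1) j

/-- the theta series as a modular form -/
theorem S16_thetaMF_exists_aux (p : ℕ) [Fact p.Prime] {k : ℕ} (Q Qd : (Fin n → ℤ) → ℤ)
    (hQ : ∀ v, 0 ≤ Q v) (hQd : ∀ m, 0 ≤ Qd m)
    (hsum : ∀ τ : ℂ, 0 < τ.im →
      Summable (fun v : Fin n → ℤ => cexp (2 * π * Complex.I * τ * (Q v : ℂ))))
    (hsumd : ∀ τ : ℂ, 0 < τ.im →
      Summable (fun m : Fin n → ℤ => cexp (2 * π * Complex.I * τ * (Qd m : ℂ))))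
    (C : ℂ)
    (hinv1 : ∀ τ : ℂ, 0 < τ.im →
      thetaQ Q τ = C * (Complex.I / τ) ^ k * thetaQ Qd (-1 / ((p : ℂ) * τ)))
    (htrans : ∀ a b c d : ℤ, a * d - b * c = 1 → (p : ℤ) ∣ c → ∀ z : ℂ, 0 < z.im →
      thetaQ Q ((a * z + b) / (c * z + d)) = (c * z + d) ^ k * thetaQ Q z) :
    ∃ Θ : ModularForm (Gamma0 p) k, ⇑Θ = S16_thetaH Q := by
  refine ⟨{ toFun := S16_thetaH Q, slash_action_eq' := ?_, holo' := S16_thetaH_mdiff Q hQ hsum,
            bdd_at_cusps' := ?_ }, rfl⟩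
  · rintro γ ⟨γ', hγ', rfl⟩
    have := S16_thetaH_slash Q p k htrans γ' hγ'
    rwa [ModularForm.SL_slash] at this
  · intro c hc
    rw [Subgroup.IsArithmetic.isCusp_iff_isCusp_SL2Z] at hc
    rw [OnePoint.isBoundedAt_iff_forall_SL2Z hc]
    intro γ _
    exact S16_thetaH_bdd_all p Q Qd hQ hQd hsum hsumd C hinv1 htrans γ

/-- the fibres of `Q` are finite (consequence of summability) -/
theorem S16_fibre_finite (Q : (Fin n → ℤ) → ℤ)
    (hsum : ∀ τ : ℂ, 0 < τ.im →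
      Summable (fun v : Fin n → ℤ => cexp (2 * π * Complex.I * τ * (Q v : ℂ))))
    (m : ℤ) : Finite {v : Fin n → ℤ // Q v = m} := by
  by_contra hinf
  rw [not_finite_iff_infinite] at hinf
  have h1 := (hsum Complex.I (by simp)).subtype (fun v => Q v = m)
  have h2 : ((fun v : Fin n → ℤ => cexp (2 * π * Complex.I * Complex.I * (Q v : ℂ))) ∘
      (Subtype.val : {v : Fin n → ℤ // Q v = m} → (Fin n → ℤ))) =
      fun _ => cexp (2 * π * Complex.I * Complex.I * (m : ℂ)) := by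
    funext v
    simp only [Function.comp_apply]
    rw [v.2]
  rw [h2, summable_const_iff] at h1
  exact Complex.exp_ne_zero _ h1

/-- the `q`-expansion of the theta series, as a `HasSum` -/
theorem S16_thetaQ_hasSum (Q : (Fin n → ℤ) → ℤ) (hQ : ∀ v, 0 ≤ Q v)
    (hsum : ∀ τ : ℂ, 0 < τ.im →
      Summable (fun v : Fin n → ℤ => cexp (2 * π * Complex.I * τ * (Q v : ℂ))))
    (z : ℍ) :
    HasSum (fun m : ℕ => (Nat.card {v : Fin n → ℤ // Q v = (m : ℤ)} : ℂ) •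
      Function.Periodic.qParam 1 (z : ℂ) ^ m) (thetaQ Q (z : ℂ)) := by
  have h0 : HasSum (fun v : Fin n → ℤ => cexp (2 * π * Complex.I * (z : ℂ) * (Q v : ℂ)))
      (thetaQ Q (z : ℂ)) := (hsum (z : ℂ) z.im_pos).hasSum
  have h1 := h0.tsum_fiberwise (fun v => (Q v).toNat)
  refine h1.congr_fun (fun m => ?_) |>.congr_fun (fun _ => rfl)
  -- compute the sum over one fibre
  have hfib : ∀ b : ((fun v : Fin n → ℤ => (Q v).toNat) ⁻¹' {m}),
      cexp (2 * π * Complex.I * (z : ℂ) * (Q (b : Fin n → ℤ) : ℂ)) =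
        Function.Periodic.qParam 1 (z : ℂ) ^ m := by
    intro b
    have hb : (Q (b : Fin n → ℤ)).toNat = m := b.2
    have hb' : Q (b : Fin n → ℤ) = (m : ℤ) := by
      have := Int.toNat_of_nonneg (hQ (b : Fin n → ℤ))
      omega
    rw [hb', Function.Periodic.qParam, ← Complex.exp_nat_mul]
    congr 1
    push_cast
    ring
  rw [tsum_congr hfib, tsum_const]
  have hcard : Nat.card ((fun v : Fin n → ℤ => (Q v).toNat) ⁻¹' {m}) =
      Nat.card {v : Fin n → ℤ // Q v = (m : ℤ)} := by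
    apply Nat.card_congr
    refine Equiv.subtypeEquivRight (fun v => ?_)
    simp only [Set.mem_preimage, Set.mem_singleton_iff]
    have := Int.toNat_of_nonneg (hQ v)
    omega
  rw [hcard, Nat.cast_smul_eq_nsmul]

/-- **CUSPS, core form.** -/
theorem S16_thetaMF_exists (p : ℕ) [Fact p.Prime] {k : ℕ} (Q Qd : (Fin n → ℤ) → ℤ)
    (hQ : ∀ v, 0 ≤ Q v) (hQd : ∀ m, 0 ≤ Qd m)
    (hsum : ∀ τ : ℂ, 0 < τ.im →
      Summable (fun v : Fin n → ℤ => cexp (2 * π * Complex.I * τ * (Q v : ℂ))))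
    (hsumd : ∀ τ : ℂ, 0 < τ.im →
      Summable (fun m : Fin n → ℤ => cexp (2 * π * Complex.I * τ * (Qd m : ℂ))))
    (C : ℂ)
    (hinv1 : ∀ τ : ℂ, 0 < τ.im →
      thetaQ Q τ = C * (Complex.I / τ) ^ k * thetaQ Qd (-1 / ((p : ℂ) * τ)))
    (htrans : ∀ a b c d : ℤ, a * d - b * c = 1 → (p : ℤ) ∣ c → ∀ z : ℂ, 0 < z.im →
      thetaQ Q ((a * z + b) / (c * z + d)) = (c * z + d) ^ k * thetaQ Q z) :
    ∃ Θ : ModularForm (Gamma0 p) k, (∀ z : ℍ, Θ z = thetaQ Q (z : ℂ)) ∧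
      ∀ m : ℕ, ModularFormClass.qCoeff Θ m = (Nat.card {v : Fin n → ℤ // Q v = (m : ℤ)} : ℂ) := by
  obtain ⟨Θ, hΘ⟩ := S16_thetaMF_exists_aux p Q Qd hQ hQd hsum hsumd C hinv1 htrans
  refine ⟨Θ, fun z => by rw [hΘ]; rfl, fun m => ?_⟩
  have hper : (1 : ℝ) ∈ ((Gamma0 p : Subgroup SL(2, ℤ)) : Subgroup (GL (Fin 2) ℝ)).strictPeriods := by
    simp
  have key := ModularFormClass.qExpansion_coeff_unique (f := Θ) one_pos hper
    (c := fun m : ℕ => (Nat.card {v : Fin n → ℤ // Q v = (m : ℤ)} : ℂ))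
    (fun τ => by
      have := S16_thetaQ_hasSum Q hQ hsum τ
      rw [hΘ]
      exact this) m
  rw [ModularFormClass.qCoeff]
  exact key.symm

end Fermat.Agent.S16
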