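import Mathlib
import Fermat.Agent.S16.ThetaMF
import Fermat.Agent.S16.ThetaBridge
import Fermat.Agent.S16.Gram

/-!
# S16, package THETA, final form

From T1 (in the shape `S16_T1Hyp`, helper6's `ThetaBridge.lean`) we obtain, for every even integral
positive definite quaternary Gram matrix `A` of prime level `p` and square determinant, the theta
series `Θ_A` as a `ModularForm (Gamma0 p) 2` with integral `q`-expansion, constant term `1` and
even higher coefficients.  With GRAM (helper21) such a matrix exists for every odd prime `p`.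
-/

set_option autoImplicit false

open scoped MatrixGroups ModularForm Manifold Topology Real
open UpperHalfPlane Filter CongruenceSubgroup Matrix.SpecialLinearGroup
open Complex hiding I

noncomputable section

namespace Fermat.Agent.S16

variable {n : ℕ}

/-- The number of representations of `0` is `1`. -/
theorem S16_repNum_zero (Q : (Fin n → ℤ) → ℤ) (hQ0 : Q 0 = 0) (hQpos : ∀ v, v ≠ 0 → 0 < Q v) :
    Nat.card {v : Fin n → ℤ // Q v = ((0 : ℕ) : ℤ)} = 1 := by
  rw [Nat.card_eq_one_iff_unique]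
  refine ⟨⟨fun a b => ?_⟩, ⟨⟨0, by simpa using hQ0⟩⟩⟩
  have h : ∀ c : {v : Fin n → ℤ // Q v = ((0 : ℕ) : ℤ)}, (c : Fin n → ℤ) = 0 := by
    intro c
    by_contra hc
    have := hQpos c hc
    have h2 := c.2
    simp only [Nat.cast_zero] at h2
    omega
  exact Subtype.ext ((h a).trans (h b).symm)

/-- A finite type with a fixed point free involution has even cardinality. -/
theorem S16_even_card_of_involution {α : Type*} (f : α → α) (hf : Function.Involutive f)
    (hfix : ∀ a, f a ≠ a) : Even (Nat.card α) := by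
  classical
  rcases finite_or_infinite α with hfin | hinf
  · have : Fintype α := Fintype.ofFinite α
    rw [Nat.card_eq_fintype_card]
    have h := Equiv.Perm.card_fixedPoints_modEq (f := (f : Function.End α)) (p := 2) (n := 1) (by
      simp only [pow_one]
      funext a
      show f (f a) = a
      exact hf a)
    have h0 : Fintype.card (Function.fixedPoints (f : Function.End α)) = 0 := by
      rw [Fintype.card_eq_zero_iff]
      exact ⟨fun ⟨a, ha⟩ => hfix a ha⟩
    rw [h0] at h
    exact (Nat.even_iff).mpr h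
  · rw [Nat.card_eq_zero_of_infinite]
    exact Even.zero

/-- The number of representations of `m ≥ 1` is even. -/
theorem S16_repNum_even (Q : (Fin n → ℤ) → ℤ) (hQ0 : Q 0 = 0) (hQneg : ∀ v, Q (-v) = Q v)
    (m : ℕ) (hm : 1 ≤ m) : Even (Nat.card {v : Fin n → ℤ // Q v = (m : ℤ)}) := by
  refine S16_even_card_of_involution
    (fun v : {v : Fin n → ℤ // Q v = (m : ℤ)} => ⟨-v.1, by rw [hQneg]; exact v.2⟩) ?_ ?_
  · intro v
    apply Subtype.ext
    simp
  · intro v hv
    have h1 : -v.1 = v.1 := congrArg Subtype.val hv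
    have h2 : v.1 = 0 := by
      funext i
      have := congrFun h1 i
      simp only [Pi.neg_apply, Pi.zero_apply] at this ⊢
      omega
    have h3 := v.2
    rw [h2, hQ0] at h3
    have : (m : ℤ) = 0 := h3.symm
    omega

/-- positivity of `S16_matQ` for a positive definite matrix -/
theorem S16_matQ_pos (A : Matrix (Fin n) (Fin n) ℤ) (hA : A.IsSymm) (heven : ∀ i, Even (A i i))
    (hpos : (S16_toReal A).PosDef) (v : Fin n → ℤ) (hv : v ≠ 0) : 0 < S16_matQ A v := by
  have h2 := S16_two_mul_matQ A hA heven v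
  have hx : (fun i => (v i : ℝ)) ≠ 0 := by
    intro h
    apply hv
    funext i
    have := congrFun h i
    simpa using this
  have h3 := hpos.dotProduct_mulVec_pos hx
  have h4 : star (fun i => (v i : ℝ)) ⬝ᵥ (S16_toReal A).mulVec (fun i => (v i : ℝ)) =
      ((∑ i, ∑ j, A i j * v i * v j : ℤ) : ℝ) := by
    simp only [dotProduct, Matrix.mulVec, S16_toReal, Matrix.map_apply, star_trivial,
      Pi.star_apply]
    push_cast
    rw [Finset.sum_congr rfl]
    intro i _
    rw [Finset.mul_sum]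
    refine Finset.sum_congr rfl (fun j _ => ?_)
    ring
  rw [h4, ← h2] at h3
  have h5 : (0 : ℤ) < 2 * S16_matQ A v := by exact_mod_cast h3
  omega

theorem S16_matQ_zero' (A : Matrix (Fin n) (Fin n) ℤ) : S16_matQ A 0 = 0 := by
  simp [S16_matQ]

theorem S16_matQ_neg' (A : Matrix (Fin n) (Fin n) ℤ) (v : Fin n → ℤ) :
    S16_matQ A (-v) = S16_matQ A v := by
  simp [S16_matQ]

theorem S16_matQ_nonneg (A : Matrix (Fin n) (Fin n) ℤ) (hA : A.IsSymm)
    (heven : ∀ i, Even (A i i)) (hpos : (S16_toReal A).PosDef) (v : Fin n → ℤ) :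
    0 ≤ S16_matQ A v := by
  by_cases hv : v = 0
  · rw [hv, S16_matQ_zero']
  · exact (S16_matQ_pos A hA heven hpos v hv).le

/-- **THETA, final form in rank 4** (from T1 in the shape `S16_T1Hyp`). -/
theorem S16_theta4_MF (p : ℕ) [Fact p.Prime] (A A' : Matrix (Fin (2 * 2)) (Fin (2 * 2)) ℤ)
    (hA : A.IsSymm) (heven : ∀ i, Even (A i i)) (hA' : A'.IsSymm) (heven' : ∀ i, Even (A' i i))
    (hAA' : A * A' = (p : ℤ) • (1 : Matrix (Fin (2 * 2)) (Fin (2 * 2)) ℤ))
    (m : ℤ) (hm : A.det = m ^ 2) (hm0 : m ≠ 0) (hpos : (S16_toReal A).PosDef)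
    (hT1 : S16_T1Hyp (S16_toReal A)) (hT1' : S16_T1Hyp (S16_toReal A')) :
    ∃ Θ : ModularForm (Gamma0 p) 2, ∃ a : ℕ → ℤ,
      (∀ z : ℍ, Θ z = thetaQ (S16_matQ A) (z : ℂ)) ∧
      (∀ j, ModularFormClass.qCoeff Θ j = (a j : ℂ)) ∧ a 0 = 1 ∧ (∀ j, 1 ≤ j → Even (a j)) ∧
      ∀ j, a j = Nat.card {v : Fin (2 * 2) → ℤ // S16_matQ A v = (j : ℤ)} := by
  have hp : 0 < p := Nat.Prime.pos Fact.out
  have hpos' : (S16_toReal A').PosDef := S16_toReal_posDef' A A' p hp hAA' hpos
  obtain ⟨Θ, hΘ, hq⟩ := S16_thetaMF_exists p (k := 2) (S16_matQ A) (S16_matQ A')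
    (S16_matQ_nonneg A hA heven hpos) (S16_matQ_nonneg A' hA' heven' hpos')
    (fun τ hτ => S16_bridge_summable A hA heven hT1 τ hτ)
    (fun τ hτ => S16_bridge_summable A' hA' heven' hT1' τ hτ)
    ((Real.sqrt (S16_toReal A).det : ℂ))⁻¹
    (fun τ hτ => S16_bridge_S A A' p hp hA heven hA' heven' hAA' hT1 τ hτ)
    (fun a b c d hdet hc z hz =>
      S16_theta4_transform A A' p hp hA heven hA' heven' hAA' m hm hm0 hT1 hT1' a b c d hdet hc z hz)
  refine ⟨ModularForm.mcast (by norm_num) Θ, fun j =>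
    (Nat.card {v : Fin (2 * 2) → ℤ // S16_matQ A v = (j : ℤ)} : ℤ), fun z => hΘ z, fun j => ?_, ?_, ?_,
    fun j => rfl⟩
  · have := hq j
    simpa using this
  · have := S16_repNum_zero (S16_matQ A) (S16_matQ_zero' A) (S16_matQ_pos A hA heven hpos)
    simp only [Nat.cast_zero] at this ⊢
    rw [this]
    rfl
  · intro j hj
    have := S16_repNum_even (S16_matQ A) (S16_matQ_zero' A) (S16_matQ_neg' A) j hj
    exact (Int.even_coe_nat _).mpr this

/-- **THETA + GRAM**: if T1 holds for all positive definite real `4 × 4` matrices, then for every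
odd prime `p` there is a modular form of weight `2` on `Γ₀(p)` with integral `q`-expansion,
constant term `1` and even higher coefficients. -/
theorem S16_theta_exists_of_T1 (p : ℕ) [Fact p.Prime] (hp2 : p ≠ 2)
    (hT1 : ∀ M : Matrix (Fin (2 * 2)) (Fin (2 * 2)) ℝ, M.PosDef → S16_T1Hyp M) :
    ∃ Θ : ModularForm (Gamma0 p) 2, ∃ a : ℕ → ℤ,
      (∀ j, ModularFormClass.qCoeff Θ j = (a j : ℂ)) ∧ a 0 = 1 ∧ ∀ j, 1 ≤ j → Even (a j) := by
  have hp : p.Prime := Fact.out
  obtain ⟨A, hA, heven, hpos, hdet, B, hAB, hB, hBeven⟩ := S16_gram_exists' p hp hp2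
  have hp0 : 0 < p := hp.pos
  have hposB : (S16_toReal (n := 2 * 2) B).PosDef :=
    S16_toReal_posDef' (n := 2 * 2) A B p hp0 hAB hpos
  obtain ⟨Θ, a, -, h1, h2, h3, -⟩ := S16_theta4_MF p A B hA heven hB hBeven hAB (p : ℤ) hdet
    (by exact_mod_cast hp.ne_zero) hpos (hT1 _ hpos) (hT1 _ hposB)
  exact ⟨Θ, a, h1, h2, h3⟩

end Fermat.Agent.S16
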