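import Mathlib

/-!
# S16, THETA package, part T1: Gaussian inversion (theta functional equation) in any rank

For a real positive definite symmetric matrix `M` indexed by a finite type `ι`, `z : ι → ℂ` and
`τ` in the upper half plane we prove (by induction on the rank, splitting off one variable with
the Schur complement and using Mathlib's one-dimensional `jacobiTheta₂_functional_equation`):

* `S16_theta_summable`: `u ↦ exp (π i τ M[u] + 2 π i z·u)` is summable over `ℤ^ι`;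
* `S16_theta_FE`: `∑_u exp (π i τ M[u] + 2 π i z·u)
    = (det M)^(-1/2) ((-iτ)^(1/2))^(-n) ∑_m exp (-π i M⁻¹[z - m] / τ)`;
* `S16_theta_shift_FE`: the version with a real shift `x`.
-/

set_option autoImplicit false

namespace Fermat.Agent.S16

open Complex Real Matrix

section Generic

variable {ι : Type*} [Fintype ι] {K : Type*} [Field K]

/-- generic quadratic form of a matrix over a field -/
def S16_qfK (M : Matrix ι ι K) (v : ι → K) : K := ∑ i, ∑ j, M i j * v i * v j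

lemma S16_qfK_eq_dotProduct (M : Matrix ι ι K) (v : ι → K) :
    S16_qfK M v = v ⬝ᵥ (M *ᵥ v) := by
  simp only [S16_qfK, dotProduct, mulVec, Finset.mul_sum]
  refine Finset.sum_congr rfl fun i _ => Finset.sum_congr rfl fun j _ => by ring

/-- Schur complement of the `1×1` upper left block. -/
def S16_schurK (M : Matrix (Unit ⊕ ι) (Unit ⊕ ι) K) : Matrix ι ι K :=
  fun i j => M (Sum.inr i) (Sum.inr j) -
    M (Sum.inr i) (Sum.inl ()) * M (Sum.inl ()) (Sum.inr j) / M (Sum.inl ()) (Sum.inl ())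

lemma S16_qfK_sumElim (M : Matrix (Unit ⊕ ι) (Unit ⊕ ι) K)
    (hsymm : ∀ i, M (Sum.inr i) (Sum.inl ()) = M (Sum.inl ()) (Sum.inr i))
    (ha : M (Sum.inl ()) (Sum.inl ()) ≠ 0) (s : K) (w : ι → K) :
    S16_qfK M (Sum.elim (fun _ => s) w) =
      M (Sum.inl ()) (Sum.inl ()) *
        (s + (∑ i, M (Sum.inl ()) (Sum.inr i) * w i) / M (Sum.inl ()) (Sum.inl ())) ^ 2
      + S16_qfK (S16_schurK M) w := by
  simp only [S16_qfK, S16_schurK, Fintype.sum_sum_type, Finset.univ_unique,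
    Finset.sum_singleton, Sum.elim_inl, Sum.elim_inr, hsymm]
  set a := M (Sum.inl ()) (Sum.inl ()) with ha'
  set B := ∑ i, M (Sum.inl ()) (Sum.inr i) * w i with hB
  have h1 : ∑ x, M (Sum.inl ()) (Sum.inr x) * s * w x = s * B := by
    rw [hB, Finset.mul_sum]; exact Finset.sum_congr rfl fun i _ => by ring
  have h2 : ∑ x, (M (Sum.inl ()) (Sum.inr x) * w x * s +
      ∑ j, M (Sum.inr x) (Sum.inr j) * w x * w j) =
      s * B + ∑ x, ∑ j, M (Sum.inr x) (Sum.inr j) * w x * w j := by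
    rw [Finset.sum_add_distrib, hB, Finset.mul_sum]
    congr 1
    exact Finset.sum_congr rfl fun i _ => by ring
  have h3 : ∑ i, ∑ j, (M (Sum.inr i) (Sum.inr j) -
      M (Sum.inl ()) (Sum.inr i) * M (Sum.inl ()) (Sum.inr j) / a) * w i * w j =
      ∑ x, ∑ j, M (Sum.inr x) (Sum.inr j) * w x * w j - B * B / a := by
    have : B * B = ∑ i, ∑ j, (M (Sum.inl ()) (Sum.inr i) * w i) *
        (M (Sum.inl ()) (Sum.inr j) * w j) := by
      rw [hB, Finset.sum_mul_sum]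
    rw [this, Finset.sum_div, ← Finset.sum_sub_distrib]
    refine Finset.sum_congr rfl fun i _ => ?_
    rw [Finset.sum_div, ← Finset.sum_sub_distrib]
    refine Finset.sum_congr rfl fun j _ => by ring
  rw [h1, h2, h3]
  field_simp
  ring

/-- `N[M v] = M[v]` when `N * M = 1` and `M` is symmetric. -/
lemma S16_qfK_inv_mulVec [DecidableEq ι] (M N : Matrix ι ι K) (hNM : N * M = 1)
    (hM : Mᵀ = M) (v : ι → K) :
    S16_qfK N (M *ᵥ v) = S16_qfK M v := by
  rw [S16_qfK_eq_dotProduct, S16_qfK_eq_dotProduct, mulVec_mulVec, hNM, one_mulVec,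
    dotProduct_comm, dotProduct_mulVec, ← mulVec_transpose, hM, dotProduct_comm]

end Generic

/-- one-dimensional real Gaussian family with a linear term: summable. -/
lemma S16_summable_gauss1 {T : ℝ} (hT : 0 < T) (y : ℝ) :
    Summable (fun s : ℤ => rexp (-π * T * (s : ℝ) ^ 2 - 2 * π * y * s)) := by
  have h := ((summable_jacobiTheta₂_term_iff (I * y) (I * T)).2 (by simpa using hT)).norm
  refine h.congr fun s => ?_
  rw [norm_jacobiTheta₂_term]
  congr 1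
  simp
  ring

/-- one-dimensional real Gaussian family with a linear term: uniform bound of the sum. -/
lemma S16_gauss1_bound {T : ℝ} (hT : 0 < T) :
    ∃ K : ℝ, 0 ≤ K ∧ ∀ y : ℝ,
      ∑' s : ℤ, rexp (-π * T * (s : ℝ) ^ 2 - 2 * π * y * s) ≤ K * rexp (π * y ^ 2 / T) := by
  have hT' : 0 < 1 / T := by positivity
  refine ⟨‖1 / (T : ℂ) ^ (1 / 2 : ℂ)‖ * ∑' s : ℤ, rexp (-π * (1 / T) * (s : ℝ) ^ 2 - 2 * π * 0 * s),
    mul_nonneg (norm_nonneg _) (tsum_nonneg fun _ => (Real.exp_pos _).le), fun y => ?_⟩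
  have hsum := S16_summable_gauss1 hT y
  have hsum0 := S16_summable_gauss1 hT' 0
  have key := Complex.tsum_exp_neg_quadratic (a := (T : ℂ)) (by simpa using hT) (-(y : ℂ))
  have hL : (∑' n : ℤ, cexp (-π * (T : ℂ) * n ^ 2 + 2 * π * (-(y : ℂ)) * n)) =
      ((∑' s : ℤ, rexp (-π * T * (s : ℝ) ^ 2 - 2 * π * y * s) : ℝ) : ℂ) := by
    rw [Complex.ofReal_tsum]
    refine tsum_congr fun n => ?_
    push_cast
    congr 1
    ring
  rw [hL] at key
  have hnn : 0 ≤ ∑' s : ℤ, rexp (-π * T * (s : ℝ) ^ 2 - 2 * π * y * s) :=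
    tsum_nonneg fun _ => (Real.exp_pos _).le
  have hnorm : ∀ n : ℤ, ‖cexp (-π / (T : ℂ) * ((n : ℂ) + I * (-(y : ℂ))) ^ 2)‖ =
      rexp (-π * (1 / T) * (n : ℝ) ^ 2 - 2 * π * 0 * n) * rexp (π * y ^ 2 / T) := by
    intro n
    rw [Complex.norm_exp, ← Real.exp_add]
    congr 1
    have : (-π / (T : ℂ) * ((n : ℂ) + I * (-(y : ℂ))) ^ 2) =
        ((-π / T * ((n : ℝ) ^ 2 - y ^ 2) : ℝ) : ℂ) + ((2 * π / T * n * y : ℝ) : ℂ) * I := by
      push_cast
      ring_nf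
      simp only [I_sq]
      ring
    rw [this]
    simp only [add_re, ofReal_re, mul_re, I_re, mul_zero, ofReal_im, I_im, mul_one, sub_self,
      add_zero]
    field_simp
    ring
  have hsumn : Summable (fun n : ℤ => ‖cexp (-π / (T : ℂ) * ((n : ℂ) + I * (-(y : ℂ))) ^ 2)‖) := by
    simp only [hnorm]
    exact hsum0.mul_right _
  calc ∑' s : ℤ, rexp (-π * T * (s : ℝ) ^ 2 - 2 * π * y * s)
      = ‖((∑' s : ℤ, rexp (-π * T * (s : ℝ) ^ 2 - 2 * π * y * s) : ℝ) : ℂ)‖ := by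
        rw [Complex.norm_real, Real.norm_of_nonneg hnn]
    _ = ‖1 / (T : ℂ) ^ (1 / 2 : ℂ)‖ *
          ‖∑' n : ℤ, cexp (-π / (T : ℂ) * ((n : ℂ) + I * (-(y : ℂ))) ^ 2)‖ := by
        rw [key, norm_mul]
    _ ≤ ‖1 / (T : ℂ) ^ (1 / 2 : ℂ)‖ *
          ∑' n : ℤ, ‖cexp (-π / (T : ℂ) * ((n : ℂ) + I * (-(y : ℂ))) ^ 2)‖ :=
        mul_le_mul_of_nonneg_left (norm_tsum_le_tsum_norm hsumn) (norm_nonneg _)
    _ = _ := by
        simp only [hnorm]
        rw [tsum_mul_right]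
        ring


section RealSum

universe u v

/-- the real Gaussian family (norm of the theta terms) -/
noncomputable def S16_rterm {ι : Type u} [Fintype ι] (M : Matrix ι ι ℝ) (y : ι → ℝ) (t : ℝ)
    (u : ι → ℤ) : ℝ :=
  rexp (-π * t * S16_qfK M (fun i => (u i : ℝ)) - 2 * π * ∑ i, y i * (u i : ℝ))

/-- summability of all real Gaussian families in rank `ι`. -/
def S16_SumR (ι : Type u) [Fintype ι] : Prop :=
  ∀ (M : Matrix ι ι ℝ), M.PosDef → ∀ t : ℝ, 0 < t → ∀ y : ι → ℝ, Summable (S16_rterm M y t)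

lemma S16_qfK_submatrix {ι : Type u} {κ : Type v} [Fintype ι] [Fintype κ] {K : Type*} [Field K]
    (e : ι ≃ κ) (M : Matrix κ κ K) (v : κ → K) :
    S16_qfK (M.submatrix e e) (fun i => v (e i)) = S16_qfK M v := by
  simp only [S16_qfK, Matrix.submatrix_apply]
  rw [← Equiv.sum_comp e]
  refine Finset.sum_congr rfl fun i _ => ?_
  rw [← Equiv.sum_comp e]

lemma S16_SumR_reindex {ι : Type u} {κ : Type v} [Fintype ι] [Fintype κ] (e : ι ≃ κ)
    (h : S16_SumR ι) : S16_SumR κ := by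
  intro M hM t ht y
  have h1 := h (M.submatrix e e) (hM.submatrix e.injective) t ht (fun i => y (e i))
  let E : (κ → ℤ) ≃ (ι → ℤ) := Equiv.arrowCongr e.symm (Equiv.refl ℤ)
  refine ((E.summable_iff).2 h1).congr fun u => ?_
  simp only [S16_rterm, Function.comp_apply]
  have hE : ∀ i, E u i = u (e i) := fun i => by simp [E, Equiv.arrowCongr]
  simp only [hE]
  rw [S16_qfK_submatrix e M (fun k => (u k : ℝ)), Equiv.sum_comp e (fun k => y k * (u k : ℝ))]

lemma S16_SumR_empty {ι : Type u} [Fintype ι] [IsEmpty ι] : S16_SumR ι := by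
  intro M _ t _ y
  exact (hasSum_fintype _).summable

/-- the equivalence `(ι → ℤ) × ℤ ≃ (Unit ⊕ ι → ℤ)` -/
def S16_E (ι : Type u) : (ι → ℤ) × ℤ ≃ (Unit ⊕ ι → ℤ) where
  toFun p := Sum.elim (fun _ => p.2) p.1
  invFun u := (fun i => u (Sum.inr i), u (Sum.inl ()))
  left_inv p := by simp
  right_inv u := by
    funext k
    rcases k with k | k <;> simp

@[simp] lemma S16_E_inl {ι : Type u} (p : (ι → ℤ) × ℤ) (x : Unit) :
    S16_E ι p (Sum.inl x) = p.2 := rfl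
@[simp] lemma S16_E_inr {ι : Type u} (p : (ι → ℤ) × ℤ) (i : ι) : S16_E ι p (Sum.inr i) = p.1 i := rfl

lemma S16_posDef_symm {ι : Type u} [Fintype ι] {M : Matrix ι ι ℝ} (hM : M.PosDef) (i j : ι) :
    M i j = M j i := by
  have := hM.isHermitian
  have h2 := congrFun (congrFun this j) i
  simpa [Matrix.conjTranspose_apply] using h2

lemma S16_posDef_qfK_pos {ι : Type u} [Fintype ι] {M : Matrix ι ι ℝ} (hM : M.PosDef)
    {v : ι → ℝ} (hv : v ≠ 0) : 0 < S16_qfK M v := by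
  have := hM.dotProduct_mulVec_pos hv
  rw [S16_qfK_eq_dotProduct]
  simpa using this

lemma S16_posDef_of_qfK_pos {ι : Type u} [Fintype ι] {M : Matrix ι ι ℝ}
    (hs : ∀ i j, M i j = M j i) (hp : ∀ v : ι → ℝ, v ≠ 0 → 0 < S16_qfK M v) : M.PosDef := by
  refine Matrix.PosDef.of_dotProduct_mulVec_pos ?_ fun v hv => ?_
  · ext i j
    simp [Matrix.conjTranspose_apply, hs i j]
  · have := hp v hv
    rw [S16_qfK_eq_dotProduct] at this
    simpa using this

lemma S16_schurK_posDef {ι : Type u} [Fintype ι] {M : Matrix (Unit ⊕ ι) (Unit ⊕ ι) ℝ}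
    (hM : M.PosDef) : (S16_schurK M).PosDef := by
  have ha : 0 < M (Sum.inl ()) (Sum.inl ()) := hM.diag_pos
  refine S16_posDef_of_qfK_pos (fun i j => ?_) fun w hw => ?_
  · simp only [S16_schurK]
    rw [S16_posDef_symm hM (Sum.inr i) (Sum.inr j), S16_posDef_symm hM (Sum.inr i) (Sum.inl ()),
      S16_posDef_symm hM (Sum.inl ()) (Sum.inr j)]
    ring
  · have h1 := S16_qfK_sumElim M (fun i => S16_posDef_symm hM _ _) ha.ne'
      (-(∑ i, M (Sum.inl ()) (Sum.inr i) * w i) / M (Sum.inl ()) (Sum.inl ())) w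
    have h2 : (Sum.elim (fun _ : Unit =>
        -(∑ i, M (Sum.inl ()) (Sum.inr i) * w i) / M (Sum.inl ()) (Sum.inl ())) w) ≠ 0 := by
      intro h
      apply hw
      funext i
      have := congrFun h (Sum.inr i)
      simpa using this
    have h3 := S16_posDef_qfK_pos hM h2
    rw [h1] at h3
    have h4 : (-(∑ i, M (Sum.inl ()) (Sum.inr i) * w i) / M (Sum.inl ()) (Sum.inl ()) +
        (∑ i, M (Sum.inl ()) (Sum.inr i) * w i) / M (Sum.inl ()) (Sum.inl ())) = 0 := by ring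
    rw [h4] at h3
    simpa using h3

lemma S16_cast_E {ι : Type u} (w : ι → ℤ) (s : ℤ) {R : Type*} [IntCast R] :
    (fun k => ((S16_E ι (w, s) k : ℤ) : R)) = Sum.elim (fun _ => (s : R)) (fun i => (w i : R)) := by
  funext k
  rcases k with k | k <;> rfl

lemma S16_rterm_E {ι : Type u} [Fintype ι] {M : Matrix (Unit ⊕ ι) (Unit ⊕ ι) ℝ} (hM : M.PosDef)
    (y : Unit ⊕ ι → ℝ) (t : ℝ) (w : ι → ℤ) (s : ℤ) :
    S16_rterm M y t (S16_E ι (w, s)) =
      rexp (-π * (t * M (Sum.inl ()) (Sum.inl ())) * (s : ℝ) ^ 2 -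
          2 * π * (t * (∑ i, M (Sum.inl ()) (Sum.inr i) * (w i : ℝ)) + y (Sum.inl ())) * s) *
        (rexp (-π * t * (∑ i, M (Sum.inl ()) (Sum.inr i) * (w i : ℝ)) ^ 2 /
            M (Sum.inl ()) (Sum.inl ())) *
          S16_rterm (S16_schurK M) (fun i => y (Sum.inr i)) t w) := by
  have ha : 0 < M (Sum.inl ()) (Sum.inl ()) := hM.diag_pos
  simp only [S16_rterm]
  rw [S16_cast_E, S16_qfK_sumElim M (fun i => S16_posDef_symm hM _ _) ha.ne']
  simp only [Fintype.sum_sum_type, Finset.univ_unique, Finset.sum_singleton, S16_E_inl,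
    S16_E_inr]
  rw [← Real.exp_add, ← Real.exp_add]
  congr 1
  field_simp
  ring

lemma S16_SumR_step {ι : Type u} [Fintype ι] (h : S16_SumR ι) : S16_SumR (Unit ⊕ ι) := by
  intro M hM t ht y
  have ha : 0 < M (Sum.inl ()) (Sum.inl ()) := hM.diag_pos
  have hta : 0 < t * M (Sum.inl ()) (Sum.inl ()) := mul_pos ht ha
  obtain ⟨K, hK0, hK⟩ := S16_gauss1_bound hta
  refine ((S16_E ι).summable_iff).1 ?_
  refine (summable_prod_of_nonneg (f := S16_rterm M y t ∘ S16_E ι)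
    (fun p => (Real.exp_pos _).le)).2 ⟨?_, ?_⟩
  · intro w
    simp only [Function.comp_apply, S16_rterm_E hM]
    exact (S16_summable_gauss1 hta _).mul_right _
  · have hIH := h (S16_schurK M) (S16_schurK_posDef hM) t ht
      (fun i => y (Sum.inr i) - y (Sum.inl ()) / M (Sum.inl ()) (Sum.inl ()) *
        M (Sum.inl ()) (Sum.inr i))
    refine Summable.of_nonneg_of_le (fun w => tsum_nonneg fun s => (Real.exp_pos _).le)
      (fun w => ?_)
      (hIH.mul_left (K * rexp (π * y (Sum.inl ()) ^ 2 / (t * M (Sum.inl ()) (Sum.inl ())))))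
    simp only [Function.comp_apply, S16_rterm_E hM]
    rw [tsum_mul_right]
    set B := ∑ i, M (Sum.inl ()) (Sum.inr i) * (w i : ℝ) with hB
    have h1 := hK (t * B + y (Sum.inl ()))
    have h2 : rexp (π * (t * B + y (Sum.inl ())) ^ 2 / (t * M (Sum.inl ()) (Sum.inl ()))) *
        (rexp (-π * t * B ^ 2 / M (Sum.inl ()) (Sum.inl ())) *
          S16_rterm (S16_schurK M) (fun i => y (Sum.inr i)) t w) =
        rexp (π * y (Sum.inl ()) ^ 2 / (t * M (Sum.inl ()) (Sum.inl ()))) *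
          S16_rterm (S16_schurK M) (fun i => y (Sum.inr i) -
            y (Sum.inl ()) / M (Sum.inl ()) (Sum.inl ()) * M (Sum.inl ()) (Sum.inr i)) t w := by
      simp only [S16_rterm]
      rw [← Real.exp_add, ← Real.exp_add, ← Real.exp_add]
      congr 1
      have h3 : ∑ i, (y (Sum.inr i) - y (Sum.inl ()) / M (Sum.inl ()) (Sum.inl ()) *
          M (Sum.inl ()) (Sum.inr i)) * (w i : ℝ) =
          ∑ i, y (Sum.inr i) * (w i : ℝ) - y (Sum.inl ()) / M (Sum.inl ()) (Sum.inl ()) * B := by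
        rw [hB, Finset.mul_sum, ← Finset.sum_sub_distrib]
        exact Finset.sum_congr rfl fun i _ => by ring
      rw [h3]
      field_simp
      ring
    calc (∑' s : ℤ, rexp (-π * (t * M (Sum.inl ()) (Sum.inl ())) * (s : ℝ) ^ 2 -
            2 * π * (t * B + y (Sum.inl ())) * s)) *
          (rexp (-π * t * B ^ 2 / M (Sum.inl ()) (Sum.inl ())) *
            S16_rterm (S16_schurK M) (fun i => y (Sum.inr i)) t w)
        ≤ (K * rexp (π * (t * B + y (Sum.inl ())) ^ 2 / (t * M (Sum.inl ()) (Sum.inl ())))) *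
          (rexp (-π * t * B ^ 2 / M (Sum.inl ()) (Sum.inl ())) *
            S16_rterm (S16_schurK M) (fun i => y (Sum.inr i)) t w) :=
          mul_le_mul_of_nonneg_right h1
            (mul_nonneg (Real.exp_pos _).le (Real.exp_pos _).le)
      _ = _ := by
          rw [mul_assoc K, h2]
          ring

/-- `Fin (n+1) ≃ Unit ⊕ Fin n` -/
def S16_finEquiv (n : ℕ) : Unit ⊕ Fin n ≃ Fin (n + 1) :=
  ((Equiv.sumComm _ _).trans (Equiv.optionEquivSumPUnit (Fin n)).symm).trans (finSuccEquiv n).symm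

lemma S16_SumR_fin : ∀ n : ℕ, S16_SumR (Fin n)
  | 0 => S16_SumR_empty
  | n + 1 => S16_SumR_reindex (S16_finEquiv n) (S16_SumR_step (S16_SumR_fin n))

lemma S16_SumR_all (ι : Type u) [Fintype ι] : S16_SumR ι :=
  S16_SumR_reindex (Fintype.equivFin ι).symm (S16_SumR_fin _)

end RealSum


section Cplx

universe u v

variable {ι : Type u} [Fintype ι]

/-- quadratic form of a real matrix on complex vectors (bilinear, NOT hermitian) -/
noncomputable def S16_qf (M : Matrix ι ι ℝ) (ζ : ι → ℂ) : ℂ :=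
  ∑ i, ∑ j, (M i j : ℂ) * ζ i * ζ j

lemma S16_qf_eq_qfK (M : Matrix ι ι ℝ) (ζ : ι → ℂ) :
    S16_qf M ζ = S16_qfK (M.map Complex.ofReal) ζ := rfl

/-- the general term of the theta series with characteristic `z`. -/
noncomputable def S16_term (M : Matrix ι ι ℝ) (z : ι → ℂ) (τ : ℂ) (u : ι → ℤ) : ℂ :=
  cexp (π * I * τ * S16_qf M (fun i => (u i : ℂ)) + 2 * π * I * ∑ i, z i * (u i : ℂ))

/-- the general term of the dual theta series. -/
noncomputable def S16_dterm (N : Matrix ι ι ℝ) (z : ι → ℂ) (τ : ℂ) (m : ι → ℤ) : ℂ :=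
  cexp (-π * I * S16_qf N (fun i => z i - (m i : ℂ)) / τ)

lemma S16_qf_intCast (M : Matrix ι ι ℝ) (u : ι → ℤ) :
    S16_qf M (fun i => (u i : ℂ)) = ((S16_qfK M (fun i => (u i : ℝ)) : ℝ) : ℂ) := by
  simp only [S16_qf, S16_qfK]
  push_cast
  rfl

lemma S16_norm_term (M : Matrix ι ι ℝ) (z : ι → ℂ) (τ : ℂ) (u : ι → ℤ) :
    ‖S16_term M z τ u‖ = S16_rterm M (fun i => (z i).im) τ.im u := by
  simp only [S16_term, S16_rterm]
  rw [Complex.norm_exp, S16_qf_intCast]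
  congr 1
  have h1 : (π * I * τ * ((S16_qfK M (fun i => (u i : ℝ)) : ℝ) : ℂ)).re =
      -π * τ.im * S16_qfK M (fun i => (u i : ℝ)) := by
    simp [Complex.mul_re, Complex.mul_im]
  have h2 : (2 * π * I * ∑ i, z i * (u i : ℂ)).re = - 2 * π * ∑ i, (z i).im * (u i : ℝ) := by
    have : (∑ i, z i * (u i : ℂ)).im = ∑ i, (z i).im * (u i : ℝ) := by
      rw [Complex.im_sum]
      refine Finset.sum_congr rfl fun i _ => ?_
      simp [Complex.mul_im]
    simp [Complex.mul_re, Complex.mul_im, this]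
  rw [Complex.add_re, h1, h2]
  ring

theorem S16_term_summable (M : Matrix ι ι ℝ) (hM : M.PosDef) (z : ι → ℂ) (τ : ℂ)
    (hτ : 0 < τ.im) : Summable (S16_term M z τ) := by
  refine Summable.of_norm ?_
  simp only [S16_norm_term]
  exact S16_SumR_all ι M hM τ.im hτ _

lemma S16_qf_sub_intCast (N : Matrix ι ι ℝ) (hN : ∀ i j, N i j = N j i) (z : ι → ℂ)
    (m : ι → ℤ) :
    S16_qf N (fun i => z i - (m i : ℂ)) =
      S16_qf N z - 2 * ∑ i, (∑ j, (N i j : ℂ) * z j) * (m i : ℂ)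
        + S16_qf N (fun i => (m i : ℂ)) := by
  simp only [S16_qf]
  have h1 : ∑ i, ∑ j, (N i j : ℂ) * (z i - (m i : ℂ)) * (z j - (m j : ℂ)) =
      ∑ i, ∑ j, (N i j : ℂ) * z i * z j - ∑ i, ∑ j, (N i j : ℂ) * z j * (m i : ℂ)
        - ∑ i, ∑ j, (N i j : ℂ) * z i * (m j : ℂ) + ∑ i, ∑ j, (N i j : ℂ) * (m i : ℂ) * (m j : ℂ) := by
    simp only [← Finset.sum_sub_distrib, ← Finset.sum_add_distrib]
    refine Finset.sum_congr rfl fun i _ => Finset.sum_congr rfl fun j _ => by ring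
  have h2 : ∑ i, ∑ j, (N i j : ℂ) * z i * (m j : ℂ) = ∑ i, ∑ j, (N i j : ℂ) * z j * (m i : ℂ) := by
    rw [Finset.sum_comm]
    refine Finset.sum_congr rfl fun i _ => Finset.sum_congr rfl fun j _ => by rw [hN j i]
  rw [h1, h2]
  simp only [Finset.sum_mul]
  ring

lemma S16_dterm_eq (N : Matrix ι ι ℝ) (hN : ∀ i j, N i j = N j i) (z : ι → ℂ) (τ : ℂ)
    (m : ι → ℤ) :
    S16_dterm N z τ m = cexp (-π * I * S16_qf N z / τ) *
      S16_term N (fun i => (∑ j, (N i j : ℂ) * z j) / τ) (-1 / τ) m := by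
  simp only [S16_dterm, S16_term]
  rw [← Complex.exp_add, S16_qf_sub_intCast N hN]
  congr 1
  have : ∑ i, (∑ j, (N i j : ℂ) * z j) / τ * (m i : ℂ) =
      (∑ i, (∑ j, (N i j : ℂ) * z j) * (m i : ℂ)) / τ := by
    rw [Finset.sum_div]
    refine Finset.sum_congr rfl fun i _ => by ring
  rw [this]
  ring

lemma S16_neg_inv_im_pos {τ : ℂ} (hτ : 0 < τ.im) : 0 < (-1 / τ).im := by
  rw [neg_div, neg_im, one_div, inv_im, neg_div, neg_neg]
  exact div_pos hτ (normSq_pos.mpr (fun h => by simp [h] at hτ))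

theorem S16_dterm_summable (N : Matrix ι ι ℝ) (hN : N.PosDef) (z : ι → ℂ) (τ : ℂ)
    (hτ : 0 < τ.im) : Summable (S16_dterm N z τ) := by
  have h := S16_term_summable N hN (fun i => (∑ j, (N i j : ℂ) * z j) / τ) (-1 / τ)
    (S16_neg_inv_im_pos hτ)
  refine (h.mul_left (cexp (-π * I * S16_qf N z / τ))).congr fun m => ?_
  rw [S16_dterm_eq N (fun i j => S16_posDef_symm hN i j)]


/-! ### The functional equation: reindexing and the empty case -/

/-- the functional equation in rank `ι`. -/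
def S16_FE (ι : Type u) [Fintype ι] [DecidableEq ι] : Prop :=
  ∀ (M : Matrix ι ι ℝ), M.PosDef → ∀ (z : ι → ℂ) (τ : ℂ), 0 < τ.im →
    ∑' u : ι → ℤ, S16_term M z τ u =
      ((Real.sqrt M.det : ℝ) : ℂ)⁻¹ * (((-I * τ) ^ (1 / 2 : ℂ)) ^ Fintype.card ι)⁻¹ *
        ∑' m : ι → ℤ, S16_dterm M⁻¹ z τ m

lemma S16_qf_submatrix {κ : Type v} [Fintype κ] (e : ι ≃ κ) (M : Matrix κ κ ℝ) (ζ : κ → ℂ) :
    S16_qf (M.submatrix e e) (fun i => ζ (e i)) = S16_qf M ζ := by
  simp only [S16_qf, Matrix.submatrix_apply]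
  rw [← Equiv.sum_comp e]
  refine Finset.sum_congr rfl fun i _ => ?_
  rw [← Equiv.sum_comp e]

lemma S16_FE_reindex {κ : Type v} [Fintype κ] [DecidableEq ι] [DecidableEq κ] (e : ι ≃ κ)
    (h : S16_FE ι) : S16_FE κ := by
  intro M hM z τ hτ
  have h1 := h (M.submatrix e e) (hM.submatrix e.injective) (fun i => z (e i)) τ hτ
  let E : (κ → ℤ) ≃ (ι → ℤ) := Equiv.arrowCongr e.symm (Equiv.refl ℤ)
  have hE : ∀ (u : κ → ℤ) i, E u i = u (e i) := fun u i => by simp [E, Equiv.arrowCongr]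
  have hL : ∑' u : κ → ℤ, S16_term M z τ u =
      ∑' u : ι → ℤ, S16_term (M.submatrix e e) (fun i => z (e i)) τ u := by
    rw [← E.tsum_eq]
    refine tsum_congr fun u => ?_
    simp only [S16_term, hE]
    rw [S16_qf_submatrix e M (fun k => (u k : ℂ)), Equiv.sum_comp e (fun k => z k * (u k : ℂ))]
  have hR : ∑' m : κ → ℤ, S16_dterm M⁻¹ z τ m =
      ∑' m : ι → ℤ, S16_dterm (M.submatrix e e)⁻¹ (fun i => z (e i)) τ m := by
    rw [← E.tsum_eq]
    refine tsum_congr fun u => ?_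
    simp only [S16_dterm, hE]
    rw [Matrix.inv_submatrix_equiv, S16_qf_submatrix e M⁻¹ (fun k => z k - (u k : ℂ))]
  rw [hL, hR, h1, Matrix.det_submatrix_equiv_self, Fintype.card_congr e]

lemma S16_FE_empty [DecidableEq ι] [IsEmpty ι] : S16_FE ι := by
  intro M _ z τ _
  rw [tsum_fintype, tsum_fintype]
  simp [S16_term, S16_dterm, S16_qf, Matrix.det_isEmpty, Fintype.card_eq_zero]


/-! ### Block identities over `ℂ` -/

omit [Fintype ι] in
lemma S16_schurK_map (M : Matrix (Unit ⊕ ι) (Unit ⊕ ι) ℝ) :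
    S16_schurK (M.map Complex.ofReal) = (S16_schurK M).map Complex.ofReal := by
  ext i j
  simp [S16_schurK]

lemma S16_qf_E {M : Matrix (Unit ⊕ ι) (Unit ⊕ ι) ℝ} (hM : M.PosDef) (s : ℂ) (w : ι → ℂ) :
    S16_qf M (Sum.elim (fun _ => s) w) =
      (M (Sum.inl ()) (Sum.inl ()) : ℂ) *
        (s + (∑ i, (M (Sum.inl ()) (Sum.inr i) : ℂ) * w i) / (M (Sum.inl ()) (Sum.inl ()) : ℂ)) ^ 2
      + S16_qf (S16_schurK M) w := by
  have ha : 0 < M (Sum.inl ()) (Sum.inl ()) := hM.diag_pos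
  rw [S16_qf_eq_qfK, S16_qf_eq_qfK, ← S16_schurK_map,
    S16_qfK_sumElim (M.map Complex.ofReal)
      (fun i => by simp [S16_posDef_symm hM (Sum.inr i) (Sum.inl ())])
      (by simpa using ha.ne')]
  simp

lemma S16_map_inv_mul [DecidableEq ι] {M : Matrix ι ι ℝ} (hM : M.PosDef) :
    (M⁻¹.map Complex.ofReal) * (M.map Complex.ofReal) = 1 := by
  have h1 : M⁻¹ * M = 1 := Matrix.nonsing_inv_mul _ (isUnit_iff_ne_zero.2 hM.det_pos.ne')
  have h2 := congrArg (fun A : Matrix ι ι ℝ => A.map Complex.ofRealHom) h1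
  simp only [Matrix.map_mul, Matrix.map_one Complex.ofRealHom (map_zero _) (map_one _)] at h2
  exact h2

lemma S16_map_mul_inv [DecidableEq ι] {M : Matrix ι ι ℝ} (hM : M.PosDef) :
    (M.map Complex.ofReal) * (M⁻¹.map Complex.ofReal) = 1 := by
  have h1 : M * M⁻¹ = 1 := Matrix.mul_nonsing_inv _ (isUnit_iff_ne_zero.2 hM.det_pos.ne')
  have h2 := congrArg (fun A : Matrix ι ι ℝ => A.map Complex.ofRealHom) h1
  simp only [Matrix.map_mul, Matrix.map_one Complex.ofRealHom (map_zero _) (map_one _)] at h2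
  exact h2

lemma S16_map_transpose {M : Matrix ι ι ℝ} (hM : M.PosDef) :
    (M.map Complex.ofReal)ᵀ = M.map Complex.ofReal := by
  ext i j
  simp [S16_posDef_symm hM j i]

/-- `M⁻¹[M v] = M[v]` -/
lemma S16_qf_inv_mulVec [DecidableEq ι] {M : Matrix ι ι ℝ} (hM : M.PosDef) (v : ι → ℂ) :
    S16_qf M⁻¹ ((M.map Complex.ofReal) *ᵥ v) = S16_qf M v := by
  rw [S16_qf_eq_qfK, S16_qf_eq_qfK]
  exact S16_qfK_inv_mulVec _ _ (S16_map_inv_mul hM) (S16_map_transpose hM) v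

/-- the dual block identity. -/
lemma S16_qf_inv_E [DecidableEq ι] {M : Matrix (Unit ⊕ ι) (Unit ⊕ ι) ℝ} (hM : M.PosDef)
    (ζ : Unit ⊕ ι → ℂ) :
    S16_qf M⁻¹ ζ = (ζ (Sum.inl ())) ^ 2 / (M (Sum.inl ()) (Sum.inl ()) : ℂ) +
      S16_qf (S16_schurK M)⁻¹ (fun i => ζ (Sum.inr i) -
        ζ (Sum.inl ()) / (M (Sum.inl ()) (Sum.inl ()) : ℂ) * (M (Sum.inl ()) (Sum.inr i) : ℂ)) := by
  have ha : 0 < M (Sum.inl ()) (Sum.inl ()) := hM.diag_pos
  have haC : (M (Sum.inl ()) (Sum.inl ()) : ℂ) ≠ 0 := by exact_mod_cast ha.ne'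
  set v : Unit ⊕ ι → ℂ := (M⁻¹.map Complex.ofReal) *ᵥ ζ with hv
  have hζ : (M.map Complex.ofReal) *ᵥ v = ζ := by
    rw [hv, Matrix.mulVec_mulVec, S16_map_mul_inv hM, Matrix.one_mulVec]
  have hvE : v = Sum.elim (fun _ => v (Sum.inl ())) (fun i => v (Sum.inr i)) := by
    funext k
    rcases k with k | k <;> rfl
  set B : ℂ := ∑ i, (M (Sum.inl ()) (Sum.inr i) : ℂ) * v (Sum.inr i) with hB
  have h0 : ζ (Sum.inl ()) = (M (Sum.inl ()) (Sum.inl ()) : ℂ) * v (Sum.inl ()) + B := by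
    rw [← hζ]
    simp [Matrix.mulVec, dotProduct, Fintype.sum_sum_type, hB]
  have h1 : ∀ i, ζ (Sum.inr i) = (M (Sum.inl ()) (Sum.inr i) : ℂ) * v (Sum.inl ()) +
      ∑ j, (M (Sum.inr i) (Sum.inr j) : ℂ) * v (Sum.inr j) := by
    intro i
    conv_lhs => rw [← hζ]
    simp [Matrix.mulVec, dotProduct, Fintype.sum_sum_type,
      S16_posDef_symm hM (Sum.inr i) (Sum.inl ())]
  have h2 : (fun i => ζ (Sum.inr i) -
        ζ (Sum.inl ()) / (M (Sum.inl ()) (Sum.inl ()) : ℂ) * (M (Sum.inl ()) (Sum.inr i) : ℂ)) =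
      ((S16_schurK M).map Complex.ofReal) *ᵥ (fun i => v (Sum.inr i)) := by
    funext i
    rw [h1 i, h0]
    simp only [Matrix.mulVec, dotProduct, Matrix.map_apply, S16_schurK]
    push_cast
    rw [S16_posDef_symm hM (Sum.inr i) (Sum.inl ())]
    have : ∑ j, ((M (Sum.inr i) (Sum.inr j) : ℂ) -
        (M (Sum.inl ()) (Sum.inr i) : ℂ) * (M (Sum.inl ()) (Sum.inr j) : ℂ) /
          (M (Sum.inl ()) (Sum.inl ()) : ℂ)) * v (Sum.inr j) =
        ∑ j, (M (Sum.inr i) (Sum.inr j) : ℂ) * v (Sum.inr j) -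
          (M (Sum.inl ()) (Sum.inr i) : ℂ) / (M (Sum.inl ()) (Sum.inl ()) : ℂ) * B := by
      rw [hB, Finset.mul_sum, ← Finset.sum_sub_distrib]
      refine Finset.sum_congr rfl fun j _ => by ring
    rw [this]
    field_simp
    ring
  rw [h2, S16_qf_inv_mulVec (S16_schurK_posDef hM)]
  conv_lhs => rw [← hζ]
  rw [S16_qf_inv_mulVec hM, hvE, S16_qf_E hM, h0]
  simp only [Sum.elim_inr]
  rw [← hB]
  field_simp


/-! ### One-dimensional inputs -/

lemma S16_jacobi_FE (Z T : ℂ) (hT : 0 < T.im) :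
    jacobiTheta₂ Z T =
      1 / (-I * T) ^ (1 / 2 : ℂ) * ∑' m : ℤ, cexp (-π * I * (Z - (m : ℂ)) ^ 2 / T) := by
  have hT0 : T ≠ 0 := fun h => by simp [h] at hT
  rw [jacobiTheta₂_functional_equation, mul_assoc]
  congr 1
  rw [jacobiTheta₂, ← tsum_mul_left]
  refine tsum_congr fun m => ?_
  rw [jacobiTheta₂_term, ← Complex.exp_add]
  congr 1
  field_simp
  ring

lemma S16_summable_jacobi_dual (Z T : ℂ) (hT : 0 < T.im) :
    Summable (fun m : ℤ => cexp (-π * I * (Z - (m : ℂ)) ^ 2 / T)) := by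
  have hT0 : T ≠ 0 := fun h => by simp [h] at hT
  have h := (summable_jacobiTheta₂_term_iff (Z / T) (-1 / T)).2 (S16_neg_inv_im_pos hT)
  refine (h.mul_left (cexp (-π * I * Z ^ 2 / T))).congr fun m => ?_
  rw [jacobiTheta₂_term, ← Complex.exp_add]
  congr 1
  field_simp
  ring

lemma S16_cpow_half_mul {a : ℝ} (ha : 0 < a) (τ : ℂ) (hτ : 0 < τ.im) :
    (-I * ((a : ℂ) * τ)) ^ (1 / 2 : ℂ) = ((Real.sqrt a : ℝ) : ℂ) * (-I * τ) ^ (1 / 2 : ℂ) := by
  have hτ0 : τ ≠ 0 := fun h => by simp [h] at hτ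
  have hx : -I * τ ≠ 0 := mul_ne_zero (neg_ne_zero.2 I_ne_zero) hτ0
  have h1 : -I * ((a : ℂ) * τ) = (a : ℂ) * (-I * τ) := by ring
  have ha0 : (a : ℂ) ≠ 0 := by exact_mod_cast ha.ne'
  rw [h1, Complex.cpow_def_of_ne_zero (mul_ne_zero ha0 hx), Complex.log_ofReal_mul ha hx,
    add_mul, Complex.exp_add, ← Complex.cpow_def_of_ne_zero hx, Real.sqrt_eq_rpow,
    Complex.ofReal_cpow ha.le, Complex.cpow_def_of_ne_zero ha0, Complex.ofReal_log ha.le]
  push_cast
  rfl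


/-! ### Term identities for the induction step -/

/-- the linear form `w ↦ Σ b_i w_i` given by the first row. -/
noncomputable def S16_B (M : Matrix (Unit ⊕ ι) (Unit ⊕ ι) ℝ) (w : ι → ℤ) : ℂ :=
  ∑ i, (M (Sum.inl ()) (Sum.inr i) : ℂ) * (w i : ℂ)

lemma S16_term_E {M : Matrix (Unit ⊕ ι) (Unit ⊕ ι) ℝ} (hM : M.PosDef) (z : Unit ⊕ ι → ℂ)
    (τ : ℂ) (w : ι → ℤ) (s : ℤ) :
    S16_term M z τ (S16_E ι (w, s)) =
      (S16_term (S16_schurK M) (fun i => z (Sum.inr i)) τ w *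
          cexp (π * I * τ * (S16_B M w) ^ 2 / (M (Sum.inl ()) (Sum.inl ()) : ℂ))) *
        jacobiTheta₂_term s (z (Sum.inl ()) + τ * S16_B M w)
          ((M (Sum.inl ()) (Sum.inl ()) : ℂ) * τ) := by
  have ha : 0 < M (Sum.inl ()) (Sum.inl ()) := hM.diag_pos
  have haC : (M (Sum.inl ()) (Sum.inl ()) : ℂ) ≠ 0 := by exact_mod_cast ha.ne'
  simp only [S16_term, jacobiTheta₂_term]
  rw [S16_cast_E, S16_qf_E hM]
  simp only [Fintype.sum_sum_type, Finset.univ_unique, Finset.sum_singleton, S16_E_inl,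
    S16_E_inr]
  rw [← Complex.exp_add, ← Complex.exp_add]
  congr 1
  simp only [S16_B]
  field_simp
  ring

lemma S16_F_eq {M : Matrix (Unit ⊕ ι) (Unit ⊕ ι) ℝ} (hM : M.PosDef) (z : Unit ⊕ ι → ℂ)
    (τ : ℂ) (hτ0 : τ ≠ 0) (w : ι → ℤ) (m : ℤ) :
    (S16_term (S16_schurK M) (fun i => z (Sum.inr i)) τ w *
          cexp (π * I * τ * (S16_B M w) ^ 2 / (M (Sum.inl ()) (Sum.inl ()) : ℂ))) *
        cexp (-π * I * (z (Sum.inl ()) + τ * S16_B M w - (m : ℂ)) ^ 2 /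
          ((M (Sum.inl ()) (Sum.inl ()) : ℂ) * τ)) =
      cexp (-π * I * (z (Sum.inl ()) - (m : ℂ)) ^ 2 / ((M (Sum.inl ()) (Sum.inl ()) : ℂ) * τ)) *
        S16_term (S16_schurK M) (fun i => z (Sum.inr i) -
          (z (Sum.inl ()) - (m : ℂ)) / (M (Sum.inl ()) (Sum.inl ()) : ℂ) *
            (M (Sum.inl ()) (Sum.inr i) : ℂ)) τ w := by
  have ha : 0 < M (Sum.inl ()) (Sum.inl ()) := hM.diag_pos
  have haC : (M (Sum.inl ()) (Sum.inl ()) : ℂ) ≠ 0 := by exact_mod_cast ha.ne'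
  simp only [S16_term]
  rw [← Complex.exp_add, ← Complex.exp_add, ← Complex.exp_add]
  congr 1
  have h3 : ∑ i, (z (Sum.inr i) - (z (Sum.inl ()) - (m : ℂ)) / (M (Sum.inl ()) (Sum.inl ()) : ℂ) *
      (M (Sum.inl ()) (Sum.inr i) : ℂ)) * (w i : ℂ) =
      ∑ i, z (Sum.inr i) * (w i : ℂ) -
        (z (Sum.inl ()) - (m : ℂ)) / (M (Sum.inl ()) (Sum.inl ()) : ℂ) * S16_B M w := by
    rw [S16_B, Finset.mul_sum, ← Finset.sum_sub_distrib]
    exact Finset.sum_congr rfl fun i _ => by ring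
  rw [h3]
  field_simp
  ring

/-- norm of the summand `F(w, m)` factorises. -/
lemma S16_norm_F {M : Matrix (Unit ⊕ ι) (Unit ⊕ ι) ℝ} (z : Unit ⊕ ι → ℂ)
    (τ : ℂ) (w : ι → ℤ) (m : ℤ) :
    ‖S16_term (S16_schurK M) (fun i => z (Sum.inr i) -
          (z (Sum.inl ()) - (m : ℂ)) / (M (Sum.inl ()) (Sum.inl ()) : ℂ) *
            (M (Sum.inl ()) (Sum.inr i) : ℂ)) τ w‖ =
      ‖S16_term (S16_schurK M) (fun i => z (Sum.inr i) -
          z (Sum.inl ()) / (M (Sum.inl ()) (Sum.inl ()) : ℂ) *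
            (M (Sum.inl ()) (Sum.inr i) : ℂ)) τ w‖ := by
  rw [S16_norm_term, S16_norm_term]
  congr 1
  funext i
  have h1 : ((z (Sum.inl ()) - (m : ℂ)) / (M (Sum.inl ()) (Sum.inl ()) : ℂ) *
      (M (Sum.inl ()) (Sum.inr i) : ℂ)) =
      (z (Sum.inl ()) - (m : ℂ)) *
        ((M (Sum.inl ()) (Sum.inr i) / M (Sum.inl ()) (Sum.inl ()) : ℝ) : ℂ) := by
    push_cast; ring
  have h2 : (z (Sum.inl ()) / (M (Sum.inl ()) (Sum.inl ()) : ℂ) *
      (M (Sum.inl ()) (Sum.inr i) : ℂ)) =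
      z (Sum.inl ()) * ((M (Sum.inl ()) (Sum.inr i) / M (Sum.inl ()) (Sum.inl ()) : ℝ) : ℂ) := by
    push_cast; ring
  rw [h1, h2]
  simp only [Complex.sub_im, Complex.mul_im, Complex.ofReal_re, Complex.ofReal_im,
    Complex.intCast_im, Complex.sub_re, Complex.intCast_re]
  ring


lemma S16_det_schur [DecidableEq ι] {K : Type*} [Field K] (M : Matrix (Unit ⊕ ι) (Unit ⊕ ι) K)
    (ha : M (Sum.inl ()) (Sum.inl ()) ≠ 0) :
    M.det = M (Sum.inl ()) (Sum.inl ()) * (S16_schurK M).det := by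
  have hA : IsUnit (M.toBlocks₁₁).det := by
    rw [Matrix.det_unique]
    exact isUnit_iff_ne_zero.2 ha
  let _ : Invertible M.toBlocks₁₁ := Matrix.invertibleOfIsUnitDet _ hA
  conv_lhs => rw [← Matrix.fromBlocks_toBlocks M]
  rw [Matrix.det_fromBlocks₁₁, Matrix.det_unique]
  congr 1
  congr 1
  ext i j
  rw [Matrix.invOf_eq_nonsing_inv, Matrix.inv_def, Matrix.adjugate_subsingleton,
    Matrix.det_unique]
  simp [S16_schurK, Matrix.mul_apply, Matrix.toBlocks₁₁, Matrix.toBlocks₁₂, Matrix.toBlocks₂₁,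
    Matrix.toBlocks₂₂, Ring.inverse_eq_inv']
  field_simp

/-! ### The induction step -/

lemma S16_dterm_E [DecidableEq ι] {M : Matrix (Unit ⊕ ι) (Unit ⊕ ι) ℝ} (hM : M.PosDef)
    (z : Unit ⊕ ι → ℂ) (τ : ℂ) (hτ0 : τ ≠ 0) (m' : ι → ℤ) (m : ℤ) :
    S16_dterm M⁻¹ z τ (S16_E ι (m', m)) =
      cexp (-π * I * (z (Sum.inl ()) - (m : ℂ)) ^ 2 / ((M (Sum.inl ()) (Sum.inl ()) : ℂ) * τ)) *
        S16_dterm (S16_schurK M)⁻¹ (fun i => z (Sum.inr i) -
          (z (Sum.inl ()) - (m : ℂ)) / (M (Sum.inl ()) (Sum.inl ()) : ℂ) *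
            (M (Sum.inl ()) (Sum.inr i) : ℂ)) τ m' := by
  have ha : 0 < M (Sum.inl ()) (Sum.inl ()) := hM.diag_pos
  have haC : (M (Sum.inl ()) (Sum.inl ()) : ℂ) ≠ 0 := by exact_mod_cast ha.ne'
  simp only [S16_dterm]
  rw [← Complex.exp_add, S16_qf_inv_E hM]
  simp only [S16_E_inl, S16_E_inr]
  have hfun : (fun i => z (Sum.inr i) - (m' i : ℂ) -
      (z (Sum.inl ()) - (m : ℂ)) / (M (Sum.inl ()) (Sum.inl ()) : ℂ) *
        (M (Sum.inl ()) (Sum.inr i) : ℂ)) =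
      (fun i => z (Sum.inr i) - (z (Sum.inl ()) - (m : ℂ)) / (M (Sum.inl ()) (Sum.inl ()) : ℂ) *
        (M (Sum.inl ()) (Sum.inr i) : ℂ) - (m' i : ℂ)) := by
    funext i; ring
  rw [hfun]
  congr 1
  field_simp
  ring

lemma S16_FE_step [DecidableEq ι] (h : S16_FE ι) : S16_FE (Unit ⊕ ι) := by
  intro M hM z τ hτ
  have ha : 0 < M (Sum.inl ()) (Sum.inl ()) := hM.diag_pos
  have haC : (M (Sum.inl ()) (Sum.inl ()) : ℂ) ≠ 0 := by exact_mod_cast ha.ne'
  have hτ0 : τ ≠ 0 := fun h => by simp [h] at hτ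
  have haτ : 0 < ((M (Sum.inl ()) (Sum.inl ()) : ℂ) * τ).im := by
    rw [Complex.im_ofReal_mul]; exact mul_pos ha hτ
  have hCs := S16_schurK_posDef hM
  -- the families
  have hS1 : Summable (fun p : (ι → ℤ) × ℤ => S16_term M z τ (S16_E ι p)) :=
    ((S16_E ι).summable_iff).2 (S16_term_summable M hM z τ hτ)
  have hD : Summable (fun p : (ι → ℤ) × ℤ => S16_dterm M⁻¹ z τ (S16_E ι p)) :=
    ((S16_E ι).summable_iff).2 (S16_dterm_summable M⁻¹ hM.inv z τ hτ)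
  set F : (ι → ℤ) → ℤ → ℂ := fun w m =>
    cexp (-π * I * (z (Sum.inl ()) - (m : ℂ)) ^ 2 / ((M (Sum.inl ()) (Sum.inl ()) : ℂ) * τ)) *
      S16_term (S16_schurK M) (fun i => z (Sum.inr i) -
        (z (Sum.inl ()) - (m : ℂ)) / (M (Sum.inl ()) (Sum.inl ()) : ℂ) *
          (M (Sum.inl ()) (Sum.inr i) : ℂ)) τ w with hFdef
  have hF : Summable (Function.uncurry F) := by
    refine Summable.of_norm ?_
    have h1 : Summable (fun w : ι → ℤ => ‖S16_term (S16_schurK M) (fun i => z (Sum.inr i) -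
        z (Sum.inl ()) / (M (Sum.inl ()) (Sum.inl ()) : ℂ) *
          (M (Sum.inl ()) (Sum.inr i) : ℂ)) τ w‖) :=
      (S16_term_summable _ hCs _ τ hτ).norm
    have h2 : Summable (fun m : ℤ => ‖cexp (-π * I * (z (Sum.inl ()) - (m : ℂ)) ^ 2 /
        ((M (Sum.inl ()) (Sum.inl ()) : ℂ) * τ))‖) :=
      (S16_summable_jacobi_dual _ _ haτ).norm
    refine (Summable.mul_of_nonneg h1 h2 (fun _ => norm_nonneg _) (fun _ => norm_nonneg _)).congr
      fun p => ?_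
    simp only [Function.uncurry, hFdef, norm_mul, S16_norm_F]
    ring
  -- Step A: sum over the first variable and apply the one-dimensional functional equation
  have stepA : ∑' u, S16_term M z τ u =
      1 / (-I * ((M (Sum.inl ()) (Sum.inl ()) : ℂ) * τ)) ^ (1 / 2 : ℂ) * ∑' w, ∑' m, F w m := by
    rw [← (S16_E ι).tsum_eq, hS1.tsum_prod, ← tsum_mul_left]
    refine tsum_congr fun w => ?_
    simp only [S16_term_E hM]
    rw [tsum_mul_left]
    have hj : ∑' s : ℤ, jacobiTheta₂_term s (z (Sum.inl ()) + τ * S16_B M w)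
        ((M (Sum.inl ()) (Sum.inl ()) : ℂ) * τ) =
        jacobiTheta₂ (z (Sum.inl ()) + τ * S16_B M w) ((M (Sum.inl ()) (Sum.inl ()) : ℂ) * τ) := rfl
    rw [hj, S16_jacobi_FE _ _ haτ, mul_left_comm, ← tsum_mul_left]
    congr 1
    refine tsum_congr fun m => ?_
    rw [S16_F_eq hM z τ hτ0 w m]
  -- Step C: apply the induction hypothesis to the inner sum
  have stepC : ∀ m : ℤ, ∑' w, F w m =
      ((Real.sqrt (S16_schurK M).det : ℝ) : ℂ)⁻¹ *
        (((-I * τ) ^ (1 / 2 : ℂ)) ^ Fintype.card ι)⁻¹ *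
        ∑' m' : ι → ℤ, S16_dterm M⁻¹ z τ (S16_E ι (m', m)) := by
    intro m
    simp only [hFdef]
    rw [tsum_mul_left, h (S16_schurK M) hCs _ τ hτ, mul_left_comm, ← tsum_mul_left]
    congr 1
    refine tsum_congr fun m' => ?_
    rw [S16_dterm_E hM z τ hτ0]
  -- Step D: reassemble
  have stepD : ∑' m : ℤ, ∑' m' : ι → ℤ, S16_dterm M⁻¹ z τ (S16_E ι (m', m)) =
      ∑' u, S16_dterm M⁻¹ z τ u := by
    rw [← (S16_E ι).tsum_eq, hD.tsum_prod]
    exact Summable.tsum_comm (f := fun (m' : ι → ℤ) (m : ℤ) => S16_dterm M⁻¹ z τ (S16_E ι (m', m)))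
      hD
  rw [stepA, ← Summable.tsum_comm hF]
  simp only [stepC]
  rw [tsum_mul_left, stepD, S16_cpow_half_mul ha τ hτ, S16_det_schur M ha.ne',
    Real.sqrt_mul ha.le, Fintype.card_sum, Fintype.card_unit]
  push_cast
  rw [pow_add, pow_one]
  have h1 : ((Real.sqrt (M (Sum.inl ()) (Sum.inl ())) : ℝ) : ℂ) ≠ 0 := by
    exact_mod_cast (Real.sqrt_pos.2 ha).ne'
  field_simp

/-! ### All ranks -/

lemma S16_FE_fin : ∀ n : ℕ, S16_FE (Fin n)
  | 0 => S16_FE_empty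
  | n + 1 => S16_FE_reindex (S16_finEquiv n) (S16_FE_step (S16_FE_fin n))

lemma S16_FE_all (ι : Type u) [Fintype ι] [DecidableEq ι] : S16_FE ι :=
  S16_FE_reindex (Fintype.equivFin ι).symm (S16_FE_fin _)


/-! ### The final statements -/

/-- **T1, summability.** -/
theorem S16_theta_summable (M : Matrix ι ι ℝ) (hM : M.PosDef) (z : ι → ℂ) (τ : ℂ)
    (hτ : 0 < τ.im) :
    Summable (fun u : ι → ℤ =>
      cexp (π * I * τ * S16_qf M (fun i => (u i : ℂ)) + 2 * π * I * ∑ i, z i * (u i : ℂ))) :=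
  S16_term_summable M hM z τ hτ

/-- **T1, summability of the dual family.** -/
theorem S16_theta_dual_summable (N : Matrix ι ι ℝ) (hN : N.PosDef) (z : ι → ℂ) (τ : ℂ)
    (hτ : 0 < τ.im) :
    Summable (fun m : ι → ℤ => cexp (-π * I * S16_qf N (fun i => z i - (m i : ℂ)) / τ)) :=
  S16_dterm_summable N hN z τ hτ

/-- **T1, the theta functional equation** in any rank. -/
theorem S16_theta_FE [DecidableEq ι] (M : Matrix ι ι ℝ) (hM : M.PosDef) (z : ι → ℂ) (τ : ℂ)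
    (hτ : 0 < τ.im) :
    ∑' u : ι → ℤ,
        cexp (π * I * τ * S16_qf M (fun i => (u i : ℂ)) + 2 * π * I * ∑ i, z i * (u i : ℂ)) =
      ((Real.sqrt M.det : ℝ) : ℂ)⁻¹ * (((-I * τ) ^ (1 / 2 : ℂ)) ^ Fintype.card ι)⁻¹ *
        ∑' m : ι → ℤ, cexp (-π * I * S16_qf M⁻¹ (fun i => z i - (m i : ℂ)) / τ) :=
  S16_FE_all ι M hM z τ hτ

lemma S16_qf_add (N : Matrix ι ι ℝ) (hN : ∀ i j, N i j = N j i) (ζ η : ι → ℂ) :
    S16_qf N (fun i => ζ i + η i) =
      S16_qf N ζ + 2 * ∑ i, (∑ j, (N i j : ℂ) * η j) * ζ i + S16_qf N η := by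
  simp only [S16_qf]
  have h1 : ∑ i, ∑ j, (N i j : ℂ) * (ζ i + η i) * (ζ j + η j) =
      ∑ i, ∑ j, (N i j : ℂ) * ζ i * ζ j + ∑ i, ∑ j, (N i j : ℂ) * η j * ζ i
        + ∑ i, ∑ j, (N i j : ℂ) * η i * ζ j + ∑ i, ∑ j, (N i j : ℂ) * η i * η j := by
    simp only [← Finset.sum_add_distrib]
    refine Finset.sum_congr rfl fun i _ => Finset.sum_congr rfl fun j _ => by ring
  have h2 : ∑ i, ∑ j, (N i j : ℂ) * η i * ζ j = ∑ i, ∑ j, (N i j : ℂ) * η j * ζ i := by
    rw [Finset.sum_comm]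
    refine Finset.sum_congr rfl fun i _ => Finset.sum_congr rfl fun j _ => by rw [hN j i]
  rw [h1, h2]
  simp only [Finset.sum_mul]
  ring

lemma S16_shift_term [DecidableEq ι] (M : Matrix ι ι ℝ) (hM : M.PosDef) (x : ι → ℝ) (τ : ℂ)
    (u : ι → ℤ) :
    cexp (π * I * τ * S16_qf M (fun i => (u i : ℂ) + (x i : ℂ))) =
      cexp (π * I * τ * S16_qf M (fun i => (x i : ℂ))) *
        S16_term M (fun i => τ * ∑ j, (M i j : ℂ) * (x j : ℂ)) τ u := by
  rw [S16_term, ← Complex.exp_add, S16_qf_add M (fun i j => S16_posDef_symm hM i j)]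
  congr 1
  have : ∑ i, (τ * ∑ j, (M i j : ℂ) * (x j : ℂ)) * (u i : ℂ) =
      τ * ∑ i, (∑ j, (M i j : ℂ) * (x j : ℂ)) * (u i : ℂ) := by
    rw [Finset.mul_sum]
    exact Finset.sum_congr rfl fun i _ => by ring
  rw [this]
  ring

/-- **T1, summability of the shifted family.** -/
theorem S16_theta_shift_summable [DecidableEq ι] (M : Matrix ι ι ℝ) (hM : M.PosDef) (x : ι → ℝ)
    (τ : ℂ) (hτ : 0 < τ.im) :
    Summable (fun u : ι → ℤ => cexp (π * I * τ * S16_qf M (fun i => (u i : ℂ) + (x i : ℂ)))) := by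
  simp only [S16_shift_term M hM]
  exact (S16_term_summable M hM _ τ hτ).mul_left _

/-- **T1, the shifted theta functional equation** (`x` real). -/
theorem S16_theta_shift_FE [DecidableEq ι] (M : Matrix ι ι ℝ) (hM : M.PosDef) (x : ι → ℝ)
    (τ : ℂ) (hτ : 0 < τ.im) :
    ∑' u : ι → ℤ, cexp (π * I * τ * S16_qf M (fun i => (u i : ℂ) + (x i : ℂ))) =
      ((Real.sqrt M.det : ℝ) : ℂ)⁻¹ * (((-I * τ) ^ (1 / 2 : ℂ)) ^ Fintype.card ι)⁻¹ *
        ∑' m : ι → ℤ, cexp (-π * I * S16_qf M⁻¹ (fun i => (m i : ℂ)) / τ +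
          2 * π * I * ∑ i, (x i : ℂ) * (m i : ℂ)) := by
  have hτ0 : τ ≠ 0 := fun h => by simp [h] at hτ
  -- the vector `τ • x` and its image under `M`
  set v : ι → ℂ := fun i => τ * (x i : ℂ) with hv
  have hzx : (fun i => τ * ∑ j, (M i j : ℂ) * (x j : ℂ)) = (M.map Complex.ofReal) *ᵥ v := by
    funext i
    simp only [Matrix.mulVec, dotProduct, Matrix.map_apply, hv, Finset.mul_sum]
    exact Finset.sum_congr rfl fun j _ => by ring
  simp only [S16_shift_term M hM]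
  rw [hzx, tsum_mul_left, S16_FE_all ι M hM _ τ hτ, mul_left_comm, ← tsum_mul_left]
  congr 1
  refine tsum_congr fun m => ?_
  rw [S16_dterm, ← Complex.exp_add]
  congr 1
  have hsymm' : ∀ i j, M⁻¹ i j = M⁻¹ j i := fun i j => S16_posDef_symm hM.inv i j
  rw [S16_qf_sub_intCast M⁻¹ hsymm', S16_qf_inv_mulVec hM]
  have h1 : ∀ i, ∑ j, ((M⁻¹ i j : ℝ) : ℂ) * ((M.map Complex.ofReal) *ᵥ v) j = v i := by
    intro i
    have := congrFun (Matrix.mulVec_mulVec v (M⁻¹.map Complex.ofReal) (M.map Complex.ofReal)) i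
    rw [S16_map_inv_mul hM, Matrix.one_mulVec] at this
    rw [← this]
    simp [Matrix.mulVec, dotProduct]
  simp only [h1]
  have h2 : S16_qf M v = τ ^ 2 * S16_qf M (fun i => (x i : ℂ)) := by
    simp only [S16_qf, hv, Finset.mul_sum]
    refine Finset.sum_congr rfl fun i _ => Finset.sum_congr rfl fun j _ => by ring
  have h3 : ∑ i, v i * (m i : ℂ) = τ * ∑ i, (x i : ℂ) * (m i : ℂ) := by
    simp only [hv, Finset.mul_sum]
    exact Finset.sum_congr rfl fun i _ => by ring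
  rw [h2, h3]
  field_simp
  ring

/-- in even rank `2k` the automorphy factor is `(-iτ)^k`. -/
lemma S16_cpow_half_pow (τ : ℂ) (k : ℕ) :
    ((-I * τ) ^ (1 / 2 : ℂ)) ^ (2 * k) = (-I * τ) ^ k := by
  rw [pow_mul]
  congr 1
  have hlog : (Complex.log (-I * τ) * (1 / 2 : ℂ)).im = (-I * τ).arg / 2 := by
    rw [show (1 / 2 : ℂ) = ((1 / 2 : ℝ) : ℂ) by push_cast; rfl, Complex.im_mul_ofReal,
      Complex.log_im]
    ring
  have h1 := Complex.neg_pi_lt_arg (-I * τ)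
  have h2 := Complex.arg_le_pi (-I * τ)
  rw [← Complex.cpow_natCast, ← Complex.cpow_mul _ (by rw [hlog]; linarith [Real.pi_pos])
    (by rw [hlog]; linarith [Real.pi_pos])]
  norm_num

end Cplx

end Fermat.Agent.S16
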