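import Mathlib
import Fermat.Agent.S16.ThetaInv
import Fermat.Agent.S16.ThetaFinal

/-!
# S16, THETA package: the unconditional end result

`S16_T1Hyp_of_posDef` discharges the hypothesis `S16_T1Hyp` (T1 in the shape used by
`ThetaBridge.lean`) from `ThetaInv.lean`; `S16_theta_exists` is `S16_theta_exists_of_T1` without
hypothesis.
-/

set_option autoImplicit false

open Complex Real UpperHalfPlane CongruenceSubgroup

namespace Fermat.Agent.S16

/-- T1 in the shape `S16_T1Hyp`, for every positive definite real matrix. -/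
theorem S16_T1Hyp_of_posDef {n : ℕ} (M : Matrix (Fin n) (Fin n) ℝ) (hM : M.PosDef) :
    S16_T1Hyp M :=
  ⟨fun z τ h => S16_theta_summable M hM z τ h, fun x τ h => S16_theta_shift_FE M hM x τ h⟩

/-- **THETA, unconditional**: for every odd prime `p` there is a modular form of weight `2` on
`Γ₀(p)` with integral `q`-expansion, constant term `1` and even higher coefficients. -/
theorem S16_theta_exists (p : ℕ) [Fact p.Prime] (hp2 : p ≠ 2) :
    ∃ Θ : ModularForm (Gamma0 p) 2, ∃ a : ℕ → ℤ,
      (∀ j, ModularFormClass.qCoeff Θ j = (a j : ℂ)) ∧ a 0 = 1 ∧ ∀ j, 1 ≤ j → Even (a j) :=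
  S16_theta_exists_of_T1 p hp2 fun M hM => S16_T1Hyp_of_posDef M hM

end Fermat.Agent.S16
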