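import Mathlib
import Fermat.Agent.S20.Div
import Fermat.Agent.S28.LevelOneQ
import Fermat.Prelude.Def_ModularForm_HeckeOperatorForms
import Fermat.Prelude.Thm_ModularFormClass_qCoeff_heckeT
import Fermat.Prelude.Thm_CongruenceSubgroup_one_mem_strictPeriods_Gamma0

/-!
# S16, package UPPER (helper20): Ramanujan's `τ` and the Hecke relation `τ(p²) = τ(p)² − p¹¹`
-/

set_option autoImplicit false

namespace Fermat.Agent.S16

open UpperHalfPlane ModularForm Matrix.SpecialLinearGroup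
open scoped MatrixGroups ModularForm Manifold
open Fermat.Agent.S20

/-- Ramanujan's `τ` as an integer sequence (`τ 0 = 0`). -/
noncomputable def S16_tau (n : ℕ) : ℤ :=
  PowerSeries.coeff n (PowerSeries.X * ModularCurve.etaProd ^ 24)

theorem S16_qCoeff_Delta (n : ℕ) :
    ModularFormClass.qCoeff (ModularForm.discriminant) n = (S16_tau n : ℂ) := by
  unfold ModularFormClass.qCoeff S16_tau
  rw [Fermat.Agent.S28.qExpansion_discriminant_eq, PowerSeries.coeff_map]
  rfl

theorem S16_tau_zero : S16_tau 0 = 0 := by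
  unfold S16_tau
  simp

theorem S16_tau_one : S16_tau 1 = 1 := by
  unfold S16_tau
  rw [show (1 : ℕ) = 0 + 1 from rfl, PowerSeries.coeff_succ_X_mul]
  simp [PowerSeries.coeff_zero_eq_constantCoeff, ModularCurve.constantCoeff_etaProd]

/-- `IsMF 1 k f` is the same as `IsMF1 k f`. -/
theorem S16_isMF1_of_isMF_one {k : ℤ} {f : ℍ → ℂ} (hf : IsMF 1 k f) : IsMF1 k f := by
  obtain ⟨h1, h2, h3⟩ := isMF_iff.mp hf
  refine isMF1_iff.mpr ⟨h1, fun γ => h2 γ ?_, ?_⟩
  · rw [CongruenceSubgroup.Gamma0_mem]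
    exact Subsingleton.elim _ _
  · simpa using h3 1

/-- `T_p Δ` as a function is a level one modular form. -/
theorem S16_isMF1_heckeT_Delta {p : ℕ} (hp : p.Prime) :
    IsMF1 12 (heckeT 12 p ModularForm.discriminant) := by
  obtain ⟨D1, hD1⟩ := (isMF1_Delta.isMF (N := 1))
  have hpN : ¬ p ∣ 1 := by
    intro h
    exact hp.one_lt.ne' (Nat.dvd_one.mp h)
  refine S16_isMF1_of_isMF_one ⟨ModularForm.heckeTLin 12 hp hpN D1, ?_⟩
  rw [ModularForm.coe_heckeTLin_apply, hD1]

theorem S16_qCoeff_heckeT_Delta {p : ℕ} (hp : p.Prime) (n : ℕ) :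
    ModularFormClass.qCoeff (heckeT 12 p ModularForm.discriminant) n =
      (S16_tau (n * p) : ℂ) + if p ∣ n then (p : ℂ) ^ (11 : ℕ) * (S16_tau (n / p) : ℂ) else 0 := by
  have h := ModularFormClass.qCoeff_heckeT (k := 12) CuspForm.discriminant
    (Γ := 𝒮ℒ) one_mem_strictPeriods_SL hp.ne_zero n
  rw [CuspForm.coe_discriminant] at h
  rw [h, coeffHeckeT_apply, S16_qCoeff_Delta, S16_qCoeff_Delta]
  norm_num

/-- **Hecke relation** for Ramanujan's `τ`. -/
theorem S16_tau_hecke {p : ℕ} (hp : p.Prime) :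
    S16_tau (p * p) = S16_tau p ^ 2 - (p : ℤ) ^ 11 := by
  obtain ⟨T1, hT1⟩ := S16_isMF1_heckeT_Delta hp
  have hq : ∀ n, (qExpansion 1 T1).coeff n =
      (S16_tau (n * p) : ℂ) + if p ∣ n then (p : ℂ) ^ (11 : ℕ) * (S16_tau (n / p) : ℂ) else 0 := by
    intro n
    have := S16_qCoeff_heckeT_Delta hp n
    rw [← hT1] at this
    exact this
  have h0 : (qExpansion 1 T1).coeff 0 = 0 := by
    rw [hq 0]
    simp [S16_tau_zero]
  obtain ⟨c, hc⟩ := CuspForm.exists_smul_discriminant_of_weight_eq_twelve (toCuspForm T1 h0)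
  have hfun : (⇑T1 : ℍ → ℂ) = c • (ModularForm.discriminant : ℍ → ℂ) := by
    funext z
    have := congrArg (fun F : CuspForm 𝒮ℒ 12 => F z) hc
    simp only [toCuspForm_apply] at this
    rw [← this]
    rfl
  have hqc : ∀ n, (qExpansion 1 T1).coeff n = c * (S16_tau n : ℂ) := by
    intro n
    have h1 : (qExpansion 1 (⇑T1 : ℍ → ℂ)).coeff n
        = (qExpansion 1 (c • (ModularForm.discriminant : ℍ → ℂ))).coeff n := by rw [hfun]
    rw [h1]
    have h2 := ModularForm.qExpansion_smul one_pos one_mem_strictPeriods_SL c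
      (CuspForm.discriminant)
    rw [CuspForm.coe_discriminant] at h2
    rw [h2, PowerSeries.coeff_smul, smul_eq_mul]
    congr 1
    exact S16_qCoeff_Delta n
  have hc1 : c = (S16_tau p : ℂ) := by
    have := hq 1
    rw [hqc 1, S16_tau_one, one_mul] at this
    have hp1 : ¬ p ∣ 1 := fun h => hp.one_lt.ne' (Nat.dvd_one.mp h)
    simpa [hp1] using this
  have hcp := hq p
  rw [hqc p, hc1, if_pos (dvd_refl p), Nat.div_self hp.pos, S16_tau_one] at hcp
  have : (S16_tau (p * p) : ℂ) = ((S16_tau p ^ 2 - (p : ℤ) ^ 11 : ℤ) : ℂ) := by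
    push_cast
    linear_combination -hcp
  exact_mod_cast this

end Fermat.Agent.S16
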