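import Mathlib

/-!
# S16, package UPPER (helper20): arithmetic core of trick 1 ("Δ-trace")

Pure arithmetic: from the coefficient identities of `p¹² X·V_pΔ = U_p((U_pX)·Δ)` at `q¹` and `q^p`
and the Hecke relation `τ(p²) = τ(p)² − p¹¹` we get `M ∣ x₀ (p+1)` whenever `M ∣ x_k` for all
`k ≥ 1` and `gcd(M,p) = 1`.
-/

set_option autoImplicit false

namespace Fermat.Agent.S16

open Finset

/-- coefficient of `q^n` in `(Σ x_i q^i) (Σ τ_j q^{p j})`. -/
def S16_convV (p : ℕ) (x t : ℕ → ℤ) (n : ℕ) : ℤ :=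
  ∑ ij ∈ antidiagonal n, x ij.1 * (if p ∣ ij.2 then t (ij.2 / p) else 0)

/-- coefficient of `q^n` in `U_p ((Σ x_{p i} q^i) (Σ τ_j q^j))`. -/
def S16_convU (p : ℕ) (x t : ℕ → ℤ) (n : ℕ) : ℤ :=
  ∑ ij ∈ antidiagonal (n * p), x (ij.1 * p) * t ij.2

theorem S16_convV_one {p : ℕ} (hp : 2 ≤ p) (x t : ℕ → ℤ) (ht0 : t 0 = 0) :
    S16_convV p x t 1 = 0 := by
  unfold S16_convV
  apply Finset.sum_eq_zero
  rintro ⟨i, j⟩ hij
  rw [HasAntidiagonal.mem_antidiagonal] at hij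
  simp only at hij ⊢
  rcases Nat.eq_zero_or_pos j with rfl | hj
  · simp [ht0]
  · have hj1 : j = 1 := by omega
    subst hj1
    have : ¬ p ∣ 1 := by
      intro h
      have := Nat.le_of_dvd one_pos h
      omega
    simp [this]

theorem S16_convV_self {p : ℕ} (hp : 2 ≤ p) (x t : ℕ → ℤ) (ht0 : t 0 = 0) (ht1 : t 1 = 1) :
    S16_convV p x t p = x 0 := by
  unfold S16_convV
  rw [Finset.sum_eq_single (0, p)]
  · simp [Nat.div_self (by omega : 0 < p), ht1]
  · rintro ⟨i, j⟩ hij hne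
    rw [HasAntidiagonal.mem_antidiagonal] at hij
    simp only at hij ⊢
    by_cases hd : p ∣ j
    · rw [if_pos hd]
      obtain ⟨c, rfl⟩ := hd
      rcases Nat.eq_zero_or_pos c with rfl | hc
      · simp [ht0]
      · have hc1 : c = 1 := by
          by_contra hc1
          have : 2 ≤ c := by omega
          nlinarith
        subst hc1
        exfalso
        apply hne
        have : i = 0 := by omega
        subst this
        simp
    · simp [hd]
  · intro h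
    exact absurd (HasAntidiagonal.mem_antidiagonal.mpr (by simp)) h

theorem S16_convU_modEq {p : ℕ} (x t : ℕ → ℤ) (M : ℤ)
    (hM : ∀ k, 1 ≤ k → M ∣ x k) (hp : 0 < p) (n : ℕ) :
    M ∣ S16_convU p x t n - x 0 * t (n * p) := by
  unfold S16_convU
  rw [← Finset.sum_erase_add _ _ (HasAntidiagonal.mem_antidiagonal.mpr (show ((0, n * p) : ℕ × ℕ).1 + ((0, n * p) : ℕ × ℕ).2 = n * p from zero_add (n * p)))]
  simp only [zero_mul, add_sub_cancel_right]
  apply Finset.dvd_sum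
  rintro ⟨i, j⟩ hij
  rw [Finset.mem_erase, HasAntidiagonal.mem_antidiagonal] at hij
  simp only at hij ⊢
  have hi : 1 ≤ i := by
    rcases Nat.eq_zero_or_pos i with rfl | hi
    · exfalso
      apply hij.1
      have : j = n * p := by omega
      subst this
      rfl
    · exact hi
  exact Dvd.dvd.mul_right (hM _ (Nat.one_le_iff_ne_zero.mpr (by positivity))) _

/-- **Arithmetic core of trick 1.** -/
theorem S16_tr1_core {p : ℕ} (hp : p.Prime) (x t : ℕ → ℤ)
    (ht0 : t 0 = 0) (ht1 : t 1 = 1)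
    (hHecke : t (p * p) = t p ^ 2 - (p : ℤ) ^ 11)
    (hid : ∀ n, (p : ℤ) ^ 12 * S16_convV p x t n = S16_convU p x t n)
    (M : ℕ) (hMp : Nat.Coprime M p) (hM : ∀ k, 1 ≤ k → (M : ℤ) ∣ x k) :
    (M : ℤ) ∣ x 0 * (p + 1) := by
  have hp2 := hp.two_le
  -- n = 1
  have h1 := hid 1
  rw [S16_convV_one hp2 x t ht0, mul_zero] at h1
  have h1' := S16_convU_modEq x t (M : ℤ) hM hp.pos 1
  rw [← h1, zero_sub, one_mul, dvd_neg] at h1'
  -- n = p
  have h2 := hid p
  rw [S16_convV_self hp2 x t ht0 ht1] at h2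
  have h2' := S16_convU_modEq x t (M : ℤ) hM hp.pos p
  rw [← h2, hHecke] at h2'
  -- M ∣ p^12 x0 - x0 (t p^2 - p^11)
  have h3 : (M : ℤ) ∣ (p : ℤ) ^ 11 * (x 0 * (p + 1)) := by
    have e : (p : ℤ) ^ 11 * (x 0 * (p + 1)) =
        ((p : ℤ) ^ 12 * x 0 - x 0 * (t p ^ 2 - (p : ℤ) ^ 11)) + (x 0 * t p) * t p := by ring
    rw [e]
    exact dvd_add h2' (Dvd.dvd.mul_right h1' _)
  have hcop : IsCoprime (M : ℤ) ((p : ℤ) ^ 11) := by
    apply IsCoprime.pow_right
    exact_mod_cast (Nat.isCoprime_iff_coprime.mpr hMp)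
  exact hcop.dvd_of_dvd_mul_left h3

end Fermat.Agent.S16
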