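import Fermat.Agent.S16.Wp
import Fermat.Prelude.Thm_UpperHalfPlane_qCoeff_heckeT
import Fermat.Agent.S16.TauHecke
import Fermat.Agent.S16.UpperCore

/-!
# S16, package UPPER (helper20): trick 1 ("Δ-trace")

`X ∈ M₂(Γ₀(p))` with integer `q`-coefficients `x_k`, `M ∣ x_k` for `k ≥ 1`, `gcd(M,p) = 1`
`⇒ M ∣ x₀ (p+1)`.
-/

set_option autoImplicit false

namespace Fermat.Agent.S16

open UpperHalfPlane ModularForm Matrix.SpecialLinearGroup CongruenceSubgroup
open scoped MatrixGroups ModularForm Manifold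
open Fermat.Agent.S20

local notation "qc" => ModularFormClass.qCoeff

/-- A level one form of weight 14 with vanishing constant term is zero. -/
theorem S16_isMF1_fourteen_eq_zero {g : ℍ → ℂ} (hg : IsMF1 14 g) (h0 : qc g 0 = 0) : g = 0 := by
  obtain ⟨G, rfl⟩ := hg
  have hG0 : (qExpansion 1 G).coeff 0 = 0 := h0
  have h2 : IsMF1 2 (⇑(CuspForm.discriminantEquiv (toCuspForm G hG0))) := by
    have : IsMF1 (14 - 12) (⇑(CuspForm.discriminantEquiv (toCuspForm G hG0))) := ⟨_, rfl⟩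
    norm_num at this
    exact this
  have h3 := h2.eq_zero_of_weight_two
  have h4 := ModularForm.discriminant_mul_discriminantEquiv (toCuspForm G hG0)
  rw [h3, mul_zero] at h4
  funext z
  have := congrFun h4 z
  simpa using this.symm

variable {p : ℕ}

/-- `q`-coefficients of a product of two forms on `Γ₀(p)`. -/
theorem S16_qCoeff_mul [NeZero p] {k l : ℤ} {f g : ℍ → ℂ} (hf : IsMF p k f) (hg : IsMF p l g)
    (n : ℕ) :
    qc (f * g) n = ∑ ij ∈ Finset.HasAntidiagonal.antidiagonal n, qc f ij.1 * qc g ij.2 := by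
  unfold ModularFormClass.qCoeff
  rw [qExpansion_mul (S16_analyticAt hf) (S16_analyticAt hg), PowerSeries.coeff_mul]

theorem S16_qCoeff_smul [NeZero p] {k : ℤ} {f : ℍ → ℂ} (hf : IsMF p k f) (c : ℂ) (n : ℕ) :
    qc (c • f) n = c * qc f n := by
  unfold ModularFormClass.qCoeff
  rw [qExpansion_smul (S16_analyticAt hf), PowerSeries.coeff_smul, smul_eq_mul]

theorem S16_qCoeff_neg [NeZero p] {k : ℤ} {f : ℍ → ℂ} (hf : IsMF p k f) (n : ℕ) :
    qc (-f) n = - qc f n := by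
  unfold ModularFormClass.qCoeff
  rw [qExpansion_neg (S16_analyticAt hf), map_neg]

/-- `q`-coefficients of `V_p F = F ∣ diag(p,1)` for `F` of level one. -/
theorem S16_qCoeff_slash_diag [Fact p.Prime] {k : ℤ} {F : ℍ → ℂ} (hF : IsMF1 k F) (n : ℕ) :
    qc (F ∣[k] heckeDiagMatrix p) n =
      if p ∣ n then (p : ℂ) ^ (k - 1) * qc F (n / p) else 0 := by
  have hp : p.Prime := Fact.out
  have : NeZero p := ⟨hp.ne_zero⟩
  have hFp : IsMF p k F := hF.isMF
  have hV : IsMF p k (F ∣[k] heckeDiagMatrix p) := S16_isMF_slash_diag hF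
  have hT := UpperHalfPlane.qCoeff_heckeT (S16_periodic hFp) hFp.mdiff (S16_bdd hFp) k hp.ne_zero n
  have hU := S16_qCoeff_heckeU hFp k hp.ne_zero n
  have hsum : qc (heckeT k p F) n = qc (heckeU k p F) n + qc (F ∣[k] heckeDiagMatrix p) n := by
    rw [heckeT_eq_heckeU_add]
    unfold ModularFormClass.qCoeff
    rw [qExpansion_add (S16_analyticAt_heckeU hFp k p) (S16_analyticAt hV), map_add]
  rw [hT, hU, coeffHeckeT_apply] at hsum
  linear_combination -hsum

/-- **Trick 1 (Δ-trace).** -/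
theorem S16_upper_tr1 (p : ℕ) [Fact p.Prime] {X : ℍ → ℂ} (hX : IsMF p 2 X) (x : ℕ → ℤ)
    (hx : ∀ k, ModularFormClass.qCoeff X k = (x k : ℂ))
    (M : ℕ) (hMp : Nat.Coprime M p) (hM : ∀ k, 1 ≤ k → (M : ℤ) ∣ x k) :
    (M : ℤ) ∣ x 0 * (p + 1) := by
  have hp : p.Prime := Fact.out
  have hp0 : p ≠ 0 := hp.ne_zero
  have hpC : (p : ℂ) ≠ 0 := by exact_mod_cast hp0
  have : NeZero p := ⟨hp0⟩
  -- the forms
  have hΔ1 : IsMF1 12 ModularForm.discriminant := isMF1_Delta
  have hΔ : IsMF p 12 ModularForm.discriminant := hΔ1.isMF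
  have hV : IsMF p 12 (ModularForm.discriminant ∣[(12 : ℤ)] heckeDiagMatrix p) :=
    S16_isMF_slash_diag hΔ1
  have hX' : IsMF p 2 (heckeU 2 p X) := S16_isMF_heckeU hX
  have hf : IsMF p 14 (X * (ModularForm.discriminant ∣[(12 : ℤ)] heckeDiagMatrix p)) :=
    hX.mul' hV (by norm_num)
  -- f ∣ W
  have hfW : (X * (ModularForm.discriminant ∣[(12 : ℤ)] heckeDiagMatrix p)) ∣[(14 : ℤ)] S16_W p
      = (-(p : ℂ) ^ (11 : ℕ)) • (heckeU 2 p X * ModularForm.discriminant) := by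
    have h1 := S16_mul_slash_W 2 12 hp0 X (ModularForm.discriminant ∣[(12 : ℤ)] heckeDiagMatrix p)
    rw [show ((2 : ℤ) + 12) = 14 by norm_num] at h1
    rw [h1, S16_slash_W_eq_neg_heckeU hX, S16_slash_diag_slash_W hp0 hΔ1]
    funext z
    simp only [Pi.smul_apply, Pi.mul_apply, Pi.neg_apply, smul_eq_mul]
    norm_num
    ring
  -- q-coefficients
  have hqX' : ∀ n, qc (heckeU 2 p X) n = (x (n * p) : ℂ) := fun n => by
    rw [S16_qCoeff_heckeU hX 2 hp0, hx]
  have hqV : ∀ n, qc (ModularForm.discriminant ∣[(12 : ℤ)] heckeDiagMatrix p) n =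
      (p : ℂ) ^ (11 : ℕ) * ((if p ∣ n then S16_tau (n / p) else 0 : ℤ) : ℂ) := by
    intro n
    rw [S16_qCoeff_slash_diag hΔ1]
    split_ifs with h
    · rw [S16_qCoeff_Delta]; norm_num
    · simp
  have hqf : ∀ n, qc (X * (ModularForm.discriminant ∣[(12 : ℤ)] heckeDiagMatrix p)) n
      = (p : ℂ) ^ (11 : ℕ) * (S16_convV p x S16_tau n : ℂ) := by
    intro n
    rw [S16_qCoeff_mul hX hV, S16_convV]
    push_cast
    rw [Finset.mul_sum]
    refine Finset.sum_congr rfl fun ij _ => ?_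
    rw [hx, hqV]
    push_cast
    ring
  have hqfW : ∀ m, qc ((X * (ModularForm.discriminant ∣[(12 : ℤ)] heckeDiagMatrix p))
      ∣[(14 : ℤ)] S16_W p) m = -(p : ℂ) ^ (11 : ℕ) *
        ∑ ij ∈ Finset.HasAntidiagonal.antidiagonal m, (x (ij.1 * p) : ℂ) * (S16_tau ij.2 : ℂ) := by
    intro m
    rw [hfW, S16_qCoeff_smul (hX'.mul' hΔ (show (14 : ℤ) = 2 + 12 by norm_num)),
      S16_qCoeff_mul hX' hΔ]
    congr 1
    refine Finset.sum_congr rfl fun ij _ => ?_
    rw [hqX', S16_qCoeff_Delta]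
  -- the trace
  have hTr := S16_isMF1_trace hf
  have hqTr : ∀ n, qc ((X * (ModularForm.discriminant ∣[(12 : ℤ)] heckeDiagMatrix p))
      + ((p : ℂ) ^ (2 - (14 : ℤ))) • heckeU 14 p
        ((X * (ModularForm.discriminant ∣[(12 : ℤ)] heckeDiagMatrix p)) ∣[(14 : ℤ)] S16_W p)) n
      = (p : ℂ) ^ (11 : ℕ) * (S16_convV p x S16_tau n : ℂ)
        - (p : ℂ)⁻¹ * (S16_convU p x S16_tau n : ℂ) := by
    intro n
    rw [S16_qCoeff_trace hf, hqf, hqfW, S16_convU]
    push_cast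
    have e : (p : ℂ) ^ (-12 : ℤ) = ((p : ℂ) ^ (12 : ℕ))⁻¹ := by
      rw [show (-12 : ℤ) = -((12 : ℕ) : ℤ) by norm_num, zpow_neg, zpow_natCast]
    rw [e]
    field_simp
    ring
  have hTr0 := S16_isMF1_fourteen_eq_zero hTr (by
    rw [hqTr 0]
    simp [S16_convV, S16_convU, S16_tau_zero])
  have hid : ∀ n, (p : ℤ) ^ 12 * S16_convV p x S16_tau n = S16_convU p x S16_tau n := by
    intro n
    have h := hqTr n
    rw [hTr0] at h
    have h0 : qc (0 : ℍ → ℂ) n = 0 := by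
      unfold ModularFormClass.qCoeff
      rw [qExpansion_zero]
      simp
    rw [h0] at h
    have h' : ((p : ℂ) ^ (12 : ℕ)) * (S16_convV p x S16_tau n : ℂ)
        = (S16_convU p x S16_tau n : ℂ) := by
      field_simp at h
      linear_combination -h
    exact_mod_cast h'
  exact S16_tr1_core hp x S16_tau S16_tau_zero S16_tau_one (S16_tau_hecke hp) hid M hMp hM

end Fermat.Agent.S16
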