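import Fermat.Agent.S16.UpperGlue
import Fermat.Agent.S16.Small
import Fermat.Agent.S16.Eis
import Fermat.Agent.S16.Duality
import Fermat.Agent.S16.ThetaExists
import Fermat.Agent.S16.LowerTheta
import Fermat.Agent.S16.Upper1
import Fermat.Prelude.Def_CuspForm_HeckeLocal
import Fermat.Prelude.Def_CuspForm_HeckeEvalForms
import Fermat.Prelude.Def_HeckeGalois_EichlerShimura

/-!
# S16: assembly against the remaining inputs as hypotheses (helper14)

`S16_main_of`: the statement of S16 from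
* `hdual`  (DUAL, helper1: `S16_card_eq_of`),
* `hlower` (LOWER for `p ≥ 11`, `p ≠ 13`),
* `htr1`, `htr2` (helper20) and `hcase7` (helper25).
-/

set_option autoImplicit false

open ModularCurve CuspForm

namespace Fermat.Agent.S16

open UpperHalfPlane
open Fermat.Agent.S20

theorem S16_eisensteinNumerator_pos {p : ℕ} (hp : 2 ≤ p) : 0 < eisensteinNumerator p := by
  unfold eisensteinNumerator
  have hg : Nat.gcd (p - 1) 12 ∣ p - 1 := Nat.gcd_dvd_left _ _
  have hgpos : 0 < Nat.gcd (p - 1) 12 := Nat.gcd_pos_of_pos_right _ (by norm_num)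
  exact Nat.div_pos (Nat.le_of_dvd (by omega) hg) hgpos

theorem S16_five_le_of_not_small {p : ℕ} (hp : p.Prime) (hs : ¬ S16_IsSmall p) : 5 ≤ p := by
  unfold S16_IsSmall at hs
  push_neg at hs
  have h2 := hp.two_le
  by_contra h
  have h4 : p = 4 := by omega
  subst h4
  exact absurd hp (by norm_num)

theorem S16_main_of (p : ℕ) [Fact p.Prime]
    (hdual : ∀ n : ℕ, 0 < n → S16_HasCong p n →
      (∀ M : ℕ, 0 < M → S16_HasCong p M → M ∣ n) →
      Nat.card (↥(heckeLatticeAlgebra p ∅) ⧸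
        Ideal.map ((latticeRestrictHom p ∅).toRingHom.comp (heckeEvalForms p 2))
          (eisensteinIdeal p)) = n)
    (hlower : ¬ S16_IsSmall p → S16_HasCong p (eisensteinNumerator p))
    (htr1 : ¬ S16_IsSmall p → ∀ {X : ℍ → ℂ}, IsMF p 2 X → ∀ x : ℕ → ℤ,
      (∀ k, ModularFormClass.qCoeff X k = (x k : ℂ)) → ∀ M : ℕ, Nat.Coprime M p →
      (∀ k, 1 ≤ k → (M : ℤ) ∣ x k) → (M : ℤ) ∣ x 0 * (p + 1))
    (htr2 : ¬ S16_IsSmall p → ∀ {X : ℍ → ℂ}, IsMF p 2 X → ∀ x : ℕ → ℤ,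
      (∀ k, ModularFormClass.qCoeff X k = (x k : ℂ)) → ∀ ℓ s : ℕ, ℓ.Prime →
      (∀ k, 1 ≤ k → ((ℓ ^ s : ℕ) : ℤ) ∣ x k) → ((ℓ ^ s : ℕ) : ℤ) ∣ x 0 * 24)
    (hcase7 : p % 8 = 7 → ¬ S16_HasCong p 2) :
    Nat.card (↥(heckeLatticeAlgebra p ∅) ⧸
        Ideal.map ((latticeRestrictHom p ∅).toRingHom.comp (heckeEvalForms p 2))
          (eisensteinIdeal p)) =
      eisensteinNumerator p := by
  have hp : p.Prime := Fact.out
  apply hdual _ (S16_eisensteinNumerator_pos hp.two_le)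
  · by_cases hs : S16_IsSmall p
    · exact S16_lower_small hs
    · exact hlower hs
  · by_cases hs : S16_IsSmall p
    · intro M _ hM
      exact S16_upper_small hs M hM
    · haveI : NeZero p := ⟨hp.ne_zero⟩
      obtain ⟨E, hE0, hEk⟩ := S16_eis p hp
      exact S16_upper_glue p (S16_five_le_of_not_small hp hs)
        (fun M hM => S16_red E hE0 hEk hM) (htr1 hs) (htr2 hs) hcase7

/-- LOWER (route B, theta): for odd `p`. -/
theorem S16_lowerB (p : ℕ) [Fact p.Prime] (hp2 : p ≠ 2) :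
    S16_HasCong p (eisensteinNumerator p) := by
  obtain ⟨Θ, t, ht, h0, heven⟩ := S16_theta_exists p hp2
  exact S16_lower_of_theta p Θ t ht h0 heven

/-- S16 from TR2 and CASE7 only (DUAL, LOWER, EIS, SMALL, TR1 consumed). -/
theorem S16_main_of2 (p : ℕ) [Fact p.Prime]
    (htr2 : ¬ S16_IsSmall p → ∀ {X : ℍ → ℂ}, IsMF p 2 X → ∀ x : ℕ → ℤ,
      (∀ k, ModularFormClass.qCoeff X k = (x k : ℂ)) → ∀ ℓ s : ℕ, ℓ.Prime →
      (∀ k, 1 ≤ k → ((ℓ ^ s : ℕ) : ℤ) ∣ x k) → ((ℓ ^ s : ℕ) : ℤ) ∣ x 0 * 24)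
    (hcase7 : p % 8 = 7 → ¬ S16_HasCong p 2) :
    Nat.card (↥(heckeLatticeAlgebra p ∅) ⧸
        Ideal.map ((latticeRestrictHom p ∅).toRingHom.comp (heckeEvalForms p 2))
          (eisensteinIdeal p)) =
      eisensteinNumerator p := by
  refine S16_main_of p (fun n hn hlow hup => S16_card_eq_of p n hn hlow hup) ?_ ?_ htr2 hcase7
  · intro hs
    refine S16_lowerB p ?_
    rintro rfl
    exact hs (Or.inl rfl)
  · intro _ X hX x hx M hMp hM
    exact S16_upper_tr1 p hX x hx M hMp hM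

end Fermat.Agent.S16
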