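import Fermat.Agent.S16.TwoCuspExp
import Fermat.Agent.S16.Norm
import Fermat.Agent.S16.NormSturm
import Fermat.Agent.S16.NormExists

/-!
# S16, two-cusp Sturm bound (helper20): wiring of NORM (N1, core, N4, N5) with the expansions at
the two cusps of `Γ₀(p)`.

`S16_tc_sturm`: `f, g ∈ M_k(Γ₀(p))` with `f ∣ W = c • g`, integer `q`-coefficients `a`, `b`,
first `ℓ`-unit coefficients at `A`, `B`  ⇒  `12 (A + B) ≤ k (p + 1)`.
-/

set_option autoImplicit false

namespace Fermat.Agent.S16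

open UpperHalfPlane ModularForm Matrix.SpecialLinearGroup CongruenceSubgroup
open scoped MatrixGroups ModularForm Manifold
open Fermat.Agent.S20

local notation "qc" => ModularFormClass.qCoeff
local notation "𝕢" => Function.Periodic.qParam

/-- (N2) NORM + STURM, leading coefficient form. -/
theorem S16_tc_norm_sturm_lead {ι : Type*} [Fintype ι] (f : ι → ℍ → ℂ) (M : ℕ) (hM : 0 < M)
    (R : Subring ℂ) (J : Ideal R) (a : ι → PowerSeries R) (r : ι → ℕ) (hhol : ∀ i, MDiff (f i))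
    (hexp : ∀ i (τ : ℍ),
      HasSum (fun n ↦ ((PowerSeries.coeff n (a i) : R) : ℂ) • 𝕢 (M : ℝ) τ ^ n) (f i τ))
    (hJ : ∀ i n, n < r i → PowerSeries.coeff n (a i) ∈ J)
    {K : ℤ} (𝒩 : ModularForm 𝒮ℒ K) (h𝒩 : ∀ τ, 𝒩 τ = ∏ i, f i τ)
    (hbig : K.toNat / 12 * M < ∑ i, r i) : ∏ i, PowerSeries.coeff (r i) (a i) ∈ J := by
  have h1 := S16_norm_qExpansion f M hM (fun i => (a i).map R.subtype) hhol
    (fun i τ => by simpa using hexp i τ) 𝒩 h𝒩
  have hmap : ∏ i, (a i).map R.subtype = (∏ i, a i).map R.subtype := (map_prod _ _ _).symm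
  refine S16_norm_sturm_core M R J a r hJ 𝒩 ?_ ?_ hbig
  · intro m
    rw [h1.1 m, hmap, PowerSeries.coeff_map]
    rfl
  · intro n hn
    have := h1.2 n hn
    rw [hmap, PowerSeries.coeff_map] at this
    exact Subtype.ext (by simpa using this)

/-- the ring of algebraic integers in `ℂ` -/
def S16_tcR : Subring ℂ := (integralClosure ℤ ℂ).toSubring

theorem S16_mem_tcR {x : ℂ} : x ∈ S16_tcR ↔ IsIntegral ℤ x := Iff.rfl

/-- **Two-cusp Sturm bound** on `Γ₀(p)`. -/
theorem S16_tc_sturm (p : ℕ) [Fact p.Prime] {k : ℕ} {f g : ℍ → ℂ}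
    (hf : IsMF p k f) (hg : IsMF p k g) {c : ℂ} (hc : c ≠ 0)
    (hW : f ∣[(k : ℤ)] S16_W p = c • g)
    (a b : ℕ → ℤ) (ha : ∀ n, qc f n = (a n : ℂ)) (hb : ∀ n, qc g n = (b n : ℂ))
    (ℓ : ℕ) (hℓ : ℓ.Prime) (A B : ℕ)
    (hA : ∀ n, n < A → (ℓ : ℤ) ∣ a n) (hA' : ¬ (ℓ : ℤ) ∣ a A)
    (hB : ∀ n, n < B → (ℓ : ℤ) ∣ b n) (hB' : ¬ (ℓ : ℤ) ∣ b B) :
    12 * (A + B) ≤ k * (p + 1) := by
  classical
  by_contra hlt
  push Not at hlt
  have hp : p.Prime := Fact.out
  have hp0 : p ≠ 0 := hp.ne_zero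
  have hpC : (p : ℂ) ≠ 0 := by exact_mod_cast hp0
  have : NeZero p := ⟨hp0⟩
  have hfM : IsMF p k f := hf
  obtain ⟨F, hFf⟩ := hf
  obtain ⟨𝒩, h𝒩⟩ := S16_norm_exists (Gamma0 p) F (S16_normRep p) (S16_normRep_unique p)
  set d : ℂ := (p : ℂ) ^ (1 - (k : ℤ)) * c with hd
  have hd0 : d ≠ 0 := mul_ne_zero (zpow_ne_zero _ hpC) hc
  -- the roots of unity in `R`
  let ζ : ℕ → S16_tcR := fun j => ⟨S16_tcζ p j, S16_tcζ_isIntegral p hp0 j⟩
  -- the functions
  let fi : Option (Fin p) → ℍ → ℂ := fun i =>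
    Option.elim i f (fun j => d⁻¹ • (f ∣[(k : ℤ)] S16_ST (j : ℕ)))
  let ai : Option (Fin p) → PowerSeries S16_tcR := fun i =>
    Option.elim i (PowerSeries.mk fun n => if p ∣ n then ((a (n / p) : ℤ) : S16_tcR) else 0)
      (fun j => PowerSeries.mk fun n => ζ j ^ n * ((b n : ℤ) : S16_tcR))
  let r : Option (Fin p) → ℕ := fun i => Option.elim i (p * A) (fun _ => B)
  let J : Ideal S16_tcR := Ideal.span {((ℓ : ℤ) : S16_tcR)}
  have hJmem : ∀ z : ℤ, (ℓ : ℤ) ∣ z → ∀ u : S16_tcR, u * ((z : ℤ) : S16_tcR) ∈ J := by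
    rintro z ⟨m, rfl⟩ u
    refine Ideal.mem_span_singleton'.mpr ⟨u * (m : S16_tcR), ?_⟩
    push_cast
    ring
  have hhol : ∀ i, MDiff (fi i) := by
    intro i
    cases i with
    | none => exact hfM.mdiff
    | some j =>
      show MDiff (d⁻¹ • (f ∣[(k : ℤ)] S16_ST (j : ℕ)))
      exact (hfM.mdiff.slash (k : ℤ) _).const_smul _
  have hexp : ∀ i (τ : ℍ),
      HasSum (fun n ↦ ((PowerSeries.coeff n (ai i) : S16_tcR) : ℂ) • 𝕢 (p : ℝ) τ ^ n)
        (fi i τ) := by
    intro i τ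
    cases i with
    | none =>
      show HasSum _ (f τ)
      convert S16_tc_hasSum_self hfM τ using 2 with n
      simp only [ai, Option.elim, PowerSeries.coeff_mk]
      split_ifs with h
      · rw [ha]; simp
      · simp
    | some j =>
      show HasSum _ ((d⁻¹ • (f ∣[(k : ℤ)] S16_ST (j : ℕ))) τ)
      have h1 := (S16_tc_hasSum_slash_ST p hg c hW (j : ℕ) τ).mul_left d⁻¹
      rw [Pi.smul_apply, smul_eq_mul]
      have hfun : (fun n ↦ ((PowerSeries.coeff n (ai (some j)) : S16_tcR) : ℂ) • 𝕢 (p : ℝ) τ ^ n)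
          = fun i => d⁻¹ * (((p : ℂ) ^ (1 - (k : ℤ)) * c * (S16_tcζ p (j : ℕ) ^ i * qc g i)) •
            𝕢 (p : ℝ) τ ^ i) := by
        funext n
        simp only [ai, Option.elim, PowerSeries.coeff_mk, ζ, smul_eq_mul]
        rw [hb]
        push_cast
        rw [← hd]
        field_simp
      rw [hfun]
      exact h1
  have hJ : ∀ i n, n < r i → PowerSeries.coeff n (ai i) ∈ J := by
    intro i n hn
    cases i with
    | none =>
      simp only [ai, Option.elim, PowerSeries.coeff_mk]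
      split_ifs with h
      · obtain ⟨m, rfl⟩ := h
        have hm : m < A := by
          have : p * m < p * A := hn
          exact lt_of_mul_lt_mul_left this (Nat.zero_le _)
        rw [Nat.mul_div_cancel_left m hp.pos]
        simpa using hJmem _ (hA m hm) 1
      · exact J.zero_mem
    | some j =>
      simp only [ai, Option.elim, PowerSeries.coeff_mk]
      exact hJmem _ (hB n hn) _
  -- the rescaled norm
  have h𝒩' : ∀ τ, ((d⁻¹ ^ p) • 𝒩) τ = ∏ i, fi i τ := by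
    intro τ
    rw [smul_apply, h𝒩 τ, Fintype.prod_option, Fintype.prod_option]
    simp only [fi, Option.elim, S16_normRep_none, S16_normRep_some, Pi.smul_apply, smul_eq_mul]
    rw [Finset.prod_mul_distrib, Finset.prod_const, Finset.card_univ, Fintype.card_fin]
    have h1 : (⇑F ∣[(k : ℤ)] (1 : SL(2, ℤ))) = f := by rw [SlashAction.slash_one, hFf]
    rw [h1]
    have h2 : ∀ j : Fin p, (⇑F ∣[(k : ℤ)] (ModularGroup.S * ModularGroup.T ^ (j : ℕ))) τ
        = (f ∣[(k : ℤ)] S16_ST (j : ℕ)) τ := fun j => by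
      rw [hFf, S16_ST_eq_nat]
    rw [Finset.prod_congr rfl fun j _ => h2 j]
    ring
  have hbig : ((k : ℤ) * (Fintype.card (Option (Fin p)) : ℤ)).toNat / 12 * p < ∑ i, r i := by
    rw [Fintype.sum_option]
    simp only [r, Option.elim, Finset.sum_const, Finset.card_univ, Fintype.card_fin,
      Fintype.card_option, smul_eq_mul]
    have e : ((k : ℤ) * ((p + 1 : ℕ) : ℤ)).toNat = k * (p + 1) := by
      rw [← Nat.cast_mul, Int.toNat_natCast]
    rw [e]
    have h1 : k * (p + 1) / 12 < A + B := by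
      rw [Nat.div_lt_iff_lt_mul (by norm_num)]
      omega
    calc k * (p + 1) / 12 * p < (A + B) * p := Nat.mul_lt_mul_of_pos_right h1 hp.pos
      _ = p * A + p * B := by ring
  have key := S16_tc_norm_sturm_lead fi p hp.pos S16_tcR J ai r hhol hexp hJ ((d⁻¹ ^ p) • 𝒩)
    h𝒩' hbig
  rw [Fintype.prod_option] at key
  simp only [ai, r, Option.elim, PowerSeries.coeff_mk, dvd_mul_right, if_true,
    Nat.mul_div_cancel_left A hp.pos] at key
  obtain ⟨y, hy⟩ := Ideal.mem_span_singleton'.mp key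
  -- descent
  have hy' : ((a A * b B ^ p : ℤ) : ℂ) * (∏ j : Fin p, S16_tcζ p (j : ℕ) ^ B) = (ℓ : ℂ) * (y : ℂ) := by
    have := congrArg (Subring.subtype S16_tcR) hy
    simp only [map_mul, map_prod, map_pow, Subring.subtype_apply, ζ, map_intCast] at this
    rw [Finset.prod_mul_distrib, Finset.prod_const, Finset.card_univ, Fintype.card_fin] at this
    push_cast
    push_cast at this
    linear_combination -this
  have hu0 : (∏ j : Fin p, S16_tcζ p (j : ℕ) ^ B) ≠ 0 :=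
    Finset.prod_ne_zero_iff.mpr fun j _ => pow_ne_zero _ (Complex.exp_ne_zero _)
  have hu : IsIntegral ℤ (∏ j : Fin p, S16_tcζ p (j : ℕ) ^ B)⁻¹ := by
    rw [← Finset.prod_inv_distrib]
    refine IsIntegral.prod _ fun j _ => ?_
    rw [← inv_pow]
    exact (S16_tcζ_inv_isIntegral p hp0 _).pow _
  have hdvd := S16_tc_descent hℓ.ne_zero (a A * b B ^ p) _ (y : ℂ) hu0 hu y.2 hy'
  have hℓ' : Prime (ℓ : ℤ) := Nat.prime_iff_prime_int.mp hℓ
  rcases hℓ'.dvd_or_dvd hdvd with h | h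
  · exact hA' h
  · exact hB' (hℓ'.dvd_of_dvd_pow h)

end Fermat.Agent.S16
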