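import Mathlib
import Fermat.Agent.S16.Sturm
import Fermat.Agent.S20.Basic
import Fermat.Prelude.Def_FLTPrelim_Modularity

/-!
# S16, package UPPER, trick 2 (TR2), piece A: the level one inputs

* `S16_e4c`, `S16_e6c`: the integer `q`-coefficients of `E₄`, `E₆` (`S16_qCoeff_E4`, `S16_qCoeff_E6`),
  with their values at `0, 1, 2`;
* `S16_c46 n = 10 σ₃(n) + 21 σ₅(n)`: `E₄ - E₆ = 24 Σ c_n qⁿ` (`S16_e4c_sub_e6c`),
  `c₁ = 31`, `c₂ = 783`, so for every prime `ℓ` one of `c₁, c₂` is prime to `ℓ` (`S16_c46_unit`).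
-/

set_option autoImplicit false

open UpperHalfPlane ModularForm EisensteinSeries
open scoped MatrixGroups
open Fermat.Agent.S20

namespace Fermat.Agent.S16

/-- integer `q`-coefficients of `E₄` -/
def S16_e4c (n : ℕ) : ℤ := if n = 0 then 1 else 240 * ∑ d ∈ n.divisors, (d : ℤ) ^ 3

/-- integer `q`-coefficients of `E₆` -/
def S16_e6c (n : ℕ) : ℤ := if n = 0 then 1 else -504 * ∑ d ∈ n.divisors, (d : ℤ) ^ 5

/-- `c_n = 10 σ₃(n) + 21 σ₅(n)` for `n ≥ 1`, `c₀ = 0`. -/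
def S16_c46 (n : ℕ) : ℤ :=
  if n = 0 then 0 else 10 * ∑ d ∈ n.divisors, (d : ℤ) ^ 3 + 21 * ∑ d ∈ n.divisors, (d : ℤ) ^ 5

theorem S16_isMF1_E4 : IsMF1 4 (⇑E₄) := ⟨E₄, rfl⟩

theorem S16_isMF1_E6 : IsMF1 6 (⇑E₆) := ⟨E₆, rfl⟩

theorem S16_qCoeff_E4 (n : ℕ) : ModularFormClass.qCoeff (⇑E₄) n = (S16_e4c n : ℂ) := by
  unfold ModularFormClass.qCoeff
  rw [Fermat.Agent.S28.qExpansion_E4_eq]
  simp only [PowerSeries.coeff_map, ModularCurve.eisenstein4, PowerSeries.coeff_mk, S16_e4c]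
  rfl

theorem S16_qCoeff_E6 (n : ℕ) : ModularFormClass.qCoeff (⇑E₆) n = (S16_e6c n : ℂ) := by
  unfold ModularFormClass.qCoeff
  rw [S16_qExpansion_E6_eq]
  simp only [PowerSeries.coeff_map, S16_e6, PowerSeries.coeff_mk, S16_e6c]
  rfl

theorem S16_divisors_two : (2 : ℕ).divisors = {1, 2} := by decide

theorem S16_e4c_zero : S16_e4c 0 = 1 := by simp [S16_e4c]

theorem S16_e4c_one : S16_e4c 1 = 240 := by simp [S16_e4c]

theorem S16_e4c_two : S16_e4c 2 = 2160 := by simp [S16_e4c, S16_divisors_two]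

theorem S16_e6c_zero : S16_e6c 0 = 1 := by simp [S16_e6c]

theorem S16_e6c_one : S16_e6c 1 = -504 := by simp [S16_e6c]

theorem S16_e6c_two : S16_e6c 2 = -16632 := by simp [S16_e6c, S16_divisors_two]

theorem S16_c46_zero : S16_c46 0 = 0 := by simp [S16_c46]

theorem S16_c46_one : S16_c46 1 = 31 := by simp [S16_c46]

theorem S16_c46_two : S16_c46 2 = 783 := by simp [S16_c46, S16_divisors_two]

/-- `E₄ - E₆ = 24 Σ c_n qⁿ`. -/
theorem S16_e4c_sub_e6c (n : ℕ) : S16_e4c n - S16_e6c n = 24 * S16_c46 n := by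
  unfold S16_e4c S16_e6c S16_c46
  by_cases hn : n = 0
  · simp [hn]
  · simp only [hn, if_false]
    ring

/-- for every prime `ℓ`, one of `c₁ = 31`, `c₂ = 783` is prime to `ℓ`. -/
theorem S16_c46_unit {ℓ : ℕ} (hℓ : ℓ.Prime) :
    ¬ ((ℓ : ℤ) ∣ S16_c46 1) ∨ ¬ ((ℓ : ℤ) ∣ S16_c46 2) := by
  rw [S16_c46_one, S16_c46_two]
  by_contra h
  rw [not_or, not_not, not_not] at h
  obtain ⟨h1, h2⟩ := h
  have h1' : ℓ ∣ 31 := by exact_mod_cast h1
  have h2' : ℓ ∣ 783 := by exact_mod_cast h2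
  have h31 : Nat.Prime 31 := by norm_num
  have hℓ31 : ℓ = 31 := (Nat.prime_dvd_prime_iff_eq hℓ h31).1 h1'
  subst hℓ31
  omega

end Fermat.Agent.S16
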