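import Mathlib
import Fermat.Agent.S16.UpperE46
import Fermat.Agent.S16.Upper1

/-!
# S16, package UPPER, trick 2 (TR2), piece B: the weight 6 form and its `W`-conjugate

For `X ∈ M₂(Γ₀(p))` with integer `q`-coefficients `x`:
`F = p · X · E₄ + x₀ · E₆ ∈ M₆(Γ₀(p))` has `q`-coefficients `S16_tr2a p x`, and
`G = p⁻⁵ · F ∣ W = -(U_p X) · V_p E₄ + x₀ · V_p E₆` has `q`-coefficients `S16_tr2b p x`.
-/

set_option autoImplicit false

namespace Fermat.Agent.S16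

open UpperHalfPlane ModularForm Matrix.SpecialLinearGroup CongruenceSubgroup EisensteinSeries
open scoped MatrixGroups ModularForm Manifold
open Fermat.Agent.S20

/-- coefficients of `F = p·X·E₄ + x₀·E₆` at `∞` -/
def S16_tr2a (p : ℕ) (x : ℕ → ℤ) (n : ℕ) : ℤ :=
  p * (∑ ij ∈ Finset.HasAntidiagonal.antidiagonal n, x ij.1 * S16_e4c ij.2) + x 0 * S16_e6c n

/-- coefficients of `G = p⁻⁵ · F∣W = -(U_p X)·V_p E₄ + x₀·V_p E₆` at `∞` -/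
def S16_tr2b (p : ℕ) (x : ℕ → ℤ) (n : ℕ) : ℤ :=
  -(∑ ij ∈ Finset.HasAntidiagonal.antidiagonal n,
      x (ij.1 * p) * (if p ∣ ij.2 then S16_e4c (ij.2 / p) else 0))
    + x 0 * (if p ∣ n then S16_e6c (n / p) else 0)

theorem S16_qCoeff_add' {p : ℕ} [NeZero p] {k l : ℤ} {f g : ℍ → ℂ} (hf : IsMF p k f)
    (hg : IsMF p l g) (n : ℕ) :
    ModularFormClass.qCoeff (f + g) n =
      ModularFormClass.qCoeff f n + ModularFormClass.qCoeff g n := by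
  unfold ModularFormClass.qCoeff
  rw [qExpansion_add (S16_analyticAt hf) (S16_analyticAt hg), map_add]

theorem S16_tr2_forms (p : ℕ) [Fact p.Prime] {X : ℍ → ℂ} (hX : IsMF p 2 X) (x : ℕ → ℤ)
    (hx : ∀ k, ModularFormClass.qCoeff X k = (x k : ℂ)) :
    ∃ F G : ℍ → ℂ, IsMF p 6 F ∧ IsMF p 6 G ∧
      F ∣[(6 : ℤ)] S16_W p = ((p : ℂ) ^ 5) • G ∧
      (∀ n, ModularFormClass.qCoeff F n = (S16_tr2a p x n : ℂ)) ∧
      (∀ n, ModularFormClass.qCoeff G n = (S16_tr2b p x n : ℂ)) := by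
  have hp : p.Prime := Fact.out
  have hp0 : p ≠ 0 := hp.ne_zero
  have hpC : (p : ℂ) ≠ 0 := by exact_mod_cast hp0
  have : NeZero p := ⟨hp0⟩
  -- the forms
  have hE4 : IsMF p 4 (⇑E₄) := S16_isMF1_E4.isMF
  have hE6 : IsMF p 6 (⇑E₆) := S16_isMF1_E6.isMF
  have hV4 : IsMF p 4 ((⇑E₄) ∣[(4 : ℤ)] heckeDiagMatrix p) := S16_isMF_slash_diag S16_isMF1_E4
  have hV6 : IsMF p 6 ((⇑E₆) ∣[(6 : ℤ)] heckeDiagMatrix p) := S16_isMF_slash_diag S16_isMF1_E6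
  have hX' : IsMF p 2 (heckeU 2 p X) := S16_isMF_heckeU hX
  have hXE : IsMF p 6 (X * ⇑E₄) := hX.mul' hE4 (by norm_num)
  have hUV : IsMF p 6 (heckeU 2 p X * ((⇑E₄) ∣[(4 : ℤ)] heckeDiagMatrix p)) :=
    hX'.mul' hV4 (by norm_num)
  set F : ℍ → ℂ := (p : ℂ) • (X * ⇑E₄) + (x 0 : ℂ) • (⇑E₆) with hFdef
  set G : ℍ → ℂ := (-(((p : ℂ) ^ 3)⁻¹)) • (heckeU 2 p X * ((⇑E₄) ∣[(4 : ℤ)] heckeDiagMatrix p)) +
    ((x 0 : ℂ) * ((p : ℂ) ^ 5)⁻¹) • ((⇑E₆) ∣[(6 : ℤ)] heckeDiagMatrix p) with hGdef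
  have hF : IsMF p 6 F := (hXE.smul _).add (hE6.smul _)
  have hG : IsMF p 6 G := (hUV.smul _).add (hV6.smul _)
  refine ⟨F, G, hF, hG, ?_, ?_, ?_⟩
  · -- F ∣ W = p^5 • G
    have hXW : X ∣[(2 : ℤ)] S16_W p = - heckeU 2 p X := S16_slash_W_eq_neg_heckeU hX
    have h4 : (⇑E₄) ∣[(4 : ℤ)] heckeDiagMatrix p = (⇑E₄) ∣[(4 : ℤ)] S16_W p :=
      (S16_slash_W_of_isMF1 p S16_isMF1_E4).symm
    have h6 : (⇑E₆) ∣[(6 : ℤ)] heckeDiagMatrix p = (⇑E₆) ∣[(6 : ℤ)] S16_W p :=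
      (S16_slash_W_of_isMF1 p S16_isMF1_E6).symm
    have hU : heckeU 2 p X = - (X ∣[(2 : ℤ)] S16_W p) := by rw [hXW, neg_neg]
    funext τ
    rw [hGdef, hU, h4, h6, hFdef]
    simp only [Pi.smul_apply, Pi.add_apply, Pi.mul_apply, Pi.neg_apply, smul_eq_mul,
      S16_slash_W_apply _ hp0]
    have hτ : (τ : ℂ) ≠ 0 := ne_zero τ
    have hpτ : (p : ℂ) * τ ≠ 0 := mul_ne_zero hpC hτ
    have e2 : ((p : ℂ) * τ) ^ (-(2 : ℤ)) = (((p : ℂ) * τ) ^ 2)⁻¹ := by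
      rw [zpow_neg]; norm_cast
    have e4 : ((p : ℂ) * τ) ^ (-(4 : ℤ)) = (((p : ℂ) * τ) ^ 4)⁻¹ := by
      rw [zpow_neg]; norm_cast
    have e6 : ((p : ℂ) * τ) ^ (-(6 : ℤ)) = (((p : ℂ) * τ) ^ 6)⁻¹ := by
      rw [zpow_neg]; norm_cast
    have f1 : (p : ℂ) ^ ((2 : ℤ) - 1) = p := by norm_num
    have f3 : (p : ℂ) ^ ((4 : ℤ) - 1) = (p : ℂ) ^ 3 := by
      rw [show ((4 : ℤ) - 1) = ((3 : ℕ) : ℤ) by norm_num, zpow_natCast]
    have f5 : (p : ℂ) ^ ((6 : ℤ) - 1) = (p : ℂ) ^ 5 := by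
      rw [show ((6 : ℤ) - 1) = ((5 : ℕ) : ℤ) by norm_num, zpow_natCast]
    rw [e2, e4, e6, f1, f3, f5]
    field_simp
  · -- coefficients of F
    intro n
    rw [hFdef, S16_qCoeff_add' (hXE.smul _) (hE6.smul _), S16_qCoeff_smul hXE,
      S16_qCoeff_smul hE6, S16_qCoeff_mul hX hE4, S16_qCoeff_E6, S16_tr2a]
    push_cast
    congr 2
    refine Finset.sum_congr rfl fun ij _ => ?_
    rw [hx, S16_qCoeff_E4]
  · -- coefficients of G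
    intro n
    have hqX' : ∀ m, ModularFormClass.qCoeff (heckeU 2 p X) m = (x (m * p) : ℂ) := fun m => by
      rw [S16_qCoeff_heckeU hX 2 hp0, hx]
    have hq4 : ∀ m, ModularFormClass.qCoeff ((⇑E₄) ∣[(4 : ℤ)] heckeDiagMatrix p) m =
        (p : ℂ) ^ 3 * ((if p ∣ m then S16_e4c (m / p) else 0 : ℤ) : ℂ) := by
      intro m
      rw [S16_qCoeff_slash_diag S16_isMF1_E4]
      split_ifs with h
      · rw [S16_qCoeff_E4]
        rw [show ((4 : ℤ) - 1) = ((3 : ℕ) : ℤ) by norm_num, zpow_natCast]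
      · simp
    have hq6 : ∀ m, ModularFormClass.qCoeff ((⇑E₆) ∣[(6 : ℤ)] heckeDiagMatrix p) m =
        (p : ℂ) ^ 5 * ((if p ∣ m then S16_e6c (m / p) else 0 : ℤ) : ℂ) := by
      intro m
      rw [S16_qCoeff_slash_diag S16_isMF1_E6]
      split_ifs with h
      · rw [S16_qCoeff_E6]
        rw [show ((6 : ℤ) - 1) = ((5 : ℕ) : ℤ) by norm_num, zpow_natCast]
      · simp
    rw [hGdef, S16_qCoeff_add' (hUV.smul _) (hV6.smul _), S16_qCoeff_smul hUV,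
      S16_qCoeff_smul hV6, S16_qCoeff_mul hX' hV4, hq6, S16_tr2b]
    have hp3 : (p : ℂ) ^ 3 ≠ 0 := pow_ne_zero _ hpC
    have hp5 : (p : ℂ) ^ 5 ≠ 0 := pow_ne_zero _ hpC
    have hsum : ∑ ij ∈ Finset.HasAntidiagonal.antidiagonal n,
        ModularFormClass.qCoeff (heckeU 2 p X) ij.1 *
          ModularFormClass.qCoeff ((⇑E₄) ∣[(4 : ℤ)] heckeDiagMatrix p) ij.2 =
        (p : ℂ) ^ 3 * ∑ ij ∈ Finset.HasAntidiagonal.antidiagonal n,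
          (x (ij.1 * p) : ℂ) * ((if p ∣ ij.2 then S16_e4c (ij.2 / p) else 0 : ℤ) : ℂ) := by
      rw [Finset.mul_sum]
      refine Finset.sum_congr rfl fun ij _ => ?_
      rw [hqX', hq4]
      ring
    rw [hsum]
    push_cast
    field_simp

end Fermat.Agent.S16
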