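import Fermat.Agent.S16.Upper2Asm
import Fermat.Agent.S16.UpperW6
import Fermat.Agent.S16.TwoCusp

/-!
# S16, package UPPER (helper20): trick 2 ("weight 6, two cusps")

`X ∈ M₂(Γ₀(p))` with integer `q`-coefficients `x_k`, `ℓ^s ∣ x_k` for all `k ≥ 1`
`⇒ ℓ^s ∣ 24 x₀`.  No Hecke operators, no `Δ`; works for `ℓ = p` as well.
-/

set_option autoImplicit false

namespace Fermat.Agent.S16

open UpperHalfPlane ModularForm Matrix.SpecialLinearGroup CongruenceSubgroup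
open scoped MatrixGroups ModularForm Manifold
open Fermat.Agent.S20

/-- **Trick 2.** -/
theorem S16_upper_tr2 (p : ℕ) [Fact p.Prime] {X : ℍ → ℂ} (hX : IsMF p 2 X) (x : ℕ → ℤ)
    (hx : ∀ k, ModularFormClass.qCoeff X k = (x k : ℂ))
    (ℓ s : ℕ) (hℓ : ℓ.Prime) (hs : ∀ k, 1 ≤ k → ((ℓ ^ s : ℕ) : ℤ) ∣ x k) :
    ((ℓ ^ s : ℕ) : ℤ) ∣ x 0 * 24 := by
  obtain ⟨F, G, hF, hG, hW, hqF, hqG⟩ := S16_tr2_forms p hX x hx
  have ha : S16_tr2a p x 0 = ((p : ℤ) + 1) * x 0 := by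
    simp [S16_tr2a, S16_e4c_zero, S16_e6c_zero]
    ring
  refine S16_upper_tr2_of p x S16_e4c S16_e6c (S16_tr2a p x) (S16_tr2b p x)
    S16_e4c_zero S16_e4c_one S16_e4c_two S16_e6c_zero S16_e6c_one S16_e6c_two ha
    (fun n => rfl) hF hG hW hqF hqG ?_ ℓ s hℓ hs
  intro f g hf hg c hc hW' a b ha' hb' ℓ' hℓ' A B hA hA' hB hB'
  exact S16_tc_sturm p (k := 6) hf hg hc hW' a b ha' hb' ℓ' hℓ' A B hA hA' hB hB'

end Fermat.Agent.S16
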