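import Mathlib

/-!
# S16, CASE7, level-one route: the power series algebra

`h, e₄, e₆ ∈ ℤ⟦X⟧` with `h² ≡ e₄ mod 16`, `3 h e₄ ≡ h³ + 2 e₆ mod 64`, `e₄³ − e₆² = 1728 d`,
`h ≡ 1 mod 2`.  With `g = (h² − e₄)/16`, `k = (3he₄ − h³ − 2e₆)/64`, `s = 3hg² + h²k − 24gk`:
`h s = 27 d + 16 (4g³ + k²)`, hence `s ≡ d mod 2`.
-/

set_option autoImplicit false

open PowerSeries

noncomputable section

namespace Fermat.Agent.S16

/-- the polynomial `S = 3 H G² + H² K − 24 G K`. -/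
def S16_c7S {R : Type*} [CommRing R] (h g k : R) : R := 3 * h * g ^ 2 + h ^ 2 * k - 24 * g * k

theorem S16_c7_natCast_ne_zero {n : ℕ} (hn : n ≠ 0) : ((n : ℤ) : ℤ⟦X⟧) ≠ 0 := by
  intro h
  have := congrArg (PowerSeries.constantCoeff (R := ℤ)) h
  simp at this
  exact hn this

theorem S16_c7_two_ne_zero : (2 : ℤ⟦X⟧) ≠ 0 := by
  have := S16_c7_natCast_ne_zero (n := 2) (by norm_num)
  simpa using this

/-- **The key identity.** -/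
theorem S16_c7_key (h e4 e6 d g k : ℤ⟦X⟧) (hg : h ^ 2 - e4 = 16 * g)
    (hk : 3 * h * e4 - h ^ 3 - 2 * e6 = 64 * k) (hd : e4 ^ 3 - e6 ^ 2 = 1728 * d) :
    h * S16_c7S h g k = 27 * d + 16 * (4 * g ^ 3 + k ^ 2) := by
  have e4eq : e4 = h ^ 2 - 16 * g := by linear_combination -hg
  have e6eq : e6 = h ^ 3 - 24 * h * g - 32 * k := by
    have h2 : (2 : ℤ⟦X⟧) * e6 = 2 * (h ^ 3 - 24 * h * g - 32 * k) := by
      rw [e4eq] at hk
      linear_combination -hk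
    exact mul_left_cancel₀ S16_c7_two_ne_zero h2
  have h64 : (64 : ℤ⟦X⟧) * (h * S16_c7S h g k) = 64 * (27 * d + 16 * (4 * g ^ 3 + k ^ 2)) := by
    rw [e4eq, e6eq] at hd
    unfold S16_c7S
    linear_combination hd
  have h64ne : (64 : ℤ⟦X⟧) ≠ 0 := by
    have := S16_c7_natCast_ne_zero (n := 64) (by norm_num)
    simpa using this
  exact mul_left_cancel₀ h64ne h64

/-- **Consequence modulo 2.** -/
theorem S16_c7_mod_two (h e4 e6 d g k u : ℤ⟦X⟧) (hg : h ^ 2 - e4 = 16 * g)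
    (hk : 3 * h * e4 - h ^ 3 - 2 * e6 = 64 * k) (hd : e4 ^ 3 - e6 ^ 2 = 1728 * d)
    (hu : h = 1 + 2 * u) :
    ∃ w : ℤ⟦X⟧, S16_c7S h g k = d + 2 * w := by
  have key := S16_c7_key h e4 e6 d g k hg hk hd
  refine ⟨13 * d + 8 * (4 * g ^ 3 + k ^ 2) - u * S16_c7S h g k, ?_⟩
  have h1 : S16_c7S h g k = h * S16_c7S h g k - 2 * u * S16_c7S h g k := by
    rw [hu]; ring
  rw [key] at h1
  linear_combination h1

/-- the series `δ = (e₄³ − e₆²)/1728` for `e₄ = 1 + 240 a`, `e₆ = 1 − 504 (a + 12 c)`. -/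
def S16_c7delta (a c : ℤ⟦X⟧) : ℤ⟦X⟧ :=
  a + 7 * c + 100 * a ^ 2 + 8000 * a ^ 3 - 147 * (a + 12 * c) ^ 2

theorem S16_c7delta_spec (a c : ℤ⟦X⟧) :
    (1 + 240 * a) ^ 3 - (1 - 504 * (a + 12 * c)) ^ 2 = 1728 * S16_c7delta a c := by
  unfold S16_c7delta
  ring

/-- order and leading coefficient of `δ`. -/
theorem S16_c7delta_coeff (a c : ℤ⟦X⟧) (r : ℕ) (hr : 1 ≤ r)
    (ha : ∀ n, n < r → coeff n a = 0) (ha1 : coeff r a = 1)
    (hc : ∀ n, n ≤ r → coeff n c = 0) :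
    (∀ n, n < r → coeff n (S16_c7delta a c) = 0) ∧ coeff r (S16_c7delta a c) = 1 := by
  have hXa : (X : ℤ⟦X⟧) ^ r ∣ a := X_pow_dvd_iff.mpr ha
  have hXc : (X : ℤ⟦X⟧) ^ r ∣ c := X_pow_dvd_iff.mpr fun n hn => hc n hn.le
  have hXac : (X : ℤ⟦X⟧) ^ r ∣ a + 12 * c := dvd_add hXa (Dvd.dvd.mul_left hXc _)
  have h2 : (X : ℤ⟦X⟧) ^ (r + 1) ∣ a ^ 2 := by
    have : (X : ℤ⟦X⟧) ^ (r + r) ∣ a ^ 2 := by
      rw [pow_add, pow_two]
      exact mul_dvd_mul hXa hXa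
    exact (pow_dvd_pow _ (by omega)).trans this
  have h3 : (X : ℤ⟦X⟧) ^ (r + 1) ∣ a ^ 3 := by
    have : a ^ 3 = a ^ 2 * a := by ring
    rw [this]
    exact Dvd.dvd.mul_right h2 _
  have h4 : (X : ℤ⟦X⟧) ^ (r + 1) ∣ (a + 12 * c) ^ 2 := by
    have : (X : ℤ⟦X⟧) ^ (r + r) ∣ (a + 12 * c) ^ 2 := by
      rw [pow_add, pow_two]
      exact mul_dvd_mul hXac hXac
    exact (pow_dvd_pow _ (by omega)).trans this
  have hrest : (X : ℤ⟦X⟧) ^ (r + 1) ∣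
      7 * c + 100 * a ^ 2 + 8000 * a ^ 3 - 147 * (a + 12 * c) ^ 2 := by
    have hc' : (X : ℤ⟦X⟧) ^ (r + 1) ∣ c := X_pow_dvd_iff.mpr fun n hn => hc n (by omega)
    exact dvd_sub (dvd_add (dvd_add (Dvd.dvd.mul_left hc' _) (Dvd.dvd.mul_left h2 _))
      (Dvd.dvd.mul_left h3 _)) (Dvd.dvd.mul_left h4 _)
  have hrest' := X_pow_dvd_iff.mp hrest
  have hdec : S16_c7delta a c
      = a + (7 * c + 100 * a ^ 2 + 8000 * a ^ 3 - 147 * (a + 12 * c) ^ 2) := by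
    unfold S16_c7delta; ring
  refine ⟨fun n hn => ?_, ?_⟩
  · rw [hdec, map_add, ha n hn, hrest' n (by omega), add_zero]
  · rw [hdec, map_add, ha1, hrest' r (by omega), add_zero]

end Fermat.Agent.S16
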