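import Mathlib
import Fermat.Agent.S16.Sturm
import Fermat.Prelude.Def_ModularCurve_X0

/-!
# S16, CASE7 route 2 (level one), sub-lemma (L1-E)

Integer power series `A = Σ σ₃(n) Xⁿ`, `C = Σ ((σ₅(n) − σ₃(n))/12) Xⁿ`, the identities
`eisenstein4 = 1 + 240 A`, `S16_e6 = 1 − 504 (A + 12 C)`, and the operator `V_r : X ↦ X^r`
on integer power series with two coefficient facts.
-/

set_option autoImplicit false

open PowerSeries

namespace Fermat.Agent.S16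

/-- `σ₃`-series `A = Σ_{n≥1} σ₃(n) Xⁿ`. -/
def S16_c7A : ℤ⟦X⟧ :=
  PowerSeries.mk fun n => if n = 0 then 0 else ∑ d ∈ n.divisors, (d : ℤ) ^ 3

/-- `C = Σ_{n≥1} ((σ₅(n) − σ₃(n))/12) Xⁿ`. -/
def S16_c7C : ℤ⟦X⟧ :=
  PowerSeries.mk fun n =>
    if n = 0 then 0 else (∑ d ∈ n.divisors, ((d : ℤ) ^ 5 - (d : ℤ) ^ 3)) / 12

theorem S16_c7_twelve_dvd (d : ℤ) : (12 : ℤ) ∣ d ^ 5 - d ^ 3 := by
  have h : ∀ x : ZMod 12, x ^ 5 - x ^ 3 = 0 := by decide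
  have h2 := h (d : ZMod 12)
  have h3 : ((d ^ 5 - d ^ 3 : ℤ) : ZMod 12) = 0 := by
    push_cast
    exact h2
  exact (ZMod.intCast_zmod_eq_zero_iff_dvd _ 12).1 h3

theorem S16_c7_twelve_dvd_sum (n : ℕ) :
    (12 : ℤ) ∣ ∑ d ∈ n.divisors, ((d : ℤ) ^ 5 - (d : ℤ) ^ 3) :=
  Finset.dvd_sum fun d _ => S16_c7_twelve_dvd (d : ℤ)

theorem S16_c7A_coeff (n : ℕ) :
    coeff n S16_c7A = if n = 0 then 0 else ∑ d ∈ n.divisors, (d : ℤ) ^ 3 := by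
  simp [S16_c7A]

theorem S16_c7C_coeff (n : ℕ) :
    coeff n S16_c7C =
      if n = 0 then 0 else (∑ d ∈ n.divisors, ((d : ℤ) ^ 5 - (d : ℤ) ^ 3)) / 12 := by
  simp [S16_c7C]

theorem S16_c7_e4_eq : ModularCurve.eisenstein4 = 1 + 240 * S16_c7A := by
  ext n
  have h240 : (240 : ℤ⟦X⟧) = C (240 : ℤ) := (map_ofNat (C (R := ℤ)) 240).symm
  rw [h240, map_add, coeff_C_mul, S16_c7A_coeff, ModularCurve.eisenstein4, coeff_mk,
    coeff_one]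
  by_cases hn : n = 0
  · simp [hn]
  · simp [hn]

theorem S16_c7_e6_eq : S16_e6 = 1 - 504 * (S16_c7A + 12 * S16_c7C) := by
  ext n
  have h504 : (504 : ℤ⟦X⟧) = C (504 : ℤ) := (map_ofNat (C (R := ℤ)) 504).symm
  have h12 : (12 : ℤ⟦X⟧) = C (12 : ℤ) := (map_ofNat (C (R := ℤ)) 12).symm
  rw [h504, h12, map_sub, coeff_C_mul, map_add, coeff_C_mul, S16_c7A_coeff, S16_c7C_coeff,
    S16_e6, coeff_mk, coeff_one]
  by_cases hn : n = 0
  · simp [hn]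
  · simp only [hn, if_false]
    rw [Int.mul_ediv_cancel' (S16_c7_twelve_dvd_sum n), Finset.sum_sub_distrib]
    ring

theorem S16_c7A_coeff_zero : coeff 0 S16_c7A = 0 := by
  simp [S16_c7A_coeff]

theorem S16_c7A_coeff_one : coeff 1 S16_c7A = 1 := by
  simp [S16_c7A_coeff]

theorem S16_c7C_coeff_zero : coeff 0 S16_c7C = 0 := by
  simp [S16_c7C_coeff]

theorem S16_c7C_coeff_one : coeff 1 S16_c7C = 0 := by
  simp [S16_c7C_coeff]

/-- `V_r` on integer power series: `X ↦ X^r`. -/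
noncomputable def S16_c7V (r : ℕ) (a : ℤ⟦X⟧) : ℤ⟦X⟧ :=
  PowerSeries.mk fun n => if r ∣ n then coeff (n / r) a else 0

theorem S16_c7V_coeff (r : ℕ) (a : ℤ⟦X⟧) (n : ℕ) :
    coeff n (S16_c7V r a) = if r ∣ n then coeff (n / r) a else 0 := by
  simp [S16_c7V]

theorem S16_c7V_coeff_lt (r : ℕ) (a : ℤ⟦X⟧) (h0 : coeff 0 a = 0) (n : ℕ) (hn : n < r) :
    coeff n (S16_c7V r a) = 0 := by
  rw [S16_c7V_coeff]
  split_ifs with h
  · rcases Nat.eq_zero_or_pos n with h1 | h1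
    · subst h1
      simpa using h0
    · exact absurd (Nat.le_of_dvd h1 h) (not_le.2 hn)
  · rfl

theorem S16_c7V_coeff_self (r : ℕ) (hr : 0 < r) (a : ℤ⟦X⟧) :
    coeff r (S16_c7V r a) = coeff 1 a := by
  rw [S16_c7V_coeff, if_pos dvd_rfl, Nat.div_self hr]

theorem S16_c7V_coeff_mul (r : ℕ) (hr : 0 < r) (a : ℤ⟦X⟧) (n : ℕ) :
    coeff (r * n) (S16_c7V r a) = coeff n a := by
  rw [S16_c7V_coeff, if_pos (dvd_mul_right r n), Nat.mul_div_cancel_left n hr]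

theorem S16_c7V_coeff_of_not_dvd (r : ℕ) (a : ℤ⟦X⟧) (n : ℕ) (h : ¬ r ∣ n) :
    coeff n (S16_c7V r a) = 0 := by
  rw [S16_c7V_coeff, if_neg h]

end Fermat.Agent.S16
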