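import Fermat.Agent.S16.GaussQuad
import Fermat.Agent.S16.ThetaMult

/-!
# S16, THETA package, T3 in the shape used by T2 (`gaussQ`)

`gaussQ Q b ℓ = ((-1)^k det A / ℓ) · ℓ^k` for an odd prime `ℓ ∤ b · det A`, where
`2 Q(v) = vᵀ A v`, `A` symmetric integral of rank `2k`; and the hypothesis `hG` of
`thetaQ_transform_Gamma0`.
-/

set_option autoImplicit false
set_option linter.style.haveILetI false

open Finset Complex Real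

noncomputable section

namespace Fermat.Agent.S16

/-- T3 for `gaussQ`. -/
theorem S16_gaussQ_prime (k : ℕ) (A : Matrix (Fin (2 * k)) (Fin (2 * k)) ℤ) (hA : A.IsSymm)
    (Q : (Fin (2 * k) → ℤ) → ℤ) (hQ : ∀ v, 2 * Q v = v ⬝ᵥ A.mulVec v)
    (ℓ : ℕ) [Fact ℓ.Prime] (hℓ : ℓ ≠ 2) (hdet : ¬ (ℓ : ℤ) ∣ A.det) (b : ℤ) (hb : ¬ (ℓ : ℤ) ∣ b) :
    gaussQ Q b ℓ = (legendreSym ℓ ((-1) ^ k * A.det) : ℂ) * (ℓ : ℂ) ^ k := by
  have hq2 : ∀ g : Fin (2 * k) → ZMod ℓ, 2 * ((Q (resLift g) : ℤ) : ZMod ℓ) =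
      g ⬝ᵥ (A.map (Int.cast : ℤ → ZMod ℓ)).mulVec g := by
    intro g
    have : (2 : ZMod ℓ) * ((Q (resLift g) : ℤ) : ZMod ℓ) = ((2 * Q (resLift g) : ℤ) : ZMod ℓ) := by
      push_cast; rfl
    rw [this, hQ]
    simp only [dotProduct, Matrix.mulVec, Matrix.map_apply, resLift]
    push_cast
    rfl
  rw [← S16_gaussQuad_prime k A hA ℓ hℓ hdet b hb (fun g => ((Q (resLift g) : ℤ) : ZMod ℓ)) hq2]
  rw [gaussQ]
  refine Finset.sum_congr rfl fun g _ => ?_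
  rw [← Int.cast_mul, ZMod.stdAddChar_coe]

/-- The hypothesis `hG` of `thetaQ_transform_Gamma0`: if `(-1)^k det A = m²`, `m ≠ 0`, then
`gaussQ Q b ℓ = ℓ^k` for all primes `ℓ > max 2 |m|` and `b` prime to `ℓ`. -/
theorem S16_gaussQ_hG (k : ℕ) (A : Matrix (Fin (2 * k)) (Fin (2 * k)) ℤ) (hA : A.IsSymm)
    (Q : (Fin (2 * k) → ℤ) → ℤ) (hQ : ∀ v, 2 * Q v = v ⬝ᵥ A.mulVec v)
    (m : ℤ) (hm : (-1) ^ k * A.det = m ^ 2) (hm0 : m ≠ 0) (M : ℕ) (hM2 : 2 ≤ M)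
    (hMm : m.natAbs ≤ M) :
    ∀ (ℓ : ℕ) [NeZero ℓ], ℓ.Prime → M < ℓ → ∀ b : ℤ, IsCoprime b (ℓ : ℤ) →
      gaussQ Q b ℓ = (ℓ : ℂ) ^ k := by
  intro ℓ _ hℓp hMℓ b hbℓ
  haveI : Fact ℓ.Prime := ⟨hℓp⟩
  have hp : Prime (ℓ : ℤ) := Nat.prime_iff_prime_int.mp hℓp
  have hℓ2 : ℓ ≠ 2 := by omega
  have hℓm : ¬ (ℓ : ℤ) ∣ m := by
    intro h
    have h1 : ℓ ∣ m.natAbs := Int.natCast_dvd.mp h
    have h2 : 0 < m.natAbs := Int.natAbs_pos.mpr hm0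
    have := Nat.le_of_dvd h2 h1
    omega
  have hdet : ¬ (ℓ : ℤ) ∣ A.det := by
    intro h
    have : (ℓ : ℤ) ∣ m ^ 2 := by
      rw [← hm]
      exact Dvd.dvd.mul_left h _
    exact hℓm (hp.dvd_of_dvd_pow this)
  have hb : ¬ (ℓ : ℤ) ∣ b := by
    intro h
    have h1 : IsCoprime (ℓ : ℤ) (ℓ : ℤ) := hbℓ.of_isCoprime_of_dvd_left h
    rw [isCoprime_self] at h1
    exact hp.not_isUnit h1
  rw [S16_gaussQ_prime k A hA Q hQ ℓ hℓ2 hdet b hb, hm,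
    legendreSym.sq_one' ℓ (by rwa [Ne, ZMod.intCast_zmod_eq_zero_iff_dvd]), Int.cast_one, one_mul]

end Fermat.Agent.S16
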