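import Mathlib
import Fermat.Agent.S16.LowerTheta
import Fermat.Agent.S16.ThetaExists
import Fermat.Agent.S16.Small

/-!
# S16: the lower bound (route B, theta series)

`S16_hasCong_eisensteinNumerator p : S16_HasCong p (eisensteinNumerator p)` for every prime `p`: there is a weight 2 cusp
form on `Γ₀(p)` with integral `q`-expansion congruent to the Eisenstein series modulo
`n = (p − 1)/gcd(p − 1, 12)`.
-/

set_option autoImplicit false

namespace Fermat.Agent.S16

/-- **LOWER** (all primes). -/
theorem S16_hasCong_eisensteinNumerator (p : ℕ) [Fact p.Prime] : S16_HasCong p (ModularCurve.eisensteinNumerator p) := by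
  by_cases hp2 : p = 2
  · subst hp2
    have h : ModularCurve.eisensteinNumerator 2 = 1 := by decide
    rw [h]
    exact S16_hasCong_one 2
  · obtain ⟨Θ, a, ha, h0, hev⟩ := S16_theta_exists p hp2
    exact S16_lower_of_theta p Θ a ha h0 hev

end Fermat.Agent.S16
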