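import Mathlib

/-!
# S16, package THETA, piece T4: from prime lower-right entries to all of `Γ₀(N)`

Let `f : ℍ → ℂ` have period `1` and let `χ : ZMod N → ℂ` be any function with `χ 1 = 1`,
`χ (-1) = (-1) ^ k`.  If `f ∣[k] γ = χ(d_γ) • f` for all `γ ∈ Γ₀(N)` whose lower right entry `d_γ`
is a prime number `> M`, then the same holds for every `γ ∈ Γ₀(N)`
(Dirichlet's theorem on primes in arithmetic progressions + `γ ↦ γ Tⁿ`).
-/

set_option autoImplicit false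

open scoped MatrixGroups ModularForm
open UpperHalfPlane CongruenceSubgroup Matrix.SpecialLinearGroup

noncomputable section

namespace Fermat.Agent.S16

/-- `f ∣[k] T = f` implies `f ∣[k] T ^ n = f` for all integers `n`. -/
theorem S16_T4_slash_T_zpow (k : ℤ) (f : ℍ → ℂ) (hT : f ∣[k] ModularGroup.T = f) (n : ℤ) :
    f ∣[k] (ModularGroup.T ^ n) = f := by
  have hTinv : f ∣[k] (ModularGroup.T⁻¹) = f := by
    conv_lhs => rw [← hT]
    rw [← SlashAction.slash_mul, mul_inv_cancel, SlashAction.slash_one]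
  have hnat : ∀ m : ℕ, f ∣[k] (ModularGroup.T ^ m) = f := by
    intro m
    induction m with
    | zero => rw [pow_zero, SlashAction.slash_one]
    | succ m ih => rw [pow_succ, SlashAction.slash_mul, ih, hT]
  have hnat' : ∀ m : ℕ, f ∣[k] ((ModularGroup.T⁻¹) ^ m) = f := by
    intro m
    induction m with
    | zero => rw [pow_zero, SlashAction.slash_one]
    | succ m ih => rw [pow_succ, SlashAction.slash_mul, ih, hTinv]
  obtain ⟨m, rfl | rfl⟩ := n.eq_nat_or_neg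
  · rw [zpow_natCast]
    exact hnat m
  · rw [zpow_neg, zpow_natCast, ← inv_pow]
    exact hnat' m

/-- The slash action of `-1 ∈ SL(2, ℤ)` in weight `k` is multiplication by `(-1) ^ k`. -/
theorem S16_T4_slash_neg_one (k : ℤ) (f : ℍ → ℂ) :
    f ∣[k] (-1 : SL(2, ℤ)) = ((-1 : ℂ) ^ k) • f := by
  funext τ
  rw [ModularForm.SL_slash_apply]
  have h1 : ((-1 : SL(2, ℤ)) • τ) = τ := by
    rw [ModularGroup.SL_neg_smul, one_smul]
  have h2 : denom ((-1 : SL(2, ℤ)) : GL (Fin 2) ℝ) τ = -1 := by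
    simp [denom]
  rw [h1, h2]
  simp only [Pi.smul_apply, smul_eq_mul]
  have h3 : ((-1 : ℂ)) ^ (-k) = (-1 : ℂ) ^ k := by
    rw [zpow_neg, ← inv_zpow]
    norm_num
  rw [h3, mul_comm]

/-- **T4.** Slash-invariance with a "character" `χ` for all of `Γ₀(N)` follows from the case where
the lower right entry is a prime number `> M`, together with `f ∣[k] T = f`. -/
theorem S16_T4_slash_Gamma0_of_prime {N : ℕ} [NeZero N] (k : ℤ) (M : ℕ) (χ : ZMod N → ℂ)
    (f : ℍ → ℂ) (h1 : χ 1 = 1) (hneg : χ (-1) = (-1) ^ k)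
    (hT : f ∣[k] ModularGroup.T = f)
    (hp : ∀ γ : SL(2, ℤ), γ ∈ Gamma0 N → ∀ ℓ : ℕ, ℓ.Prime → M < ℓ → γ 1 1 = (ℓ : ℤ) →
      f ∣[k] γ = χ ((γ 1 1 : ℤ) : ZMod N) • f) :
    ∀ γ : SL(2, ℤ), γ ∈ Gamma0 N → f ∣[k] γ = χ ((γ 1 1 : ℤ) : ZMod N) • f := by
  intro γ hγ
  have hdet := γ.det_coe
  rw [Matrix.det_fin_two] at hdet
  by_cases hc : γ 1 0 = 0
  · -- `γ = ± T ^ n`
    have had : γ 0 0 * γ 1 1 = 1 := by rw [hc] at hdet; lia
    rcases Int.eq_one_or_neg_one_of_mul_eq_one' had with (⟨ha, hd⟩ | ⟨ha, hd⟩)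
    · have hg : γ = ModularGroup.T ^ γ 0 1 := by
        ext i j; fin_cases i <;> fin_cases j <;>
          simp [ha, hc, hd, ModularGroup.coe_T_zpow, show (1 : Fin (0 + 2)) = (1 : Fin 2) from rfl]
      rw [hd]
      conv_lhs => rw [hg]
      rw [S16_T4_slash_T_zpow k f hT]
      simp [h1]
    · have hg : γ = -ModularGroup.T ^ (-(γ 0 1)) := by
        ext i j; fin_cases i <;> fin_cases j <;>
          simp [ha, hc, hd, ModularGroup.coe_T_zpow, show (1 : Fin (0 + 2)) = (1 : Fin 2) from rfl]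
      rw [hd]
      conv_lhs => rw [hg]
      have e : -ModularGroup.T ^ (-(γ 0 1)) = (-1 : SL(2, ℤ)) * ModularGroup.T ^ (-(γ 0 1)) := by
        rw [neg_one_mul]
      rw [e, SlashAction.slash_mul, S16_T4_slash_neg_one, ModularForm.SL_smul_slash,
        S16_T4_slash_T_zpow k f hT]
      simp [hneg]
  · -- Dirichlet
    have hq : (γ 1 0).natAbs ≠ 0 := by simpa using hc
    have hcop : IsCoprime (γ 1 1) ((γ 1 0).natAbs : ℤ) := by
      have h0 : IsCoprime (γ 1 1) (γ 1 0) := ⟨γ 0 0, -γ 0 1, by linarith⟩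
      rcases Int.natAbs_eq (γ 1 0) with h | h
      · rw [← h]; exact h0
      · have : ((γ 1 0).natAbs : ℤ) = -γ 1 0 := by lia
        rw [this]
        exact h0.neg_right
    obtain ⟨ℓ, hℓM, hℓp, hℓ⟩ := Nat.forall_exists_prime_gt_and_zmodEq M hq hcop
    -- `ℓ = d + n c`
    have hdvd : γ 1 0 ∣ (ℓ : ℤ) - γ 1 1 := by
      have h2 : ((γ 1 0).natAbs : ℤ) ∣ (ℓ : ℤ) - γ 1 1 := (Int.modEq_iff_dvd.mp hℓ.symm)
      exact Int.natAbs_dvd.mp h2
    obtain ⟨n, hn⟩ := hdvd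
    set γ' : SL(2, ℤ) := γ * ModularGroup.T ^ n with hγ'
    have e10 : γ' 1 0 = γ 1 0 := by
      simp [hγ', Matrix.SpecialLinearGroup.coe_mul, ModularGroup.coe_T_zpow, Matrix.mul_apply,
        Fin.sum_univ_two]
    have e11 : γ' 1 1 = (ℓ : ℤ) := by
      simp [hγ', Matrix.SpecialLinearGroup.coe_mul, ModularGroup.coe_T_zpow, Matrix.mul_apply,
        Fin.sum_univ_two]
      linarith
    have hγ'mem : γ' ∈ Gamma0 N := by
      rw [Gamma0_mem] at hγ ⊢
      rw [e10]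
      exact hγ
    have key := hp γ' hγ'mem ℓ hℓp hℓM e11
    have hχ : (((γ' 1 1 : ℤ)) : ZMod N) = ((γ 1 1 : ℤ) : ZMod N) := by
      rw [e11]
      have hN : ((γ 1 0 : ℤ) : ZMod N) = 0 := Gamma0_mem.mp hγ
      have : ((ℓ : ℤ) : ZMod N) - ((γ 1 1 : ℤ) : ZMod N) = 0 := by
        rw [← Int.cast_sub, hn, Int.cast_mul, hN, zero_mul]
      exact sub_eq_zero.mp this
    rw [hχ, hγ', SlashAction.slash_mul] at key
    -- apply `T ^ (-n)`
    have key2 : ((f ∣[k] γ) ∣[k] (ModularGroup.T ^ n)) ∣[k] (ModularGroup.T ^ (-n))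
        = (χ ((γ 1 1 : ℤ) : ZMod N) • f) ∣[k] (ModularGroup.T ^ (-n)) := by
      rw [key]
    rw [← SlashAction.slash_mul, ← zpow_add, add_neg_cancel, zpow_zero, SlashAction.slash_one,
      ModularForm.SL_smul_slash, S16_T4_slash_T_zpow k f hT] at key2
    exact key2

/-- **T4, trivial character, even weight.** -/
theorem S16_T4_slash_Gamma0_of_prime_trivial {N : ℕ} [NeZero N] (k : ℤ) (hk : Even k) (M : ℕ)
    (f : ℍ → ℂ) (hT : f ∣[k] ModularGroup.T = f)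
    (hp : ∀ γ : SL(2, ℤ), γ ∈ Gamma0 N → ∀ ℓ : ℕ, ℓ.Prime → M < ℓ → γ 1 1 = (ℓ : ℤ) →
      f ∣[k] γ = f) :
    ∀ γ : SL(2, ℤ), γ ∈ Gamma0 N → f ∣[k] γ = f := by
  intro γ hγ
  have h := S16_T4_slash_Gamma0_of_prime (N := N) k M (fun _ => 1) f rfl
    (by simp [hk.neg_one_zpow]) hT
    (fun γ hγ ℓ hℓ hM h11 => by simpa using hp γ hγ ℓ hℓ hM h11) γ hγ
  simpa using h

/-- **T4 for the `GL (Fin 2) ℝ`-valued slash action** (the form used by Mathlib's
`SlashInvariantForm` for the subgroup `(Gamma0 N).map (mapGL ℝ)`). -/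
theorem S16_T4_slash_mapGL_of_prime_trivial {N : ℕ} [NeZero N] (k : ℤ) (hk : Even k) (M : ℕ)
    (f : ℍ → ℂ) (hT : f ∣[k] ModularGroup.T = f)
    (hp : ∀ γ : SL(2, ℤ), γ ∈ Gamma0 N → ∀ ℓ : ℕ, ℓ.Prime → M < ℓ → γ 1 1 = (ℓ : ℤ) →
      f ∣[k] γ = f) :
    ∀ g ∈ (Gamma0 N).map (Matrix.SpecialLinearGroup.mapGL ℝ), f ∣[k] g = f := by
  rintro g ⟨γ, hγ, rfl⟩
  have := S16_T4_slash_Gamma0_of_prime_trivial k hk M f hT hp γ hγ
  rwa [ModularForm.SL_slash] at this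

end Fermat.Agent.S16
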