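import Fermat.Agent.S16.CuspExp

/-!
# S16, two-cusp Sturm bound, part 1 (helper20): expansions at the two cusps in `𝕢 p`,
general weight, and the descent from algebraic integers to `ℤ`.
-/

set_option autoImplicit false

namespace Fermat.Agent.S16

open UpperHalfPlane ModularForm Matrix.SpecialLinearGroup CongruenceSubgroup
open scoped MatrixGroups ModularForm Manifold
open Fermat.Agent.S20

local notation "qc" => ModularFormClass.qCoeff
local notation "𝕢" => Function.Periodic.qParam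

/-- the root of unity `e(j/p)` -/
noncomputable def S16_tcζ (p j : ℕ) : ℂ := Complex.exp (2 * Real.pi * Complex.I * j / p)

theorem S16_tcζ_pow (p : ℕ) (hp : p ≠ 0) (j : ℕ) : S16_tcζ p j ^ p = 1 := by
  have hp' : (p : ℂ) ≠ 0 := by exact_mod_cast hp
  rw [S16_tcζ, ← Complex.exp_nat_mul]
  have h1 : (p : ℂ) * (2 * Real.pi * Complex.I * j / p) = (j : ℕ) * (2 * Real.pi * Complex.I) := by
    field_simp
  rw [h1, Complex.exp_nat_mul_two_pi_mul_I]

theorem S16_tcζ_isIntegral (p : ℕ) (hp : p ≠ 0) (j : ℕ) : IsIntegral ℤ (S16_tcζ p j) := by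
  refine IsIntegral.of_pow (Nat.pos_of_ne_zero hp) ?_
  rw [S16_tcζ_pow p hp]
  exact isIntegral_one

theorem S16_tcζ_inv_isIntegral (p : ℕ) (hp : p ≠ 0) (j : ℕ) : IsIntegral ℤ (S16_tcζ p j)⁻¹ := by
  have h : (S16_tcζ p j)⁻¹ = S16_tcζ p j ^ (p - 1) := by
    have h1 := S16_tcζ_pow p hp j
    have hz : S16_tcζ p j ≠ 0 := Complex.exp_ne_zero _
    have h2 : S16_tcζ p j ^ (p - 1) * S16_tcζ p j = 1 := by
      rw [← pow_succ, Nat.sub_add_cancel (Nat.pos_of_ne_zero hp), h1]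
    exact (eq_inv_of_mul_eq_one_left h2).symm
  rw [h]
  exact (S16_tcζ_isIntegral p hp j).pow _

/-- the expansion at `∞` in the variable `𝕢 p = q^{1/p}` -/
theorem S16_tc_hasSum_self {p : ℕ} [NeZero p] {k : ℤ} {f : ℍ → ℂ} (hf : IsMF p k f) (τ : ℍ) :
    HasSum (fun n : ℕ ↦ (if p ∣ n then qc f (n / p) else 0) • 𝕢 (p : ℝ) τ ^ n) (f τ) := by
  have hM : 0 < p := Nat.pos_of_ne_zero (NeZero.ne p)
  have h1 := S16_hasSum_qCoeff hf τ
  have hg : Function.Injective (fun m : ℕ ↦ p * m) := fun a b hab ↦ by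
    exact Nat.eq_of_mul_eq_mul_left hM hab
  rw [← hg.hasSum_iff]
  · convert h1 using 2 with m
    simp only [Function.comp_apply, dvd_mul_right, if_true,
      Nat.mul_div_cancel_left m hM, smul_eq_mul]
    rw [pow_mul]
    congr 2
    unfold Function.Periodic.qParam
    rw [← Complex.exp_nat_mul]
    congr 1
    have : (p : ℂ) ≠ 0 := by exact_mod_cast hM.ne'
    push_cast
    field_simp
  · intro n hn
    have : ¬ p ∣ n := fun ⟨m, hm⟩ ↦ hn ⟨m, hm.symm⟩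
    simp [this]

/-- the expansion at the cusp `0`: `f ∣ S T^j` in the variable `𝕢 p`, from `f ∣ W = c • g`. -/
theorem S16_tc_hasSum_slash_ST (p : ℕ) [Fact p.Prime] {k : ℤ} {f g : ℍ → ℂ}
    (hg : IsMF p k g) (c : ℂ) (hW : f ∣[k] S16_W p = c • g) (j : ℕ) (τ : ℍ) :
    HasSum (fun n : ℕ ↦ ((p : ℂ) ^ (1 - k) * c * (S16_tcζ p j ^ n * qc g n)) • 𝕢 (p : ℝ) τ ^ n)
      ((f ∣[k] S16_ST j) τ) := by
  have hp : p ≠ 0 := (Fact.out : p.Prime).ne_zero
  have hp' : (p : ℂ) ≠ 0 := by exact_mod_cast hp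
  have : NeZero p := ⟨hp⟩
  have h1 := (S16_hasSum_qCoeff hg (heckeMatrix p j • τ)).mul_left ((p : ℂ) ^ (1 - k) * c)
  have h2 : (f ∣[k] S16_ST j) τ = (p : ℂ) ^ (1 - k) * c * g (heckeMatrix p j • τ) := by
    rw [S16_slash_ST k hp, Pi.smul_apply, slash_heckeMatrix_apply k hp, hW, Pi.smul_apply,
      smul_eq_mul, smul_eq_mul]
    have e : (p : ℂ) ^ (1 - k) = (p : ℂ) ^ (2 - k) * (p : ℂ)⁻¹ := by
      rw [show (1 - k) = (2 - k) - 1 by ring, zpow_sub_one₀ hp']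
    rw [e]
    ring
  rw [h2]
  have hfun : (fun n : ℕ ↦ ((p : ℂ) ^ (1 - k) * c * (S16_tcζ p j ^ n * qc g n)) •
        𝕢 (p : ℝ) τ ^ n) =
      fun i : ℕ ↦ (p : ℂ) ^ (1 - k) * c * (qc g i • 𝕢 (1 : ℝ) (heckeMatrix p j • τ : ℍ) ^ i) := by
    funext n
    rw [S16_qParam_heckeMatrix_smul hp]
    simp only [smul_eq_mul, mul_pow, S16_tcζ]
    ring
  rw [hfun]
  exact h1

/-- descent: a rational integer which is `ℓ` times an algebraic integer, up to a unit, is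
divisible by `ℓ`. -/
theorem S16_tc_descent {ℓ : ℕ} (hℓ : ℓ ≠ 0) (z : ℤ) (u y : ℂ) (hu0 : u ≠ 0)
    (hu : IsIntegral ℤ u⁻¹) (hy : IsIntegral ℤ y) (h : (z : ℂ) * u = ℓ * y) : (ℓ : ℤ) ∣ z := by
  have hℓC : (ℓ : ℂ) ≠ 0 := by exact_mod_cast hℓ
  have hℓQ : (ℓ : ℚ) ≠ 0 := by exact_mod_cast hℓ
  have h1 : ((z : ℚ) / ℓ : ℚ) = ((z / ℓ : ℚ) : ℂ) := rfl
  have h2 : (((z : ℚ) / ℓ : ℚ) : ℂ) = y * u⁻¹ := by
    push_cast
    field_simp
    linear_combination h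
  have h3 : IsIntegral ℤ (((z : ℚ) / ℓ : ℚ) : ℂ) := by
    rw [h2]
    exact hy.mul hu
  have h4 : IsIntegral ℤ ((z : ℚ) / ℓ : ℚ) := by
    have : (((z : ℚ) / ℓ : ℚ) : ℂ) = algebraMap ℚ ℂ ((z : ℚ) / ℓ) := rfl
    rw [this] at h3
    exact (isIntegral_algebraMap_iff (algebraMap ℚ ℂ).injective).mp h3
  obtain ⟨m, hm⟩ := IsIntegrallyClosed.isIntegral_iff.mp h4
  refine ⟨m, ?_⟩
  have h5 : (z : ℚ) = ℓ * m := by
    have : (m : ℚ) = (z : ℚ) / ℓ := by simpa using hm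
    rw [this]
    field_simp
  exact_mod_cast h5

end Fermat.Agent.S16
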