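import Mathlib

/-!
# S16, package UPPER (helper20): arithmetic core of trick 2 ("weight 6, two cusps")

Pure arithmetic.  `a` = coefficients of `F = p·X·E₄ + x₀·E₆` at `∞`, `b` = coefficients of
`p⁻⁵·F∣W = -(U_p X)·V_p E₄ + x₀·V_p E₆`.  If `ℓ^s ∣ x_k` for all `k ≥ 1` then
`b ≡ -x₀·V_p(E₄ - E₆) mod ℓ^s`, which vanishes to order `≥ p`; the two-cusp Sturm bound
(hypothesis `hSturm`) then forces `ℓ^s ∣ 24 x₀`.
-/

set_option autoImplicit false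

namespace Fermat.Agent.S16

open Finset

/-- Content of a nonzero integer sequence at a prime `ℓ`: `a = ℓ^u a'` with `a' ≢ 0 mod ℓ`,
first unit coefficient at `A`; moreover `A ≥ N` as soon as `a_n ≡ 0 mod ℓ^s` for `n < N` while
`a ≢ 0 mod ℓ^s`. -/
theorem S16_exists_content {ℓ : ℕ} (hℓ : ℓ.Prime) (a : ℕ → ℤ) (h : ∃ n, a n ≠ 0) :
    ∃ (u A : ℕ) (a' : ℕ → ℤ), (∀ n, a n = (ℓ : ℤ) ^ u * a' n) ∧
      (∀ n, n < A → (ℓ : ℤ) ∣ a' n) ∧ ¬ (ℓ : ℤ) ∣ a' A ∧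
      ∀ s N : ℕ, (∃ n, ¬ (ℓ : ℤ) ^ s ∣ a n) → (∀ n, n < N → (ℓ : ℤ) ^ s ∣ a n) → N ≤ A := by
  classical
  have hℓ0 : (ℓ : ℤ) ≠ 0 := by exact_mod_cast hℓ.ne_zero
  have hP : ∃ t : ℕ, ∃ n, ¬ (ℓ : ℤ) ^ (t + 1) ∣ a n := by
    obtain ⟨n, hn⟩ := h
    refine ⟨(a n).natAbs, n, fun hd => ?_⟩
    have h1 := Int.natAbs_le_of_dvd_ne_zero hd hn
    rw [Int.natAbs_pow, Int.natAbs_natCast] at h1
    have h2 : (a n).natAbs + 1 < ℓ ^ ((a n).natAbs + 1) :=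
      Nat.lt_pow_self hℓ.one_lt
    omega
  set u := Nat.find hP with hu
  have hu1 : ∃ n, ¬ (ℓ : ℤ) ^ (u + 1) ∣ a n := Nat.find_spec hP
  have hu2 : ∀ n, (ℓ : ℤ) ^ u ∣ a n := by
    intro n
    rcases Nat.eq_zero_or_pos u with h0 | h0
    · rw [h0, pow_zero]; exact one_dvd _
    · have := Nat.find_min hP (m := u - 1) (by omega)
      push Not at this
      have h := this n
      rwa [Nat.sub_add_cancel h0] at h
  set A := Nat.find hu1 with hA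
  have hA1 : ¬ (ℓ : ℤ) ^ (u + 1) ∣ a A := Nat.find_spec hu1
  have hA2 : ∀ n, n < A → (ℓ : ℤ) ^ (u + 1) ∣ a n := fun n hn => by
    have := Nat.find_min hu1 hn
    push Not at this
    exact this
  have hpow : (ℓ : ℤ) ^ u ≠ 0 := pow_ne_zero _ hℓ0
  have hdiv : ∀ n, a n = (ℓ : ℤ) ^ u * (a n / (ℓ : ℤ) ^ u) := fun n =>
    (Int.mul_ediv_cancel' (hu2 n)).symm
  have key : ∀ n, (ℓ : ℤ) ∣ a n / (ℓ : ℤ) ^ u ↔ (ℓ : ℤ) ^ (u + 1) ∣ a n := by
    intro n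
    constructor
    · intro hd
      rw [hdiv n, pow_succ]
      exact mul_dvd_mul_left _ hd
    · intro hd
      rw [pow_succ] at hd
      have h2 : (ℓ : ℤ) ^ u * (ℓ : ℤ) ∣ (ℓ : ℤ) ^ u * (a n / (ℓ : ℤ) ^ u) := by
        rw [← hdiv n]; exact hd
      exact (mul_dvd_mul_iff_left hpow).mp h2
  refine ⟨u, A, fun n => a n / (ℓ : ℤ) ^ u, hdiv, fun n hn => (key n).mpr (hA2 n hn),
    fun hd => hA1 ((key A).mp hd), ?_⟩
  intro s N hs1 hs2
  by_contra hlt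
  push Not at hlt
  have hus : u + 1 ≤ s := by
    by_contra hsu
    push Not at hsu
    obtain ⟨n, hn⟩ := hs1
    exact hn ((pow_dvd_pow _ (by omega)).trans (hu2 n))
  exact hA1 ((pow_dvd_pow _ hus).trans (hs2 A hlt))

/-- `b ≡ -x₀ V_p (e4 - e6)` modulo any `m` dividing all `x_k`, `k ≥ 1`. -/
theorem S16_tr2_b_modEq {p : ℕ} (hp : 0 < p) (x e4 e6 b : ℕ → ℤ)
    (hb : ∀ n, b n = -(∑ ij ∈ antidiagonal n,
        x (ij.1 * p) * (if p ∣ ij.2 then e4 (ij.2 / p) else 0))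
      + x 0 * (if p ∣ n then e6 (n / p) else 0))
    (m : ℤ) (hm : ∀ k, 1 ≤ k → m ∣ x k) (n : ℕ) :
    m ∣ b n + x 0 * (if p ∣ n then e4 (n / p) - e6 (n / p) else 0) := by
  rw [hb n, ← Finset.sum_erase_add _ _ (HasAntidiagonal.mem_antidiagonal.mpr
    (show ((0, n) : ℕ × ℕ).1 + ((0, n) : ℕ × ℕ).2 = n from zero_add n))]
  simp only [zero_mul]
  have e : -(∑ ij ∈ (antidiagonal n).erase (0, n),
        x (ij.1 * p) * (if p ∣ ij.2 then e4 (ij.2 / p) else 0)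
        + x 0 * (if p ∣ n then e4 (n / p) else 0))
      + x 0 * (if p ∣ n then e6 (n / p) else 0)
      + x 0 * (if p ∣ n then e4 (n / p) - e6 (n / p) else 0)
      = -(∑ ij ∈ (antidiagonal n).erase (0, n),
        x (ij.1 * p) * (if p ∣ ij.2 then e4 (ij.2 / p) else 0)) := by
    split_ifs <;> ring
  rw [e, dvd_neg]
  apply Finset.dvd_sum
  rintro ⟨i, j⟩ hij
  rw [Finset.mem_erase, HasAntidiagonal.mem_antidiagonal] at hij
  simp only at hij ⊢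
  have hi : 1 ≤ i := by
    rcases Nat.eq_zero_or_pos i with rfl | hi
    · exfalso
      apply hij.1
      have : j = n := by omega
      subst this
      rfl
    · exact hi
  exact Dvd.dvd.mul_right (hm _ (Nat.one_le_iff_ne_zero.mpr (by positivity))) _

/-- **Arithmetic core of trick 2.** -/
theorem S16_tr2_core {p : ℕ} (hp : p.Prime) (x e4 e6 a b : ℕ → ℤ)
    (h40 : e4 0 = 1) (h41 : e4 1 = 240) (h42 : e4 2 = 2160)
    (h60 : e6 0 = 1) (h61 : e6 1 = -504) (h62 : e6 2 = -16632)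
    (ha : a 0 = (p + 1) * x 0)
    (hb : ∀ n, b n = -(∑ ij ∈ antidiagonal n,
        x (ij.1 * p) * (if p ∣ ij.2 then e4 (ij.2 / p) else 0))
      + x 0 * (if p ∣ n then e6 (n / p) else 0))
    {ℓ : ℕ} (hℓ : ℓ.Prime) (s : ℕ) (hs : ∀ k, 1 ≤ k → (ℓ : ℤ) ^ s ∣ x k)
    (hSturm : ∀ (u w A B : ℕ) (a' b' : ℕ → ℤ), (∀ n, a n = (ℓ : ℤ) ^ u * a' n) →
      (∀ n, b n = (ℓ : ℤ) ^ w * b' n) →
      (∀ n, n < A → (ℓ : ℤ) ∣ a' n) → ¬ (ℓ : ℤ) ∣ a' A →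
      (∀ n, n < B → (ℓ : ℤ) ∣ b' n) → ¬ (ℓ : ℤ) ∣ b' B → 12 * (A + B) ≤ 6 * (p + 1)) :
    (ℓ : ℤ) ^ s ∣ x 0 * 24 := by
  by_contra hcon
  have hx0 : x 0 ≠ 0 := by
    intro h0
    apply hcon
    rw [h0, zero_mul]
    exact dvd_zero _
  have hp0 : 0 < p := hp.pos
  have hpp : p / p = 1 := Nat.div_self hp0
  have h2pp : 2 * p / p = 2 := Nat.mul_div_cancel _ hp0
  -- congruences for b
  have hmod := S16_tr2_b_modEq hp0 x e4 e6 b hb ((ℓ : ℤ) ^ s) hs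
  have hblow : ∀ n, n < p → (ℓ : ℤ) ^ s ∣ b n := by
    intro n hn
    have h := hmod n
    rcases Nat.eq_zero_or_pos n with rfl | hn0
    · simpa [h40, h60] using h
    · have hnd : ¬ p ∣ n := fun hd => by
        have := Nat.le_of_dvd hn0 hd
        omega
      simpa [hnd] using h
  have hbne : ∃ n, ¬ (ℓ : ℤ) ^ s ∣ b n := by
    by_contra hall
    push Not at hall
    have h1 := hmod p
    have h2 := hmod (2 * p)
    rw [if_pos (dvd_refl p), hpp, h41, h61] at h1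
    rw [if_pos (Dvd.intro_left 2 rfl), h2pp, h42, h62] at h2
    have h1' : (ℓ : ℤ) ^ s ∣ x 0 * (240 - -504) := (dvd_add_right (hall p)).mp h1
    have h2' : (ℓ : ℤ) ^ s ∣ x 0 * (2160 - -16632) := (dvd_add_right (hall (2 * p))).mp h2
    apply hcon
    have e : x 0 * 24 = 4 * (x 0 * (2160 - -16632)) - 101 * (x 0 * (240 - -504)) := by ring
    rw [e]
    exact dvd_sub (Dvd.dvd.mul_left h2' _) (Dvd.dvd.mul_left h1' _)
  have hane : ∃ n, a n ≠ 0 := by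
    refine ⟨0, ?_⟩
    rw [ha]
    have : ((p : ℤ) + 1) ≠ 0 := by positivity
    exact mul_ne_zero this hx0
  have hbne' : ∃ n, b n ≠ 0 := by
    obtain ⟨n, hn⟩ := hbne
    exact ⟨n, fun h0 => hn (h0 ▸ dvd_zero _)⟩
  obtain ⟨u, A, a', ha1, ha2, ha3, -⟩ := S16_exists_content hℓ a hane
  obtain ⟨w, B, b', hb1, hb2, hb3, hb4⟩ := S16_exists_content hℓ b hbne'
  have hB : p ≤ B := hb4 s p hbne hblow
  have := hSturm u w A B a' b' ha1 hb1 ha2 ha3 hb2 hb3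
  have := hp.two_le
  omega

end Fermat.Agent.S16
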