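import Fermat.Agent.S16.Upper1
import Fermat.Agent.S16.Upper2Core

/-!
# S16, package UPPER (helper20): trick 2, assembly

`S16_upper_tr2_of`: trick 2 from the two forms `F`, `G = p⁻⁵ F∣W` (piece B), their integer
coefficients and the two-cusp Sturm bound in weight 6 (package NORM), all as hypotheses.
-/

set_option autoImplicit false

namespace Fermat.Agent.S16

open UpperHalfPlane ModularForm Matrix.SpecialLinearGroup CongruenceSubgroup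
open scoped MatrixGroups ModularForm Manifold
open Fermat.Agent.S20

local notation "qc" => ModularFormClass.qCoeff

theorem S16_smul_slash_W {p : ℕ} (hp : p ≠ 0) (k : ℤ) (c : ℂ) (f : ℍ → ℂ) :
    (c • f) ∣[k] S16_W p = c • (f ∣[k] S16_W p) := by
  rw [ModularForm.smul_slash, S16_σ_W hp]
  rfl

/-- **Trick 2**, from the forms and the two-cusp Sturm bound. -/
theorem S16_upper_tr2_of (p : ℕ) [Fact p.Prime] (x e4 e6 a b : ℕ → ℤ)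
    (h40 : e4 0 = 1) (h41 : e4 1 = 240) (h42 : e4 2 = 2160)
    (h60 : e6 0 = 1) (h61 : e6 1 = -504) (h62 : e6 2 = -16632)
    (ha : a 0 = (p + 1) * x 0)
    (hb : ∀ n, b n = -(∑ ij ∈ Finset.HasAntidiagonal.antidiagonal n,
        x (ij.1 * p) * (if p ∣ ij.2 then e4 (ij.2 / p) else 0))
      + x 0 * (if p ∣ n then e6 (n / p) else 0))
    {F G : ℍ → ℂ} (hF : IsMF p 6 F) (hG : IsMF p 6 G)
    (hW : F ∣[(6 : ℤ)] S16_W p = ((p : ℂ) ^ 5) • G)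
    (hqF : ∀ n, qc F n = (a n : ℂ)) (hqG : ∀ n, qc G n = (b n : ℂ))
    (hsturm : ∀ {f g : ℍ → ℂ}, IsMF p 6 f → IsMF p 6 g → ∀ {c : ℂ}, c ≠ 0 →
      f ∣[(6 : ℤ)] S16_W p = c • g → ∀ (a b : ℕ → ℤ), (∀ n, qc f n = (a n : ℂ)) →
      (∀ n, qc g n = (b n : ℂ)) → ∀ (ℓ : ℕ), ℓ.Prime → ∀ (A B : ℕ),
      (∀ n, n < A → (ℓ : ℤ) ∣ a n) → ¬ (ℓ : ℤ) ∣ a A →
      (∀ n, n < B → (ℓ : ℤ) ∣ b n) → ¬ (ℓ : ℤ) ∣ b B → 12 * (A + B) ≤ 6 * (p + 1))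
    (ℓ s : ℕ) (hℓ : ℓ.Prime) (hs : ∀ k, 1 ≤ k → ((ℓ ^ s : ℕ) : ℤ) ∣ x k) :
    ((ℓ ^ s : ℕ) : ℤ) ∣ x 0 * 24 := by
  have hp : p.Prime := Fact.out
  have hp0 : p ≠ 0 := hp.ne_zero
  have hpC : (p : ℂ) ≠ 0 := by exact_mod_cast hp0
  have hℓC : (ℓ : ℂ) ≠ 0 := by exact_mod_cast hℓ.ne_zero
  have : NeZero p := ⟨hp0⟩
  have hs' : ∀ k, 1 ≤ k → (ℓ : ℤ) ^ s ∣ x k := fun k hk => by
    have := hs k hk
    rwa [Nat.cast_pow] at this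
  rw [Nat.cast_pow]
  refine S16_tr2_core hp x e4 e6 a b h40 h41 h42 h60 h61 h62 ha hb hℓ s hs' ?_
  intro u w A B a' b' ha1 hb1 ha2 ha3 hb2 hb3
  have hu : ((ℓ : ℂ) ^ u) ≠ 0 := pow_ne_zero _ hℓC
  have hw : ((ℓ : ℂ) ^ w) ≠ 0 := pow_ne_zero _ hℓC
  refine hsturm (f := ((ℓ : ℂ) ^ u)⁻¹ • F) (g := ((ℓ : ℂ) ^ w)⁻¹ • G) (hF.smul _) (hG.smul _)
    (c := ((ℓ : ℂ) ^ u)⁻¹ * (p : ℂ) ^ 5 * (ℓ : ℂ) ^ w) ?_ ?_ a' b' ?_ ?_ ℓ hℓ A B ha2 ha3 hb2 hb3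
  · exact mul_ne_zero (mul_ne_zero (inv_ne_zero hu) (pow_ne_zero _ hpC)) hw
  · rw [S16_smul_slash_W hp0, hW, smul_smul, smul_smul]
    congr 1
    field_simp
  · intro n
    rw [S16_qCoeff_smul hF, hqF, ha1]
    push_cast
    field_simp
  · intro n
    rw [S16_qCoeff_smul hG, hqG, hb1]
    push_cast
    field_simp

end Fermat.Agent.S16
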