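import Fermat.Agent.S16.HDefs
import Fermat.Agent.S20.FinDim
import Fermat.Prelude.Def_ModularCurve_ModularUnit

/-!
# S16: reduction `S16_HasCong → S16_KCong` and the arithmetic glue of the upper bound (helper14)

* `S16_red`: from the Eisenstein series `E` (constant term `(p-1)/24`, coefficients `σ*(k)`) and a
  cusp form `f ≡ E' mod M` we get `K = 24 (E - f)`, i.e. `S16_KCong p (24 * M)`.
* `S16_upper_glue`: the upper bound `M ∣ eisensteinNumerator p` from the three inputs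
  TR1, TR2 (helper20) and CASE7 (helper25), taken as hypotheses.
-/

set_option autoImplicit false

namespace Fermat.Agent.S16

open UpperHalfPlane ModularForm
open Fermat.Agent.S20

theorem S16_red {p : ℕ} [NeZero p] (E : ModularForm (CongruenceSubgroup.Gamma0 p) 2)
    (hE0 : ModularFormClass.qCoeff E 0 = ((p : ℂ) - 1) / 24)
    (hEk : ∀ k, 1 ≤ k → ModularFormClass.qCoeff E k = (S16_sigmaStar p k : ℂ))
    {M : ℕ} (h : S16_HasCong p M) : S16_KCong p (24 * M) := by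
  obtain ⟨f, a, ha, hak⟩ := h
  have hΓ := Fermat.Agent.S20.one_mem_strictPeriods p
  have hfMF : IsMF p 2 (⇑f) := IsCF.isMF (⟨f, rfl⟩ : IsCF p 2 (⇑f))
  have hEMF : IsMF p 2 (⇑E) := ⟨E, rfl⟩
  have hsub : IsMF p 2 (⇑E - ⇑f) := hEMF.sub hfMF
  have hK : IsMF p 2 ((24 : ℂ) • (⇑E - ⇑f)) := hsub.smul 24
  have hq : ∀ k, ModularFormClass.qCoeff ((24 : ℂ) • (⇑E - ⇑f)) k =
      24 * (ModularFormClass.qCoeff E k - ModularFormClass.qCoeff f k) := by
    intro k
    unfold ModularFormClass.qCoeff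
    have han : AnalyticAt ℂ (cuspFunction 1 (⇑E - ⇑f)) 0 := by
      obtain ⟨G, hG⟩ := hsub
      rw [← hG]
      exact ModularFormClass.analyticAt_cuspFunction_zero G one_pos hΓ
    rw [qExpansion_smul han, ModularForm.qExpansion_sub one_pos hΓ E f]
    simp
  have hf0 : ModularFormClass.qCoeff f 0 = 0 :=
    CuspFormClass.qExpansion_coeff_zero f one_pos hΓ
  refine ⟨(24 : ℂ) • (⇑E - ⇑f), hK,
    fun k => if k = 0 then (p : ℤ) - 1 else 24 * ((S16_sigmaStar p k : ℤ) - a k), ?_, ?_, ?_⟩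
  · intro k
    rw [hq k]
    beta_reduce
    by_cases hk : k = 0
    · subst hk
      rw [hE0, hf0]
      simp
      ring
    · rw [if_neg hk, hEk k (Nat.one_le_iff_ne_zero.mpr hk), ha k]
      push_cast
      ring
  · simp
  · intro k hk
    have hk0 : k ≠ 0 := Nat.one_le_iff_ne_zero.mp hk
    beta_reduce
    rw [if_neg hk0]
    have h1 := hak k hk
    have h2 : ((M : ℤ)) ∣ (S16_sigmaStar p k : ℤ) - a k := by
      have := dvd_neg.mpr h1
      simpa using this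
    push_cast
    exact mul_dvd_mul_left 24 h2

theorem S16_pv2_24 : padicValNat 2 24 = 3 := by
  have : (24:ℕ) = 2^3 * 3 := by norm_num
  rw [this, padicValNat.mul (by norm_num) (by norm_num), padicValNat.prime_pow,
    padicValNat.eq_zero_of_not_dvd (by norm_num)]

theorem S16_pv2_12 : padicValNat 2 12 = 2 := by
  have : (12:ℕ) = 2^2 * 3 := by norm_num
  rw [this, padicValNat.mul (by norm_num) (by norm_num), padicValNat.prime_pow,
    padicValNat.eq_zero_of_not_dvd (by norm_num)]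

theorem S16_pv3_24 : padicValNat 3 24 = 1 := by
  have : (24:ℕ) = 3^1 * 8 := by norm_num
  rw [this, padicValNat.mul (by norm_num) (by norm_num), padicValNat.prime_pow,
    padicValNat.eq_zero_of_not_dvd (by norm_num)]

theorem S16_pv3_12 : padicValNat 3 12 = 1 := by
  have : (12:ℕ) = 3^1 * 4 := by norm_num
  rw [this, padicValNat.mul (by norm_num) (by norm_num), padicValNat.prime_pow,
    padicValNat.eq_zero_of_not_dvd (by norm_num)]

theorem S16_pv_gcd (ℓ a b : ℕ) [Fact ℓ.Prime] (ha : a ≠ 0) (hb : b ≠ 0) :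
    padicValNat ℓ (Nat.gcd a b) = min (padicValNat ℓ a) (padicValNat ℓ b) := by
  have h := congrArg (fun f => f ℓ) (Nat.factorization_gcd ha hb)
  simpa [Nat.factorization_def _ (Fact.out : ℓ.Prime)] using h

/-- a prime `ℓ ∉ {2, 3}` does not divide `24`. -/
theorem S16_not_dvd_24 {ℓ : ℕ} (hℓ : ℓ.Prime) (h2 : ℓ ≠ 2) (h3 : ℓ ≠ 3) : ¬ ℓ ∣ 24 := by
  intro h
  have h24 : (24 : ℕ) = 2 ^ 3 * 3 := by norm_num
  rw [h24] at h
  rcases (Nat.Prime.dvd_mul hℓ).mp h with h | h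
  · exact h2 ((Nat.prime_dvd_prime_iff_eq hℓ Nat.prime_two).mp (hℓ.dvd_of_dvd_pow h))
  · exact h3 ((Nat.prime_dvd_prime_iff_eq hℓ Nat.prime_three).mp h)

/-- pure arithmetic: the prime-power statement used in the glue. -/
theorem S16_glue_arith (p : ℕ) (hp : p.Prime) (hp5 : 5 ≤ p) (ℓ k : ℕ) (hℓ : ℓ.Prime)
    (h2 : ((ℓ ^ (k + padicValNat ℓ 24) : ℕ) : ℤ) ∣ ((p : ℤ) - 1) * 24)
    (h1 : ℓ ≠ p → ((ℓ ^ (k + padicValNat ℓ 24) : ℕ) : ℤ) ∣ ((p : ℤ) - 1) * (p + 1))
    (h7 : 1 ≤ k → ℓ = 2 → p % 8 ≠ 7) :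
    ℓ ^ k ∣ ModularCurve.eisensteinNumerator p := by
  haveI : Fact ℓ.Prime := ⟨hℓ⟩
  have hP : p - 1 ≠ 0 := by omega
  have hP1 : p + 1 ≠ 0 := by omega
  have hcast : ((p : ℤ) - 1) = ((p - 1 : ℕ) : ℤ) := by
    rw [Nat.cast_sub (by omega)]; simp
  -- translate the hypotheses to `ℕ`
  have h2' : ℓ ^ (k + padicValNat ℓ 24) ∣ (p - 1) * 24 := by
    rw [hcast] at h2
    exact_mod_cast h2
  have h1' : ℓ ≠ p → ℓ ^ (k + padicValNat ℓ 24) ∣ (p - 1) * (p + 1) := by
    intro h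
    have := h1 h
    rw [hcast] at this
    exact_mod_cast this
  -- valuations
  have e2 : k + padicValNat ℓ 24 ≤ padicValNat ℓ (p - 1) + padicValNat ℓ 24 := by
    have := (padicValNat_dvd_iff_le (p := ℓ) (Nat.mul_ne_zero hP (by norm_num))).mp h2'
    rwa [padicValNat.mul hP (by norm_num)] at this
  have e1 : ℓ ≠ p → k + padicValNat ℓ 24 ≤ padicValNat ℓ (p - 1) + padicValNat ℓ (p + 1) := by
    intro h
    have := (padicValNat_dvd_iff_le (p := ℓ) (Nat.mul_ne_zero hP hP1)).mp (h1' h)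
    rwa [padicValNat.mul hP hP1] at this
  have hg : Nat.gcd (p - 1) 12 ∣ p - 1 := Nat.gcd_dvd_left _ _
  have hn0 : ModularCurve.eisensteinNumerator p ≠ 0 := by
    unfold ModularCurve.eisensteinNumerator
    have hgpos : 0 < Nat.gcd (p - 1) 12 := Nat.gcd_pos_of_pos_right _ (by norm_num)
    have := Nat.div_pos (Nat.le_of_dvd (by omega) hg) hgpos
    omega
  rw [padicValNat_dvd_iff_le hn0]
  unfold ModularCurve.eisensteinNumerator
  rw [padicValNat.div_of_dvd hg, S16_pv_gcd ℓ _ _ hP (by norm_num)]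
  -- now case analysis on `ℓ`
  by_cases hℓ2 : ℓ = 2
  · subst hℓ2
    rw [S16_pv2_12]
    rw [S16_pv2_24] at e2 e1
    have hp2 : (2 : ℕ) ≠ p := by omega
    have e1' := e1 hp2
    have hodd : p % 2 = 1 := by
      rcases hp.eq_two_or_odd with h | h
      · omega
      · exact h
    -- `e ≥ 1`
    have he1 : 1 ≤ padicValNat 2 (p - 1) := by
      rw [← padicValNat_dvd_iff_le hP]
      omega
    -- not both `e ≥ 2` and `f ≥ 2`
    have hef : padicValNat 2 (p - 1) ≤ 1 ∨ padicValNat 2 (p + 1) ≤ 1 := by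
      by_contra hcon
      push_neg at hcon
      have ha : 2 ^ 2 ∣ p - 1 := (padicValNat_dvd_iff_le hP).mpr hcon.1
      have hb : 2 ^ 2 ∣ p + 1 := (padicValNat_dvd_iff_le hP1).mpr hcon.2
      omega
    rcases hef with he | hf
    · -- `e = 1`: then `k = 0`
      have hk0 : k = 0 := by
        by_contra hk
        have hk1 : 1 ≤ k := Nat.one_le_iff_ne_zero.mpr hk
        have hf3 : 3 ≤ padicValNat 2 (p + 1) := by omega
        have h8 : 2 ^ 3 ∣ p + 1 := (padicValNat_dvd_iff_le hP1).mpr hf3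
        exact h7 hk1 rfl (by omega)
      omega
    · have : min (padicValNat 2 (p - 1)) 2 ≤ 2 := min_le_right _ _
      omega
  · by_cases hℓ3 : ℓ = 3
    · subst hℓ3
      rw [S16_pv3_12]
      rw [S16_pv3_24] at e2 e1
      have hp3 : (3 : ℕ) ≠ p := by omega
      have e1' := e1 hp3
      by_cases he : padicValNat 3 (p - 1) = 0
      · rw [he] at e2 ⊢
        omega
      · have he1 : 1 ≤ padicValNat 3 (p - 1) := Nat.one_le_iff_ne_zero.mpr he
        have ha : 3 ^ 1 ∣ p - 1 := (padicValNat_dvd_iff_le hP).mpr he1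
        have hf : padicValNat 3 (p + 1) = 0 := by
          apply padicValNat.eq_zero_of_not_dvd
          omega
        have : min (padicValNat 3 (p - 1)) 1 ≤ 1 := min_le_right _ _
        omega
    · have h24 := S16_not_dvd_24 hℓ hℓ2 hℓ3
      have h12 : ¬ ℓ ∣ 12 := fun h => h24 (h.trans (by norm_num))
      rw [padicValNat.eq_zero_of_not_dvd h12]
      rw [padicValNat.eq_zero_of_not_dvd h24] at e2
      simp only [Nat.min_zero, Nat.sub_zero]
      omega

theorem S16_upper_glue (p : ℕ) [Fact p.Prime] (hp5 : 5 ≤ p)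
    (hred : ∀ M, S16_HasCong p M → S16_KCong p (24 * M))
    (htr1 : ∀ {X : ℍ → ℂ}, IsMF p 2 X → ∀ x : ℕ → ℤ,
      (∀ k, ModularFormClass.qCoeff X k = (x k : ℂ)) → ∀ M : ℕ, Nat.Coprime M p →
      (∀ k, 1 ≤ k → (M : ℤ) ∣ x k) → (M : ℤ) ∣ x 0 * (p + 1))
    (htr2 : ∀ {X : ℍ → ℂ}, IsMF p 2 X → ∀ x : ℕ → ℤ,
      (∀ k, ModularFormClass.qCoeff X k = (x k : ℂ)) → ∀ ℓ s : ℕ, ℓ.Prime →
      (∀ k, 1 ≤ k → ((ℓ ^ s : ℕ) : ℤ) ∣ x k) → ((ℓ ^ s : ℕ) : ℤ) ∣ x 0 * 24)
    (hcase7 : p % 8 = 7 → ¬ S16_HasCong p 2) :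
    ∀ M, 0 < M → S16_HasCong p M → M ∣ ModularCurve.eisensteinNumerator p := by
  intro M _ hM
  have hp : p.Prime := Fact.out
  rw [Nat.dvd_iff_prime_pow_dvd_dvd]
  intro ℓ k hℓ hℓk
  have hC : S16_HasCong p (ℓ ^ k) := S16_HasCong_of_dvd hℓk hM
  obtain ⟨K, hK, a, ha, ha0, hak⟩ := hred _ hC
  have hdiv : ∀ j, 1 ≤ j → ((ℓ ^ (k + padicValNat ℓ 24) : ℕ) : ℤ) ∣ a j := by
    intro j hj
    refine dvd_trans ?_ (hak j hj)
    rw [Int.natCast_dvd_natCast, pow_add, mul_comm 24]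
    exact mul_dvd_mul_left _ (pow_padicValNat_dvd)
  apply S16_glue_arith p hp hp5 ℓ k hℓ
  · have := htr2 hK a ha ℓ (k + padicValNat ℓ 24) hℓ hdiv
    rwa [ha0] at this
  · intro hℓp
    have hcop : Nat.Coprime (ℓ ^ (k + padicValNat ℓ 24)) p :=
      Nat.Coprime.pow_left _ ((Nat.coprime_primes hℓ hp).mpr hℓp)
    have := htr1 hK a ha _ hcop hdiv
    rwa [ha0] at this
  · intro hk hℓ2 h7
    subst hℓ2
    exact hcase7 h7 (S16_HasCong_of_dvd (dvd_pow_self 2 (by omega)) hC)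

end Fermat.Agent.S16
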